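import Mathlib
import Fermat.Prelude.Def_ModularCurve_X0

/-!
# Package PSI of the S28 blueprint: multiplicativity of `dedekindPsi` at a prime

`dedekindPsi (p * M) = (p + 1) * dedekindPsi M` if `p ∤ M`, and `= p * dedekindPsi M` if `p ∣ M`.
-/

set_option autoImplicit false

namespace Fermat.Agent.S28.Psi

open ModularCurve Finset

/-- Squarefree divisors of `p * M` when `p ∣ M`: the same as those of `M`. -/
theorem sqfree_divisors_mul_of_dvd {p M : ℕ} (hp : p.Prime) (hM : M ≠ 0) (hpM : p ∣ M) :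
    (p * M).divisors.filter Squarefree = M.divisors.filter Squarefree := by
  ext d
  simp only [mem_filter, Nat.mem_divisors, ne_eq, mul_eq_zero, hp.ne_zero, hM, or_self,
    not_false_eq_true, and_true]
  constructor
  · rintro ⟨hd, hsq⟩
    refine ⟨?_, hsq⟩
    by_cases hpd : p ∣ d
    · obtain ⟨e, rfl⟩ := hpd
      have hcop : Nat.Coprime p e := by
        have := (Nat.squarefree_mul_iff.mp hsq).1
        exact this
      have he : e ∣ M := by
        have : p * e ∣ p * M := hd
        exact Nat.dvd_of_mul_dvd_mul_left hp.pos this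
      exact Nat.Coprime.mul_dvd_of_dvd_of_dvd hcop hpM he
    · exact (Nat.Coprime.dvd_mul_left ((Nat.Prime.coprime_iff_not_dvd hp).mpr hpd).symm).mp hd
  · rintro ⟨hd, hsq⟩
    exact ⟨hd.mul_left p, hsq⟩

theorem dedekindPsi_mul_of_dvd {p M : ℕ} (hp : p.Prime) (hM : M ≠ 0) (hpM : p ∣ M) :
    dedekindPsi (p * M) = p * dedekindPsi M := by
  unfold dedekindPsi
  rw [sqfree_divisors_mul_of_dvd hp hM hpM, Finset.mul_sum]
  refine Finset.sum_congr rfl ?_
  intro d hd
  have hdM : d ∣ M := (Nat.mem_divisors.mp (Finset.mem_filter.mp hd).1).1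
  exact Nat.mul_div_assoc p hdM

/-- Squarefree divisors of `p * M` when `p ∤ M`: those of `M` together with `p` times those. -/
theorem sqfree_divisors_mul_of_not_dvd {p M : ℕ} (hp : p.Prime) (hM : M ≠ 0) (hpM : ¬ p ∣ M) :
    (p * M).divisors.filter Squarefree =
      M.divisors.filter Squarefree ∪ (M.divisors.filter Squarefree).image (p * ·) := by
  ext d
  simp only [mem_filter, Nat.mem_divisors, ne_eq, mul_eq_zero, hp.ne_zero, hM, or_self,
    not_false_eq_true, and_true, mem_union, mem_image]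
  constructor
  · rintro ⟨hd, hsq⟩
    by_cases hpd : p ∣ d
    · right
      obtain ⟨e, rfl⟩ := hpd
      have hcop : Nat.Coprime p e := (Nat.squarefree_mul_iff.mp hsq).1
      have he : e ∣ M := Nat.dvd_of_mul_dvd_mul_left hp.pos hd
      exact ⟨e, ⟨he, (Nat.squarefree_mul_iff.mp hsq).2.2⟩, rfl⟩
    · left
      exact ⟨(Nat.Coprime.dvd_mul_left ((Nat.Prime.coprime_iff_not_dvd hp).mpr hpd).symm).mp hd,
        hsq⟩
  · rintro (⟨hd, hsq⟩ | ⟨e, ⟨he, hsq⟩, rfl⟩)
    · exact ⟨hd.mul_left p, hsq⟩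
    · refine ⟨Nat.mul_dvd_mul_left p he, ?_⟩
      have hcop : Nat.Coprime p e := by
        rw [Nat.Prime.coprime_iff_not_dvd hp]
        exact fun h => hpM (h.trans he)
      exact Nat.squarefree_mul_iff.mpr ⟨hcop, hp.squarefree, hsq⟩

theorem dedekindPsi_mul_of_not_dvd {p M : ℕ} (hp : p.Prime) (hM : M ≠ 0) (hpM : ¬ p ∣ M) :
    dedekindPsi (p * M) = (p + 1) * dedekindPsi M := by
  unfold dedekindPsi
  rw [sqfree_divisors_mul_of_not_dvd hp hM hpM, Finset.sum_union, Finset.sum_image, add_mul,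
    one_mul, Finset.mul_sum]
  · congr 1
    · refine Finset.sum_congr rfl ?_
      intro d hd
      have hdM : d ∣ M := (Nat.mem_divisors.mp (Finset.mem_filter.mp hd).1).1
      exact Nat.mul_div_assoc p hdM
    · refine Finset.sum_congr rfl ?_
      intro d hd
      exact Nat.mul_div_mul_left M d hp.pos
  · intro a _ b _ hab
    exact Nat.eq_of_mul_eq_mul_left hp.pos hab
  · rw [Finset.disjoint_left]
    intro d hd hd'
    obtain ⟨e, _, rfl⟩ := Finset.mem_image.mp hd'
    have hdM : p * e ∣ M := (Nat.mem_divisors.mp (Finset.mem_filter.mp hd).1).1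
    exact hpM ((Dvd.intro e rfl).trans hdM)

/-- Package PSI, combined form. -/
theorem dedekindPsi_prime_mul {p M : ℕ} (hp : p.Prime) (hM : M ≠ 0) :
    dedekindPsi (p * M) = (if p ∣ M then p else p + 1) * dedekindPsi M := by
  split_ifs with h
  · exact dedekindPsi_mul_of_dvd hp hM h
  · exact dedekindPsi_mul_of_not_dvd hp hM h

theorem dedekindPsi_pos {N : ℕ} (hN : N ≠ 0) : 0 < dedekindPsi N := by
  unfold dedekindPsi
  apply Finset.sum_pos'
  · intro d _; exact Nat.zero_le _
  · refine ⟨1, ?_, ?_⟩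
    · simp [hN]
    · simpa using Nat.pos_of_ne_zero hN

end Fermat.Agent.S28.Psi
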