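import Mathlib
import Fermat.Prelude.Def_ModularCurve_X0ModL
import Fermat.Agent.S28.Psi

/-!
# S28, package KEY0: the upper bound `[k(t_d : d ∣ N) : k(t)] ≤ ψ(N)` (helper90)

`t = jqModC K`, `t_d = qExpand K d t`, `L_N = modularFunctionFieldFullC K N`.
-/

set_option autoImplicit false

namespace Fermat.Agent.S28.KEY0

open ModularCurve HahnSeries IntermediateField Polynomial

noncomputable section

/-! ### Leading terms -/

section Leads

variable {R : Type*} [CommRing R]

/-- `x = c q^{-a} + (higher order terms)`. -/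
def LeadsAt (x : LaurentSeries R) (a : ℕ) (c : R) : Prop :=
  (∀ k : ℤ, k < -(a : ℤ) → x.coeff k = 0) ∧ x.coeff (-(a : ℤ)) = c

theorem LeadsAt.ne {x y : LaurentSeries R} {a b : ℕ} {c d : R} (hx : LeadsAt x a c)
    (hy : LeadsAt y b d) (hc : c ≠ 0) (hd : d ≠ 0) (h : a ≠ b ∨ c ≠ d) : x ≠ y := by
  intro hxy
  subst hxy
  rcases lt_trichotomy a b with hab | hab | hab
  · have := hx.1 (-(b : ℤ)) (by omega)
    rw [hy.2] at this
    exact hd this
  · subst hab
    rcases h with h | h
    · exact h rfl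
    · exact h (hx.2.symm.trans hy.2)
  · have := hy.1 (-(a : ℤ)) (by omega)
    rw [hx.2] at this
    exact hc this

theorem LeadsAt.qExpand {x : LaurentSeries R} {a : ℕ} {c : R} (hx : LeadsAt x a c) (d : ℕ)
    [NeZero d] : LeadsAt (ModularCurve.qExpand R d x) (d * a) c := by
  constructor
  · intro k hk
    by_cases hdk : (d : ℤ) ∣ k
    · obtain ⟨m, rfl⟩ := hdk
      rw [qExpand_coeff_mul]
      apply hx.1
      have hd : (0 : ℤ) < d := by exact_mod_cast Nat.pos_of_ne_zero (NeZero.ne d)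
      push_cast at hk
      by_contra hcon
      rw [not_lt] at hcon
      have : (d : ℤ) * (-(a : ℤ)) ≤ d * m := mul_le_mul_of_nonneg_left hcon hd.le
      linarith
    · exact qExpand_coeff_of_not_dvd d x hdk
  · have : (-((d * a : ℕ) : ℤ)) = (d : ℤ) * (-(a : ℤ)) := by push_cast; ring
    rw [this, qExpand_coeff_mul]
    exact hx.2

theorem LeadsAt.coeffMap {S : Type*} [CommRing S] (f : R →+* S) {x : LaurentSeries R} {a : ℕ}
    {c : R} (hx : LeadsAt x a c) : LeadsAt (ModularCurve.coeffMap f x) a (f c) := by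
  constructor
  · intro k hk
    rw [coeffMap_coeff, hx.1 k hk, map_zero]
  · rw [coeffMap_coeff, hx.2]

end Leads

/-! ### The series `t_d` -/

section TQ

variable (R : Type*) [CommRing R]

/-- Total version of `t_d = qExpand d t`. -/
def tq (d : ℕ) : LaurentSeries R :=
  if h : d = 0 then 0 else @ModularCurve.qExpand R _ d ⟨h⟩ (jqModC R)

theorem tq_eq (d : ℕ) [NeZero d] : tq R d = ModularCurve.qExpand R d (jqModC R) := by
  unfold tq
  rw [dif_neg (NeZero.ne d)]

theorem tq_one : tq R 1 = jqModC R := by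
  rw [tq_eq, qExpand_one_apply]

theorem qExpand_tq (a d : ℕ) [NeZero a] (hd : d ≠ 0) :
    ModularCurve.qExpand R a (tq R d) = tq R (a * d) := by
  haveI : NeZero d := ⟨hd⟩
  haveI : NeZero (a * d) := ⟨Nat.mul_ne_zero (NeZero.ne a) hd⟩
  rw [tq_eq, tq_eq, qExpand_qExpand]

theorem leadsAt_jqModC : LeadsAt (jqModC R) 1 1 :=
  ⟨fun k hk => coeff_jqModC_of_lt R (by simpa using hk), by simpa using coeff_jqModC_neg_one R⟩

theorem leadsAt_tq (d : ℕ) (hd : d ≠ 0) : LeadsAt (tq R d) d 1 := by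
  haveI : NeZero d := ⟨hd⟩
  rw [tq_eq]
  simpa using (leadsAt_jqModC R).qExpand d

theorem coeffMap_tq {S : Type*} [CommRing S] (f : R →+* S) (d : ℕ) :
    ModularCurve.coeffMap f (tq R d) = tq S d := by
  by_cases hd : d = 0
  · subst hd
    simp [tq]
  · haveI : NeZero d := ⟨hd⟩
    rw [tq_eq, tq_eq, coeffMap_qExpand, coeffMap_jqModC]

end TQ

/-! ### Evaluating a two-variable integral polynomial at a Laurent series -/

section PhiAt

variable {R : Type*} [CommRing R]

/-- `ℤ[Y] → R((q))`, `Y ↦ y`. -/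
def evY (y : LaurentSeries R) : Polynomial ℤ →+* LaurentSeries R :=
  Polynomial.eval₂RingHom (Int.castRingHom (LaurentSeries R)) y

/-- `Φ(X, y) ∈ R((q))[X]`. -/
def PhiAt (Φ : Polynomial (Polynomial ℤ)) (y : LaurentSeries R) : Polynomial (LaurentSeries R) :=
  Φ.map (evY y)

theorem comp_evY {S : Type*} [CommRing S] (g : LaurentSeries R →+* LaurentSeries S)
    (y : LaurentSeries R) : g.comp (evY y) = evY (g y) := by
  refine Polynomial.ringHom_ext' (Subsingleton.elim _ _) ?_
  simp [evY]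

theorem map_PhiAt {S : Type*} [CommRing S] (g : LaurentSeries R →+* LaurentSeries S)
    (Φ : Polynomial (Polynomial ℤ)) (y : LaurentSeries R) :
    (PhiAt Φ y).map g = PhiAt Φ (g y) := by
  rw [PhiAt, PhiAt, Polynomial.map_map, comp_evY]

theorem PhiAt_monic {Φ : Polynomial (Polynomial ℤ)} (h : Φ.Monic) (y : LaurentSeries R) :
    (PhiAt Φ y).Monic := h.map _

theorem PhiAt_natDegree [Nontrivial R] {Φ : Polynomial (Polynomial ℤ)} (h : Φ.Monic)
    (y : LaurentSeries R) : (PhiAt Φ y).natDegree = Φ.natDegree := h.natDegree_map _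

theorem map_eval_PhiAt {S : Type*} [CommRing S] (g : LaurentSeries R →+* LaurentSeries S)
    (Φ : Polynomial (Polynomial ℤ)) (y x : LaurentSeries R) :
    g ((PhiAt Φ y).eval x) = (PhiAt Φ (g y)).eval (g x) := by
  rw [← map_PhiAt, Polynomial.eval_map, Polynomial.eval₂_hom]

end PhiAt

/-! ### Roots data for the modular equation of prime level -/

section Roots

theorem coeffMap_injective {R S : Type*} [CommRing R] [CommRing S] (f : R →+* S)
    (hf : Function.Injective f) : Function.Injective (ModularCurve.coeffMap f) := by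
  intro x y h
  ext k
  apply hf
  have := congrArg (fun z => z.coeff k) h
  simpa using this

/-- Roots data for the modular equation of (prime) level `r` over a field `K'` containing enough
roots of unity: `Φ(X, t(q^r)) = (X - t(q^{r²})) ∏_{b<r} (X - ρ_b)` with `ρ_0 = t` and
`ρ_b = c_b q⁻¹ + …`, `c_b ≠ 0`, `c_b ≠ 1` for `b ≠ 0`  (`ρ_b = t(ζ^b q)`). -/
structure RootsData (K' : Type*) [Field K'] (r : ℕ) where
  Φ : Polynomial (Polynomial ℤ)
  monic : Φ.Monic
  natDegree_eq : Φ.natDegree = r + 1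
  ρ : ℕ → LaurentSeries K'
  c : ℕ → K'
  roots : PhiAt Φ (tq K' r) =
    (X - Polynomial.C (tq K' (r * r))) * ∏ b ∈ Finset.range r, (X - Polynomial.C (ρ b))
  ρ_zero : ρ 0 = jqModC K'
  leads : ∀ b < r, LeadsAt (ρ b) 1 (c b)
  c_ne_zero : ∀ b < r, c b ≠ 0
  c_ne_one : ∀ b < r, b ≠ 0 → c b ≠ 1

variable {K : Type*} [Field K] {K' : Type*} [Field K'] (f : K →+* K') {r : ℕ}
  (D : RootsData K' r)

include f in
theorem RootsData.eval_jq (hr : r ≠ 0) : (PhiAt D.Φ (tq K r)).eval (jqModC K) = 0 := by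
  apply coeffMap_injective f f.injective
  rw [map_eval_PhiAt, coeffMap_tq, coeffMap_jqModC, map_zero, D.roots, eval_mul, eval_prod]
  apply mul_eq_zero_of_right
  apply Finset.prod_eq_zero (Finset.mem_range.mpr (Nat.pos_of_ne_zero hr))
  rw [D.ρ_zero]
  simp

include f in
theorem RootsData.eval_tq_sq : (PhiAt D.Φ (tq K r)).eval (tq K (r * r)) = 0 := by
  apply coeffMap_injective f f.injective
  rw [map_eval_PhiAt, coeffMap_tq, coeffMap_tq, map_zero, D.roots, eval_mul]
  apply mul_eq_zero_of_left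
  simp

include f in
/-- `Φ_r(t_d, t_{rd}) = 0`. -/
theorem RootsData.eval_tq_mul (hr : r ≠ 0) (d : ℕ) (hd : d ≠ 0) :
    (PhiAt D.Φ (tq K (r * d))).eval (tq K d) = 0 := by
  haveI : NeZero d := ⟨hd⟩
  have h := congrArg (ModularCurve.qExpand K d) (D.eval_jq f hr)
  rw [map_eval_PhiAt, map_zero, qExpand_tq K d r hr, ← tq_one K, qExpand_tq K d 1 one_ne_zero,
    mul_one, mul_comm] at h
  exact h

include f in
/-- `Φ_r(t_{rd}, t_d) = 0`. -/
theorem RootsData.eval_mul_tq (hr : r ≠ 0) (d : ℕ) (hd : d ≠ 0) :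
    (PhiAt D.Φ (tq K d)).eval (tq K (r * d)) = 0 := by
  haveI : NeZero r := ⟨hr⟩
  haveI : NeZero d := ⟨hd⟩
  apply qExpand_injective (R := K) r
  rw [map_eval_PhiAt, map_zero, qExpand_tq K r d hd,
    qExpand_tq K r (r * d) (Nat.mul_ne_zero hr hd)]
  have h := congrArg (ModularCurve.qExpand K d) (D.eval_tq_sq f)
  rw [map_eval_PhiAt, map_zero, qExpand_tq K d r hr,
    qExpand_tq K d (r * r) (Nat.mul_ne_zero hr hr)] at h
  rw [show r * (r * d) = d * (r * r) by ring, show r * d = d * r by ring]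
  exact h

end Roots

/-! ### Field theory -/

section FieldTheory

variable {K L : Type*} [Field K] [Field L] [Algebra K L]

/-- Adjoining a root of a monic polynomial of degree `n` raises the degree by at most `n`. -/
theorem relrank_sup_simple_le (E : IntermediateField K L) (x : L) (P : Polynomial E)
    (hP : P.Monic) (hx : Polynomial.aeval x P = 0) :
    E.relrank (E ⊔ K⟮x⟯) ≤ (P.natDegree : Cardinal) := by
  have h : E ≤ E ⊔ K⟮x⟯ := le_sup_left
  rw [relrank_eq_rank_of_le h]
  have e : extendScalars h = E⟮x⟯ := by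
    apply restrictScalars_injective K
    rw [extendScalars_restrictScalars, restrictScalars_adjoin_eq_sup]
  rw [e]
  have hint : IsIntegral E x := ⟨P, hP, hx⟩
  haveI := adjoin.finiteDimensional hint
  rw [← Module.finrank_eq_rank, adjoin.finrank hint]
  exact_mod_cast natDegree_le_of_dvd (minpoly.dvd E x hx) hP.ne_zero

/-- If `x` is a common root of `f, g ∈ E[X]`, and over some bigger field `g = (X - x) G` with `G`
coprime to `f`, then `x ∈ E`. -/
theorem mem_of_common_root {L' : Type*} [Field L'] (E : IntermediateField K L) (ι : L →+* L')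
    (x : L) (f g : Polynomial E) (hf : Polynomial.aeval x f = 0) (hg : Polynomial.aeval x g = 0)
    (hg0 : g ≠ 0) (G : Polynomial L')
    (hfact : g.map (ι.comp (algebraMap E L)) = (X - Polynomial.C (ι x)) * G)
    (hcop : IsCoprime (f.map (ι.comp (algebraMap E L))) G) : x ∈ E := by
  have hint : IsIntegral E x := by
    have : IsAlgebraic E x := ⟨g, hg0, hg⟩
    exact this.isIntegral
  set h := minpoly E x with hh
  have h1 : h ∣ f := minpoly.dvd E x hf
  have h2 : h ∣ g := minpoly.dvd E x hg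
  set φ : E →+* L' := ι.comp (algebraMap E L) with hφ
  have h1' : h.map φ ∣ f.map φ := Polynomial.map_dvd φ h1
  have h2' : h.map φ ∣ (X - Polynomial.C (ι x)) * G := by
    rw [← hfact]; exact Polynomial.map_dvd φ h2
  have hc : IsCoprime (h.map φ) G := hcop.of_isCoprime_of_dvd_left h1'
  have hdvd : h.map φ ∣ X - Polynomial.C (ι x) := hc.dvd_of_dvd_mul_right h2'
  have hdeg : (h.map φ).natDegree ≤ 1 := by
    have := natDegree_le_of_dvd hdvd (X_sub_C_ne_zero _)
    simpa using this
  rw [Polynomial.natDegree_map] at hdeg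
  have hpos : 0 < h.natDegree := minpoly.natDegree_pos hint
  have hdeg1 : h.degree = 1 := by
    rw [degree_eq_natDegree (minpoly.ne_zero hint)]
    have : h.natDegree = 1 := le_antisymm hdeg hpos
    rw [this]; rfl
  obtain ⟨y, hy⟩ := minpoly.mem_range_of_degree_eq_one E x hdeg1
  rw [← hy]
  exact y.2

/-- Coprimality with a linear factor from non-vanishing. -/
theorem isCoprime_X_sub_C_of_eval_ne_zero {L' : Type*} [Field L'] (f : Polynomial L') (a : L')
    (h : f.eval a ≠ 0) : IsCoprime f (X - Polynomial.C a) := by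
  refine IsCoprime.symm ?_
  rw [(Polynomial.irreducible_X_sub_C a).coprime_iff_not_dvd, Polynomial.dvd_iff_isRoot]
  exact h

/-- Coprimality with a product of linear factors from non-vanishing. -/
theorem isCoprime_prod_X_sub_C {L' : Type*} [Field L'] {ι : Type*} (f : Polynomial L')
    (s : Finset ι) (ρ : ι → L') (h : ∀ i ∈ s, f.eval (ρ i) ≠ 0) :
    IsCoprime f (∏ i ∈ s, (X - Polynomial.C (ρ i))) :=
  IsCoprime.prod_right fun i hi => isCoprime_X_sub_C_of_eval_ne_zero f (ρ i) (h i hi)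

end FieldTheory

/-! ### The fields `L_N` -/

section Fields

variable (K : Type*) [Field K]

/-- `L_N = K(t_d : d ∣ N)`. -/
def LL (N : ℕ) : IntermediateField K (LaurentSeries K) :=
  adjoin K {x | ∃ d, d ∣ N ∧ x = tq K d}

/-- `σ_p L_M = K(t_{pd} : d ∣ M)`. -/
def LLp (p M : ℕ) : IntermediateField K (LaurentSeries K) :=
  adjoin K {x | ∃ d, d ∣ M ∧ x = tq K (p * d)}

variable {K}

theorem tq_mem_LL {d N : ℕ} (h : d ∣ N) : tq K d ∈ LL K N :=
  subset_adjoin K _ ⟨d, h, rfl⟩

theorem tq_mem_LLp {p d M : ℕ} (h : d ∣ M) : tq K (p * d) ∈ LLp K p M :=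
  subset_adjoin K _ ⟨d, h, rfl⟩

variable (K)

theorem LL_eq (N : ℕ) [NeZero N] : LL K N = modularFunctionFieldFullC K N := by
  unfold LL modularFunctionFieldFullC
  congr 1
  ext x
  constructor
  · rintro ⟨d, hd, rfl⟩
    haveI : NeZero d := ⟨fun h => NeZero.ne N (by rw [h, zero_dvd_iff] at hd; exact hd)⟩
    exact ⟨d, inferInstance, hd, tq_eq K d⟩
  · rintro ⟨d, hne, hd, rfl⟩
    exact ⟨d, hd, (tq_eq K d).symm⟩

theorem LL_one : LL K 1 = K⟮jqModC K⟯ := by
  unfold LL
  congr 1
  ext x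
  simp only [Nat.dvd_one, Set.mem_setOf_eq, Set.mem_singleton_iff]
  constructor
  · rintro ⟨d, rfl, rfl⟩
    exact tq_one K
  · rintro rfl
    exact ⟨1, rfl, (tq_one K).symm⟩

theorem map_LL (p M : ℕ) [NeZero p] (hM : M ≠ 0) :
    (LL K M).map (qExpandAlgHomC K p) = LLp K p M := by
  unfold LL LLp
  rw [adjoin_map]
  congr 1
  ext x
  constructor
  · rintro ⟨y, ⟨d, hd, rfl⟩, rfl⟩
    refine ⟨d, hd, ?_⟩
    have hd0 : d ≠ 0 := fun h => hM (by rw [h, zero_dvd_iff] at hd; exact hd)
    rw [qExpandAlgHomC_apply, qExpand_tq K p d hd0]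
  · rintro ⟨d, hd, rfl⟩
    have hd0 : d ≠ 0 := fun h => hM (by rw [h, zero_dvd_iff] at hd; exact hd)
    refine ⟨tq K d, ⟨d, hd, rfl⟩, ?_⟩
    rw [qExpandAlgHomC_apply, qExpand_tq K p d hd0]

theorem map_Kt (p : ℕ) [NeZero p] :
    (K⟮jqModC K⟯).map (qExpandAlgHomC K p) = K⟮tq K p⟯ := by
  rw [adjoin_map, Set.image_singleton, qExpandAlgHomC_apply, tq_eq]

end Fields

/-! ### Polynomials over an intermediate field -/

section PhiE

variable {K : Type*} [Field K]

/-- `Φ(X, y)` as a polynomial over an intermediate field containing `y`. -/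
def PhiE (E : IntermediateField K (LaurentSeries K)) (Φ : Polynomial (Polynomial ℤ)) (y : E) :
    Polynomial E :=
  Φ.map (Polynomial.eval₂RingHom (Int.castRingHom E) y)

theorem map_PhiE (E : IntermediateField K (LaurentSeries K)) (Φ : Polynomial (Polynomial ℤ))
    (y : E) : (PhiE E Φ y).map (algebraMap E (LaurentSeries K)) = PhiAt Φ (y : LaurentSeries K) := by
  rw [PhiE, PhiAt, Polynomial.map_map]
  congr 1
  refine Polynomial.ringHom_ext' (Subsingleton.elim _ _) ?_
  simp [evY]

theorem aeval_PhiE (E : IntermediateField K (LaurentSeries K)) (Φ : Polynomial (Polynomial ℤ))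
    (y : E) (x : LaurentSeries K) :
    Polynomial.aeval x (PhiE E Φ y) = (PhiAt Φ (y : LaurentSeries K)).eval x := by
  rw [Polynomial.aeval_def, Polynomial.eval₂_eq_eval_map, map_PhiE]

theorem PhiE_monic (E : IntermediateField K (LaurentSeries K)) {Φ : Polynomial (Polynomial ℤ)}
    (h : Φ.Monic) (y : E) : (PhiE E Φ y).Monic := h.map _

theorem PhiE_natDegree (E : IntermediateField K (LaurentSeries K))
    {Φ : Polynomial (Polynomial ℤ)} (h : Φ.Monic) (y : E) :
    (PhiE E Φ y).natDegree = Φ.natDegree := h.natDegree_map _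

end PhiE

/-! ### Non-vanishing at the other roots -/

section NonVanishing

variable {K' : Type*} [Field K'] {r : ℕ} (D : RootsData K' r)

/-- `Φ_r(X, t(q^{r e'}))` factors as `σ_{e'}` of the basic factorization. -/
theorem RootsData.roots_at (e' : ℕ) [NeZero e'] (hr : r ≠ 0) :
    PhiAt D.Φ (tq K' (r * e')) =
      (X - Polynomial.C (tq K' (r * r * e'))) *
        ∏ b ∈ Finset.range r, (X - Polynomial.C (ModularCurve.qExpand K' e' (D.ρ b))) := by
  have h := congrArg (Polynomial.map (ModularCurve.qExpand K' e')) D.roots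
  rw [map_PhiAt, qExpand_tq K' e' r hr, Polynomial.map_mul, Polynomial.map_sub, Polynomial.map_X,
    Polynomial.map_C, qExpand_tq K' e' (r * r) (Nat.mul_ne_zero hr hr), Polynomial.map_prod] at h
  rw [show r * e' = e' * r by ring, show r * r * e' = e' * (r * r) by ring, h]
  congr 1
  refine Finset.prod_congr rfl fun b _ => ?_
  rw [Polynomial.map_sub, Polynomial.map_X, Polynomial.map_C]

/-- `Φ_r(ρ, t(q^{e'})) ≠ 0` unless `ρ` has one of the expected leading terms. -/
theorem RootsData.eval_ne_zero (hr : 2 ≤ r) (e' : ℕ) (he' : e' ≠ 0) (ρ : LaurentSeries K') (a : ℕ)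
    (c : K') (hρ : LeadsAt ρ a c) (hc : c ≠ 0) (h1 : a ≠ r * e' ∨ c ≠ 1) (h2 : r * a ≠ e') :
    (PhiAt D.Φ (tq K' e')).eval ρ ≠ 0 := by
  have hr0 : r ≠ 0 := by omega
  haveI : NeZero r := ⟨hr0⟩
  haveI : NeZero e' := ⟨he'⟩
  intro h0
  have h := congrArg (ModularCurve.qExpand K' r) h0
  rw [map_eval_PhiAt, map_zero, qExpand_tq K' r e' he', D.roots_at e' hr0, eval_mul,
    eval_prod] at h
  have hσρ : LeadsAt (ModularCurve.qExpand K' r ρ) (r * a) c := hρ.qExpand r
  rcases mul_eq_zero.mp h with h | h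
  · simp only [eval_sub, eval_X, eval_C, sub_eq_zero] at h
    refine (hσρ.ne (leadsAt_tq K' (r * r * e') (by positivity)) hc one_ne_zero ?_) h
    rcases h1 with h1 | h1
    · left
      intro hh
      apply h1
      have : r * a = r * (r * e') := by rw [hh]; ring
      exact Nat.eq_of_mul_eq_mul_left (Nat.pos_of_ne_zero hr0) this
    · right; exact h1
  · obtain ⟨b, hb, hb0⟩ := Finset.prod_eq_zero_iff.mp h
    simp only [eval_sub, eval_X, eval_C, sub_eq_zero] at hb0
    have hb' := Finset.mem_range.mp hb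
    have hl : LeadsAt (ModularCurve.qExpand K' e' (D.ρ b)) (e' * 1) (D.c b) :=
      (D.leads b hb').qExpand e'
    refine (hσρ.ne hl hc (D.c_ne_zero b hb') ?_) hb0
    left
    rw [mul_one]
    exact h2

end NonVanishing

/-! ### Generation: `L_{pM} = σ_p L_M (t)` -/

section Generation

theorem num1 (p e : ℕ) (hp : 2 ≤ p) (he : e ≠ 0) : p * p * e ≠ e := by
  have h4 : 4 * e ≤ p * p * e := Nat.mul_le_mul_right e (by nlinarith)
  omega

theorem num2 (p r e' : ℕ) (hp : 2 ≤ p) (hr : 2 ≤ r) (he' : e' ≠ 0) :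
    r * (p * p * (r * e')) ≠ e' := by
  have h1 : r * (p * p * (r * e')) = (r * p * p * r) * e' := by ring
  have h4 : 4 * e' ≤ (r * p * p * r) * e' := Nat.mul_le_mul_right e' (by nlinarith [Nat.mul_le_mul hr hp, Nat.mul_le_mul hp hr])
  omega

theorem num3 (r e' : ℕ) (hr : 2 ≤ r) (he' : e' ≠ 0) : r * (r * e') ≠ e' := by
  have h1 : r * (r * e') = (r * r) * e' := by ring
  have h4 : 4 * e' ≤ (r * r) * e' := Nat.mul_le_mul_right e' (by nlinarith)
  omega

variable {K : Type*} [Field K] {K' : Type*} [Field K'] (f : K →+* K')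

include f in
/-- (S5), core step: if `t_{e'}` and `t_{p r e'}` lie in `E` then so does `t_{r e'}`. -/
theorem tq_mem_of_prime_mul {p r : ℕ} (hp : 2 ≤ p) (hr : 2 ≤ r) (Dp : RootsData K' p)
    (Dr : RootsData K' r) (E : IntermediateField K (LaurentSeries K)) (e' : ℕ) (he' : e' ≠ 0)
    (h1 : tq K e' ∈ E) (h2 : tq K (p * (r * e')) ∈ E) : tq K (r * e') ∈ E := by
  have hp0 : p ≠ 0 := by omega
  have hr0 : r ≠ 0 := by omega
  set e := r * e' with he_def
  have he : e ≠ 0 := Nat.mul_ne_zero hr0 he'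
  haveI : NeZero e := ⟨he⟩
  set fE := PhiE E Dr.Φ ⟨tq K e', h1⟩ with hfE
  set gE := PhiE E Dp.Φ ⟨tq K (p * e), h2⟩ with hgE
  have hf : Polynomial.aeval (tq K e) fE = 0 := by
    rw [aeval_PhiE]; exact Dr.eval_mul_tq f hr0 e' he'
  have hg : Polynomial.aeval (tq K e) gE = 0 := by
    rw [aeval_PhiE]; exact Dp.eval_tq_mul f hp0 e he
  have hg0 : gE ≠ 0 := (PhiE_monic E Dp.monic _).ne_zero
  set ι : LaurentSeries K →+* LaurentSeries K' := ModularCurve.coeffMap f with hι
  have hmapg : gE.map (ι.comp (algebraMap E (LaurentSeries K))) = PhiAt Dp.Φ (tq K' (p * e)) := by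
    rw [← Polynomial.map_map, map_PhiE, map_PhiAt, hι, coeffMap_tq]
  have hmapf : fE.map (ι.comp (algebraMap E (LaurentSeries K))) = PhiAt Dr.Φ (tq K' e') := by
    rw [← Polynomial.map_map, map_PhiE, map_PhiAt, hι, coeffMap_tq]
  have hfact := Dp.roots_at e hp0
  rw [← Finset.mul_prod_erase _ _ (Finset.mem_range.mpr (Nat.pos_of_ne_zero hp0))] at hfact
  have h0 : ModularCurve.qExpand K' e (Dp.ρ 0) = ι (tq K e) := by
    rw [Dp.ρ_zero, ← tq_one K', qExpand_tq K' e 1 one_ne_zero, mul_one, hι, coeffMap_tq]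
  refine mem_of_common_root E ι (tq K e) fE gE hf hg hg0
    ((X - Polynomial.C (tq K' (p * p * e))) *
      ∏ b ∈ (Finset.range p).erase 0, (X - Polynomial.C (ModularCurve.qExpand K' e (Dp.ρ b)))) ?_ ?_
  · rw [hmapg, hfact, h0]; ring
  · rw [hmapf]
    refine IsCoprime.mul_right (isCoprime_X_sub_C_of_eval_ne_zero _ _ ?_)
      (isCoprime_prod_X_sub_C _ _ _ ?_)
    · refine Dr.eval_ne_zero hr e' he' _ (p * p * e) 1
        (leadsAt_tq K' (p * p * e) (by positivity)) one_ne_zero ?_ ?_
      · left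
        exact num1 p e hp he
      · exact num2 p r e' hp hr he'
    · intro b hb
      have hb1 := Finset.mem_erase.mp hb
      have hbp : b < p := Finset.mem_range.mp hb1.2
      have hl : LeadsAt (ModularCurve.qExpand K' e (Dp.ρ b)) (e * 1) (Dp.c b) :=
        (Dp.leads b hbp).qExpand e
      rw [mul_one] at hl
      refine Dr.eval_ne_zero hr e' he' _ e (Dp.c b) hl (Dp.c_ne_zero b hbp) ?_ ?_
      · right; exact Dp.c_ne_one b hbp hb1.1
      · exact num3 r e' hr he'

include f in
/-- (S5): `t_e ∈ σ_p L_M (t)` for `e ∣ M` prime to `p`. -/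
theorem tq_mem_sup (p M : ℕ) (hp : p.Prime) (hM : M ≠ 0)
    (D : ∀ r, r.Prime → r ∣ p * M → RootsData K' r) :
    ∀ e, e ∣ M → ¬ p ∣ e → tq K e ∈ LLp K p M ⊔ K⟮jqModC K⟯ := by
  intro e
  induction e using Nat.strong_induction_on with
  | _ e ih =>
    intro heM hpe
    by_cases h1 : e = 1
    · subst h1
      rw [tq_one]
      exact (le_sup_right : K⟮jqModC K⟯ ≤ _) (mem_adjoin_simple_self K _)
    · have hrp : (e.minFac).Prime := Nat.minFac_prime h1
      obtain ⟨e', he'⟩ := Nat.minFac_dvd e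
      have he0 : e ≠ 0 := ne_zero_of_dvd_ne_zero hM heM
      have he'0 : e' ≠ 0 := by
        rintro rfl
        rw [mul_zero] at he'
        exact he0 he'
      have he'lt : e' < e := by
        conv_rhs => rw [he']
        exact lt_mul_of_one_lt_left (Nat.pos_of_ne_zero he'0) hrp.one_lt
      have he'e : e' ∣ e := Dvd.intro_left _ he'.symm
      have ih' := ih e' he'lt (he'e.trans heM) (fun h => hpe (h.trans he'e))
      have hmem : tq K (p * (e.minFac * e')) ∈ LLp K p M ⊔ K⟮jqModC K⟯ := by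
        rw [← he']
        exact (le_sup_left : LLp K p M ≤ _) (tq_mem_LLp heM)
      have := tq_mem_of_prime_mul f hp.two_le hrp.two_le (D p hp (dvd_mul_right p M))
        (D e.minFac hrp ((Nat.minFac_dvd e).trans (heM.trans (dvd_mul_left M p)))) _ e' he'0 ih' hmem
      rwa [← he'] at this

include f in
/-- (S5): `L_{pM} = σ_p L_M (t)`. -/
theorem LL_mul_eq (p M : ℕ) (hp : p.Prime) (hM : M ≠ 0)
    (D : ∀ r, r.Prime → r ∣ p * M → RootsData K' r) :
    LL K (p * M) = LLp K p M ⊔ K⟮jqModC K⟯ := by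
  apply le_antisymm
  · unfold LL
    rw [adjoin_le_iff]
    rintro x ⟨e, he, rfl⟩
    by_cases hpe : p ∣ e
    · obtain ⟨d, rfl⟩ := hpe
      have hd : d ∣ M := Nat.dvd_of_mul_dvd_mul_left hp.pos he
      exact (le_sup_left : LLp K p M ≤ _) (tq_mem_LLp hd)
    · have hcop : Nat.Coprime e p := ((Nat.Prime.coprime_iff_not_dvd hp).mpr hpe).symm
      have heM : e ∣ M := hcop.dvd_of_dvd_mul_left he
      exact tq_mem_sup f p M hp hM D e heM hpe
  · apply sup_le
    · unfold LLp
      rw [adjoin_le_iff]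
      rintro x ⟨d, hd, rfl⟩
      exact tq_mem_LL (mul_dvd_mul_left p hd)
    · rw [adjoin_simple_le_iff, ← tq_one]
      exact tq_mem_LL (one_dvd _)

include f in
/-- (S6): the degree of `t` over `σ_p L_M`. -/
theorem relrank_LLp_le (p M : ℕ) (hp : p.Prime) (Dp : RootsData K' p) :
    (LLp K p M).relrank (LLp K p M ⊔ K⟮jqModC K⟯) ≤
      ((if p ∣ M then p else p + 1 : ℕ) : Cardinal) := by
  set E := LLp K p M with hE
  have htp : tq K p ∈ E := by
    have := tq_mem_LLp (K := K) (p := p) (one_dvd M)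
    rwa [mul_one] at this
  set P := PhiE E Dp.Φ ⟨tq K p, htp⟩ with hP
  have hPm : P.Monic := PhiE_monic E Dp.monic _
  have hPd : P.natDegree = p + 1 := by rw [hP, PhiE_natDegree E Dp.monic, Dp.natDegree_eq]
  have hPt : Polynomial.aeval (jqModC K) P = 0 := by
    rw [aeval_PhiE]; exact Dp.eval_jq f hp.ne_zero
  split_ifs with hpM
  · -- `t_{p²} ∈ E` is a root, divide it out
    set a : E := ⟨tq K (p * p), tq_mem_LLp hpM⟩ with ha
    have hroot : P.IsRoot a := by
      rw [Polynomial.IsRoot.def]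
      apply (algebraMap E (LaurentSeries K)).injective
      rw [map_zero, ← Polynomial.eval₂_hom, ← Polynomial.eval_map, map_PhiE]
      exact Dp.eval_tq_sq f
    set Q := P /ₘ (X - Polynomial.C a) with hQ
    have hmul : (X - Polynomial.C a) * Q = P := Polynomial.mul_divByMonic_eq_iff_isRoot.mpr hroot
    have hQm : Q.Monic := (Polynomial.monic_X_sub_C a).of_mul_monic_left (by rw [hmul]; exact hPm)
    have hQd : Q.natDegree = p := by
      rw [hQ, Polynomial.natDegree_divByMonic _ (Polynomial.monic_X_sub_C a), hPd,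
        Polynomial.natDegree_X_sub_C]
      rfl
    have hQt : Polynomial.aeval (jqModC K) Q = 0 := by
      have h := hPt
      rw [← hmul, map_mul, map_sub, Polynomial.aeval_X, Polynomial.aeval_C] at h
      rcases mul_eq_zero.mp h with h | h
      · exfalso
        rw [sub_eq_zero] at h
        have hne : jqModC K ≠ tq K (p * p) :=
          (leadsAt_jqModC K).ne (leadsAt_tq K (p * p) (Nat.mul_ne_zero hp.ne_zero hp.ne_zero))
            one_ne_zero one_ne_zero (Or.inl (by nlinarith [hp.two_le]))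
        exact hne h
      · exact h
    have := relrank_sup_simple_le E (jqModC K) Q hQm hQt
    rwa [hQd] at this
  · have := relrank_sup_simple_le E (jqModC K) P hPm hPt
    rwa [hPd] at this

include f in
/-- **KEY0**: `[K(t_d : d ∣ N) : K(t)] ≤ ψ(N)`. -/
theorem relrank_LL_le : ∀ (N : ℕ), N ≠ 0 → (∀ r, r.Prime → r ∣ N → RootsData K' r) →
    (∀ p, p.Prime → p ∣ N →
      (K⟮jqModC K⟯).relrank (K⟮jqModC K⟯ ⊔ K⟮tq K p⟯) ≤
        (K⟮tq K p⟯).relrank (K⟮jqModC K⟯ ⊔ K⟮tq K p⟯)) →
    (K⟮jqModC K⟯).relrank (LL K N) ≤ (dedekindPsi N : Cardinal) := by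
  intro N
  induction N using Nat.strong_induction_on with
  | _ N ih =>
    intro hN D hP1
    by_cases h1 : N = 1
    · subst h1
      rw [LL_one, relrank_self, dedekindPsi_one]
      simp
    · set p := N.minFac with hp_def
      have hp : p.Prime := Nat.minFac_prime h1
      obtain ⟨M, hM⟩ := Nat.minFac_dvd N
      have hM0 : M ≠ 0 := by
        rintro rfl
        rw [mul_zero] at hM
        exact hN hM
      have hMlt : M < N := by
        conv_rhs => rw [hM]
        exact lt_mul_of_one_lt_left (Nat.pos_of_ne_zero hM0) hp.one_lt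
      have hMN : M ∣ N := Dvd.intro_left _ hM.symm
      haveI : NeZero p := ⟨hp.ne_zero⟩
      have ihM := ih M hMlt hM0 (fun r hr hrM => D r hr (hrM.trans hMN))
        (fun q hq hqM => hP1 q hq (hqM.trans hMN))
      set A := K⟮jqModC K⟯ with hA
      set Ap := K⟮tq K p⟯ with hAp
      set C := LLp K p M with hC
      have hLN : LL K N = C ⊔ A := by
        rw [hM]
        exact LL_mul_eq f p M hp hM0 (fun r hr hrN => D r hr (by rw [hM]; exact hrN))
      have hApC : Ap ≤ C := by
        rw [hAp, adjoin_simple_le_iff]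
        have := tq_mem_LLp (K := K) (p := p) (one_dvd M)
        rwa [mul_one] at this
      have hAB : A ≤ A ⊔ Ap := le_sup_left
      have hApB : Ap ≤ A ⊔ Ap := le_sup_right
      have hBL : A ⊔ Ap ≤ LL K N := by
        rw [hLN]
        exact sup_le le_sup_right (hApC.trans le_sup_left)
      have e1 := relrank_mul_relrank hAB hBL
      have e2 := relrank_mul_relrank hApB hBL
      have hCL : C ≤ LL K N := by rw [hLN]; exact le_sup_left
      have e3 := relrank_mul_relrank hApC hCL
      have e4 : Ap.relrank C = A.relrank (LL K M) := by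
        rw [hAp, hC, ← map_Kt K p, ← map_LL K p M hM0, relrank_map_map]
      have e5 : C.relrank (LL K N) ≤ ((if p ∣ M then p else p + 1 : ℕ) : Cardinal) := by
        rw [hLN]
        exact relrank_LLp_le f p M hp (D p hp (Nat.minFac_dvd N))
      calc A.relrank (LL K N) = A.relrank (A ⊔ Ap) * (A ⊔ Ap).relrank (LL K N) := e1.symm
        _ ≤ Ap.relrank (A ⊔ Ap) * (A ⊔ Ap).relrank (LL K N) :=
            mul_le_mul_left (hP1 p hp (Nat.minFac_dvd N)) _
        _ = Ap.relrank (LL K N) := e2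
        _ = Ap.relrank C * C.relrank (LL K N) := e3.symm
        _ ≤ (dedekindPsi M : Cardinal) * ((if p ∣ M then p else p + 1 : ℕ) : Cardinal) := by
            rw [e4]
            exact mul_le_mul' ihM e5
        _ = (dedekindPsi N : Cardinal) := by
            rw [hM, Fermat.Agent.S28.Psi.dedekindPsi_prime_mul hp hM0]
            push_cast
            rw [mul_comm]

end Generation

/-! ### Final form -/

section Final

variable {K : Type*} [Field K] {K' : Type*} [Field K'] (f : K →+* K')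

include f in
/-- **KEY0** for `modularFunctionFieldFullC K N` (cardinal version; implies finiteness). -/
theorem relrank_modularFunctionFieldFullC_le (N : ℕ) [NeZero N]
    (D : ∀ r, r.Prime → r ∣ N → RootsData K' r)
    (hP1 : ∀ p, p.Prime → p ∣ N →
      (K⟮jqModC K⟯).relrank (K⟮jqModC K⟯ ⊔ K⟮tq K p⟯) ≤
        (K⟮tq K p⟯).relrank (K⟮jqModC K⟯ ⊔ K⟮tq K p⟯)) :
    (K⟮jqModC K⟯).relrank (modularFunctionFieldFullC K N) ≤ (dedekindPsi N : Cardinal) := by
  rw [← LL_eq K N]
  exact relrank_LL_le f N (NeZero.ne N) D hP1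

include f in
/-- **KEY0**, `relfinrank` version. -/
theorem relfinrank_modularFunctionFieldFullC_le (N : ℕ) [NeZero N]
    (D : ∀ r, r.Prime → r ∣ N → RootsData K' r)
    (hP1 : ∀ p, p.Prime → p ∣ N →
      (K⟮jqModC K⟯).relrank (K⟮jqModC K⟯ ⊔ K⟮tq K p⟯) ≤
        (K⟮tq K p⟯).relrank (K⟮jqModC K⟯ ⊔ K⟮tq K p⟯)) :
    (K⟮jqModC K⟯).relfinrank (modularFunctionFieldFullC K N) ≤ dedekindPsi N := by
  have h := relrank_modularFunctionFieldFullC_le f N D hP1
  rw [relfinrank_eq_toNat_relrank]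
  have := Cardinal.toNat_le_toNat h (Cardinal.natCast_lt_aleph0)
  rwa [Cardinal.toNat_natCast] at this

include f in
/-- **KEY0**: finiteness. -/
theorem relrank_modularFunctionFieldFullC_lt_aleph0 (N : ℕ) [NeZero N]
    (D : ∀ r, r.Prime → r ∣ N → RootsData K' r)
    (hP1 : ∀ p, p.Prime → p ∣ N →
      (K⟮jqModC K⟯).relrank (K⟮jqModC K⟯ ⊔ K⟮tq K p⟯) ≤
        (K⟮tq K p⟯).relrank (K⟮jqModC K⟯ ⊔ K⟮tq K p⟯)) :
    (K⟮jqModC K⟯).relrank (modularFunctionFieldFullC K N) < Cardinal.aleph0 :=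
  (relrank_modularFunctionFieldFullC_le f N D hP1).trans_lt Cardinal.natCast_lt_aleph0

end Final

end

end Fermat.Agent.S28.KEY0
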