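import Fermat.Agent.S28.Interface
import Fermat.Agent.S28.KEY0

/-!
# S28, package KEY0 in the shape of `Interface.lean` (helper90)

`keyUpper : ModEqStatement → (∀ p D, P1Statement p D) → KeyUpper N`.
-/

set_option autoImplicit false

noncomputable section

namespace Fermat.Agent.S28.KEY0

open ModularCurve HahnSeries IntermediateField Polynomial Fermat.Agent.S28

/-- A primitive `r`-th root of unity in `ℂ`, as a unit. -/
def zetaU (r : ℕ) [NeZero r] : ℂˣ :=
  (Complex.isPrimitiveRoot_exp r (NeZero.ne r)).isUnit (NeZero.ne r) |>.unit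

theorem zetaU_isPrimitiveRoot (r : ℕ) [NeZero r] : IsPrimitiveRoot ((zetaU r : ℂˣ) : ℂ) r := by
  unfold zetaU
  rw [IsUnit.unit_spec]
  exact Complex.isPrimitiveRoot_exp r (NeZero.ne r)

theorem leadsAt_twist_jqModC {B : Type*} [CommRing B] (c : Bˣ) :
    LeadsAt (twist c (jqModC B)) 1 (((c ^ (-1 : ℤ) : Bˣ) : B)) := by
  constructor
  · intro k hk
    rw [twist_coeff, coeff_jqModC_of_lt B (by simpa using hk), mul_zero]
  · have h : (-((1 : ℕ) : ℤ)) = -1 := by simp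
    rw [h, twist_coeff, coeff_jqModC_neg_one, mul_one]

/-- The roots data over `ℂ` from `ModEqData`. -/
def rootsDataOfModEqData (r : ℕ) [NeZero r] (D : ModEqData r) : RootsData ℂ r where
  Φ := D.Phi
  monic := D.monic
  natDegree_eq := D.natDegree_eq
  ρ b := twist (zetaU r ^ b) (jqModC ℂ)
  c b := (((zetaU r ^ b) ^ (-1 : ℤ) : ℂˣ) : ℂ)
  roots := by
    have h := D.roots ℂ (zetaU r)
      ((zetaU_isPrimitiveRoot r).isRoot_cyclotomic (Nat.pos_of_ne_zero (NeZero.ne r)))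
    have : NeZero (r * r) := ⟨Nat.mul_ne_zero (NeZero.ne r) (NeZero.ne r)⟩
    rw [tq_eq, tq_eq]
    exact h
  ρ_zero := by rw [pow_zero, twist_one]
  leads b _ := leadsAt_twist_jqModC _
  c_ne_zero b _ := Units.ne_zero _
  c_ne_one b hb hb0 := by
    intro h
    have h1 : ((zetaU r ^ b) ^ (-1 : ℤ) : ℂˣ) = 1 := Units.ext h
    rw [zpow_neg_one, inv_eq_one] at h1
    have h2 : ((zetaU r : ℂˣ) : ℂ) ^ b = 1 := by
      have := congrArg (fun u : ℂˣ => (u : ℂ)) h1
      simpa using this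
    exact (zetaU_isPrimitiveRoot r).pow_ne_one_of_pos_of_lt hb0 hb h2

/-- **KEY0** in the shape of the interface. -/
theorem keyUpper (hD : ModEqStatement)
    (hP1 : ∀ (p : ℕ) [NeZero p], p.Prime → ∀ D : ModEqData p, P1Statement p D)
    (N : ℕ) [NeZero N] : KeyUpper N := by
  unfold KeyUpper
  have hD' : ∀ r : ℕ, r.Prime → r ∣ N → RootsData ℂ r := fun r hr _ => by
    haveI : NeZero r := ⟨hr.ne_zero⟩
    exact rootsDataOfModEqData r (hD r hr).some
  have h := relrank_modularFunctionFieldFullC_le (K := ℚ) (algebraMap ℚ ℂ) N hD' ?_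
  · exact h
  · intro p hp _
    have : NeZero p := ⟨hp.ne_zero⟩
    obtain ⟨-, -, -, -, h1, h2⟩ := hP1 p hp (hD p hp).some ℚ (by exact_mod_cast hp.ne_zero)
    have e : fieldTTp ℚ p = ℚ⟮jqModC ℚ⟯ ⊔ ℚ⟮tq ℚ p⟯ := by
      unfold fieldTTp
      rw [tq_eq, ← adjoin_union]
      rfl
    rw [← e]
    have h1' : (ℚ⟮jqModC ℚ⟯).relrank (fieldTTp ℚ p) = ((p + 1 : ℕ) : Cardinal) := h1
    have h2' : (ℚ⟮tq ℚ p⟯).relrank (fieldTTp ℚ p) = ((p + 1 : ℕ) : Cardinal) := by
      rw [tq_eq]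
      exact h2
    rw [h1', h2']

end Fermat.Agent.S28.KEY0
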