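/-
S28, package FORMAL (helper43), part 1: basic formal objects.
* (`twist c`, `deltaQ`, `deltaInvQ`, `unitInf` are the shared definitions of `Interface.lean`.)
* `dec p`   : decimation, `coeff k ↦ coeff (p k)`.
* the sum of the twists by the powers of a primitive `p`-th root of unity.
* the formal discriminant `deltaQ B = q ∏ (1 - q^n)^24`, its inverse, and the modular unit
  `unitInf p B = p^12 Δ(q^p) / Δ(q)`.
-/
import Mathlib
import Fermat.Prelude.Def_ModularCurve_X0ModL
import Fermat.Agent.S28.Interface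

set_option autoImplicit false
open ModularCurve HahnSeries

namespace Fermat.Agent.S28.FORMAL

section Twist

variable {B : Type*} [CommRing B]

theorem twist_C (c : Bˣ) (r : B) : twist c (HahnSeries.C r) = HahnSeries.C r := by
  rw [HahnSeries.C_apply, twist_single, zpow_zero, Units.val_one, one_mul]

end Twist

section Dec

variable {B : Type*} [CommRing B]

/-- decimation: keep the coefficients with exponent divisible by `p`, and divide exponents by `p` -/
def dec (p : ℕ) [NeZero p] (f : LaurentSeries B) : LaurentSeries B :=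
  HahnSeries.ofSuppBddBelow (fun k : ℤ => f.coeff ((p : ℤ) * k)) (by
    refine ⟨min f.order 0, ?_⟩
    intro k hk
    simp only [Function.mem_support, ne_eq] at hk
    have h1 : f.order ≤ (p : ℤ) * k := HahnSeries.order_le_of_coeff_ne_zero hk
    have hp : (1 : ℤ) ≤ p := by exact_mod_cast Nat.one_le_iff_ne_zero.mpr (NeZero.ne p)
    by_contra hlt
    rw [not_le] at hlt
    have hk0 : k < 0 := lt_of_lt_of_le hlt (min_le_right _ _)
    have hk1 : k < f.order := lt_of_lt_of_le hlt (min_le_left _ _)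
    nlinarith)

@[simp] theorem dec_coeff (p : ℕ) [NeZero p] (f : LaurentSeries B) (k : ℤ) :
    (dec p f).coeff k = f.coeff ((p : ℤ) * k) := rfl

theorem dec_qExpand (p : ℕ) [NeZero p] (f : LaurentSeries B) : dec p (qExpand B p f) = f := by
  ext k; simp

theorem coeffMap_dec {B' : Type*} [CommRing B'] (φ : B →+* B') (p : ℕ) [NeZero p]
    (f : LaurentSeries B) : coeffMap φ (dec p f) = dec p (coeffMap φ f) := by
  ext k; simp

end Dec

section RootsOfUnity

variable {B : Type*} [CommRing B] [IsDomain B]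

theorem sum_zpow_primitiveRoot {p : ℕ} (hp : p.Prime) {ζ : Bˣ} (hζ : IsPrimitiveRoot ζ p) (n : ℤ) :
    ∑ b ∈ Finset.range p, (((ζ ^ b) ^ n : Bˣ) : B) = if (p : ℤ) ∣ n then (p : B) else 0 := by
  have hcomm : ∀ b : ℕ, (ζ ^ b) ^ n = (ζ ^ n) ^ b := fun b => by
    rw [← zpow_natCast, ← zpow_mul, ← zpow_natCast, ← zpow_mul, mul_comm]
  simp_rw [hcomm, Units.val_pow_eq_pow_val]
  split_ifs with h
  · obtain ⟨k, rfl⟩ := h
    have : ζ ^ ((p : ℤ) * k) = 1 := by
      rw [zpow_mul, zpow_natCast, hζ.pow_eq_one, one_zpow]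
    simp [this]
  · have hcop : n.gcd p = 1 := by
      have := (Nat.Prime.coprime_iff_not_dvd hp).mpr (fun hd => h (Int.natCast_dvd.mpr hd))
      rw [Nat.coprime_comm] at this
      exact this
    have hprim : IsPrimitiveRoot (ζ ^ n) p := hζ.zpow_of_gcd_eq_one n hcop
    have hprim' : IsPrimitiveRoot ((ζ ^ n : Bˣ) : B) p := IsPrimitiveRoot.coe_units_iff.mpr hprim
    exact hprim'.geom_sum_eq_zero hp.one_lt

end RootsOfUnity

section MonicOrd

variable {B : Type*} [CommRing B]

/-- `f` has no terms below `q^m` -/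
def LowerBd (f : LaurentSeries B) (m : ℤ) : Prop := ∀ k < m, f.coeff k = 0

theorem coeff_mul_of_lowerBd {f g : LaurentSeries B} {m n : ℤ} (hf : LowerBd f m)
    (hg : LowerBd g n) : (f * g).coeff (m + n) = f.coeff m * g.coeff n := by
  rw [HahnSeries.coeff_mul]
  refine Finset.sum_eq_single (m, n) ?_ ?_
  · rintro ⟨i, j⟩ hij hne
    simp only [Finset.mem_antidiagonal, HahnSeries.mem_support, ne_eq] at hij
    exfalso
    have hi : m ≤ i := by
      by_contra h; exact hij.1 (hf i (not_le.mp h))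
    have hj : n ≤ j := by
      by_contra h; exact hij.2.1 (hg j (not_le.mp h))
    apply hne
    have h3 := hij.2.2
    have : i = m ∧ j = n := by constructor <;> omega
    rw [this.1, this.2]
  · intro h
    simp only [Finset.mem_antidiagonal, HahnSeries.mem_support, ne_eq, and_true, not_and_or,
      not_not] at h
    rcases h with h | h
    · rw [h, zero_mul]
    · rw [h, mul_zero]

theorem LowerBd.mul {f g : LaurentSeries B} {m n : ℤ} (hf : LowerBd f m) (hg : LowerBd g n) :
    LowerBd (f * g) (m + n) := by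
  intro a ha
  rw [HahnSeries.coeff_mul]
  refine Finset.sum_eq_zero ?_
  rintro ⟨i, j⟩ hij
  simp only [Finset.mem_antidiagonal, HahnSeries.mem_support, ne_eq] at hij
  exfalso
  have hi : m ≤ i := by
    by_contra h; exact hij.1 (hf i (not_le.mp h))
  have hj : n ≤ j := by
    by_contra h; exact hij.2.1 (hg j (not_le.mp h))
  have h3 := hij.2.2
  omega

theorem LowerBd.mono {f : LaurentSeries B} {m n : ℤ} (hf : LowerBd f m) (h : n ≤ m) :
    LowerBd f n := fun k hk => hf k (lt_of_lt_of_le hk h)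

theorem LowerBd.add {f g : LaurentSeries B} {m : ℤ} (hf : LowerBd f m) (hg : LowerBd g m) :
    LowerBd (f + g) m := fun k hk => by
  rw [HahnSeries.coeff_add, hf k hk, hg k hk, add_zero]

theorem LowerBd.neg {f : LaurentSeries B} {m : ℤ} (hf : LowerBd f m) :
    LowerBd (-f) m := fun k hk => by
  rw [HahnSeries.coeff_neg, hf k hk, neg_zero]

theorem LowerBd.sub {f g : LaurentSeries B} {m : ℤ} (hf : LowerBd f m) (hg : LowerBd g m) :
    LowerBd (f - g) m := by
  rw [sub_eq_add_neg]; exact hf.add hg.neg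

/-- `f = q^m + higher terms` -/
def MonicOrd (f : LaurentSeries B) (m : ℤ) : Prop := f.coeff m = 1 ∧ LowerBd f m

theorem MonicOrd.mul {f g : LaurentSeries B} {m n : ℤ} (hf : MonicOrd f m) (hg : MonicOrd g n) :
    MonicOrd (f * g) (m + n) :=
  ⟨by rw [coeff_mul_of_lowerBd hf.2 hg.2, hf.1, hg.1, one_mul], hf.2.mul hg.2⟩

theorem MonicOrd.one : MonicOrd (1 : LaurentSeries B) 0 :=
  ⟨by simp, fun k hk => by rw [HahnSeries.coeff_one, if_neg (ne_of_lt hk)]⟩

theorem MonicOrd.pow {f : LaurentSeries B} {m : ℤ} (hf : MonicOrd f m) (k : ℕ) :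
    MonicOrd (f ^ k) (k * m) := by
  induction k with
  | zero => simpa using MonicOrd.one
  | succ k ih =>
    rw [pow_succ]
    have : ((k + 1 : ℕ) : ℤ) * m = k * m + m := by push_cast; ring
    rw [this]
    exact ih.mul hf

theorem MonicOrd.single (m : ℤ) : MonicOrd (HahnSeries.single m (1 : B)) m :=
  ⟨by simp, fun k hk => by rw [HahnSeries.coeff_single_of_ne (ne_of_lt hk)]⟩

theorem MonicOrd.ofPowerSeries {E : PowerSeries B} (hE : PowerSeries.constantCoeff E = 1) :
    MonicOrd (HahnSeries.ofPowerSeries ℤ B E) 0 := by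
  refine ⟨?_, fun k hk => ofPowerSeries_coeff_of_neg E hk⟩
  rw [show (0 : ℤ) = ((0 : ℕ) : ℤ) from rfl, HahnSeries.ofPowerSeries_apply_coeff,
    PowerSeries.coeff_zero_eq_constantCoeff, hE]

theorem MonicOrd.qExpand {f : LaurentSeries B} {m : ℤ} (hf : MonicOrd f m) (p : ℕ) [NeZero p] :
    MonicOrd (ModularCurve.qExpand B p f) (p * m) := by
  refine ⟨by rw [qExpand_coeff_mul]; exact hf.1, fun k hk => ?_⟩
  by_cases hd : (p : ℤ) ∣ k
  · obtain ⟨j, rfl⟩ := hd
    rw [qExpand_coeff_mul]
    refine hf.2 j ?_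
    have hp : (0 : ℤ) < p := by exact_mod_cast Nat.pos_of_ne_zero (NeZero.ne p)
    exact lt_of_mul_lt_mul_left hk hp.le
  · exact qExpand_coeff_of_not_dvd p f hd

theorem LowerBd.twist {f : LaurentSeries B} {m : ℤ} (hf : LowerBd f m) (c : Bˣ) :
    LowerBd (twist c f) m := fun k hk => by rw [twist_coeff, hf k hk, mul_zero]

theorem MonicOrd.jqModC : MonicOrd (ModularCurve.jqModC B) (-1) :=
  ⟨coeff_jqModC_neg_one B, fun _ hk => coeff_jqModC_of_lt B hk⟩

theorem MonicOrd.ne_zero [Nontrivial B] {f : LaurentSeries B} {m : ℤ} (hf : MonicOrd f m) :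
    f ≠ 0 := fun h => by
  have := hf.1
  rw [h, HahnSeries.coeff_zero] at this
  exact zero_ne_one this

/-- subtracting something of higher order keeps `MonicOrd` -/
theorem MonicOrd.sub_lowerBd {f g : LaurentSeries B} {m n : ℤ} (hf : MonicOrd f m)
    (hg : LowerBd g n) (hmn : m < n) : MonicOrd (f - g) m :=
  ⟨by rw [HahnSeries.coeff_sub, hf.1, hg m hmn, sub_zero], hf.2.sub (hg.mono hmn.le)⟩

end MonicOrd

section SumTwist

variable {B : Type*} [CommRing B] [IsDomain B]

theorem sum_twist {p : ℕ} [NeZero p] (hp : p.Prime) {ζ : Bˣ} (hζ : IsPrimitiveRoot ζ p)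
    (f : LaurentSeries B) :
    ∑ b ∈ Finset.range p, twist (ζ ^ b) f = HahnSeries.C (p : B) * qExpand B p (dec p f) := by
  ext n
  rw [HahnSeries.coeff_sum]
  simp only [twist_coeff]
  rw [← Finset.sum_mul, sum_zpow_primitiveRoot hp hζ n, HahnSeries.C_mul_eq_smul,
    HahnSeries.coeff_smul, smul_eq_mul]
  split_ifs with h
  · obtain ⟨k, rfl⟩ := h
    rw [qExpand_coeff_mul, dec_coeff]
  · rw [qExpand_coeff_of_not_dvd p _ h, zero_mul, mul_zero]

end SumTwist

section Delta

variable (B : Type*) [CommRing B]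

theorem deltaQ_mul_inv : deltaQ B * deltaInvQ B = 1 := by
  rw [deltaQ, deltaInvQ, mul_mul_mul_comm, HahnSeries.single_mul_single, ← map_mul, ← map_mul,
    dedekindEtaUnit_mul_inv]
  simp

theorem deltaInvQ_mul : deltaInvQ B * deltaQ B = 1 := by
  rw [mul_comm, deltaQ_mul_inv]

variable {B} in
theorem coeffMap_deltaQ {B' : Type*} [CommRing B'] (φ : B →+* B') :
    coeffMap φ (deltaQ B) = deltaQ B' := by
  rw [deltaQ, map_mul, coeffMap_single, map_one, coeffMap_ofPowerSeries,
    ← RingHom.comp_apply (PowerSeries.map φ) (PowerSeries.map (Int.castRingHom B)),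
    ← PowerSeries.map_comp, RingHom.ext_int (φ.comp (Int.castRingHom B)) (Int.castRingHom B')]
  rfl

variable {B} in
theorem coeffMap_deltaInvQ {B' : Type*} [CommRing B'] (φ : B →+* B') :
    coeffMap φ (deltaInvQ B) = deltaInvQ B' := by
  rw [deltaInvQ, map_mul, coeffMap_single, map_one, coeffMap_ofPowerSeries,
    ← RingHom.comp_apply (PowerSeries.map φ) (PowerSeries.map (Int.castRingHom B)),
    ← PowerSeries.map_comp, RingHom.ext_int (φ.comp (Int.castRingHom B)) (Int.castRingHom B')]
  rfl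

theorem monicOrd_deltaQ : MonicOrd (deltaQ B) 1 := by
  have h := (MonicOrd.single (B := B) 1).mul (MonicOrd.ofPowerSeries (B := B)
    (E := dedekindEtaUnit.map (Int.castRingHom B)) (by
      rw [← PowerSeries.coeff_zero_eq_constantCoeff, PowerSeries.coeff_map,
        PowerSeries.coeff_zero_eq_constantCoeff, constantCoeff_dedekindEtaUnit]; simp))
  simpa [deltaQ] using h

theorem monicOrd_deltaInvQ : MonicOrd (deltaInvQ B) (-1) := by
  have h := (MonicOrd.single (B := B) (-1)).mul (MonicOrd.ofPowerSeries (B := B)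
    (E := dedekindEtaUnitInv.map (Int.castRingHom B)) (by
      rw [← PowerSeries.coeff_zero_eq_constantCoeff, PowerSeries.coeff_map,
        PowerSeries.coeff_zero_eq_constantCoeff, constantCoeff_dedekindEtaUnitInv]; simp))
  simpa [deltaInvQ] using h

variable {B} in
theorem coeffMap_unitInf {B' : Type*} [CommRing B'] (φ : B →+* B') (p : ℕ) [NeZero p] :
    coeffMap φ (unitInf B p) = unitInf B' p := by
  rw [unitInf, map_mul, map_mul, coeffMap_qExpand, coeffMap_deltaQ, coeffMap_deltaInvQ, unitInf]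
  congr 1
  rw [HahnSeries.C_apply, coeffMap_single, HahnSeries.C_apply]
  simp

theorem unitInf_coeff (p : ℕ) [NeZero p] : (unitInf B p).coeff ((p : ℤ) - 1) = (p : B) ^ 12 := by
  have h := ((monicOrd_deltaQ B).qExpand p).mul (monicOrd_deltaInvQ B)
  rw [unitInf, HahnSeries.C_mul_eq_smul, HahnSeries.coeff_smul, smul_eq_mul]
  have h1 : ((p : ℤ) * 1 + -1) = (p : ℤ) - 1 := by ring
  rw [h1] at h
  rw [h.1, mul_one]

theorem unitInf_lowerBd (p : ℕ) [NeZero p] : LowerBd (unitInf B p) ((p : ℤ) - 1) := by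
  have h := ((monicOrd_deltaQ B).qExpand p).mul (monicOrd_deltaInvQ B)
  have h1 : ((p : ℤ) * 1 + -1) = (p : ℤ) - 1 := by ring
  rw [h1] at h
  intro k hk
  rw [unitInf, HahnSeries.C_mul_eq_smul, HahnSeries.coeff_smul, h.2 k hk, smul_zero]

end Delta

end Fermat.Agent.S28.FORMAL
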