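/-
S28, package FORMAL (helper43), part 2: general tools.
* Newton: if all power sums of a finite family lie in a subring closed under division by
  positive integers, so do all elementary symmetric functions.
* a Laurent series over `ℂ` with rational coefficients which are algebraic integers has
  integer coefficients.
* descent: if `Q(t) ∈ A((q))` for `Q ∈ B[X]`, `A ⊆ B`, `t = jqModC`, then `Q ∈ A[X]`.
-/
import Mathlib
import Fermat.Agent.S28.FormalBasic

set_option autoImplicit false
open ModularCurve HahnSeries

namespace Fermat.Agent.S28.FORMAL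

section Newton

theorem esymm_mem_of_psum_mem {S' : Type*} [CommRing S'] (A' : Subring S')
    (hdiv : ∀ m : ℕ, 0 < m → ∀ y : S', (m : S') * y ∈ A' → y ∈ A')
    {σ : Type*} [Fintype σ] (x : σ → S') (h : ∀ k, 0 < k → ∑ i, x i ^ k ∈ A') :
    ∀ m, (Finset.univ.val.map x).esymm m ∈ A' := by
  intro m
  induction m using Nat.strong_induction_on with
  | _ m ih =>
    rcases Nat.eq_zero_or_pos m with rfl | hm
    · rw [Multiset.esymm, Multiset.powersetCard_zero_left]
      simp
    · apply hdiv m hm
      have key := congrArg (MvPolynomial.aeval x) (MvPolynomial.mul_esymm_eq_sum σ ℤ m)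
      simp only [map_mul, map_natCast, map_pow, map_neg, map_one, map_sum,
        MvPolynomial.aeval_esymm_eq_multiset_esymm] at key
      rw [key]
      refine A'.mul_mem (A'.pow_mem (A'.neg_mem A'.one_mem) _) (A'.sum_mem ?_)
      intro a ha
      rw [Finset.mem_filter, Finset.HasAntidiagonal.mem_antidiagonal] at ha
      refine A'.mul_mem (A'.mul_mem (A'.pow_mem (A'.neg_mem A'.one_mem) _) (ih a.1 ha.2)) ?_
      have : (MvPolynomial.aeval x) (MvPolynomial.psum σ ℤ a.2) = ∑ i, x i ^ a.2 := by
        simp [MvPolynomial.psum]
      rw [this]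
      exact h a.2 (by omega)

end Newton

section Descent

variable {A B : Type*} [CommRing A] [CommRing B]

theorem algebra_smul_coeff (c : B) (f : LaurentSeries B) (n : ℤ) :
    (c • f).coeff n = c * f.coeff n := by
  rw [HahnSeries.coeff_smul, smul_eq_mul]

theorem coeffMap_C (φ : A →+* B) (a : A) : coeffMap φ (HahnSeries.C a) = HahnSeries.C (φ a) := by
  rw [HahnSeries.C_apply, coeffMap_single, HahnSeries.C_apply]

theorem algebraMap_eq_C (c : B) : algebraMap B (LaurentSeries B) c = HahnSeries.C c := by
  have h1 : algebraMap B (PowerSeries B) c = PowerSeries.C c := by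
    simp
  rw [HahnSeries.algebraMap_apply', h1, HahnSeries.ofPowerSeries_C]

theorem aeval_jqModC_coeff_natDegree (Q : Polynomial B) :
    (Polynomial.aeval (jqModC B) Q).coeff (-(Q.natDegree : ℤ)) = Q.leadingCoeff := by
  rw [Polynomial.aeval_eq_sum_range, HahnSeries.coeff_sum, Finset.sum_range_succ]
  rw [Finset.sum_eq_zero, zero_add, Algebra.smul_def, algebraMap_eq_C,
    HahnSeries.C_mul_eq_smul, algebra_smul_coeff, coeff_jqModC_pow_self,
    mul_one, Polynomial.leadingCoeff]
  intro k hk
  rw [Finset.mem_range] at hk
  rw [Algebra.smul_def, algebraMap_eq_C,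
    HahnSeries.C_mul_eq_smul, algebra_smul_coeff, coeff_jqModC_pow_of_lt B (by omega), mul_zero]

/-- descent of coefficients along an injective ring hom, using that `t = q⁻¹ + …` -/
theorem descent (ι : A →+* B) (Q : Polynomial B) :
    ∀ (g : LaurentSeries A), Polynomial.aeval (jqModC B) Q = coeffMap ι g →
      ∃ Q' : Polynomial A, Q'.map ι = Q := by
  induction hn : Q.support.card using Nat.strong_induction_on generalizing Q with
  | _ n ih =>
    intro g hg
    by_cases hQ : Q = 0
    · exact ⟨0, by rw [hQ, Polynomial.map_zero]⟩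
    · have hlead : Q.leadingCoeff = ι (g.coeff (-(Q.natDegree : ℤ))) := by
        rw [← aeval_jqModC_coeff_natDegree, hg, coeffMap_coeff]
      set a' : A := g.coeff (-(Q.natDegree : ℤ)) with ha'
      have hcard : Q.eraseLead.support.card < n := by
        rw [← hn]; exact Polynomial.eraseLead_support_card_lt hQ
      have hg1 : Polynomial.aeval (jqModC B) Q.eraseLead =
          coeffMap ι (g - HahnSeries.C a' * jqModC A ^ Q.natDegree) := by
        rw [map_sub, map_mul, map_pow, coeffMap_jqModC, ← hg]
        have h1 : Q.eraseLead = Q - Polynomial.monomial Q.natDegree Q.leadingCoeff :=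
          (Polynomial.self_sub_monomial_natDegree_leadingCoeff Q).symm
        rw [h1, map_sub, Polynomial.aeval_monomial, hlead, algebraMap_eq_C]
        rw [coeffMap_C]
      obtain ⟨Q₁, hQ₁⟩ := ih _ hcard Q.eraseLead rfl _ hg1
      refine ⟨Q₁ + Polynomial.monomial Q.natDegree a', ?_⟩
      rw [Polynomial.map_add, hQ₁, Polynomial.map_monomial, ← hlead,
        Polynomial.eraseLead_add_monomial_natDegree_leadingCoeff]

end Descent

end Fermat.Agent.S28.FORMAL
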