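import Mathlib
import Fermat.Prelude.Def_ModularCurve_X0ModL

/-!
# S28 project: the twist `q ↦ c q` on Laurent series

`twist c f = ∑ c^n f_n q^n` for a unit `c`.  Ring endomorphism of `LaurentSeries B`.
-/

set_option autoImplicit false

noncomputable section

namespace Fermat.Agent.S28

open HahnSeries ModularCurve

variable {B : Type*} [CommRing B]

/-- underlying function of the twist -/
def twistFun (c : Bˣ) (f : LaurentSeries B) : LaurentSeries B where
  coeff n := ((c ^ n : Bˣ) : B) * f.coeff n
  isPWO_support' := f.isPWO_support.mono (fun n hn => by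
    simp only [Function.mem_support, ne_eq] at hn ⊢
    intro h
    exact hn (by rw [h, mul_zero]))

@[simp] theorem twistFun_coeff (c : Bˣ) (f : LaurentSeries B) (n : ℤ) :
    (twistFun c f).coeff n = ((c ^ n : Bˣ) : B) * f.coeff n := rfl

theorem twistFun_support (c : Bˣ) (f : LaurentSeries B) :
    (twistFun c f).support = f.support := by
  ext n
  simp only [HahnSeries.mem_support, twistFun_coeff, ne_eq]
  rw [Units.mul_right_eq_zero]

/-- The ring endomorphism `f(q) ↦ f(c q)` of `LaurentSeries B`, for a unit `c`. -/
def twist (c : Bˣ) : LaurentSeries B →+* LaurentSeries B where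
  toFun := twistFun c
  map_zero' := by ext n; simp
  map_one' := by
    ext n
    rw [twistFun_coeff, HahnSeries.coeff_one]
    split_ifs with h
    · subst h; simp
    · simp
  map_add' f g := by ext n; simp [mul_add]
  map_mul' f g := by
    ext n
    rw [twistFun_coeff, HahnSeries.coeff_mul, HahnSeries.coeff_mul, Finset.mul_sum]
    have hs : Finset.antidiagonal (twistFun c f).isPWO_support (twistFun c g).isPWO_support n =
        Finset.antidiagonal f.isPWO_support g.isPWO_support n := by
      ext ⟨i, j⟩
      simp only [Finset.mem_antidiagonal, twistFun_support]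
    rw [hs]
    refine Finset.sum_congr rfl fun ij hij => ?_
    have hsum : ij.1 + ij.2 = n := (Finset.mem_antidiagonal.mp hij).2.2
    rw [twistFun_coeff, twistFun_coeff, ← hsum, zpow_add, Units.val_mul]
    ring

@[simp] theorem twist_coeff (c : Bˣ) (f : LaurentSeries B) (n : ℤ) :
    (twist c f).coeff n = ((c ^ n : Bˣ) : B) * f.coeff n := rfl

theorem twist_single (c : Bˣ) (n : ℤ) (r : B) :
    twist c (HahnSeries.single n r) = HahnSeries.single n (((c ^ n : Bˣ) : B) * r) := by
  ext m
  rw [twist_coeff]
  rcases eq_or_ne m n with rfl | h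
  · simp [HahnSeries.coeff_single_same]
  · simp [HahnSeries.coeff_single_of_ne h]

theorem twist_one (f : LaurentSeries B) : twist (1 : Bˣ) f = f := by
  ext n; simp

theorem twist_mul (c d : Bˣ) (f : LaurentSeries B) : twist c (twist d f) = twist (c * d) f := by
  ext n
  simp only [twist_coeff, mul_zpow, Units.val_mul]
  ring

theorem twist_injective (c : Bˣ) : Function.Injective (twist c : LaurentSeries B → LaurentSeries B) := by
  intro f g h
  have := congrArg (twist c⁻¹) h
  simpa [twist_mul, twist_one] using this

/-- `twist` commutes with change of coefficients. -/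
theorem coeffMap_twist {B' : Type*} [CommRing B'] (φ : B →+* B') (c : Bˣ) (f : LaurentSeries B) :
    coeffMap φ (twist c f) = twist (Units.map (φ : B →* B') c) (coeffMap φ f) := by
  ext n
  simp only [coeffMap_coeff, twist_coeff, map_mul]
  congr 1
  rw [← map_zpow]
  rfl

/-- `twist c` fixes series in `q^p` when `c^p = 1`. -/
theorem twist_qExpand_of_pow_eq_one (p : ℕ) [NeZero p] (c : Bˣ) (hc : c ^ p = 1)
    (f : LaurentSeries B) : twist c (qExpand B p f) = qExpand B p f := by
  ext n
  rw [twist_coeff]
  by_cases hn : (p : ℤ) ∣ n
  · obtain ⟨m, rfl⟩ := hn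
    rw [zpow_mul, zpow_natCast, hc, one_zpow, Units.val_one, one_mul]
  · rw [qExpand_coeff_of_not_dvd p f hn, mul_zero]

end Fermat.Agent.S28
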