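import Mathlib
import Fermat.Statements.S28
import Fermat.Agent.S28.Twist

/-!
# S28 project: interface between the packages

See table `blueprints` (stmt = 'S28') for the mathematics.  This file is sorry-free: every
package output is a `Prop`-valued `def` (or the structure `ModEqData`), and the final file
`Fermat/Agent/S28.lean` assembles them.

Notation: `ℤℓ = ↥(GaloisRep.ratLocalizedAt ℓ)`, `k = ZMod ℓ`, `t = jqModC k`.
-/

set_option autoImplicit false

noncomputable section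

namespace Fermat.Agent.S28

open HahnSeries ModularCurve ModularCurve.IgusaScheme Polynomial IntermediateField
open scoped TensorProduct

/-! ### The residue map `ℤ_(ℓ) → 𝔽_ℓ` -/

section ResHom

variable (ℓ : ℕ) [Fact ℓ.Prime]

/-- `ℤ_(ℓ) → ℤ_ℓ` (the `ℓ`-adic integers). -/
def toPadicInt : ↥(GaloisRep.ratLocalizedAt ℓ) →+* ℤ_[ℓ] :=
  ((Rat.castHom ℚ_[ℓ]).comp (GaloisRep.ratLocalizedAt ℓ).subtype).codRestrict (PadicInt.subring ℓ)
    (fun x => by
      have hx : (x : ℚ).den.Coprime ℓ := x.2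
      have hnd : ¬ ℓ ∣ (x : ℚ).den := fun h =>
        (Fact.out : ℓ.Prime).one_lt.ne' (Nat.Coprime.eq_one_of_dvd hx.symm h)
      exact Padic.norm_rat_le_one hnd)

/-- The residue map `ℤ_(ℓ) → 𝔽_ℓ`. **Everyone uses this one.** -/
def resHom : ↥(GaloisRep.ratLocalizedAt ℓ) →+* ZMod ℓ :=
  (PadicInt.toZMod).comp (toPadicInt ℓ)

end ResHom

/-! ### Evaluation of `ℤ[Y]` -/

/-- `ℤ[Y] → B((q))`, `Y ↦ y`. -/
def evalY {B : Type*} [CommRing B] (y : LaurentSeries B) : Polynomial ℤ →+* LaurentSeries B :=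
  Polynomial.eval₂RingHom (Int.castRingHom (LaurentSeries B)) y

/-- `ℤ[Y] → E`, `Y ↦ y`, for an intermediate field `E` of `K((q))/K`. -/
def evalYF {K : Type*} [Field K] (E : IntermediateField K (LaurentSeries K)) (y : E) :
    Polynomial ℤ →+* E :=
  Polynomial.eval₂RingHom (Int.castRingHom E) y

/-! ### The formal discriminant and the modular unit -/

/-- `Δ(q) = q ∏ (1 - q^n)^24` over `B`. -/
def deltaQ (B : Type*) [CommRing B] : LaurentSeries B :=
  HahnSeries.single (1 : ℤ) 1 * HahnSeries.ofPowerSeries ℤ B (dedekindEtaUnit.map (Int.castRingHom B))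

/-- `Δ(q)⁻¹` over `B`. -/
def deltaInvQ (B : Type*) [CommRing B] : LaurentSeries B :=
  HahnSeries.single (-1 : ℤ) 1 *
    HahnSeries.ofPowerSeries ℤ B (dedekindEtaUnitInv.map (Int.castRingHom B))

/-- The modular unit `ũ_∞ = p^12 Δ(q^p)/Δ(q)` over `B`. -/
def unitInf (B : Type*) [CommRing B] (p : ℕ) [NeZero p] : LaurentSeries B :=
  HahnSeries.C ((p : B) ^ 12) * (qExpand B p (deltaQ B) * deltaInvQ B)

/-! ### Output of the analytic + formal packages -/

/-- Everything the algebraic packages need to know about level `p` (`p` prime). -/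
structure ModEqData (p : ℕ) [NeZero p] : Type 1 where
  /-- the modular polynomial `Φ_p(X, Y)`: outer variable `X`, coefficients in `ℤ[Y]` -/
  Phi : Polynomial (Polynomial ℤ)
  monic : Phi.Monic
  natDegree_eq : Phi.natDegree = p + 1
  /-- ROOTS: `Φ_p(X, t(q^p)) = (X - t(q^{p²})) ∏_{b<p} (X - t(ζ^b q))` over any commutative ring
  with a root `ζ` of the `p`-th cyclotomic polynomial. -/
  roots : ∀ (B : Type) [CommRing B] (ζ : Bˣ), (Polynomial.cyclotomic p B).IsRoot (ζ : B) →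
    Phi.map (evalY (qExpand B p (jqModC B))) =
      (X - Polynomial.C (qExpand B (p * p) (jqModC B))) *
        ∏ b ∈ Finset.range p, (X - Polynomial.C (twist (ζ ^ b) (jqModC B)))
  /-- UNIT-int: `ũ_∞` is integral over `K'[t]`. -/
  unit_integral : ∀ (K' : Type) [Field K'] (ζ : K'), (Polynomial.cyclotomic p K').IsRoot ζ →
    (p : K') ≠ 0 → IsIntegral (Algebra.adjoin K' {jqModC K'}) (unitInf K' p)
  /-- UNIT-rat: `ũ_∞ ∈ K'(t, t_p)`. -/
  unit_mem : ∀ (K' : Type) [Field K'] (ζ : K'), (Polynomial.cyclotomic p K').IsRoot ζ →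
    (p : K') ≠ 0 →
    unitInf K' p ∈ IntermediateField.adjoin K' {jqModC K', qExpand K' p (jqModC K')}

/-- Output of FORMAL (+ AN-*, LINK). -/
def ModEqStatement : Prop := ∀ (p : ℕ) [NeZero p], p.Prime → Nonempty (ModEqData p)

/-! ### P1: the prime case -/

section P1

variable (k0 : Type) [Field k0]

/-- `k0(t)` -/
abbrev fieldT : IntermediateField k0 (LaurentSeries k0) := k0⟮jqModC k0⟯

/-- `k0(t_p)` -/
abbrev fieldTp (p : ℕ) [NeZero p] : IntermediateField k0 (LaurentSeries k0) :=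
  k0⟮qExpand k0 p (jqModC k0)⟯

/-- `k0(t, t_p)` -/
abbrev fieldTTp (p : ℕ) [NeZero p] : IntermediateField k0 (LaurentSeries k0) :=
  IntermediateField.adjoin k0 {jqModC k0, qExpand k0 p (jqModC k0)}

/-- `t` as an element of `k0(t)` -/
def tGen : fieldT k0 := ⟨jqModC k0, mem_adjoin_simple_self k0 _⟩

/-- `t_p` as an element of `k0(t_p)` -/
def tpGen (p : ℕ) [NeZero p] : fieldTp k0 p := ⟨qExpand k0 p (jqModC k0), mem_adjoin_simple_self k0 _⟩

end P1

/-- Output of P1 for one prime `p` and one field `k0` in which `p ≠ 0`: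
`Φ_p(X, t)` is irreducible over `k0(t)` with root `t_p`, `Φ_p(X, t_p)` is irreducible over
`k0(t_p)` with root `t`, and both degrees of `k0(t, t_p)` are `p + 1`. -/
def P1Statement (p : ℕ) [NeZero p] (D : ModEqData p) : Prop :=
  ∀ (k0 : Type) [Field k0], (p : k0) ≠ 0 →
    Irreducible (D.Phi.map (evalYF (fieldT k0) (tGen k0))) ∧
    (D.Phi.map (evalY (jqModC k0))).eval (qExpand k0 p (jqModC k0)) = 0 ∧
    Irreducible (D.Phi.map (evalYF (fieldTp k0 p) (tpGen k0 p))) ∧
    (D.Phi.map (evalY (qExpand k0 p (jqModC k0)))).eval (jqModC k0) = 0 ∧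
    IntermediateField.relrank (fieldT k0) (fieldTTp k0 p) = ((p + 1 : ℕ) : Cardinal) ∧
    IntermediateField.relrank (fieldTp k0 p) (fieldTTp k0 p) = ((p + 1 : ℕ) : Cardinal)

/-- DICHOTOMY (exported by P1, consumed by KEYL step (S3)): over a field `K'` containing a root
`ζ` of the `p`-th cyclotomic polynomial, `(p : K') ≠ 0`: for every intermediate field `E` with
`K'(t_p) ≤ E ⊆ K'((q^p))`, either `t_{p²} ∈ E` or `Φ_p(X, t_p)` is irreducible over `E`. -/
def DichotomyStatement (p : ℕ) [NeZero p] (D : ModEqData p) : Prop :=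
  ∀ (K' : Type) [Field K'] (ζ : K'), (Polynomial.cyclotomic p K').IsRoot ζ → (p : K') ≠ 0 →
    ∀ (E : IntermediateField K' (LaurentSeries K')) (hE : fieldTp K' p ≤ E),
      (∀ x ∈ E, ∃ y, qExpand K' p y = x) →
      qExpand K' (p * p) (jqModC K') ∈ E ∨
        Irreducible (D.Phi.map (evalYF E
          ⟨qExpand K' p (jqModC K'), hE (mem_adjoin_simple_self K' _)⟩))

/-! ### KEY statements -/

/-- KEYL: lower bound in characteristic `ℓ`. -/
def KeyLower (N : ℕ) [NeZero N] (ℓ : ℕ) [Fact ℓ.Prime] : Prop :=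
  ∃ (K' : Type) (_ : Field K') (_ : CharP K' ℓ),
    ((dedekindPsi N : ℕ) : Cardinal) ≤
      IntermediateField.relrank (fieldT K') (modularFunctionFieldFullC K' N)

/-- KEY0: upper bound in characteristic `0`. -/
def KeyUpper (N : ℕ) [NeZero N] : Prop :=
  IntermediateField.relrank (ℚ⟮jq⟯) (modularFunctionFieldFull N) ≤ ((dedekindPsi N : ℕ) : Cardinal)

/-- KEY(N, ℓ): `n` elements of `ℤ((q)) ∩ F_N` whose reductions mod `ℓ` are `𝔽_ℓ(t)`-linearly
independent, with `[F_N : ℚ(j)] ≤ n`. -/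
def KeyStatement (N : ℕ) [NeZero N] (ℓ : ℕ) [Fact ℓ.Prime] : Prop :=
  ∃ (n : ℕ) (x : Fin n → LaurentSeries ℤ),
    (∀ i, coeffMap (Int.castRingHom ℚ) (x i) ∈ modularFunctionFieldFull N) ∧
    LinearIndependent ↥(fieldT (ZMod ℓ))
      (fun i => coeffMap (Int.castRingHom (ZMod ℓ)) (x i)) ∧
    IntermediateField.relrank (ℚ⟮jq⟯) (modularFunctionFieldFull N) ≤ (n : Cardinal)

/-! ### ALG: reduction maps on the chart algebras -/

/-- `red` is compatible with the `ℤ_(ℓ)`-structure. -/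
def IsResLinear {ℓ : ℕ} [Fact ℓ.Prime] {A : Type*} [CommRing A]
    [Algebra ↥(GaloisRep.ratLocalizedAt ℓ) A] (red : A →+* LaurentSeries (ZMod ℓ)) : Prop :=
  ∀ (r : ↥(GaloisRep.ratLocalizedAt ℓ)) (a : A),
    red (r • a) = HahnSeries.C (resHom ℓ r) * red a

/-- Output of ALG. -/
def RedStatement (N : ℕ) [NeZero N] (ℓ : ℕ) [Fact ℓ.Prime] : Prop :=
  (∃ red : chartAlgFin N ℓ →+* LaurentSeries (ZMod ℓ), IsResLinear red ∧
      ∀ a, red a = 0 → ∃ b, a = ((ℓ : ℕ) : ↥(GaloisRep.ratLocalizedAt ℓ)) • b) ∧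
  (∃ red : chartAlgInf N ℓ →+* LaurentSeries (ZMod ℓ), IsResLinear red ∧
      ∀ a, red a = 0 → ∃ b, a = ((ℓ : ℕ) : ↥(GaloisRep.ratLocalizedAt ℓ)) • b) ∧
  (∃ red : chartAlgMid N ℓ →+* LaurentSeries (ZMod ℓ), IsResLinear red)

/-! ### TENSOR -/

/-- Output of TENSOR (pure algebra). -/
def TensorStatement : Prop :=
  ∀ (R A K k : Type) [CommRing R] [CommRing A] [Algebra R A] [Field K] [Algebra R K] [Field k]
    (π : R →+* k) (_ : Function.Surjective π) (ι : k →+* K) (_ : ι.comp π = algebraMap R K)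
    (red : A →+* LaurentSeries k) (_ : ∀ (r : R) (a : A), red (r • a) = HahnSeries.C (π r) * red a),
    Nontrivial (A ⊗[R] K) ∧
    ((∀ a, red a = 0 → ∃ (r : R) (b : A), π r = 0 ∧ a = r • b) → IsDomain (A ⊗[R] K))

/-! ### AG -/

/-- Output of AG. -/
def AGStatement : Prop :=
  ∀ (N : ℕ) [NeZero N] (ℓ : ℕ) [Fact ℓ.Prime]
    (K : Type) [Field K] [Algebra ↥(GaloisRep.ratLocalizedAt ℓ) K],
    IsDomain (chartAlgFin N ℓ ⊗[↥(GaloisRep.ratLocalizedAt ℓ)] K) →
    IsDomain (chartAlgInf N ℓ ⊗[↥(GaloisRep.ratLocalizedAt ℓ)] K) →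
    Nontrivial (chartAlgMid N ℓ ⊗[↥(GaloisRep.ratLocalizedAt ℓ)] K) →
    AlgebraicGeometry.IsIntegral (CategoryTheory.Limits.pullback (igusaTo N ℓ)
      (AlgebraicGeometry.Spec.map (CommRingCat.ofHom
        (algebraMap ↥(GaloisRep.ratLocalizedAt ℓ) K))))

end Fermat.Agent.S28
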