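/-
S28, package FORMAL (helper43): the INPUT of FORMAL, i.e. the OUTPUT expected from ANQ (+ AN-CONJ).

Everything lives in `ℂ((u))` (`u = exp(2πiτ/p)`), `ζ = exp(2πi/p)`:
* `j(τ)        ↔ tpC p   = t(u^p)`
* `j(pτ)       ↔ JC p none     = t(u^{p²})`
* `j((τ+b)/p)  ↔ JC p (some b) = t(ζ^b u)`
* `p^12 Δ(pτ)/Δ(τ)   ↔ UC p none     = p^12 Δ(u^{p²}) / Δ(u^p)`
* `Δ((τ+b)/p)/Δ(τ)   ↔ UC p (some b) = Δ(ζ^b u) / Δ(u^p)`
`HANQ p`  : every polynomial in the `J_i, U_i` invariant under simultaneous permutations of the index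
            is a polynomial in `t(u^p)`.
`HANQ3 p` : the three families actually used by FORMAL (implied by `HANQ p`, see `HANQ.hanq3`).
-/
import Mathlib
import Fermat.Agent.S28.Interface

set_option autoImplicit false
open ModularCurve HahnSeries

noncomputable section

namespace Fermat.Agent.S28.FORMAL

variable (p : ℕ) [NeZero p]

/-- `ζ_p = exp(2πi/p)` as a unit of `ℂ` -/
def zetaC : ℂˣ :=
  Units.mk0 (Complex.exp (2 * Real.pi * Complex.I / p)) (Complex.exp_ne_zero _)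

omit [NeZero p] in
@[simp] theorem zetaC_val : ((zetaC p : ℂˣ) : ℂ) = Complex.exp (2 * Real.pi * Complex.I / p) := rfl

theorem zetaC_isPrimitiveRoot : IsPrimitiveRoot (zetaC p) p :=
  IsPrimitiveRoot.coe_units_iff.mp (by
    rw [zetaC_val]; exact Complex.isPrimitiveRoot_exp p (NeZero.ne p))

/-- `t(u^p)`, the expansion of `j(τ)` in `u = exp(2πiτ/p)` -/
def tpC : LaurentSeries ℂ := qExpand ℂ p (jqModC ℂ)

/-- the expansions of the conjugates `j(pτ)`, `j((τ+b)/p)` -/
def JC : Option (Fin p) → LaurentSeries ℂ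
  | none => qExpand ℂ (p * p) (jqModC ℂ)
  | some b => twist (zetaC p ^ (b : ℕ)) (jqModC ℂ)

/-- the expansions of the conjugate units `p^12 Δ(pτ)/Δ(τ)`, `Δ((τ+b)/p)/Δ(τ)` -/
def UC : Option (Fin p) → LaurentSeries ℂ
  | none => qExpand ℂ p (unitInf ℂ p)
  | some b => twist (zetaC p ^ (b : ℕ)) (deltaQ ℂ) * qExpand ℂ p (deltaInvQ ℂ)

theorem JC_none : JC p none = qExpand ℂ p (tpC p) := by
  rw [JC, tpC, qExpand_qExpand]

theorem UC_none : UC p none =
    HahnSeries.C ((p : ℂ) ^ 12) * (qExpand ℂ (p * p) (deltaQ ℂ) * qExpand ℂ p (deltaInvQ ℂ)) := by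
  rw [UC, unitInf, map_mul, map_mul, qExpand_C, qExpand_qExpand]

/-- the general form of the analytic input -/
def HANQ : Prop :=
  ∀ P : MvPolynomial (Option (Fin p) ⊕ Option (Fin p)) ℂ,
    (∀ σ : Equiv.Perm (Option (Fin p)), MvPolynomial.rename (Sum.map σ σ) P = P) →
    ∃ Q : Polynomial ℂ,
      MvPolynomial.aeval (Sum.elim (JC p) (UC p)) P = Polynomial.aeval (tpC p) Q

/-- the three families used by FORMAL -/
def HANQ3 : Prop :=
  (∀ m : ℕ, ∃ Q : Polynomial ℂ,
    (Finset.univ.val.map (JC p)).esymm m = Polynomial.aeval (tpC p) Q) ∧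
  (∀ m : ℕ, ∃ Q : Polynomial ℂ,
    (Finset.univ.val.map (UC p)).esymm m = Polynomial.aeval (tpC p) Q) ∧
  (∀ s : ℕ, ∃ Q : Polynomial ℂ,
    ∑ i, UC p i * JC p i ^ s = Polynomial.aeval (tpC p) Q)

variable {p}

theorem HANQ.hanq3 (h : HANQ p) : HANQ3 p := by
  refine ⟨fun m => ?_, fun m => ?_, fun s => ?_⟩
  · obtain ⟨Q, hQ⟩ := h (MvPolynomial.rename Sum.inl (MvPolynomial.esymm (Option (Fin p)) ℂ m))
      (fun σ => by
        rw [MvPolynomial.rename_rename]
        have : (Sum.map σ σ ∘ Sum.inl : Option (Fin p) → _) = Sum.inl ∘ σ := by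
          ext i; rfl
        rw [this, ← MvPolynomial.rename_rename, MvPolynomial.esymm_isSymmetric])
    refine ⟨Q, ?_⟩
    rw [← hQ, MvPolynomial.aeval_rename, MvPolynomial.aeval_esymm_eq_multiset_esymm]
    rfl
  · obtain ⟨Q, hQ⟩ := h (MvPolynomial.rename Sum.inr (MvPolynomial.esymm (Option (Fin p)) ℂ m))
      (fun σ => by
        rw [MvPolynomial.rename_rename]
        have : (Sum.map σ σ ∘ Sum.inr : Option (Fin p) → _) = Sum.inr ∘ σ := by
          ext i; rfl
        rw [this, ← MvPolynomial.rename_rename, MvPolynomial.esymm_isSymmetric])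
    refine ⟨Q, ?_⟩
    rw [← hQ, MvPolynomial.aeval_rename, MvPolynomial.aeval_esymm_eq_multiset_esymm]
    rfl
  · obtain ⟨Q, hQ⟩ := h (∑ i : Option (Fin p),
        MvPolynomial.X (Sum.inr i) * MvPolynomial.X (Sum.inl i) ^ s)
      (fun σ => by
        simp only [map_sum, map_mul, map_pow, MvPolynomial.rename_X, Sum.map_inr, Sum.map_inl]
        exact Equiv.sum_comp σ (fun i => (MvPolynomial.X (Sum.inr i) : MvPolynomial _ ℂ) *
          MvPolynomial.X (Sum.inl i) ^ s))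
    refine ⟨Q, ?_⟩
    rw [← hQ]
    simp only [map_sum, map_mul, map_pow, MvPolynomial.aeval_X, Sum.elim_inr, Sum.elim_inl]

end Fermat.Agent.S28.FORMAL
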