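/-
S28, package FORMAL (helper43), part 3: the symmetric functions of the conjugates `JC`, `UC`
have integer coefficients and are series in `u^p`.
-/
import Mathlib
import Fermat.Agent.S28.FormalInput
import Fermat.Agent.S28.FormalDescent

set_option autoImplicit false
open ModularCurve HahnSeries

noncomputable section

namespace Fermat.Agent.S28.FORMAL

section General

theorem coeffMap_injective {A B : Type*} [CommRing A] [CommRing B] (φ : A →+* B)
    (hφ : Function.Injective φ) : Function.Injective (coeffMap φ) := by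
  intro x y h
  ext n
  apply hφ
  have := congrArg (fun z => z.coeff n) h
  simpa using this

/-- a rational number which is an algebraic integer is an integer -/
theorem exists_int_of_isIntegral (c : ℚ) (h : IsIntegral ℤ ((c : ℂ))) : ∃ z : ℤ, (z : ℚ) = c := by
  have h1 : IsIntegral ℤ c := by
    have : ((c : ℂ)) = algebraMap ℚ ℂ c := by simp
    rw [this] at h
    exact (isIntegral_algebraMap_iff (algebraMap ℚ ℂ).injective).mp h
  obtain ⟨z, hz⟩ := IsIntegrallyClosed.isIntegral_iff.mp h1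
  exact ⟨z, by simpa using hz⟩

/-- a Laurent series over `ℚ` all of whose coefficients are algebraic integers comes from `ℤ` -/
theorem exists_int_series (g : LaurentSeries ℚ) (h : ∀ n, IsIntegral ℤ ((g.coeff n : ℚ) : ℂ)) :
    ∃ g' : LaurentSeries ℤ, coeffMap (Int.castRingHom ℚ) g' = g := by
  choose z hz using fun n => exists_int_of_isIntegral (g.coeff n) (h n)
  refine ⟨⟨z, g.isPWO_support.mono ?_⟩, ?_⟩
  · intro n hn
    simp only [Function.mem_support, ne_eq] at hn
    simp only [HahnSeries.mem_support, ne_eq]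
    intro h0
    apply hn
    have := hz n
    rw [h0] at this
    exact_mod_cast this
  · ext n
    simp only [coeffMap_coeff]
    exact hz n

end General

variable (p : ℕ) [NeZero p]

/-- `ℤ((u^p)) → ℂ((u))` -/
def toZ : LaurentSeries ℤ →+* LaurentSeries ℂ :=
  (coeffMap (Int.castRingHom ℂ)).comp (qExpand ℤ p)

/-- `ℚ((u^p)) → ℂ((u))` -/
def toQ : LaurentSeries ℚ →+* LaurentSeries ℂ :=
  (coeffMap (algebraMap ℚ ℂ)).comp (qExpand ℚ p)

/-- the algebraic integers, as a subring of `ℂ` -/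
def Ibar : Subring ℂ := (integralClosure ℤ ℂ).toSubring

/-- series with algebraic integer coefficients -/
def Abar : Subring (LaurentSeries ℂ) := (coeffMap (Ibar.subtype)).range

theorem toZ_apply (g : LaurentSeries ℤ) :
    toZ p g = coeffMap (Int.castRingHom ℂ) (qExpand ℤ p g) := rfl

theorem toZ_apply' (g : LaurentSeries ℤ) :
    toZ p g = qExpand ℂ p (coeffMap (Int.castRingHom ℂ) g) := by
  rw [toZ_apply, coeffMap_qExpand]

theorem toZ_injective : Function.Injective (toZ p) := by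
  intro x y h
  rw [toZ_apply, toZ_apply] at h
  exact qExpand_injective p (coeffMap_injective _ (RingHom.injective_int _) h)

theorem toZ_mem_toQ (g : LaurentSeries ℤ) : toZ p g ∈ (toQ p).range := by
  refine ⟨coeffMap (Int.castRingHom ℚ) g, ?_⟩
  show coeffMap (algebraMap ℚ ℂ) (qExpand ℚ p (coeffMap (Int.castRingHom ℚ) g)) = _
  rw [toZ_apply, ← coeffMap_qExpand, coeffMap_coeffMap]
  exact coeffMap_congr (RingHom.ext_int _ _) _

theorem toQ_C (c : ℚ) : toQ p (HahnSeries.C c) = HahnSeries.C (c : ℂ) := by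
  show coeffMap (algebraMap ℚ ℂ) (qExpand ℚ p (HahnSeries.C c)) = _
  rw [qExpand_C, coeffMap_C]
  simp

theorem toQ_range_div (m : ℕ) (hm : 0 < m) (y : LaurentSeries ℂ)
    (h : (m : LaurentSeries ℂ) * y ∈ (toQ p).range) : y ∈ (toQ p).range := by
  have h1 : y = HahnSeries.C ((m : ℂ)⁻¹) * ((m : LaurentSeries ℂ) * y) := by
    rw [← mul_assoc, ← map_natCast (HahnSeries.C : ℂ →+* LaurentSeries ℂ) m, ← map_mul,
      inv_mul_cancel₀ (by exact_mod_cast hm.ne'), map_one, one_mul]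
  rw [h1]
  refine (toQ p).range.mul_mem ⟨HahnSeries.C ((m : ℚ)⁻¹), ?_⟩ h
  rw [toQ_C]
  simp

/-- rational coefficients + algebraic integer coefficients ⇒ integer coefficients -/
theorem mem_toZ_range_of_mem (x : LaurentSeries ℂ) (hQ : x ∈ (toQ p).range) (hA : x ∈ Abar) :
    x ∈ (toZ p).range := by
  obtain ⟨g, rfl⟩ := hQ
  obtain ⟨a, ha⟩ := hA
  have hint : ∀ n, IsIntegral ℤ ((g.coeff n : ℚ) : ℂ) := by
    intro n
    have h1 : (toQ p g).coeff ((p : ℤ) * n) = ((g.coeff n : ℚ) : ℂ) := by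
      show (coeffMap (algebraMap ℚ ℂ) (qExpand ℚ p g)).coeff _ = _
      rw [coeffMap_coeff, qExpand_coeff_mul]
      simp
    rw [← h1, ← ha, coeffMap_coeff]
    exact (a.coeff _).2
  obtain ⟨g', rfl⟩ := exists_int_series g hint
  refine ⟨g', ?_⟩
  show _ = coeffMap (algebraMap ℚ ℂ) (qExpand ℚ p (coeffMap (Int.castRingHom ℚ) g'))
  rw [toZ_apply, ← coeffMap_qExpand, coeffMap_coeffMap]
  exact coeffMap_congr (RingHom.ext_int _ _) _

/-! ### algebraic integrality of the coefficients -/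

theorem zetaC_pow_eq_one : (zetaC p) ^ p = 1 := (zetaC_isPrimitiveRoot p).pow_eq_one

/-- `ζ_p` as a unit of the ring of algebraic integers -/
def zetaBar : (↥Ibar)ˣ where
  val := ⟨(zetaC p : ℂ), IsIntegral.of_pow (Nat.pos_of_ne_zero (NeZero.ne p)) (by
    rw [← Units.val_pow_eq_pow_val, zetaC_pow_eq_one]; exact isIntegral_one)⟩
  inv := ⟨((zetaC p)⁻¹ : ℂˣ), IsIntegral.of_pow (Nat.pos_of_ne_zero (NeZero.ne p)) (by
    rw [← Units.val_pow_eq_pow_val, inv_pow, zetaC_pow_eq_one]; simpa using isIntegral_one)⟩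
  val_inv := by ext; simp
  inv_val := by ext; simp

theorem map_zetaBar : Units.map (Ibar.subtype : ↥Ibar →* ℂ) (zetaBar p) = zetaC p := by
  ext; rfl

theorem twist_zetaC_mem_Abar (b : ℕ) (g : LaurentSeries ↥Ibar) :
    twist (zetaC p ^ b) (coeffMap Ibar.subtype g) ∈ Abar := by
  refine ⟨twist (zetaBar p ^ b) g, ?_⟩
  rw [coeffMap_twist, map_pow, map_zetaBar]

theorem jqModC_mem_Abar : jqModC ℂ ∈ Abar := ⟨jqModC _, coeffMap_jqModC _⟩

theorem qExpand_mem_Abar (n : ℕ) [NeZero n] {x : LaurentSeries ℂ} (hx : x ∈ Abar) :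
    qExpand ℂ n x ∈ Abar := by
  obtain ⟨g, rfl⟩ := hx
  exact ⟨qExpand _ n g, coeffMap_qExpand _ _ _⟩

theorem JC_mem_Abar (i : Option (Fin p)) : JC p i ∈ Abar := by
  cases i with
  | none => exact qExpand_mem_Abar _ jqModC_mem_Abar
  | some b =>
    show twist (zetaC p ^ (b : ℕ)) (jqModC ℂ) ∈ Abar
    rw [← coeffMap_jqModC Ibar.subtype]
    exact twist_zetaC_mem_Abar p b _

theorem UC_mem_Abar (i : Option (Fin p)) : UC p i ∈ Abar := by
  cases i with
  | none => exact qExpand_mem_Abar _ ⟨unitInf _ p, coeffMap_unitInf _ p⟩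
  | some b =>
    show twist (zetaC p ^ (b : ℕ)) (deltaQ ℂ) * qExpand ℂ p (deltaInvQ ℂ) ∈ Abar
    refine Abar.mul_mem ?_ (qExpand_mem_Abar _ ⟨deltaInvQ _, coeffMap_deltaInvQ _⟩)
    rw [← coeffMap_deltaQ Ibar.subtype]
    exact twist_zetaC_mem_Abar p b _

/-! ### the sums over the twists lie in `ℤ((u^p))` -/

theorem sum_twist_mem (hp : p.Prime) (g : LaurentSeries ℤ) :
    ∑ b : Fin p, twist (zetaC p ^ (b : ℕ)) (coeffMap (Int.castRingHom ℂ) g) ∈ (toZ p).range := by
  refine ⟨HahnSeries.C (p : ℤ) * dec p g, ?_⟩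
  rw [Fin.sum_univ_eq_sum_range (fun b => twist (zetaC p ^ b) (coeffMap (Int.castRingHom ℂ) g)) p,
    sum_twist hp (zetaC_isPrimitiveRoot p), toZ_apply', map_mul, map_mul, coeffMap_C, qExpand_C,
    coeffMap_dec]
  simp

theorem qExpand_cast_mem (g : LaurentSeries ℤ) :
    qExpand ℂ p (coeffMap (Int.castRingHom ℂ) g) ∈ (toZ p).range :=
  ⟨g, toZ_apply' p g⟩

theorem JC_none_mem : JC p none ∈ (toZ p).range := by
  rw [JC_none, tpC, ← coeffMap_jqModC (Int.castRingHom ℂ), ← coeffMap_qExpand]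
  exact qExpand_cast_mem p _

theorem tpC_mem : tpC p ∈ (toZ p).range := by
  rw [tpC, ← coeffMap_jqModC (Int.castRingHom ℂ)]
  exact qExpand_cast_mem p _

theorem UC_none_mem : UC p none ∈ (toZ p).range := by
  show qExpand ℂ p (unitInf ℂ p) ∈ _
  rw [← coeffMap_unitInf (Int.castRingHom ℂ)]
  exact qExpand_cast_mem p _

theorem psum_JC_mem (hp : p.Prime) (k : ℕ) : ∑ i, JC p i ^ k ∈ (toZ p).range := by
  rw [Fintype.sum_option]
  refine (toZ p).range.add_mem ((toZ p).range.pow_mem (JC_none_mem p) k) ?_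
  have h : ∀ b : Fin p, JC p (some b) ^ k =
      twist (zetaC p ^ (b : ℕ)) (coeffMap (Int.castRingHom ℂ) (jqModC ℤ ^ k)) := by
    intro b
    rw [map_pow, coeffMap_jqModC, map_pow]
    rfl
  simp_rw [h]
  exact sum_twist_mem p hp _

theorem psum_UC_mem (hp : p.Prime) (k : ℕ) : ∑ i, UC p i ^ k ∈ (toZ p).range := by
  rw [Fintype.sum_option]
  refine (toZ p).range.add_mem ((toZ p).range.pow_mem (UC_none_mem p) k) ?_
  have h : ∀ b : Fin p, UC p (some b) ^ k =
      twist (zetaC p ^ (b : ℕ)) (coeffMap (Int.castRingHom ℂ) (deltaQ ℤ ^ k)) *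
        qExpand ℂ p (coeffMap (Int.castRingHom ℂ) (deltaInvQ ℤ ^ k)) := by
    intro b
    rw [map_pow, coeffMap_deltaQ, map_pow, map_pow, coeffMap_deltaInvQ, map_pow, ← mul_pow]
    rfl
  simp_rw [h, ← Finset.sum_mul]
  exact (toZ p).range.mul_mem (sum_twist_mem p hp _) (qExpand_cast_mem p _)

theorem mixed_mem (hp : p.Prime) (s : ℕ) : ∑ i, UC p i * JC p i ^ s ∈ (toZ p).range := by
  rw [Fintype.sum_option]
  refine (toZ p).range.add_mem
    ((toZ p).range.mul_mem (UC_none_mem p) ((toZ p).range.pow_mem (JC_none_mem p) s)) ?_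
  have h : ∀ b : Fin p, UC p (some b) * JC p (some b) ^ s =
      twist (zetaC p ^ (b : ℕ)) (coeffMap (Int.castRingHom ℂ) (deltaQ ℤ * jqModC ℤ ^ s)) *
        qExpand ℂ p (coeffMap (Int.castRingHom ℂ) (deltaInvQ ℤ)) := by
    intro b
    rw [map_mul, map_pow, coeffMap_deltaQ, coeffMap_jqModC, coeffMap_deltaInvQ, map_mul, map_pow]
    show twist (zetaC p ^ (b : ℕ)) (deltaQ ℂ) * qExpand ℂ p (deltaInvQ ℂ) *
      twist (zetaC p ^ (b : ℕ)) (jqModC ℂ) ^ s = _
    ring
  simp_rw [h, ← Finset.sum_mul]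
  exact (toZ p).range.mul_mem (sum_twist_mem p hp _) (qExpand_cast_mem p _)

/-! ### the elementary symmetric functions -/

theorem esymm_JC_mem (hp : p.Prime) (m : ℕ) :
    (Finset.univ.val.map (JC p)).esymm m ∈ (toZ p).range := by
  refine mem_toZ_range_of_mem p _ ?_ ?_
  · refine esymm_mem_of_psum_mem (toQ p).range (toQ_range_div p) (JC p) (fun k _ => ?_) m
    obtain ⟨g, hg⟩ := psum_JC_mem p hp k
    rw [← hg]; exact toZ_mem_toQ p g
  · rw [Finset.esymm_map_val]
    exact Abar.sum_mem fun t _ => Abar.prod_mem fun i _ => JC_mem_Abar p i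

theorem esymm_UC_mem (hp : p.Prime) (m : ℕ) :
    (Finset.univ.val.map (UC p)).esymm m ∈ (toZ p).range := by
  refine mem_toZ_range_of_mem p _ ?_ ?_
  · refine esymm_mem_of_psum_mem (toQ p).range (toQ_range_div p) (UC p) (fun k _ => ?_) m
    obtain ⟨g, hg⟩ := psum_UC_mem p hp k
    rw [← hg]; exact toZ_mem_toQ p g
  · rw [Finset.esymm_map_val]
    exact Abar.sum_mem fun t _ => Abar.prod_mem fun i _ => UC_mem_Abar p i

end Fermat.Agent.S28.FORMAL
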