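/-
S28, package FORMAL (helper43), part 4: construction of the modular polynomial `Φ_p ∈ ℤ[Y][X]`
and the ROOTS identity over every commutative ring with a root of the cyclotomic polynomial.
-/
import Mathlib
import Fermat.Agent.S28.FormalInt

set_option autoImplicit false
open ModularCurve Polynomial

noncomputable section

namespace Fermat.Agent.S28.FORMAL

section General

variable {A B : Type*} [CommRing A] [CommRing B]

theorem coeffMap_comp_evalY (φ : A →+* B) (y : LaurentSeries A) :
    (coeffMap φ).comp (evalY y) = evalY (coeffMap φ y) := by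
  refine Polynomial.ringHom_ext (fun a => ?_) ?_
  · simp [evalY]
  · simp [evalY]

theorem qExpand_comp_evalY (n : ℕ) [NeZero n] (y : LaurentSeries B) :
    (qExpand B n).comp (evalY y) = evalY (qExpand B n y) := by
  refine Polynomial.ringHom_ext (fun a => ?_) ?_
  · simp [evalY]
  · simp [evalY]

theorem aeval_qExpand (n : ℕ) [NeZero n] (y : LaurentSeries B) (Q : Polynomial B) :
    Polynomial.aeval (qExpand B n y) Q = qExpand B n (Polynomial.aeval y Q) := by
  rw [Polynomial.aeval_def, Polynomial.aeval_def, Polynomial.hom_eval₂]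
  congr 1
  refine RingHom.ext fun c => ?_
  rw [RingHom.comp_apply, algebraMap_eq_C, qExpand_C]

theorem aeval_map_intCast (y : LaurentSeries B) (Q : Polynomial ℤ) :
    Polynomial.aeval y (Q.map (Int.castRingHom B)) = evalY y Q := by
  rw [Polynomial.aeval_def, Polynomial.eval₂_map, evalY, Polynomial.coe_eval₂RingHom]
  congr 1
  exact RingHom.ext_int _ _

/-- a monic polynomial over `R` from a family in `S` whose elementary symmetric functions
come from `R` -/
theorem exists_monic_of_esymm {R S : Type*} [CommRing R] [Nontrivial R] [CommRing S] (f : R →+* S)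
    {σ : Type*} [Fintype σ] (x : σ → S)
    (h : ∀ m, ∃ r : R, (Finset.univ.val.map x).esymm m = f r) :
    ∃ P : Polynomial R, P.Monic ∧ P.natDegree = Fintype.card σ ∧
      P.map f = ∏ i, (X - C (x i)) := by
  choose r hr using h
  set n := Fintype.card σ with hn
  set L : Polynomial R := ∑ j ∈ Finset.range n, C ((-1) ^ (j + 1) * r (j + 1)) * X ^ (n - (j + 1))
    with hL
  have hdeg : L.degree < n := by
    rw [Polynomial.degree_lt_iff_coeff_zero]
    intro m hm
    rw [hL, Polynomial.finsetSum_coeff]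
    refine Finset.sum_eq_zero fun j hj => ?_
    rw [Finset.mem_range] at hj
    rw [Polynomial.coeff_C_mul_X_pow, if_neg (by omega)]
  have hnat : (X ^ n + L).natDegree = n := by
    apply Polynomial.natDegree_eq_of_degree_eq_some
    rw [Polynomial.degree_add_eq_left_of_degree_lt (by rwa [Polynomial.degree_X_pow]),
      Polynomial.degree_X_pow]
  refine ⟨X ^ n + L, Polynomial.monic_X_pow_add hdeg, hnat, ?_⟩
  have hV := Multiset.prod_X_sub_X_eq_sum_esymm (Finset.univ.val.map x)
  rw [Multiset.map_map, Multiset.card_map] at hV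
  have hcard : Multiset.card (Finset.univ : Finset σ).val = n := rfl
  rw [hcard] at hV
  have hprod : ∏ i, (X - C (x i)) = (Multiset.map ((fun t => X - C t) ∘ x) Finset.univ.val).prod :=
    rfl
  rw [hprod, hV, Finset.sum_range_succ', Polynomial.map_add, Polynomial.map_pow, Polynomial.map_X,
    hL, Polynomial.map_sum, add_comm]
  congr 1
  · refine Finset.sum_congr rfl fun j _ => ?_
    rw [Polynomial.map_mul, Polynomial.map_C, Polynomial.map_pow, Polynomial.map_X, map_mul,
      map_pow, map_neg, map_one, ← hr, C_mul, C_pow, C_neg, C_1, mul_assoc]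
  · rw [Multiset.esymm, Multiset.powersetCard_zero_left]
    simp

end General

variable (p : ℕ) [NeZero p]

/-- an element of `ℤ((u^p))` which is a complex polynomial in `t(u^p)` is an integral polynomial
in `t(u^p)` -/
theorem exists_int_poly (x : LaurentSeries ℂ) (hx : x ∈ (toZ p).range) (Q : Polynomial ℂ)
    (hQ : x = Polynomial.aeval (tpC p) Q) : ∃ Q' : Polynomial ℤ, x = evalY (tpC p) Q' := by
  obtain ⟨E, rfl⟩ := hx
  rw [tpC, aeval_qExpand, toZ_apply'] at hQ
  have h1 := (qExpand_injective p hQ).symm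
  obtain ⟨Q', rfl⟩ := descent (Int.castRingHom ℂ) Q E h1
  exact ⟨Q', by rw [toZ_apply', ← h1, ← aeval_qExpand, aeval_map_intCast, tpC]⟩

/-- the ROOTS identity for `Φ` over `B` with the root of unity `ζ` -/
def RootsId (Phi : Polynomial (Polynomial ℤ)) (B : Type*) [CommRing B] (ζ : Bˣ) : Prop :=
  Phi.map (evalY (qExpand B p (jqModC B))) =
    (X - C (qExpand B (p * p) (jqModC B))) *
      ∏ b ∈ Finset.range p, (X - C (twist (ζ ^ b) (jqModC B)))

variable {p} in
theorem map_rootsId_lhs {A B : Type*} [CommRing A] [CommRing B] (φ : A →+* B)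
    (Phi : Polynomial (Polynomial ℤ)) :
    (Phi.map (evalY (qExpand A p (jqModC A)))).map (coeffMap φ) =
      Phi.map (evalY (qExpand B p (jqModC B))) := by
  rw [Polynomial.map_map, coeffMap_comp_evalY, coeffMap_qExpand, coeffMap_jqModC]

variable {p} in
theorem map_rootsId_rhs {A B : Type*} [CommRing A] [CommRing B] (φ : A →+* B) (ζ : Aˣ) :
    ((X - C (qExpand A (p * p) (jqModC A))) *
      ∏ b ∈ Finset.range p, (X - C (twist (ζ ^ b) (jqModC A)))).map (coeffMap φ) =
    (X - C (qExpand B (p * p) (jqModC B))) *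
      ∏ b ∈ Finset.range p, (X - C (twist ((Units.map (φ : A →* B) ζ) ^ b) (jqModC B))) := by
  rw [Polynomial.map_mul, Polynomial.map_sub, Polynomial.map_X, Polynomial.map_C,
    coeffMap_qExpand, coeffMap_jqModC, Polynomial.map_prod]
  congr 1
  refine Finset.prod_congr rfl fun b _ => ?_
  rw [Polynomial.map_sub, Polynomial.map_X, Polynomial.map_C, coeffMap_twist, coeffMap_jqModC,
    map_pow]

variable {p} in
theorem RootsId.map {A B : Type*} [CommRing A] [CommRing B] (φ : A →+* B)
    {Phi : Polynomial (Polynomial ℤ)} {ζ : Aˣ} (h : RootsId p Phi A ζ) :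
    RootsId p Phi B (Units.map (φ : A →* B) ζ) := by
  have := congrArg (Polynomial.map (coeffMap φ)) h
  rwa [map_rootsId_lhs, map_rootsId_rhs] at this

variable {p} in
theorem RootsId.of_map {A B : Type*} [CommRing A] [CommRing B] (φ : A →+* B)
    (hφ : Function.Injective φ) {Phi : Polynomial (Polynomial ℤ)} {ζ : Aˣ}
    (h : RootsId p Phi B (Units.map (φ : A →* B) ζ)) : RootsId p Phi A ζ := by
  apply Polynomial.map_injective (coeffMap φ) (coeffMap_injective φ hφ)
  rw [map_rootsId_lhs, map_rootsId_rhs]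
  exact h

section Cyclotomic

omit [NeZero p] in
variable {p} in
theorem pow_eq_one_of_isRoot_cyclotomic {B : Type*} [CommRing B] (hp : p.Prime) {ζ : B}
    (h : (cyclotomic p B).IsRoot ζ) : ζ ^ p = 1 := by
  have : Fact p.Prime := ⟨hp⟩
  have h1 := congrArg (Polynomial.eval ζ) (Polynomial.cyclotomic_prime_mul_X_sub_one B p)
  rw [Polynomial.eval_mul, h.eq_zero, zero_mul] at h1
  simp only [Polynomial.eval_sub, Polynomial.eval_pow, Polynomial.eval_X, Polynomial.eval_one] at h1
  exact (sub_eq_zero.mp h1.symm)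

omit [NeZero p] in
variable {p} in
theorem eval₂_cyclotomic_int {B : Type*} [CommRing B] {ζ : B} (h : (cyclotomic p B).IsRoot ζ) :
    Polynomial.eval₂ (Int.castRingHom B) ζ (cyclotomic p ℤ) = 0 := by
  rw [Polynomial.eval₂_eq_eval_map, Polynomial.map_cyclotomic_int]
  exact h

/-- the universal ring with a root of the `p`-th cyclotomic polynomial -/
abbrev B0 : Type := AdjoinRoot (cyclotomic p ℤ)

omit [NeZero p] in
theorem isRoot_root_B0 : (cyclotomic p (B0 p)).IsRoot (AdjoinRoot.root (cyclotomic p ℤ)) := by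
  have h := AdjoinRoot.eval₂_root (cyclotomic p ℤ)
  rw [show AdjoinRoot.of (cyclotomic p ℤ) = Int.castRingHom _ from RingHom.ext_int _ _,
    Polynomial.eval₂_eq_eval_map, Polynomial.map_cyclotomic_int] at h
  exact h

variable {p} in
/-- the universal root of unity as a unit -/
def zeta0 (hp : p.Prime) : (B0 p)ˣ :=
  Units.ofPowEqOne (AdjoinRoot.root (cyclotomic p ℤ)) p
    (pow_eq_one_of_isRoot_cyclotomic hp (isRoot_root_B0 p)) (NeZero.ne p)

variable {p} in
theorem zeta0_val (hp : p.Prime) : ((zeta0 hp : (B0 p)ˣ) : B0 p) = AdjoinRoot.root _ := rfl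

theorem isRoot_zetaC : (cyclotomic p ℂ).IsRoot (zetaC p : ℂ) :=
  IsPrimitiveRoot.isRoot_cyclotomic (Nat.pos_of_ne_zero (NeZero.ne p))
    (IsPrimitiveRoot.coe_units_iff.mpr (zetaC_isPrimitiveRoot p))

/-- the embedding `ℤ[ζ_p] → ℂ` -/
def iotaC : B0 p →+* ℂ :=
  AdjoinRoot.lift (Int.castRingHom ℂ) (zetaC p : ℂ) (eval₂_cyclotomic_int (isRoot_zetaC p))

theorem iotaC_root : iotaC p (AdjoinRoot.root _) = (zetaC p : ℂ) := AdjoinRoot.lift_root _

theorem iotaC_injective : Function.Injective (iotaC p) := by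
  rw [injective_iff_map_eq_zero]
  intro a ha
  obtain ⟨g, rfl⟩ := AdjoinRoot.mk_surjective a
  rw [iotaC, AdjoinRoot.lift_mk] at ha
  have hprim : IsPrimitiveRoot (zetaC p : ℂ) p :=
    IsPrimitiveRoot.coe_units_iff.mpr (zetaC_isPrimitiveRoot p)
  have hpos : 0 < p := Nat.pos_of_ne_zero (NeZero.ne p)
  have hint : IsIntegral ℤ (zetaC p : ℂ) := hprim.isIntegral hpos
  have hdvd : minpoly ℤ (zetaC p : ℂ) ∣ g :=
    minpoly.isIntegrallyClosed_dvd hint (by rw [Polynomial.aeval_def]; exact ha)
  rw [← Polynomial.cyclotomic_eq_minpoly hprim hpos] at hdvd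
  exact AdjoinRoot.mk_eq_zero.mpr hdvd

variable {p} in
theorem map_zeta0 (hp : p.Prime) : Units.map (iotaC p : B0 p →* ℂ) (zeta0 hp) = zetaC p := by
  ext
  exact iotaC_root p

variable {p} in
/-- ROOTS over `ℂ` implies ROOTS over every ring with a root of the cyclotomic polynomial -/
theorem rootsId_all (hp : p.Prime) {Phi : Polynomial (Polynomial ℤ)}
    (hC : RootsId p Phi ℂ (zetaC p)) (B : Type) [CommRing B] (ζ : Bˣ)
    (hζ : (cyclotomic p B).IsRoot (ζ : B)) : RootsId p Phi B ζ := by
  have h0 : RootsId p Phi (B0 p) (zeta0 hp) :=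
    RootsId.of_map (iotaC p) (iotaC_injective p) (by rw [map_zeta0]; exact hC)
  have h1 := h0.map (AdjoinRoot.lift (Int.castRingHom B) (ζ : B) (eval₂_cyclotomic_int hζ))
  have h2 : Units.map ((AdjoinRoot.lift (Int.castRingHom B) (ζ : B) (eval₂_cyclotomic_int hζ) :
      B0 p →+* B) : B0 p →* B) (zeta0 hp) = ζ := by
    ext
    exact AdjoinRoot.lift_root (eval₂_cyclotomic_int hζ)
  rwa [h2] at h1

end Cyclotomic


section PhiC

theorem prod_JC :
    ∏ i, (X - C (JC p i)) = (X - C (qExpand ℂ (p * p) (jqModC ℂ))) *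
      ∏ b ∈ Finset.range p, (X - C (twist (zetaC p ^ b) (jqModC ℂ))) := by
  rw [Fintype.prod_option,
    ← Fin.prod_univ_eq_prod_range (fun b => X - C (twist (zetaC p ^ b) (jqModC ℂ))) p]
  rfl

variable {p} in
theorem exists_esymm_JC_eq (hp : p.Prime) (h : HANQ3 p) (m : ℕ) :
    ∃ r : Polynomial ℤ, (Finset.univ.val.map (JC p)).esymm m = evalY (tpC p) r := by
  obtain ⟨Q, hQ⟩ := h.1 m
  exact exists_int_poly p _ (esymm_JC_mem p hp m) Q hQ

variable {p} in
theorem exists_esymm_UC_eq (hp : p.Prime) (h : HANQ3 p) (m : ℕ) :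
    ∃ r : Polynomial ℤ, (Finset.univ.val.map (UC p)).esymm m = evalY (tpC p) r := by
  obtain ⟨Q, hQ⟩ := h.2.1 m
  exact exists_int_poly p _ (esymm_UC_mem p hp m) Q hQ

variable {p} in
theorem exists_mixed_eq (hp : p.Prime) (h : HANQ3 p) (s : ℕ) :
    ∃ r : Polynomial ℤ, ∑ i, UC p i * JC p i ^ s = evalY (tpC p) r := by
  obtain ⟨Q, hQ⟩ := h.2.2 s
  exact exists_int_poly p _ (mixed_mem p hp s) Q hQ

variable {p} in
/-- the modular polynomial over `ℂ((u))` -/
theorem exists_Phi (hp : p.Prime) (h : HANQ3 p) :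
    ∃ Phi : Polynomial (Polynomial ℤ), Phi.Monic ∧ Phi.natDegree = p + 1 ∧
      Phi.map (evalY (tpC p)) = ∏ i, (X - C (JC p i)) := by
  obtain ⟨P, hm, hd, hP⟩ := exists_monic_of_esymm (evalY (tpC p)) (JC p)
    (exists_esymm_JC_eq hp h)
  refine ⟨P, hm, ?_, hP⟩
  rw [hd, Fintype.card_option, Fintype.card_fin]

variable {p} in
/-- the polynomial of the conjugate units over `ℂ((u))` -/
theorem exists_Psi (hp : p.Prime) (h : HANQ3 p) :
    ∃ Psi : Polynomial (Polynomial ℤ), Psi.Monic ∧ Psi.natDegree = p + 1 ∧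
      Psi.map (evalY (tpC p)) = ∏ i, (X - C (UC p i)) := by
  obtain ⟨P, hm, hd, hP⟩ := exists_monic_of_esymm (evalY (tpC p)) (UC p)
    (exists_esymm_UC_eq hp h)
  refine ⟨P, hm, ?_, hP⟩
  rw [hd, Fintype.card_option, Fintype.card_fin]

variable {p} in
theorem rootsId_of_map_eq_prod {Phi : Polynomial (Polynomial ℤ)}
    (h : Phi.map (evalY (tpC p)) = ∏ i, (X - C (JC p i))) : RootsId p Phi ℂ (zetaC p) := by
  rw [RootsId, ← prod_JC, ← h, tpC]

end PhiC

end Fermat.Agent.S28.FORMAL
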