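/-
S28, package FORMAL (helper43), part 5: the modular unit `ũ = p^12 Δ(q^p)/Δ(q)`:
it is a root of a monic polynomial `Ψ ∈ ℤ[Y][X]` evaluated at `Y = t` (UNIT-int), and
`ũ · ∂_XΦ(t_p, t) = Γ(t_p, t)` for some `Γ ∈ ℤ[Y][X]`, with `∂_XΦ(t_p, t) = q^{-p²} + …` (UNIT-rat),
over every commutative ring.
-/
import Mathlib
import Fermat.Agent.S28.FormalPhi

set_option autoImplicit false
open ModularCurve Polynomial

noncomputable section

namespace Fermat.Agent.S28.FORMAL

section General

variable {A B : Type*} [CommRing A] [CommRing B]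

theorem eval_map_evalY_qExpand (n : ℕ) [NeZero n] (y x : LaurentSeries B)
    (P : Polynomial (Polynomial ℤ)) :
    Polynomial.eval (qExpand B n x) (P.map (evalY (qExpand B n y))) =
      qExpand B n (Polynomial.eval₂ (evalY y) x P) := by
  rw [Polynomial.eval_map, ← qExpand_comp_evalY, ← Polynomial.hom_eval₂]

theorem eval₂_evalY_coeffMap (φ : A →+* B) (y x : LaurentSeries A)
    (P : Polynomial (Polynomial ℤ)) :
    Polynomial.eval₂ (evalY (coeffMap φ y)) (coeffMap φ x) P =
      coeffMap φ (Polynomial.eval₂ (evalY y) x P) := by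
  rw [← coeffMap_comp_evalY, ← Polynomial.hom_eval₂]

theorem MonicOrd.of_qExpand {g : LaurentSeries B} {m : ℤ} (n : ℕ) [NeZero n]
    (h : MonicOrd (ModularCurve.qExpand B n g) (n * m)) : MonicOrd g m := by
  refine ⟨by rw [← qExpand_coeff_mul n g m]; exact h.1, fun k hk => ?_⟩
  rw [← qExpand_coeff_mul n g k]
  refine h.2 _ ?_
  have hn : (0 : ℤ) < n := by exact_mod_cast Nat.pos_of_ne_zero (NeZero.ne n)
  exact mul_lt_mul_of_pos_left hk hn

theorem MonicOrd.coeffMap (φ : A →+* B) {g : LaurentSeries A} {m : ℤ} (h : MonicOrd g m) :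
    MonicOrd (ModularCurve.coeffMap φ g) m :=
  ⟨by rw [coeffMap_coeff, h.1, map_one], fun k hk => by rw [coeffMap_coeff, h.2 k hk, map_zero]⟩

theorem MonicOrd.of_coeffMap (φ : A →+* B) (hφ : Function.Injective φ) {g : LaurentSeries A}
    {m : ℤ} (h : MonicOrd (ModularCurve.coeffMap φ g) m) : MonicOrd g m :=
  ⟨hφ (by rw [map_one, ← coeffMap_coeff]; exact h.1),
    fun k hk => hφ (by rw [map_zero, ← coeffMap_coeff]; exact h.2 k hk)⟩

theorem MonicOrd.prod {ι : Type*} (s : Finset ι) (f : ι → LaurentSeries B) (m : ℤ)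
    (h : ∀ i ∈ s, MonicOrd (f i) m) : MonicOrd (∏ i ∈ s, f i) (s.card * m) := by
  classical
  induction s using Finset.induction_on with
  | empty => simpa using MonicOrd.one
  | insert a s ha ih =>
    rw [Finset.prod_insert ha, Finset.card_insert_of_notMem ha]
    have h1 : ((s.card + 1 : ℕ) : ℤ) * m = m + s.card * m := by push_cast; ring
    rw [h1]
    exact (h a (Finset.mem_insert_self a s)).mul
      (ih fun i hi => h i (Finset.mem_insert_of_mem hi))

/-- transfer of an identity between "universal" Laurent series from `ℂ` to every ring -/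
theorem eq_zero_of_complex {F : ∀ (R : Type) [CommRing R], LaurentSeries R}
    (hF : ∀ (R R' : Type) [CommRing R] [CommRing R'] (φ : R →+* R'),
      ModularCurve.coeffMap φ (F R) = F R')
    (h : F ℂ = 0) (R : Type) [CommRing R] : F R = 0 := by
  have hZ : F ℤ = 0 := by
    apply coeffMap_injective (Int.castRingHom ℂ) (RingHom.injective_int _)
    rw [hF, h, map_zero]
  rw [← hF ℤ R (Int.castRingHom R), hZ, map_zero]

end General

variable (p : ℕ) [NeZero p]

/-! ### UNIT-int -/

variable {p} in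
theorem psi_eval_eq_zero {Psi : Polynomial (Polynomial ℤ)}
    (hPsi : Psi.map (evalY (tpC p)) = ∏ i, (X - C (UC p i))) (R : Type) [CommRing R] :
    Polynomial.eval₂ (evalY (jqModC R)) (unitInf R p) Psi = 0 := by
  refine eq_zero_of_complex
    (F := fun R _ => Polynomial.eval₂ (evalY (jqModC R)) (unitInf R p) Psi) ?_ ?_ R
  · intro R R' _ _ φ
    rw [← eval₂_evalY_coeffMap, coeffMap_jqModC, coeffMap_unitInf]
  · apply qExpand_injective p
    rw [← eval_map_evalY_qExpand, map_zero]
    show Polynomial.eval (UC p none) (Psi.map (evalY (tpC p))) = 0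
    rw [hPsi, Polynomial.eval_prod]
    exact Finset.prod_eq_zero (Finset.mem_univ none) (by simp)

/-! ### UNIT-rat -/

section UnitRat

/-- the coefficients of `Γ` -/
def gammaCoeff (Phi : Polynomial (Polynomial ℤ)) (QM : ℕ → Polynomial ℤ) (n : ℕ) : Polynomial ℤ :=
  ∑ k ∈ Finset.Icc (n + 1) (p + 1), QM (k - (n + 1)) * Phi.coeff k

/-- `Γ ∈ ℤ[Y][X]` with `Γ(X, t(u^p)) = ∑_i ũ_i ∏_{k ≠ i} (X - J_k)` -/
def gammaPoly (Phi : Polynomial (Polynomial ℤ)) (QM : ℕ → Polynomial ℤ) :
    Polynomial (Polynomial ℤ) :=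
  ∑ n ∈ Finset.range (p + 1), C (gammaCoeff p Phi QM n) * X ^ n

omit [NeZero p] in
theorem gammaPoly_coeff (Phi : Polynomial (Polynomial ℤ)) (QM : ℕ → Polynomial ℤ) (n : ℕ) :
    (gammaPoly p Phi QM).coeff n = gammaCoeff p Phi QM n := by
  rw [gammaPoly, Polynomial.finsetSum_coeff]
  simp_rw [Polynomial.coeff_C_mul_X_pow]
  rw [Finset.sum_ite_eq]
  split_ifs with h
  · rfl
  · rw [Finset.mem_range, not_lt] at h
    rw [gammaCoeff, Finset.Icc_eq_empty (by omega), Finset.sum_empty]

variable {p}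

theorem divByMonic_prod_eq (i : Option (Fin p)) :
    (∏ k, (X - C (JC p k))) /ₘ (X - C (JC p i)) =
      ∏ k ∈ Finset.univ.erase i, (X - C (JC p k)) := by
  rw [← Finset.mul_prod_erase Finset.univ (fun k => X - C (JC p k)) (Finset.mem_univ i)]
  exact Polynomial.mul_divByMonic_cancel_left _ (Polynomial.monic_X_sub_C _)

theorem gammaPoly_map {Phi : Polynomial (Polynomial ℤ)} (hm : Phi.Monic)
    (hd : Phi.natDegree = p + 1)
    (hPhi : Phi.map (evalY (tpC p)) = ∏ i, (X - C (JC p i))) {QM : ℕ → Polynomial ℤ}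
    (hQM : ∀ s, ∑ i, UC p i * JC p i ^ s = evalY (tpC p) (QM s)) :
    (gammaPoly p Phi QM).map (evalY (tpC p)) =
      ∑ i, C (UC p i) * ∏ k ∈ Finset.univ.erase i, (X - C (JC p k)) := by
  have hnat : (Phi.map (evalY (tpC p))).natDegree = p + 1 := by
    rw [hm.natDegree_map, hd]
  refine Polynomial.ext fun n => ?_
  rw [Polynomial.coeff_map, gammaPoly_coeff, gammaCoeff, map_sum, Polynomial.finsetSum_coeff]
  simp_rw [Polynomial.coeff_C_mul, ← divByMonic_prod_eq, ← hPhi,
    Polynomial.coeff_divByMonic_X_sub_C, hnat, Finset.mul_sum]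
  rw [Finset.sum_comm]
  refine Finset.sum_congr rfl fun k _ => ?_
  rw [map_mul, ← hQM, Finset.sum_mul, Polynomial.coeff_map]
  refine Finset.sum_congr rfl fun i _ => ?_
  ring

theorem eval_JC_none_prod_erase (i : Option (Fin p)) (hi : i ≠ none) :
    Polynomial.eval (JC p none) (∏ k ∈ Finset.univ.erase i, (X - C (JC p k))) = 0 := by
  rw [Polynomial.eval_prod]
  exact Finset.prod_eq_zero (Finset.mem_erase.mpr ⟨fun h => hi h.symm, Finset.mem_univ _⟩)
    (by simp)

theorem eval_derivative_prod :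
    Polynomial.eval (JC p none) (Polynomial.derivative (∏ i, (X - C (JC p i)))) =
      Polynomial.eval (JC p none) (∏ k ∈ Finset.univ.erase none, (X - C (JC p k))) := by
  rw [← Finset.mul_prod_erase Finset.univ (fun k => X - C (JC p k)) (Finset.mem_univ none),
    Polynomial.derivative_mul]
  simp

/-- the key identity over `ℂ((u))` -/
theorem unit_rat_complex {Phi : Polynomial (Polynomial ℤ)} (hm : Phi.Monic)
    (hd : Phi.natDegree = p + 1)
    (hPhi : Phi.map (evalY (tpC p)) = ∏ i, (X - C (JC p i))) {QM : ℕ → Polynomial ℤ}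
    (hQM : ∀ s, ∑ i, UC p i * JC p i ^ s = evalY (tpC p) (QM s)) :
    UC p none * Polynomial.eval (JC p none) ((Polynomial.derivative Phi).map (evalY (tpC p))) =
      Polynomial.eval (JC p none) ((gammaPoly p Phi QM).map (evalY (tpC p))) := by
  rw [gammaPoly_map hm hd hPhi hQM, ← Polynomial.derivative_map, hPhi, eval_derivative_prod,
    Polynomial.eval_finsetSum, Finset.sum_eq_single none]
  · rw [Polynomial.eval_mul, Polynomial.eval_C]
  · intro i _ hi
    rw [Polynomial.eval_mul, eval_JC_none_prod_erase i hi, mul_zero]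
  · intro h; exact absurd (Finset.mem_univ _) h

end UnitRat


section UnitRatAll

variable {p}

theorem qExpand_thetaVal_complex (P : Polynomial (Polynomial ℤ)) :
    qExpand ℂ p (Polynomial.eval₂ (evalY (jqModC ℂ)) (qExpand ℂ p (jqModC ℂ)) P) =
      Polynomial.eval (JC p none) (P.map (evalY (tpC p))) := by
  rw [← eval_map_evalY_qExpand, JC_none, tpC]

/-- UNIT-rat, the identity over every commutative ring -/
theorem unit_rat_all {Phi : Polynomial (Polynomial ℤ)} (hm : Phi.Monic)
    (hd : Phi.natDegree = p + 1)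
    (hPhi : Phi.map (evalY (tpC p)) = ∏ i, (X - C (JC p i))) {QM : ℕ → Polynomial ℤ}
    (hQM : ∀ s, ∑ i, UC p i * JC p i ^ s = evalY (tpC p) (QM s)) (R : Type) [CommRing R] :
    unitInf R p * Polynomial.eval₂ (evalY (jqModC R)) (qExpand R p (jqModC R))
        (Polynomial.derivative Phi) =
      Polynomial.eval₂ (evalY (jqModC R)) (qExpand R p (jqModC R)) (gammaPoly p Phi QM) := by
  rw [← sub_eq_zero]
  refine eq_zero_of_complex
    (F := fun R _ => unitInf R p * Polynomial.eval₂ (evalY (jqModC R)) (qExpand R p (jqModC R))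
        (Polynomial.derivative Phi) -
      Polynomial.eval₂ (evalY (jqModC R)) (qExpand R p (jqModC R)) (gammaPoly p Phi QM)) ?_ ?_ R
  · intro R R' _ _ φ
    rw [map_sub, map_mul, coeffMap_unitInf, ← eval₂_evalY_coeffMap, ← eval₂_evalY_coeffMap,
      coeffMap_qExpand, coeffMap_jqModC]
  · apply qExpand_injective p
    rw [map_zero, map_sub, map_mul, qExpand_thetaVal_complex, qExpand_thetaVal_complex,
      sub_eq_zero]
    exact unit_rat_complex hm hd hPhi hQM

omit [NeZero p] in
theorem card_erase_none : (Finset.univ.erase (none : Option (Fin p))).card = p := by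
  rw [Finset.card_erase_of_mem (Finset.mem_univ _), Finset.card_univ, Fintype.card_option,
    Fintype.card_fin, Nat.add_sub_cancel]

theorem monicOrd_JC_none_sub (hp : p.Prime) (k : Option (Fin p)) (hk : k ≠ none) :
    MonicOrd (JC p none - JC p k) (-((p * p : ℕ) : ℤ)) := by
  obtain ⟨b, rfl⟩ := Option.ne_none_iff_exists'.mp hk
  have h1 : MonicOrd (JC p none) (-((p * p : ℕ) : ℤ)) := by
    have := (MonicOrd.jqModC (B := ℂ)).qExpand (p * p)
    rwa [mul_neg_one] at this
  have h2 : LowerBd (JC p (some b)) (-1) := (MonicOrd.jqModC (B := ℂ)).2.twist _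
  refine h1.sub_lowerBd h2 ?_
  have := hp.two_le
  have h3 : (2 : ℤ) ≤ p := by exact_mod_cast this
  push_cast
  nlinarith

/-- `∂_XΦ(t_p, t) = q^{-p²} + …` over every commutative ring -/
theorem thetaVal_monicOrd (hp : p.Prime) {Phi : Polynomial (Polynomial ℤ)}
    (hPhi : Phi.map (evalY (tpC p)) = ∏ i, (X - C (JC p i))) (R : Type) [CommRing R] :
    MonicOrd (Polynomial.eval₂ (evalY (jqModC R)) (qExpand R p (jqModC R))
      (Polynomial.derivative Phi)) (-((p * p : ℕ) : ℤ)) := by
  have hC : MonicOrd (Polynomial.eval₂ (evalY (jqModC ℂ)) (qExpand ℂ p (jqModC ℂ))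
      (Polynomial.derivative Phi)) (-((p * p : ℕ) : ℤ)) := by
    apply MonicOrd.of_qExpand p
    rw [qExpand_thetaVal_complex, ← Polynomial.derivative_map, hPhi, eval_derivative_prod,
      Polynomial.eval_prod]
    have := MonicOrd.prod (Finset.univ.erase (none : Option (Fin p)))
      (fun k => Polynomial.eval (JC p none) (X - C (JC p k))) (-((p * p : ℕ) : ℤ))
      (fun k hk => by
        simp only [Polynomial.eval_sub, Polynomial.eval_X, Polynomial.eval_C]
        exact monicOrd_JC_none_sub hp k (Finset.ne_of_mem_erase hk))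
    rwa [card_erase_none] at this
  have hZ : MonicOrd (Polynomial.eval₂ (evalY (jqModC ℤ)) (qExpand ℤ p (jqModC ℤ))
      (Polynomial.derivative Phi)) (-((p * p : ℕ) : ℤ)) := by
    apply MonicOrd.of_coeffMap (Int.castRingHom ℂ) (RingHom.injective_int _)
    rwa [← eval₂_evalY_coeffMap, coeffMap_qExpand, coeffMap_jqModC]
  have := hZ.coeffMap (Int.castRingHom R)
  rwa [← eval₂_evalY_coeffMap, coeffMap_qExpand, coeffMap_jqModC] at this

end UnitRatAll

/-! ### the fields of `ModEqData` -/

section Fields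

variable {p}

theorem isIntegral_unitInf {Psi : Polynomial (Polynomial ℤ)} (hm : Psi.Monic)
    (hPsi : ∀ (R : Type) [CommRing R],
      Polynomial.eval₂ (evalY (jqModC R)) (unitInf R p) Psi = 0)
    (K' : Type) [Field K'] :
    IsIntegral (Algebra.adjoin K' {jqModC K'}) (unitInf K' p) := by
  set S := Algebra.adjoin K' {jqModC K'} with hS
  let e : Polynomial ℤ →+* S :=
    Polynomial.eval₂RingHom (Int.castRingHom S)
      ⟨jqModC K', Algebra.subset_adjoin (Set.mem_singleton _)⟩
  refine ⟨Psi.map e, hm.map e, ?_⟩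
  rw [Polynomial.eval₂_map]
  have he : (algebraMap S (LaurentSeries K')).comp e = evalY (jqModC K') := by
    refine Polynomial.ringHom_ext (fun a => ?_) ?_
    · simp [e, evalY]
    · simp [e, evalY]
  rw [he]
  exact hPsi K'

theorem evalY_mem {K' : Type} [Field K'] (E : IntermediateField K' (LaurentSeries K'))
    {y : LaurentSeries K'} (hy : y ∈ E) (c : Polynomial ℤ) : evalY y c ∈ E := by
  rw [evalY, Polynomial.coe_eval₂RingHom, Polynomial.eval₂_eq_sum_range]
  refine E.sum_mem fun i _ => E.mul_mem ?_ (E.pow_mem hy i)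
  simp only [eq_intCast]
  exact intCast_mem E _

theorem eval₂_evalY_mem {K' : Type} [Field K'] (E : IntermediateField K' (LaurentSeries K'))
    {y x : LaurentSeries K'} (hy : y ∈ E) (hx : x ∈ E) (P : Polynomial (Polynomial ℤ)) :
    Polynomial.eval₂ (evalY y) x P ∈ E := by
  rw [Polynomial.eval₂_eq_sum_range]
  exact E.sum_mem fun i _ => E.mul_mem (evalY_mem E hy _) (E.pow_mem hx i)

theorem unitInf_mem {Theta Gamma : Polynomial (Polynomial ℤ)}
    (hid : ∀ (R : Type) [CommRing R],
      unitInf R p * Polynomial.eval₂ (evalY (jqModC R)) (qExpand R p (jqModC R)) Theta =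
      Polynomial.eval₂ (evalY (jqModC R)) (qExpand R p (jqModC R)) Gamma)
    (hne : ∀ (R : Type) [CommRing R], MonicOrd
      (Polynomial.eval₂ (evalY (jqModC R)) (qExpand R p (jqModC R)) Theta) (-((p * p : ℕ) : ℤ)))
    (K' : Type) [Field K'] :
    unitInf K' p ∈ IntermediateField.adjoin K' {jqModC K', qExpand K' p (jqModC K')} := by
  set E := IntermediateField.adjoin K' {jqModC K', qExpand K' p (jqModC K')} with hE
  have ht : jqModC K' ∈ E := IntermediateField.subset_adjoin _ _ (Set.mem_insert _ _)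
  have htp : qExpand K' p (jqModC K') ∈ E :=
    IntermediateField.subset_adjoin _ _ (Set.mem_insert_of_mem _ rfl)
  have h0 : Polynomial.eval₂ (evalY (jqModC K')) (qExpand K' p (jqModC K')) Theta ≠ 0 :=
    (hne K').ne_zero
  have h1 : unitInf K' p =
      Polynomial.eval₂ (evalY (jqModC K')) (qExpand K' p (jqModC K')) Gamma *
        (Polynomial.eval₂ (evalY (jqModC K')) (qExpand K' p (jqModC K')) Theta)⁻¹ :=
    (eq_mul_inv_iff_mul_eq₀ h0).mpr (hid K')
  rw [h1]
  exact E.mul_mem (eval₂_evalY_mem E ht htp _) (E.inv_mem (eval₂_evalY_mem E ht htp _))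

end Fields

/-! ### the main theorem of FORMAL -/

variable {p} in
/-- **FORMAL**: the analytic input `HANQ3 p` gives the data `ModEqData p`. -/
theorem modEqData_of_hanq3 (hp : p.Prime) (h : HANQ3 p) : Nonempty (ModEqData p) := by
  obtain ⟨Phi, hPm, hPd, hPhi⟩ := exists_Phi hp h
  obtain ⟨Psi, hSm, -, hPsi⟩ := exists_Psi hp h
  choose QM hQM using exists_mixed_eq hp h
  exact ⟨{
    Phi := Phi
    monic := hPm
    natDegree_eq := hPd
    roots := fun B _ ζ hζ => rootsId_all hp (rootsId_of_map_eq_prod hPhi) B ζ hζ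
    unit_integral := fun K' _ _ _ _ => isIntegral_unitInf hSm (psi_eval_eq_zero hPsi) K'
    unit_mem := fun K' _ _ _ _ =>
      unitInf_mem (unit_rat_all hPm hPd hPhi hQM) (thetaVal_monicOrd hp hPhi) K' }⟩

variable {p} in
/-- the same from the general analytic input `HANQ p` -/
theorem modEqData_of_hanq (hp : p.Prime) (h : HANQ p) : Nonempty (ModEqData p) :=
  modEqData_of_hanq3 hp h.hanq3

/-- `ModEqStatement` from the analytic input at all primes -/
theorem modEqStatement_of_hanq3 (h : ∀ (p : ℕ) [NeZero p], p.Prime → HANQ3 p) : ModEqStatement :=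
  fun p _ hp => modEqData_of_hanq3 hp (h p hp)

end Fermat.Agent.S28.FORMAL
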