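import Mathlib
import Fermat.Agent.S24.JBridge
import Fermat.Agent.S28.Interface

set_option autoImplicit false

noncomputable section

namespace Fermat.Agent.S28.ANQ

open Metric Filter Topology UpperHalfPlane HahnSeries ModularCurve
open Fermat.Agent.S24.JBridge (taylorPS coeff_taylorPS taylorPS_congr taylorPS_mul taylorPS_one
  taylorPS_pow hasSum_taylorPS analyticAt_zero_of_differentiableOn_ball)

local notation "𝕢" => Function.Periodic.qParam

/-! ## Part 1: Taylor series on the unit disc -/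

lemma hasFPowerSeriesOnBall_of_hasSum {a : ℕ → ℂ} {G : ℂ → ℂ}
    (h : ∀ q : ℂ, ‖q‖ < 1 → HasSum (fun m => a m * q ^ m) (G q)) :
    HasFPowerSeriesOnBall G (FormalMultilinearSeries.ofScalars ℂ a) 0 1 := by
  constructor
  · refine le_of_forall_lt_imp_le_of_dense fun r hr ↦ ?_
    lift r to NNReal using hr.ne_top
    apply FormalMultilinearSeries.le_radius_of_summable
    have hr' : ‖((r : ℝ) : ℂ)‖ < 1 := by
      have : (r : ℝ) < 1 := by exact_mod_cast hr
      simpa using this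
    have := (h (r : ℝ) hr').summable.norm
    simpa [FormalMultilinearSeries.ofScalars_norm, norm_mul, norm_pow] using this
  · simp
  · intro y hy
    rw [← ENNReal.coe_one, Metric.eball_coe, NNReal.coe_one, mem_ball_zero_iff] at hy
    simpa [FormalMultilinearSeries.ofScalars_apply_eq, mul_comm] using h y hy

/-- Uniqueness of Taylor coefficients: a function on the unit disc given by a convergent power
series has that power series as its Taylor series. -/
lemma taylorPS_eq_mk_of_hasSum {a : ℕ → ℂ} {G : ℂ → ℂ} (hG : DifferentiableOn ℂ G (ball 0 1))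
    (h : ∀ q : ℂ, ‖q‖ < 1 → HasSum (fun m => a m * q ^ m) (G q)) :
    taylorPS G = PowerSeries.mk a := by
  have h1 := hasFPowerSeriesOnBall_of_hasSum h
  have h2 := hasFPowerSeriesOnBall_of_hasSum (fun q hq => hasSum_taylorPS hG hq)
  have h3 := h1.hasFPowerSeriesAt.eq_formalMultilinearSeries h2.hasFPowerSeriesAt
  have h4 := FormalMultilinearSeries.ofScalars_series_injective ℂ ℂ h3
  ext m
  rw [PowerSeries.coeff_mk]
  exact (congrFun h4 m).symm

lemma taylorPS_const (c : ℂ) : taylorPS (fun _ : ℂ => c) = PowerSeries.C c := by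
  rw [taylorPS_eq_mk_of_hasSum (a := fun m => if m = 0 then c else 0) (differentiableOn_const c)]
  · ext m
    rw [PowerSeries.coeff_mk, PowerSeries.coeff_C]
  · intro q _
    have := hasSum_ite_eq (0 : ℕ) c
    refine this.congr_fun fun m => ?_
    by_cases hm : m = 0
    · subst hm; simp
    · simp [hm]

lemma taylorPS_id : taylorPS (fun q : ℂ => q) = PowerSeries.X := by
  rw [taylorPS_eq_mk_of_hasSum (G := fun q : ℂ => q) (a := fun m => if m = 1 then 1 else 0)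
    differentiableOn_id]
  · ext m
    rw [PowerSeries.coeff_mk, PowerSeries.coeff_X]
  · intro q _
    have := hasSum_ite_eq (1 : ℕ) q
    refine this.congr_fun fun m => ?_
    by_cases hm : m = 1
    · subst hm; simp
    · simp [hm]

lemma taylorPS_add {F G : ℂ → ℂ} (hF : DifferentiableOn ℂ F (ball 0 1))
    (hG : DifferentiableOn ℂ G (ball 0 1)) :
    taylorPS (fun q => F q + G q) = taylorPS F + taylorPS G := by
  rw [taylorPS_eq_mk_of_hasSum (G := fun q => F q + G q)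
    (a := fun m => PowerSeries.coeff m (taylorPS F) + PowerSeries.coeff m (taylorPS G))
    (hF.add hG)]
  · ext m
    rw [PowerSeries.coeff_mk, map_add]
  · intro q hq
    have := (hasSum_taylorPS hF hq).add (hasSum_taylorPS hG hq)
    refine this.congr_fun fun m => ?_
    ring

lemma taylorPS_X_pow_mul {G : ℂ → ℂ} (hG : DifferentiableOn ℂ G (ball 0 1)) (k : ℕ) :
    taylorPS (fun q => q ^ k * G q) = PowerSeries.X ^ k * taylorPS G := by
  have hid : AnalyticAt ℂ (fun q : ℂ => q) 0 := analyticAt_id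
  have h1 : (fun q : ℂ => q ^ k * G q) = (fun q : ℂ => q) ^ k * G := by
    funext q; simp
  rw [h1, taylorPS_mul (hid.pow k) (analyticAt_zero_of_differentiableOn_ball hG),
    taylorPS_pow hid, taylorPS_id]

/-- Taylor series of `q ↦ d * G (c * q ^ n)`. -/
lemma taylorPS_comp_monomial {G : ℂ → ℂ} (hG : DifferentiableOn ℂ G (ball 0 1)) (c d : ℂ)
    (hc : ‖c‖ ≤ 1) (n : ℕ) (hn : n ≠ 0) :
    DifferentiableOn ℂ (fun q => d * G (c * q ^ n)) (ball 0 1) ∧
    taylorPS (fun q => d * G (c * q ^ n)) = PowerSeries.mk fun k =>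
      if n ∣ k then d * c ^ (k / n) * PowerSeries.coeff (k / n) (taylorPS G) else 0 := by
  have hmaps : ∀ q : ℂ, ‖q‖ < 1 → ‖c * q ^ n‖ < 1 := by
    intro q hq
    rw [norm_mul, norm_pow]
    calc ‖c‖ * ‖q‖ ^ n ≤ 1 * ‖q‖ ^ n := by gcongr
      _ = ‖q‖ ^ n := one_mul _
      _ < 1 := pow_lt_one₀ (norm_nonneg _) hq hn
  have hdiff : DifferentiableOn ℂ (fun q => d * G (c * q ^ n)) (ball 0 1) := by
    refine DifferentiableOn.const_mul ?_ d
    refine hG.comp (f := fun q : ℂ => c * q ^ n) ?_ ?_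
    · exact ((differentiable_id.pow n).const_mul c).differentiableOn
    · intro q hq
      simpa using hmaps q (by simpa using hq)
  refine ⟨hdiff, ?_⟩
  rw [taylorPS_eq_mk_of_hasSum hdiff]
  intro q hq
  have h0 := (hasSum_taylorPS hG (hmaps q hq)).mul_left d
  have hinj : Function.Injective (fun j : ℕ => n * j) := fun a b hab =>
    Nat.eq_of_mul_eq_mul_left (Nat.pos_of_ne_zero hn) hab
  rw [← hinj.hasSum_iff]
  · refine h0.congr_fun fun j => ?_
    simp only [Function.comp_apply]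
    rw [if_pos (Dvd.intro j rfl), Nat.mul_div_cancel_left j (Nat.pos_of_ne_zero hn), mul_pow,
      pow_mul]
    ring
  · intro k hk
    rw [if_neg, zero_mul]
    rintro ⟨j, rfl⟩
    exact hk ⟨j, rfl⟩

/-! ## Part 2: Laurent series `q^(-m) * A(q)` -/

/-- The Laurent series `q^(-m) * A(q)`. -/
def lau (m : ℕ) (A : PowerSeries ℂ) : LaurentSeries ℂ :=
  HahnSeries.single (-(m : ℤ)) (1 : ℂ) * HahnSeries.ofPowerSeries ℤ ℂ A

lemma lau_coeff (m : ℕ) (A : PowerSeries ℂ) (n : ℤ) :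
    (lau m A).coeff n = if 0 ≤ n + m then PowerSeries.coeff (n + m).toNat A else 0 := by
  rw [lau, HahnSeries.coeff_single_mul, one_mul, sub_neg_eq_add]
  split_ifs with h
  · obtain ⟨k, hk⟩ := Int.eq_ofNat_of_zero_le h
    rw [hk, HahnSeries.ofPowerSeries_apply_coeff, Int.toNat_natCast]
  · exact ModularCurve.ofPowerSeries_coeff_of_neg A (not_le.mp h)

lemma lau_coeff_natCast_sub (m : ℕ) (A : PowerSeries ℂ) (k : ℕ) :
    (lau m A).coeff ((k : ℤ) - m) = PowerSeries.coeff k A := by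
  rw [lau_coeff, if_pos (by omega), show ((k : ℤ) - m + m).toNat = k by omega]

lemma lau_zero (A : PowerSeries ℂ) : lau 0 A = HahnSeries.ofPowerSeries ℤ ℂ A := by
  rw [lau]
  simp

lemma lau_mul_lau (m m' : ℕ) (A A' : PowerSeries ℂ) :
    lau m A * lau m' A' = lau (m + m') (A * A') := by
  rw [lau, lau, lau, map_mul, mul_mul_mul_comm, HahnSeries.single_mul_single, mul_one]
  congr 2
  push_cast
  ring_nf

lemma lau_add_X_pow_mul (m k : ℕ) (A : PowerSeries ℂ) :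
    lau (m + k) (PowerSeries.X ^ k * A) = lau m A := by
  rw [lau, lau, map_mul, map_pow, HahnSeries.ofPowerSeries_X, HahnSeries.single_pow, one_pow,
    ← mul_assoc, HahnSeries.single_mul_single, mul_one]
  congr 2
  simp only [nsmul_eq_mul, mul_one]
  push_cast
  ring_nf

lemma lau_add_lau (m m' : ℕ) (A A' : PowerSeries ℂ) :
    lau m A + lau m' A' = lau (m + m') (PowerSeries.X ^ m' * A + PowerSeries.X ^ m * A') := by
  conv_lhs => rw [← lau_add_X_pow_mul m m' A, ← lau_add_X_pow_mul m' m A', add_comm m' m]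
  rw [lau, lau, lau, ← mul_add, ← map_add]

lemma lau_eq_lau_of_eq {m m' : ℕ} {A A' : PowerSeries ℂ}
    (h : PowerSeries.X ^ m' * A = PowerSeries.X ^ m * A') : lau m A = lau m' A' := by
  rw [← lau_add_X_pow_mul m m' A, h, add_comm, lau_add_X_pow_mul]

/-! ## Part 3: functions on `ℍ` with a Laurent expansion at `i∞` -/

/-- `f` has the Laurent expansion `E` in the local parameter `𝕢 h` at `i∞`: there are `m` and a
holomorphic function `G` on the unit disc with `f = G(𝕢 h) / 𝕢 h ^ m` and `E = q^(-m) * Taylor(G)`. -/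
def HasDiscExp (h : ℕ) (f : ℍ → ℂ) (E : LaurentSeries ℂ) : Prop :=
  ∃ (m : ℕ) (G : ℂ → ℂ), DifferentiableOn ℂ G (ball 0 1) ∧
    (∀ τ : ℍ, f τ * 𝕢 h τ ^ m = G (𝕢 h τ)) ∧ E = lau m (taylorPS G)

lemma continuousAt_zero_of_differentiableOn_ball {G : ℂ → ℂ}
    (hG : DifferentiableOn ℂ G (ball 0 1)) : ContinuousAt G 0 :=
  (analyticAt_zero_of_differentiableOn_ball hG).continuousAt

lemma differentiableOn_pow_mul {G : ℂ → ℂ} (hG : DifferentiableOn ℂ G (ball 0 1)) (k : ℕ) :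
    DifferentiableOn ℂ (fun q => q ^ k * G q) (ball 0 1) :=
  ((differentiable_id.pow k).differentiableOn).mul hG

lemma algebraMap_eq_C (c : ℂ) : algebraMap ℂ (LaurentSeries ℂ) c = HahnSeries.C c := by
  have h1 : algebraMap ℂ (PowerSeries ℂ) c = PowerSeries.C c := by simp
  rw [HahnSeries.algebraMap_apply', h1, HahnSeries.ofPowerSeries_C]

namespace HasDiscExp

variable {h : ℕ} {f g : ℍ → ℂ} {E E' : LaurentSeries ℂ}

lemma congr (hf : HasDiscExp h f E) (hfg : ∀ τ, g τ = f τ) : HasDiscExp h g E := by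
  obtain ⟨m, F, hF, hFe, rfl⟩ := hf
  exact ⟨m, F, hF, fun τ => by rw [hfg, hFe], rfl⟩

lemma const (h : ℕ) (c : ℂ) : HasDiscExp h (fun _ => c) (HahnSeries.C c) :=
  ⟨0, fun _ => c, differentiableOn_const c, fun τ => by simp, by
    rw [taylorPS_const, lau_zero]
    exact (HahnSeries.ofPowerSeries_C c).symm⟩

lemma mul (hf : HasDiscExp h f E) (hg : HasDiscExp h g E') :
    HasDiscExp h (fun τ => f τ * g τ) (E * E') := by
  obtain ⟨m, F, hF, hFe, rfl⟩ := hf
  obtain ⟨m', G, hG, hGe, rfl⟩ := hg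
  refine ⟨m + m', fun q => F q * G q, hF.mul hG, fun τ => ?_, ?_⟩
  · show f τ * g τ * 𝕢 h τ ^ (m + m') = F (𝕢 h τ) * G (𝕢 h τ)
    rw [← hFe, ← hGe, _root_.pow_add]
    ring
  · rw [lau_mul_lau, ← taylorPS_mul (analyticAt_zero_of_differentiableOn_ball hF)
      (analyticAt_zero_of_differentiableOn_ball hG)]
    rfl

lemma add (hf : HasDiscExp h f E) (hg : HasDiscExp h g E') :
    HasDiscExp h (fun τ => f τ + g τ) (E + E') := by
  obtain ⟨m, F, hF, hFe, rfl⟩ := hf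
  obtain ⟨m', G, hG, hGe, rfl⟩ := hg
  refine ⟨m + m', fun q => q ^ m' * F q + q ^ m * G q,
    (differentiableOn_pow_mul hF m').add (differentiableOn_pow_mul hG m), fun τ => ?_, ?_⟩
  · show (f τ + g τ) * 𝕢 h τ ^ (m + m') = 𝕢 h τ ^ m' * F (𝕢 h τ) + 𝕢 h τ ^ m * G (𝕢 h τ)
    rw [← hFe, ← hGe, _root_.pow_add]
    ring
  · rw [lau_add_lau, taylorPS_add (differentiableOn_pow_mul hF m') (differentiableOn_pow_mul hG m),
      taylorPS_X_pow_mul hF, taylorPS_X_pow_mul hG]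

/-- Uniqueness of the Laurent expansion. -/
lemma unique [NeZero h] (h1 : HasDiscExp h f E) (h2 : HasDiscExp h f E') : E = E' := by
  obtain ⟨m, F, hF, hFe, rfl⟩ := h1
  obtain ⟨m', G, hG, hGe, rfl⟩ := h2
  apply lau_eq_lau_of_eq
  rw [← taylorPS_X_pow_mul hF, ← taylorPS_X_pow_mul hG]
  apply taylorPS_congr
  have hh : (0 : ℝ) < h := by exact_mod_cast Nat.pos_of_ne_zero (NeZero.ne h)
  have hpunct : ∀ q : ℂ, ‖q‖ < 1 → q ≠ 0 → q ^ m' * F q = q ^ m * G q := by
    intro q hq hq0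
    have him := Function.Periodic.im_invQParam_pos_of_norm_lt_one hh hq hq0
    have hτ : 𝕢 h ((⟨Function.Periodic.invQParam h q, him⟩ : ℍ) : ℂ) = q :=
      Function.Periodic.qParam_right_inv hh.ne' hq0
    have e1 := hFe ⟨Function.Periodic.invQParam h q, him⟩
    have e2 := hGe ⟨Function.Periodic.invQParam h q, him⟩
    rw [hτ] at e1 e2
    rw [← e1, ← e2]
    ring
  have hc1 : ContinuousAt (fun q => q ^ m' * F q) 0 :=
    continuousAt_zero_of_differentiableOn_ball (differentiableOn_pow_mul hF m')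
  have hc2 : ContinuousAt (fun q => q ^ m * G q) 0 :=
    continuousAt_zero_of_differentiableOn_ball (differentiableOn_pow_mul hG m)
  refine (hc1.eventuallyEq_nhds_iff_eventuallyEq_nhdsNE hc2).mp ?_
  filter_upwards [self_mem_nhdsWithin, nhdsWithin_le_nhds (ball_mem_nhds (0 : ℂ) one_pos)]
    with q hq0 hq
  exact hpunct q (by simpa using hq) hq0


lemma mvAeval {ι : Type*} {x : ι → ℍ → ℂ} {X : ι → LaurentSeries ℂ}
    (hx : ∀ i, HasDiscExp h (x i) (X i)) (P : MvPolynomial ι ℂ) :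
    HasDiscExp h (fun τ => MvPolynomial.aeval (fun i => x i τ) P) (MvPolynomial.aeval X P) := by
  induction P using MvPolynomial.induction_on with
  | C c =>
    simp only [MvPolynomial.aeval_C, algebraMap_eq_C]
    exact const h c
  | add P Q hP hQ =>
    simp only [map_add]
    exact hP.add hQ
  | mul_X P i hP =>
    simp only [map_mul, MvPolynomial.aeval_X]
    exact hP.mul (hx i)

lemma polyAeval (hf : HasDiscExp h f E) (Q : Polynomial ℂ) :
    HasDiscExp h (fun τ => Q.eval (f τ)) (Polynomial.aeval E Q) := by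
  induction Q using Polynomial.induction_on with
  | C c =>
    simp only [Polynomial.eval_C, Polynomial.aeval_C, algebraMap_eq_C]
    exact const h c
  | add P Q hP hQ =>
    simp only [Polynomial.eval_add, map_add]
    exact hP.add hQ
  | monomial n c hn =>
    simp only [pow_succ, ← mul_assoc, Polynomial.eval_mul, Polynomial.eval_X, map_mul,
      Polynomial.aeval_X] at hn ⊢
    exact hn.mul hf

/-- Monomial substitution: if `g τ = f σ` where the parameters are related by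
`𝕢 h σ = c * 𝕢 h' τ ^ n`, then the expansion of `g` is obtained from the one of `f`
by `q ↦ c q ^ n`. -/
lemma subst {h h' : ℕ} {f g : ℍ → ℂ} {E : LaurentSeries ℂ} (hf : HasDiscExp h f E) (c : ℂˣ)
    (hc : ‖(c : ℂ)‖ = 1) (n : ℕ) [NeZero n]
    (hg : ∀ τ : ℍ, ∃ σ : ℍ, g τ = f σ ∧ 𝕢 h σ = c * 𝕢 h' τ ^ n) :
    HasDiscExp h' g (qExpand ℂ n (twist c E)) := by
  obtain ⟨m, F, hF, hFe, rfl⟩ := hf
  have hn : n ≠ 0 := NeZero.ne n
  have hcc : ((c⁻¹ : ℂˣ) : ℂ) ^ m * (c : ℂ) ^ m = 1 := by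
    rw [← mul_pow, ← Units.val_mul, inv_mul_cancel, Units.val_one, one_pow]
  obtain ⟨hdiff, htay⟩ := taylorPS_comp_monomial hF (c : ℂ) (((c⁻¹ : ℂˣ) : ℂ) ^ m) hc.le n hn
  refine ⟨n * m, fun q => ((c⁻¹ : ℂˣ) : ℂ) ^ m * F (c * q ^ n), hdiff, fun τ => ?_, ?_⟩
  · obtain ⟨σ, hgσ, hσ⟩ := hg τ
    show g τ * 𝕢 h' τ ^ (n * m) = ((c⁻¹ : ℂˣ) : ℂ) ^ m * F (c * 𝕢 h' τ ^ n)
    rw [← hσ, ← hFe σ, hgσ, hσ, mul_pow, ← pow_mul]
    linear_combination (-(f σ * 𝕢 h' τ ^ (n * m))) * hcc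
  · rw [htay]
    ext k
    by_cases hk : (n : ℤ) ∣ k
    · obtain ⟨j, rfl⟩ := hk
      rw [qExpand_coeff_mul, twist_coeff, lau_coeff, lau_coeff]
      by_cases hj : 0 ≤ j + m
      · obtain ⟨i, hi⟩ := Int.eq_ofNat_of_zero_le hj
        have h1 : (n : ℤ) * j + ((n * m : ℕ) : ℤ) = ((n * i : ℕ) : ℤ) := by
          push_cast
          rw [← hi]
          ring
        rw [if_pos hj, h1, if_pos (Int.natCast_nonneg _), hi, Int.toNat_natCast, Int.toNat_natCast,
          PowerSeries.coeff_mk, if_pos (Dvd.intro i rfl),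
          Nat.mul_div_cancel_left i (Nat.pos_of_ne_zero hn)]
        have h2 : ((c ^ j : ℂˣ) : ℂ) = ((c⁻¹ : ℂˣ) : ℂ) ^ m * (c : ℂ) ^ i := by
          rw [← Units.val_pow_eq_pow_val, ← Units.val_pow_eq_pow_val, ← Units.val_mul]
          congr 1
          rw [← zpow_natCast c i, ← hi, inv_pow, ← zpow_natCast c m, ← zpow_neg, ← zpow_add]
          congr 1
          ring
        rw [h2]
      · have h1 : ¬ (0 ≤ (n : ℤ) * j + ((n * m : ℕ) : ℤ)) := by
          push_cast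
          rw [← mul_add]
          have : (0 : ℤ) < n := by exact_mod_cast Nat.pos_of_ne_zero hn
          nlinarith
        rw [if_neg hj, if_neg h1, mul_zero]
    · rw [qExpand_coeff_of_not_dvd n _ hk, lau_coeff]
      split_ifs with h0
      · rw [PowerSeries.coeff_mk, if_neg]
        intro hdvd
        apply hk
        have h3 : ((k + ((n * m : ℕ) : ℤ)).toNat : ℤ) = k + ((n * m : ℕ) : ℤ) := Int.toNat_of_nonneg h0
        have h4 : (n : ℤ) ∣ k + ((n * m : ℕ) : ℤ) := by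
          rw [← h3]
          exact Int.natCast_dvd_natCast.mpr hdvd
        have h5 : (n : ℤ) ∣ ((n * m : ℕ) : ℤ) := by
          push_cast
          exact Dvd.intro _ rfl
        exact (Int.dvd_add_left h5).mp h4
      · rfl

end HasDiscExp

/-! ## Part 4: the basic modular functions at level one -/

open Fermat.Agent.S24.JBridge (jFun etaDisc differentiableOn_etaDisc taylorPS_etaDisc
  etaDisc_ne_zero discriminant_eq_qParam_mul_etaDisc jNumDisc differentiableOn_jNumDisc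
  taylorPS_jNumDisc jNumDisc_qParam)

local notation "Δ" => ModularForm.discriminant

lemma hasDiscExp_jFun : HasDiscExp 1 jFun (jqModC ℂ) := by
  refine ⟨1, jNumDisc, differentiableOn_jNumDisc, fun τ => ?_, ?_⟩
  · rw [pow_one, Nat.cast_one, jNumDisc_qParam τ, mul_comm]
  · rw [taylorPS_jNumDisc, lau, jqModC, Nat.cast_one]

lemma differentiableOn_etaDisc_pow :
    DifferentiableOn ℂ (fun q => etaDisc q ^ 24) (ball 0 1) :=
  differentiableOn_etaDisc.pow 24

lemma taylorPS_etaDisc_pow :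
    taylorPS (fun q => etaDisc q ^ 24) = (dedekindEtaUnit.map (Int.castRingHom ℂ)) := by
  have h : (fun q => etaDisc q ^ 24) = etaDisc ^ 24 := rfl
  rw [h, taylorPS_pow (analyticAt_zero_of_differentiableOn_ball differentiableOn_etaDisc),
    taylorPS_etaDisc, dedekindEtaUnit, map_pow]

lemma hasDiscExp_delta : HasDiscExp 1 (fun τ => Δ τ) (deltaQ ℂ) := by
  refine ⟨0, fun q => q ^ 1 * (etaDisc q ^ 24),
    differentiableOn_pow_mul differentiableOn_etaDisc_pow 1, fun τ => ?_, ?_⟩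
  · show Δ τ * 𝕢 ((1 : ℕ) : ℝ) τ ^ 0 = 𝕢 ((1 : ℕ) : ℝ) τ ^ 1 * etaDisc (𝕢 ((1 : ℕ) : ℝ) τ) ^ 24
    rw [pow_zero, mul_one, discriminant_eq_qParam_mul_etaDisc, pow_one, Nat.cast_one]
  · rw [taylorPS_X_pow_mul differentiableOn_etaDisc_pow 1, taylorPS_etaDisc_pow, lau_zero, deltaQ,
      map_mul, pow_one, HahnSeries.ofPowerSeries_X]

lemma hasDiscExp_delta_inv : HasDiscExp 1 (fun τ => (Δ τ)⁻¹) (deltaInvQ ℂ) := by
  have hne : ∀ q ∈ ball (0 : ℂ) 1, etaDisc q ^ 24 ≠ 0 := fun q hq =>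
    pow_ne_zero _ (etaDisc_ne_zero (by simpa using hq))
  have hd : DifferentiableOn ℂ (fun q => (etaDisc q ^ 24)⁻¹) (ball 0 1) :=
    differentiableOn_etaDisc_pow.inv hne
  refine ⟨1, fun q => (etaDisc q ^ 24)⁻¹, hd, fun τ => ?_, ?_⟩
  · have hq0 : 𝕢 1 (τ : ℂ) ≠ 0 := Function.Periodic.qParam_ne_zero _
    have hq : ‖𝕢 1 (τ : ℂ)‖ < 1 := Function.Periodic.norm_qParam_lt_one one_pos τ.im_pos
    have hne' : etaDisc (𝕢 1 τ) ^ 24 ≠ 0 := pow_ne_zero _ (etaDisc_ne_zero hq)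
    show (Δ τ)⁻¹ * 𝕢 ((1 : ℕ) : ℝ) τ ^ 1 = (etaDisc (𝕢 ((1 : ℕ) : ℝ) τ) ^ 24)⁻¹
    rw [discriminant_eq_qParam_mul_etaDisc, pow_one, Nat.cast_one]
    field_simp
  · have hA := analyticAt_zero_of_differentiableOn_ball hd
    have hB := analyticAt_zero_of_differentiableOn_ball differentiableOn_etaDisc_pow
    have h1 : taylorPS (fun q => (etaDisc q ^ 24)⁻¹) * dedekindEtaUnit.map (Int.castRingHom ℂ)
        = 1 := by
      rw [← taylorPS_etaDisc_pow, ← taylorPS_mul hA hB, ← taylorPS_one]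
      apply taylorPS_congr
      filter_upwards [ball_mem_nhds (0 : ℂ) one_pos] with q hq
      simp only [Pi.mul_apply, Pi.one_apply]
      exact inv_mul_cancel₀ (hne q hq)
    have h2 : dedekindEtaUnit.map (Int.castRingHom ℂ) * dedekindEtaUnitInv.map (Int.castRingHom ℂ)
        = 1 := by
      rw [← map_mul, dedekindEtaUnit_mul_inv, map_one]
    have h3 : taylorPS (fun q => (etaDisc q ^ 24)⁻¹) = dedekindEtaUnitInv.map (Int.castRingHom ℂ) := by
      calc taylorPS (fun q => (etaDisc q ^ 24)⁻¹)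
          = taylorPS (fun q => (etaDisc q ^ 24)⁻¹) * (dedekindEtaUnit.map (Int.castRingHom ℂ)
              * dedekindEtaUnitInv.map (Int.castRingHom ℂ)) := by rw [h2, mul_one]
        _ = dedekindEtaUnitInv.map (Int.castRingHom ℂ) := by rw [← mul_assoc, h1, one_mul]
    rw [h3, lau, deltaInvQ, Nat.cast_one]

lemma deltaQ_mul_deltaInvQ : deltaQ ℂ * deltaInvQ ℂ = 1 := by
  rw [deltaQ, deltaInvQ, mul_mul_mul_comm, HahnSeries.single_mul_single, ← map_mul, ← map_mul,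
    dedekindEtaUnit_mul_inv]
  simp

/-! ## Part 5: level `p` -/

section LevelP

variable (p : ℕ) [NeZero p]

/-- `ζ_p = exp(2πi/p)` as a unit of `ℂ`. -/
def zetaU : ℂˣ := Units.mk0 (Complex.exp (2 * Real.pi * Complex.I / p)) (Complex.exp_ne_zero _)

omit [NeZero p] in
lemma zetaU_val : (zetaU p : ℂ) = Complex.exp (2 * Real.pi * Complex.I / p) := rfl

lemma zetaU_isPrimitiveRoot : IsPrimitiveRoot (zetaU p : ℂ) p :=
  Complex.isPrimitiveRoot_exp p (NeZero.ne p)

omit [NeZero p] in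
lemma norm_zetaU_pow (b : ℕ) : ‖((zetaU p ^ b : ℂˣ) : ℂ)‖ = 1 := by
  rw [Units.val_pow_eq_pow_val, norm_pow, zetaU_val]
  have : (2 * Real.pi * Complex.I / p : ℂ) = ((2 * Real.pi / p : ℝ) : ℂ) * Complex.I := by
    push_cast
    ring
  rw [this, Complex.norm_exp_ofReal_mul_I, one_pow]

/-- `τ ↦ p τ` on the upper half plane. -/
def mulH (τ : ℍ) : ℍ := ⟨(p : ℂ) * τ, by
  have hp : (0 : ℝ) < p := by exact_mod_cast Nat.pos_of_ne_zero (NeZero.ne p)
  have : ((p : ℂ) * τ).im = p * τ.im := by simp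
  rw [this]
  exact mul_pos hp τ.im_pos⟩

/-- `τ ↦ (τ + b) / p` on the upper half plane. -/
def affH (b : ℕ) (τ : ℍ) : ℍ := ⟨((τ : ℂ) + b) / p, by
  have hp : (0 : ℝ) < p := by exact_mod_cast Nat.pos_of_ne_zero (NeZero.ne p)
  have : (((τ : ℂ) + b) / p).im = τ.im / p := by
    rw [Complex.div_natCast_im]
    simp
  rw [this]
  exact div_pos τ.im_pos hp⟩

@[simp] lemma coe_mulH (τ : ℍ) : ((mulH p τ : ℍ) : ℂ) = (p : ℂ) * τ := rfl

@[simp] lemma coe_affH (b : ℕ) (τ : ℍ) : ((affH p b τ : ℍ) : ℂ) = ((τ : ℂ) + b) / p := rfl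

lemma qParam_mulH (τ : ℍ) :
    𝕢 ((1 : ℕ) : ℝ) (mulH p τ : ℂ) = ((1 : ℂˣ) : ℂ) * 𝕢 ((p : ℕ) : ℝ) (τ : ℂ) ^ (p * p) := by
  have hp : (p : ℂ) ≠ 0 := by exact_mod_cast NeZero.ne p
  rw [Units.val_one, one_mul, Function.Periodic.qParam, Function.Periodic.qParam,
    ← Complex.exp_nat_mul, coe_mulH]
  congr 1
  push_cast
  field_simp

lemma qParam_affH (b : ℕ) (τ : ℍ) :
    𝕢 ((1 : ℕ) : ℝ) (affH p b τ : ℂ)
      = ((zetaU p ^ b : ℂˣ) : ℂ) * 𝕢 ((p : ℕ) : ℝ) (τ : ℂ) ^ 1 := by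
  have hp : (p : ℂ) ≠ 0 := by exact_mod_cast NeZero.ne p
  rw [Units.val_pow_eq_pow_val, zetaU_val, pow_one, Function.Periodic.qParam,
    Function.Periodic.qParam, ← Complex.exp_nat_mul, ← Complex.exp_add, coe_affH]
  congr 1
  push_cast
  field_simp
  ring

lemma qParam_level (τ : ℍ) :
    𝕢 ((1 : ℕ) : ℝ) (τ : ℂ) = ((1 : ℂˣ) : ℂ) * 𝕢 ((p : ℕ) : ℝ) (τ : ℂ) ^ p := by
  have hp : (p : ℂ) ≠ 0 := by exact_mod_cast NeZero.ne p
  rw [Units.val_one, one_mul, Function.Periodic.qParam, Function.Periodic.qParam,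
    ← Complex.exp_nat_mul]
  congr 1
  push_cast
  field_simp

variable {p}

lemma HasDiscExp.comp_mulH {f : ℍ → ℂ} {E : LaurentSeries ℂ} (hf : HasDiscExp 1 f E) :
    HasDiscExp p (fun τ => f (mulH p τ)) (qExpand ℂ (p * p) E) := by
  have := hf.subst (h' := p) (g := fun τ => f (mulH p τ)) 1 (by simp) (p * p)
    (fun τ => ⟨mulH p τ, rfl, qParam_mulH p τ⟩)
  rwa [twist_one] at this

lemma HasDiscExp.comp_affH {f : ℍ → ℂ} {E : LaurentSeries ℂ} (hf : HasDiscExp 1 f E) (b : ℕ) :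
    HasDiscExp p (fun τ => f (affH p b τ)) (twist (zetaU p ^ b) E) := by
  have := hf.subst (h' := p) (g := fun τ => f (affH p b τ)) (zetaU p ^ b) (norm_zetaU_pow p b) 1
    (fun τ => ⟨affH p b τ, rfl, qParam_affH p b τ⟩)
  rwa [qExpand_one_apply] at this

lemma HasDiscExp.toLevel {f : ℍ → ℂ} {E : LaurentSeries ℂ} (hf : HasDiscExp 1 f E) :
    HasDiscExp p f (qExpand ℂ p E) := by
  have := hf.subst (h' := p) (g := f) 1 (by simp) p (fun τ => ⟨τ, rfl, qParam_level p τ⟩)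
  rwa [twist_one] at this

/-! ## Part 6: the formal identities -/

variable (p)

/-- The formal conjugates of `j`: `t(q^{p²})` and `t(ζ^b q)`, `b < p`. -/
def Jhat : Option (Fin p) → LaurentSeries ℂ
  | none => qExpand ℂ (p * p) (jqModC ℂ)
  | some b => twist (zetaU p ^ (b : ℕ)) (jqModC ℂ)

/-- The formal conjugates of the modular unit: `p^12 Δ(q^{p²})/Δ(q^p)` and `Δ(ζ^b q)/Δ(q^p)`. -/
def Uhat : Option (Fin p) → LaurentSeries ℂ
  | none => HahnSeries.C ((p : ℂ) ^ 12) * qExpand ℂ (p * p) (deltaQ ℂ) * qExpand ℂ p (deltaInvQ ℂ)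
  | some b => twist (zetaU p ^ (b : ℕ)) (deltaQ ℂ) * qExpand ℂ p (deltaInvQ ℂ)

lemma qExpand_deltaInvQ : qExpand ℂ p (deltaInvQ ℂ) = (qExpand ℂ p (deltaQ ℂ))⁻¹ := by
  refine eq_inv_of_mul_eq_one_right ?_
  rw [← map_mul, deltaQ_mul_deltaInvQ, map_one]

variable {p}

/-- **Transfer principle.**  Any polynomial identity `P(J_i, ũ_i) = Q(j)` between the analytic
conjugates (as functions on `ℍ`) holds for the formal conjugates in `ℂ((q))`, `q = e^{2πiτ/p}`. -/
theorem formal_of_analytic (Jf Uf : Option (Fin p) → ℍ → ℂ)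
    (hJ0 : ∀ τ σ : ℍ, (σ : ℂ) = (p : ℂ) * τ → Jf none τ = jFun σ)
    (hJb : ∀ (b : Fin p) (τ σ : ℍ), (σ : ℂ) = ((τ : ℂ) + (b : ℕ)) / p → Jf (some b) τ = jFun σ)
    (hU0 : ∀ τ σ : ℍ, (σ : ℂ) = (p : ℂ) * τ → Uf none τ = (p : ℂ) ^ 12 * Δ σ / Δ τ)
    (hUb : ∀ (b : Fin p) (τ σ : ℍ), (σ : ℂ) = ((τ : ℂ) + (b : ℕ)) / p →
      Uf (some b) τ = Δ σ / Δ τ)
    (P : MvPolynomial (Option (Fin p) ⊕ Option (Fin p)) ℂ) (Q : Polynomial ℂ)
    (hPQ : ∀ τ : ℍ, MvPolynomial.aeval (Sum.elim (fun i => Jf i τ) (fun i => Uf i τ)) P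
      = Q.eval (jFun τ)) :
    MvPolynomial.aeval (Sum.elim (Jhat p) (Uhat p)) P
      = Polynomial.aeval (qExpand ℂ p (jqModC ℂ)) Q := by
  have hJ : ∀ i, HasDiscExp p (Jf i) (Jhat p i) := by
    rintro (_ | b)
    · exact (hasDiscExp_jFun.comp_mulH (p := p)).congr fun τ => hJ0 τ (mulH p τ) rfl
    · exact (hasDiscExp_jFun.comp_affH (p := p) (b : ℕ)).congr
        fun τ => hJb b τ (affH p b τ) rfl
  have hDinv : HasDiscExp p (fun τ => (Δ τ)⁻¹) (qExpand ℂ p (deltaInvQ ℂ)) :=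
    hasDiscExp_delta_inv.toLevel
  have hU : ∀ i, HasDiscExp p (Uf i) (Uhat p i) := by
    rintro (_ | b)
    · refine (((HasDiscExp.const p ((p : ℂ) ^ 12)).mul
        (hasDiscExp_delta.comp_mulH (p := p))).mul hDinv).congr fun τ => ?_
      rw [hU0 τ (mulH p τ) rfl, div_eq_mul_inv]
    · refine ((hasDiscExp_delta.comp_affH (p := p) (b : ℕ)).mul hDinv).congr fun τ => ?_
      rw [hUb b τ (affH p b τ) rfl, div_eq_mul_inv]
  have hmv := HasDiscExp.mvAeval (h := p) (x := Sum.elim Jf Uf) (X := Sum.elim (Jhat p) (Uhat p))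
    (by rintro (i | i); exacts [hJ i, hU i]) P
  have hpoly := (hasDiscExp_jFun.toLevel (p := p)).polyAeval Q
  refine HasDiscExp.unique (hmv.congr fun τ => ?_) hpoly
  rw [← hPQ τ]
  congr 2
  funext i
  rcases i with i | i <;> rfl

/-- The output of ANQ in the shape requested by FORMAL. -/
theorem hanq (Jf Uf : Option (Fin p) → ℍ → ℂ)
    (hJ0 : ∀ τ σ : ℍ, (σ : ℂ) = (p : ℂ) * τ → Jf none τ = jFun σ)
    (hJb : ∀ (b : Fin p) (τ σ : ℍ), (σ : ℂ) = ((τ : ℂ) + (b : ℕ)) / p → Jf (some b) τ = jFun σ)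
    (hU0 : ∀ τ σ : ℍ, (σ : ℂ) = (p : ℂ) * τ → Uf none τ = (p : ℂ) ^ 12 * Δ σ / Δ τ)
    (hUb : ∀ (b : Fin p) (τ σ : ℍ), (σ : ℂ) = ((τ : ℂ) + (b : ℕ)) / p →
      Uf (some b) τ = Δ σ / Δ τ)
    (hAN : ∀ P : MvPolynomial (Option (Fin p) ⊕ Option (Fin p)) ℂ,
      (∀ s : Equiv.Perm (Option (Fin p)), MvPolynomial.rename (Sum.map s s) P = P) →
      ∃ Q : Polynomial ℂ, ∀ τ : ℍ,
        MvPolynomial.aeval (Sum.elim (fun i => Jf i τ) (fun i => Uf i τ)) P = Q.eval (jFun τ))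
    (P : MvPolynomial (Option (Fin p) ⊕ Option (Fin p)) ℂ)
    (hP : ∀ s : Equiv.Perm (Option (Fin p)), MvPolynomial.rename (Sum.map s s) P = P) :
    ∃ Q : Polynomial ℂ, MvPolynomial.aeval (Sum.elim (Jhat p) (Uhat p)) P
      = Polynomial.aeval (qExpand ℂ p (jqModC ℂ)) Q := by
  obtain ⟨Q, hQ⟩ := hAN P hP
  exact ⟨Q, formal_of_analytic Jf Uf hJ0 hJb hU0 hUb P Q hQ⟩

end LevelP

end Fermat.Agent.S28.ANQ
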