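/-
S28 package AN-CONJ (helper55): the conjugates `J_i = j ∘ α_i` and the modular units
`ũ_i = p (Δ ∣[12] α_i) / Δ`, `i ∈ ℙ¹(𝔽_p) = Option (ZMod p)`, `α_∞ = (p 0; 0 1)`,
`α_b = (1 b; 0 p)`:
  `J_∞ τ = j (p τ)`, `J_b τ = j ((τ + b) / p)`, `ũ_∞ τ = p ^ 12 Δ (p τ) / Δ τ`,
  `ũ_b τ = Δ ((τ + b) / p) / Δ τ`.
They are holomorphic, of at most exponential growth at `i∞`, and `S`, `T` permute the indices;
hence every polynomial expression in the `J_i, ũ_i` invariant under simultaneous permutations of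
the indices is a polynomial in `j` (`exists_polynomial_of_isIndexSymmetric`).  Consequences:
`exists_modularPolynomial`, `exists_unitPolynomial`, `exists_interpolationPolynomial`.
No proof obligations left.
-/
import Mathlib
import Fermat.Agent.S24.JAnalytic
import Fermat.Agent.S23.DeltaN

set_option autoImplicit false

noncomputable section

namespace Fermat.Agent.S28.AnConj

open UpperHalfPlane ModularForm Matrix MatrixGroups Matrix.SpecialLinearGroup Filter Topology
open Asymptotics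
open scoped ModularForm Real Manifold
open Fermat.Agent.S24.JAnalytic (jFun jFun_smul mdifferentiable_jFun exists_polynomial_jFun
  jFun_surjective)
open Fermat.Agent.S23 (utGL val_utGL discriminant_slash_SL slash_utGL_apply det_utGL_pos
  im_utGL_smul utGL_one_zero coe_utGL_smul)

local notation "Δ" => ModularForm.discriminant

/-! ### part 1 -/

/-- `j ∘ α`. -/
def Jf (α : GL (Fin 2) ℝ) (τ : ℍ) : ℂ := jFun (α • τ)

/-- `(Δ ∣[12] α) / Δ`. -/
def Uf (α : GL (Fin 2) ℝ) (τ : ℍ) : ℂ := (Δ ∣[(12 : ℤ)] α) τ / Δ τ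

theorem Jf_smul {α α' : GL (Fin 2) ℝ} {γ γ' : SL(2, ℤ)}
    (h : α * (γ : GL (Fin 2) ℝ) = (γ' : GL (Fin 2) ℝ) * α') (τ : ℍ) :
    Jf α (γ • τ) = Jf α' τ := by
  unfold Jf
  have h1 : α • (γ • τ) = γ' • (α' • τ) := by
    change α • ((γ : GL (Fin 2) ℝ) • τ) = (γ' : GL (Fin 2) ℝ) • (α' • τ)
    rw [← mul_smul, ← mul_smul, h]
  rw [h1, jFun_smul]

theorem Uf_smul {α α' : GL (Fin 2) ℝ} {γ γ' : SL(2, ℤ)}
    (h : α * (γ : GL (Fin 2) ℝ) = (γ' : GL (Fin 2) ℝ) * α') (τ : ℍ) :
    Uf α (γ • τ) = Uf α' τ := by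
  unfold Uf
  have h1 : (Δ ∣[(12 : ℤ)] α) ∣[(12 : ℤ)] γ = Δ ∣[(12 : ℤ)] α' := by
    rw [ModularForm.SL_slash, ← SlashAction.slash_mul, h, SlashAction.slash_mul,
      ← ModularForm.SL_slash, discriminant_slash_SL]
  have h2 : ∀ (f : ℍ → ℂ), f (γ • τ) = (f ∣[(12 : ℤ)] γ) τ * denom γ τ ^ (12 : ℤ) := by
    intro f
    rw [ModularForm.SL_slash_apply]
    have hd : denom γ τ ≠ 0 := denom_ne_zero _ _
    rw [mul_assoc, ← zpow_add₀ hd]
    simp
  rw [h2 (Δ ∣[(12 : ℤ)] α), h2 Δ, h1, discriminant_slash_SL]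
  have hd : denom γ τ ^ (12 : ℤ) ≠ 0 := zpow_ne_zero _ (denom_ne_zero _ _)
  field_simp

/-! ### part 2 -/

/-- An element of `SL(2, ℤ)` from its entries. -/
def mkSL (a b c d : ℤ) (h : a * d - b * c = 1) : SL(2, ℤ) :=
  ⟨!![a, b; c, d], by rw [Matrix.det_fin_two_of]; exact h⟩

theorem val_mkSL (a b c d : ℤ) (h : a * d - b * c = 1) :
    (((mkSL a b c d h : SL(2, ℤ)) : GL (Fin 2) ℝ) : Matrix (Fin 2) (Fin 2) ℝ) =
      !![(a : ℝ), (b : ℝ); (c : ℝ), (d : ℝ)] := by
  ext i j
  fin_cases i <;> fin_cases j <;> rfl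

theorem S_eq_mkSL : ModularGroup.S = mkSL 0 (-1) 1 0 (by norm_num) := by
  ext i j
  fin_cases i <;> fin_cases j <;> simp [mkSL, ModularGroup.S]

theorem T_eq_mkSL : ModularGroup.T = mkSL 1 1 0 1 (by norm_num) := by
  ext i j
  fin_cases i <;> fin_cases j <;> simp [mkSL, ModularGroup.T]


variable (p : ℕ) [hp : Fact p.Prime]

/-- `(p 0; 0 1)` -/
def aInf : GL (Fin 2) ℝ := utGL p 1 0 hp.out.pos one_pos

/-- `(1 n; 0 p)` -/
def aFin (n : ℤ) : GL (Fin 2) ℝ := utGL 1 p n one_pos hp.out.pos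

theorem mat_T_inf :
    aInf p * ((mkSL 1 1 0 1 (by norm_num) : SL(2, ℤ)) : GL (Fin 2) ℝ) =
      ((mkSL 1 p 0 1 (by norm_num) : SL(2, ℤ)) : GL (Fin 2) ℝ) * aInf p := by
  apply Units.ext
  rw [Units.val_mul, Units.val_mul, val_mkSL, val_mkSL, aInf, val_utGL]
  ext i j
  fin_cases i <;> fin_cases j <;> simp [Matrix.mul_apply, Fin.sum_univ_two]

theorem mat_T_fin (n : ℤ) :
    aFin p n * ((mkSL 1 1 0 1 (by norm_num) : SL(2, ℤ)) : GL (Fin 2) ℝ) =
      ((1 : SL(2, ℤ)) : GL (Fin 2) ℝ) * aFin p (n + 1) := by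
  apply Units.ext
  rw [Units.val_mul, Units.val_mul, val_mkSL, aFin, aFin, val_utGL, val_utGL]
  ext i j
  fin_cases i <;> fin_cases j <;> simp [Matrix.mul_apply, Fin.sum_univ_two]
  ring

theorem mat_shift (n k : ℤ) :
    aFin p (n + k * p) * ((1 : SL(2, ℤ)) : GL (Fin 2) ℝ) =
      ((mkSL 1 k 0 1 (by norm_num) : SL(2, ℤ)) : GL (Fin 2) ℝ) * aFin p n := by
  apply Units.ext
  rw [Units.val_mul, Units.val_mul, val_mkSL, aFin, aFin, val_utGL, val_utGL]
  ext i j
  fin_cases i <;> fin_cases j <;> simp [Matrix.mul_apply, Fin.sum_univ_two]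

theorem mat_S_inf :
    aInf p * ((mkSL 0 (-1) 1 0 (by norm_num) : SL(2, ℤ)) : GL (Fin 2) ℝ) =
      ((mkSL 0 (-1) 1 0 (by norm_num) : SL(2, ℤ)) : GL (Fin 2) ℝ) * aFin p 0 := by
  apply Units.ext
  rw [Units.val_mul, Units.val_mul, val_mkSL, aInf, aFin, val_utGL, val_utGL]
  ext i j
  fin_cases i <;> fin_cases j <;> simp [Matrix.mul_apply, Fin.sum_univ_two]

theorem mat_S_zero :
    aFin p 0 * ((mkSL 0 (-1) 1 0 (by norm_num) : SL(2, ℤ)) : GL (Fin 2) ℝ) =
      ((mkSL 0 (-1) 1 0 (by norm_num) : SL(2, ℤ)) : GL (Fin 2) ℝ) * aInf p := by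
  apply Units.ext
  rw [Units.val_mul, Units.val_mul, val_mkSL, aInf, aFin, val_utGL, val_utGL]
  ext i j
  fin_cases i <;> fin_cases j <;> simp [Matrix.mul_apply, Fin.sum_univ_two]

theorem mat_S_fin (b b' c : ℤ) (h : b * b' + 1 = p * c) :
    aFin p b * ((mkSL 0 (-1) 1 0 (by norm_num) : SL(2, ℤ)) : GL (Fin 2) ℝ) =
      ((mkSL b (-c) p (-b') (by linarith) : SL(2, ℤ)) : GL (Fin 2) ℝ) * aFin p b' := by
  apply Units.ext
  rw [Units.val_mul, Units.val_mul, val_mkSL, val_mkSL, aFin, aFin, val_utGL, val_utGL]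
  have h' : (b : ℝ) * b' + 1 = p * c := by exact_mod_cast h
  ext i j
  fin_cases i <;> fin_cases j <;> simp [Matrix.mul_apply, Fin.sum_univ_two]
  · linarith
  · ring

/-! ### part 3 -/

/-- The matrices `α_i`, `i ∈ ℙ¹(𝔽_p)`: `α_∞ = (p 0; 0 1)`, `α_b = (1 b; 0 p)`. -/
def alpha : Option (ZMod p) → GL (Fin 2) ℝ
  | none => aInf p
  | some b => aFin p (b.val : ℤ)

/-- `J_i = j ∘ α_i`: `J_∞ τ = j (p τ)`, `J_b τ = j ((τ + b) / p)`. -/
def J (i : Option (ZMod p)) : ℍ → ℂ := Jf (alpha p i)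

/-- `ũ_i = p * (Δ ∣[12] α_i) / Δ`: `ũ_∞ τ = p ^ 12 * Δ (p τ) / Δ τ`,
`ũ_b τ = Δ ((τ + b) / p) / Δ τ`. -/
def U (i : Option (ZMod p)) : ℍ → ℂ := fun τ => (p : ℂ) * Uf (alpha p i) τ

theorem Jf_aFin_congr {n m : ℤ} (h : (n : ZMod p) = (m : ZMod p)) :
    Jf (aFin p n) = Jf (aFin p m) := by
  obtain ⟨k, hk⟩ : ∃ k : ℤ, n = m + k * p := by
    rw [ZMod.intCast_eq_intCast_iff_dvd_sub] at h
    obtain ⟨k, hk⟩ := h
    exact ⟨-k, by linarith⟩
  funext τ
  have := Jf_smul (mat_shift p m k) τ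
  rw [one_smul] at this
  rw [hk, this]

theorem Uf_aFin_congr {n m : ℤ} (h : (n : ZMod p) = (m : ZMod p)) :
    Uf (aFin p n) = Uf (aFin p m) := by
  obtain ⟨k, hk⟩ : ∃ k : ℤ, n = m + k * p := by
    rw [ZMod.intCast_eq_intCast_iff_dvd_sub] at h
    obtain ⟨k, hk⟩ := h
    exact ⟨-k, by linarith⟩
  funext τ
  have := Uf_smul (mat_shift p m k) τ
  rw [one_smul] at this
  rw [hk, this]

theorem J_some_intCast (n : ℤ) : J p (some (n : ZMod p)) = Jf (aFin p n) := by
  unfold J alpha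
  apply Jf_aFin_congr
  simp

theorem U_some_intCast (n : ℤ) :
    U p (some (n : ZMod p)) = fun τ => (p : ℂ) * Uf (aFin p n) τ := by
  unfold U alpha
  have : Uf (aFin p (((n : ZMod p).val : ℕ) : ℤ)) = Uf (aFin p n) := by
    apply Uf_aFin_congr
    simp
  simp only [this]

/-- the permutation of the indices induced by `T`. -/
def permT : Equiv.Perm (Option (ZMod p)) :=
  Equiv.optionCongr (Equiv.addRight (1 : ZMod p))

/-- the map on indices induced by `S`. -/
def sigmaS : Option (ZMod p) → Option (ZMod p)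
  | none => some 0
  | some b => if b = 0 then none else some (-b⁻¹)

theorem sigmaS_involutive : Function.Involutive (sigmaS p) := by
  intro i
  cases i with
  | none => simp [sigmaS]
  | some b =>
    by_cases hb : b = 0
    · simp [sigmaS, hb]
    · have h1 : -b⁻¹ ≠ 0 := neg_ne_zero.mpr (inv_ne_zero hb)
      simp [sigmaS, hb]

/-- the permutation of the indices induced by `S`. -/
def permS : Equiv.Perm (Option (ZMod p)) := (sigmaS_involutive p).toPerm

theorem JU_T (i : Option (ZMod p)) (τ : ℍ) :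
    J p i (ModularGroup.T • τ) = J p (permT p i) τ ∧ U p i (ModularGroup.T • τ) = U p (permT p i) τ := by
  rw [T_eq_mkSL]
  cases i with
  | none =>
    constructor
    · exact Jf_smul (mat_T_inf p) τ
    · unfold U; rw [show alpha p none = aInf p from rfl, Uf_smul (mat_T_inf p) τ]; rfl
  | some b =>
    have hb : permT p (some b) = some (((b.val : ℤ) + 1 : ℤ) : ZMod p) := by
      simp [permT]
    have h1 := Jf_smul (mat_T_fin p (b.val : ℤ)) τ
    have h2 := Uf_smul (mat_T_fin p (b.val : ℤ)) τ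
    constructor
    · rw [hb, J_some_intCast]; exact h1
    · rw [hb, U_some_intCast]; unfold U; rw [show alpha p (some b) = aFin p (b.val : ℤ) from rfl, h2]

theorem exists_mul_add_one (b : ZMod p) (hb : b ≠ 0) :
    ∃ c : ℤ, (b.val : ℤ) * ((-b⁻¹ : ZMod p).val : ℤ) + 1 = p * c := by
  have : (((b.val : ℤ) * ((-b⁻¹ : ZMod p).val : ℤ) + 1 : ℤ) : ZMod p) = 0 := by
    push_cast
    simp only [ZMod.natCast_val, ZMod.cast_id', id_eq]
    rw [mul_neg, mul_inv_cancel₀ hb]
    ring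
  rw [ZMod.intCast_zmod_eq_zero_iff_dvd] at this
  exact this

theorem JU_S (i : Option (ZMod p)) (τ : ℍ) :
    J p i (ModularGroup.S • τ) = J p (permS p i) τ ∧ U p i (ModularGroup.S • τ) = U p (permS p i) τ := by
  rw [S_eq_mkSL]
  cases i with
  | none =>
    have h0 : permS p none = some ((0 : ℤ) : ZMod p) := by simp [permS, sigmaS]
    constructor
    · rw [h0, J_some_intCast]; exact Jf_smul (mat_S_inf p) τ
    · rw [h0, U_some_intCast]; unfold U
      rw [show alpha p none = aInf p from rfl, Uf_smul (mat_S_inf p) τ]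
  | some b =>
    by_cases hb : b = 0
    · subst hb
      have h0 : permS p (some 0) = none := by simp [permS, sigmaS]
      have hv : ((0 : ZMod p).val : ℤ) = 0 := by simp
      constructor
      · rw [h0]; unfold J; rw [show alpha p (some 0) = aFin p ((0 : ZMod p).val : ℤ) from rfl, hv]
        exact Jf_smul (mat_S_zero p) τ
      · rw [h0]; unfold U; rw [show alpha p (some 0) = aFin p ((0 : ZMod p).val : ℤ) from rfl, hv,
          Uf_smul (mat_S_zero p) τ]; rfl
    · have h0 : permS p (some b) = some (-b⁻¹) := by simp [permS, sigmaS, hb]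
      obtain ⟨c, hc⟩ := exists_mul_add_one p b hb
      constructor
      · rw [h0]; exact Jf_smul (mat_S_fin p _ _ c hc) τ
      · rw [h0]; unfold U
        rw [show alpha p (some b) = aFin p (b.val : ℤ) from rfl, Uf_smul (mat_S_fin p _ _ c hc) τ]
        rfl

/-! ### part 4 -/

/-- The family `(J_i, ũ_i)` as functions of `τ`, indexed by `ι ⊕ ι`. -/
def JU (τ : ℍ) : Option (ZMod p) ⊕ Option (ZMod p) → ℂ :=
  Sum.elim (fun i => J p i τ) (fun i => U p i τ)

/-- The function `τ ↦ P(J_i(τ), ũ_i(τ))`. -/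
def symFun (P : MvPolynomial (Option (ZMod p) ⊕ Option (ZMod p)) ℂ) (τ : ℍ) : ℂ :=
  MvPolynomial.eval (JU p τ) P

/-- `P` is invariant under simultaneous permutation of the two families of variables. -/
def IsIndexSymmetric (P : MvPolynomial (Option (ZMod p) ⊕ Option (ZMod p)) ℂ) : Prop :=
  ∀ σ : Equiv.Perm (Option (ZMod p)), MvPolynomial.rename (Sum.map σ σ) P = P

theorem symFun_of_perm {P : MvPolynomial (Option (ZMod p) ⊕ Option (ZMod p)) ℂ}
    (hP : IsIndexSymmetric p P) (γ : SL(2, ℤ)) (σ : Equiv.Perm (Option (ZMod p)))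
    (h : ∀ i τ, J p i (γ • τ) = J p (σ i) τ ∧ U p i (γ • τ) = U p (σ i) τ) (τ : ℍ) :
    symFun p P (γ • τ) = symFun p P τ := by
  unfold symFun
  have h1 : JU p (γ • τ) = JU p τ ∘ Sum.map σ σ := by
    funext s
    cases s with
    | inl i => exact (h i τ).1
    | inr i => exact (h i τ).2
  rw [h1, ← MvPolynomial.eval_rename, hP σ]

theorem symFun_smul {P : MvPolynomial (Option (ZMod p) ⊕ Option (ZMod p)) ℂ}
    (hP : IsIndexSymmetric p P) (γ : SL(2, ℤ)) (τ : ℍ) :
    symFun p P (γ • τ) = symFun p P τ := by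
  have hmem : γ ∈ Subgroup.closure ({ModularGroup.S, ModularGroup.T} : Set SL(2, ℤ)) := by
    rw [SpecialLinearGroup.SL2Z_generators]; exact Subgroup.mem_top γ
  revert τ
  induction hmem using Subgroup.closure_induction with
  | mem x hx =>
    intro τ
    rcases hx with rfl | rfl
    · exact symFun_of_perm p hP _ (permS p) (fun i τ => JU_S p i τ) τ
    · exact symFun_of_perm p hP _ (permT p) (fun i τ => JU_T p i τ) τ
  | one => intro τ; rw [one_smul]
  | mul x y _ _ hx hy => intro τ; rw [mul_smul, hx, hy]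
  | inv x _ hx =>
    intro τ
    have := hx (x⁻¹ • τ)
    rw [← mul_smul, mul_inv_cancel, one_smul] at this
    exact this.symm

/-! ### part 5 -/

/-- At most exponential growth at `i∞`. -/
def ExpBdd (f : ℍ → ℂ) : Prop := ∃ c : ℝ, f =O[atImInfty] fun τ : ℍ => Real.exp (c * τ.im)

theorem ExpBdd.mono_exp {c c' : ℝ} (h : c ≤ c') :
    (fun τ : ℍ => Real.exp (c * τ.im)) =O[atImInfty] fun τ : ℍ => Real.exp (c' * τ.im) := by
  apply isBigO_of_le
  intro τ
  rw [Real.norm_of_nonneg (Real.exp_pos _).le, Real.norm_of_nonneg (Real.exp_pos _).le]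
  exact Real.exp_le_exp.mpr (mul_le_mul_of_nonneg_right h τ.im_pos.le)

theorem ExpBdd.const (a : ℂ) : ExpBdd fun _ => a := by
  refine ⟨0, ?_⟩
  simp only [zero_mul, Real.exp_zero]
  exact isBigO_const_const a one_ne_zero _

theorem ExpBdd.add {f g : ℍ → ℂ} (hf : ExpBdd f) (hg : ExpBdd g) : ExpBdd fun τ => f τ + g τ := by
  obtain ⟨c, hc⟩ := hf
  obtain ⟨d, hd⟩ := hg
  exact ⟨max c d, (hc.trans (ExpBdd.mono_exp (le_max_left c d))).add
    (hd.trans (ExpBdd.mono_exp (le_max_right c d)))⟩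

theorem ExpBdd.mul {f g : ℍ → ℂ} (hf : ExpBdd f) (hg : ExpBdd g) : ExpBdd fun τ => f τ * g τ := by
  obtain ⟨c, hc⟩ := hf
  obtain ⟨d, hd⟩ := hg
  refine ⟨c + d, ?_⟩
  have := hc.mul hd
  refine this.congr_right ?_
  intro τ
  rw [← Real.exp_add]
  ring_nf

theorem ExpBdd.of_isBoundedAtImInfty {f : ℍ → ℂ} (hf : IsBoundedAtImInfty f) : ExpBdd f := by
  refine ⟨0, ?_⟩
  simp only [zero_mul, Real.exp_zero]
  exact hf

theorem isBigO_inv_discriminant :
    (fun τ : ℍ => (Δ τ)⁻¹) =O[atImInfty] fun τ : ℍ => Real.exp (2 * π * τ.im) := by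
  have h := ModularForm.exp_isBigO_discriminant.inv_rev
    (Filter.Eventually.of_forall fun τ h => absurd h (Real.exp_pos _).ne')
  refine h.congr_right ?_
  intro τ
  rw [← Real.exp_neg]
  ring_nf

theorem expBdd_inv_discriminant : ExpBdd fun τ : ℍ => (Δ τ)⁻¹ :=
  ⟨2 * π, isBigO_inv_discriminant⟩

theorem expBdd_jFun : ExpBdd jFun := by
  have h4 : ExpBdd (E₄ : ℍ → ℂ) := ExpBdd.of_isBoundedAtImInfty (ModularFormClass.bdd_at_infty E₄)
  have := ((h4.mul h4).mul h4).mul expBdd_inv_discriminant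
  refine (by
    obtain ⟨c, hc⟩ := this
    refine ⟨c, hc.congr_left ?_⟩
    intro τ
    unfold jFun
    rw [div_eq_mul_inv]
    ring)

theorem ExpBdd.comp_utGL {f : ℍ → ℂ} (hf : ExpBdd f) (A D : ℕ) (B : ℤ) (hA : 0 < A) (hD : 0 < D) :
    ExpBdd fun τ => f (utGL A D B hA hD • τ) := by
  obtain ⟨c, hc⟩ := hf
  refine ⟨c * ((A : ℝ) / D), ?_⟩
  have := hc.comp_tendsto (tendsto_smul_atImInfty (utGL_one_zero A D B hA hD))
  refine this.congr_right ?_
  intro τ
  simp only [Function.comp_apply]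
  rw [im_utGL_smul]
  ring_nf

/-! ### part 6 -/

theorem exists_alpha_eq (i : Option (ZMod p)) :
    ∃ (A D : ℕ) (B : ℤ) (hA : 0 < A) (hD : 0 < D), alpha p i = utGL A D B hA hD := by
  cases i with
  | none => exact ⟨p, 1, 0, hp.out.pos, one_pos, rfl⟩
  | some b => exact ⟨1, p, (b.val : ℤ), one_pos, hp.out.pos, rfl⟩

theorem mdifferentiable_J (i : Option (ZMod p)) : MDifferentiable 𝓘(ℂ) 𝓘(ℂ) (J p i) := by
  obtain ⟨A, D, B, hA, hD, h⟩ := exists_alpha_eq p i
  unfold J Jf
  rw [h]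
  exact mdifferentiable_jFun.comp (mdifferentiable_smul (det_utGL_pos A D B hA hD))

theorem mdifferentiable_U (i : Option (ZMod p)) : MDifferentiable 𝓘(ℂ) 𝓘(ℂ) (U p i) := by
  have hΔ : MDifferentiable 𝓘(ℂ) 𝓘(ℂ) (Δ : ℍ → ℂ) := CuspForm.discriminant.holo'
  unfold U Uf
  exact mdifferentiable_const.mul ((hΔ.slash 12 (alpha p i)).div hΔ discriminant_ne_zero)

theorem expBdd_J (i : Option (ZMod p)) : ExpBdd (J p i) := by
  obtain ⟨A, D, B, hA, hD, h⟩ := exists_alpha_eq p i
  unfold J Jf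
  rw [h]
  exact expBdd_jFun.comp_utGL A D B hA hD

theorem expBdd_U (i : Option (ZMod p)) : ExpBdd (U p i) := by
  obtain ⟨A, D, B, hA, hD, h⟩ := exists_alpha_eq p i
  have hΔ : ExpBdd (Δ : ℍ → ℂ) :=
    ExpBdd.of_isBoundedAtImInfty (ModularFormClass.bdd_at_infty CuspForm.discriminant)
  have h1 := hΔ.comp_utGL A D B hA hD
  have h2 := ((ExpBdd.const ((p : ℂ) * (((A : ℂ) * D) ^ ((12 : ℤ) - 1) * (D : ℂ) ^ (-(12 : ℤ))))).mul
    h1).mul expBdd_inv_discriminant
  obtain ⟨c, hc⟩ := h2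
  refine ⟨c, hc.congr_left ?_⟩
  intro τ
  unfold U Uf
  rw [h, slash_utGL_apply, div_eq_mul_inv]
  ring

theorem mdifferentiable_symFun (P : MvPolynomial (Option (ZMod p) ⊕ Option (ZMod p)) ℂ) :
    MDifferentiable 𝓘(ℂ) 𝓘(ℂ) (symFun p P) := by
  induction P using MvPolynomial.induction_on with
  | C a =>
    have : symFun p (MvPolynomial.C a) = fun _ => a := by
      funext τ; simp [symFun]
    rw [this]; exact mdifferentiable_const
  | add P Q hP hQ =>
    have : symFun p (P + Q) = fun τ => symFun p P τ + symFun p Q τ := by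
      funext τ; simp [symFun]
    rw [this]; exact hP.add hQ
  | mul_X P s hP =>
    have : symFun p (P * MvPolynomial.X s) = fun τ => symFun p P τ * JU p τ s := by
      funext τ; simp [symFun]
    rw [this]
    refine hP.mul ?_
    cases s with
    | inl i => exact mdifferentiable_J p i
    | inr i => exact mdifferentiable_U p i

theorem expBdd_symFun (P : MvPolynomial (Option (ZMod p) ⊕ Option (ZMod p)) ℂ) :
    ExpBdd (symFun p P) := by
  induction P using MvPolynomial.induction_on with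
  | C a =>
    have : symFun p (MvPolynomial.C a) = fun _ => a := by
      funext τ; simp [symFun]
    rw [this]; exact ExpBdd.const a
  | add P Q hP hQ =>
    have : symFun p (P + Q) = fun τ => symFun p P τ + symFun p Q τ := by
      funext τ; simp [symFun]
    rw [this]; exact hP.add hQ
  | mul_X P s hP =>
    have : symFun p (P * MvPolynomial.X s) = fun τ => symFun p P τ * JU p τ s := by
      funext τ; simp [symFun]
    rw [this]
    refine hP.mul ?_
    cases s with
    | inl i => exact expBdd_J p i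
    | inr i => exact expBdd_U p i

theorem isBigO_discriminant_exp :
    (Δ : ℍ → ℂ) =O[atImInfty] fun τ : ℍ => Real.exp (-(2 * π) * τ.im) := by
  have := CuspFormClass.exp_decay_atImInfty (h := 1) CuspForm.discriminant one_pos
    _root_.one_mem_strictPeriods_SL
  refine this.congr_right ?_
  intro τ
  ring_nf

/-- An exponentially bounded function becomes bounded after multiplication by a power of `Δ`. -/
theorem ExpBdd.exists_isBoundedAtImInfty {f : ℍ → ℂ} (hf : ExpBdd f) :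
    ∃ n : ℕ, IsBoundedAtImInfty fun τ => Δ τ ^ n * f τ := by
  obtain ⟨c, hc⟩ := hf
  obtain ⟨n, hn⟩ := exists_nat_ge (c / (2 * π))
  refine ⟨n, ?_⟩
  have h1 := (isBigO_discriminant_exp.pow n).mul hc
  unfold IsBoundedAtImInfty BoundedAtFilter
  refine h1.trans ?_
  apply isBigO_of_le
  intro τ
  rw [← Real.exp_nat_mul, ← Real.exp_add, Real.norm_of_nonneg (Real.exp_pos _).le]
  simp only [Pi.one_apply, norm_one]
  rw [← Real.exp_zero]
  apply Real.exp_le_exp.mpr
  have hπ : 0 < 2 * π := by positivity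
  have hc' : c ≤ n * (2 * π) := by
    rw [div_le_iff₀ hπ] at hn
    exact hn
  have him := τ.im_pos
  nlinarith

/-- **Main theorem of AN-CONJ**: an index-symmetric polynomial expression in the `J_i` and `ũ_i`
is a polynomial in `j`. -/
theorem exists_polynomial_of_isIndexSymmetric
    (P : MvPolynomial (Option (ZMod p) ⊕ Option (ZMod p)) ℂ) (hP : IsIndexSymmetric p P) :
    ∃ Q : Polynomial ℂ, ∀ τ : ℍ, symFun p P τ = Q.eval (jFun τ) := by
  obtain ⟨n, hn⟩ := (expBdd_symFun p P).exists_isBoundedAtImInfty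
  obtain ⟨Q, -, hQ⟩ := exists_polynomial_jFun n (symFun p P) (mdifferentiable_symFun p P)
    (fun γ τ => symFun_smul p hP γ τ) hn
  exact ⟨Q, hQ⟩

/-! ### part 7 -/

/-! ### explicit formulas -/

theorem coe_aInf_smul (τ : ℍ) : ((aInf p • τ : ℍ) : ℂ) = (p : ℂ) * τ := by
  unfold aInf
  rw [coe_utGL_smul]
  simp

theorem coe_aFin_smul (n : ℤ) (τ : ℍ) : ((aFin p n • τ : ℍ) : ℂ) = ((τ : ℂ) + n) / p := by
  unfold aFin
  rw [coe_utGL_smul]
  simp

theorem J_none_apply (τ : ℍ) : J p none τ = jFun (aInf p • τ) := rfl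

theorem J_some_apply (b : ZMod p) (τ : ℍ) : J p (some b) τ = jFun (aFin p (b.val : ℤ) • τ) := rfl

theorem U_none_apply (τ : ℍ) : U p none τ = (p : ℂ) ^ 12 * Δ (aInf p • τ) / Δ τ := by
  unfold U Uf
  rw [show alpha p none = aInf p from rfl]
  unfold aInf
  rw [slash_utGL_apply]
  have hp0 : (p : ℂ) ≠ 0 := Nat.cast_ne_zero.mpr hp.out.ne_zero
  simp only [Nat.cast_one, mul_one, _root_.one_zpow]
  rw [show ((12 : ℤ) - 1) = 11 from rfl, zpow_ofNat]
  ring

theorem U_some_apply (b : ZMod p) (τ : ℍ) :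
    U p (some b) τ = Δ (aFin p (b.val : ℤ) • τ) / Δ τ := by
  unfold U Uf
  rw [show alpha p (some b) = aFin p (b.val : ℤ) from rfl]
  unfold aFin
  rw [slash_utGL_apply]
  have hp0 : (p : ℂ) ≠ 0 := Nat.cast_ne_zero.mpr hp.out.ne_zero
  simp only [Nat.cast_one, one_mul]
  rw [show ((12 : ℤ) - 1) = 11 from rfl, zpow_ofNat, _root_.zpow_neg, zpow_ofNat]
  field_simp

/-! ### uniqueness -/

theorem eq_of_eval_jFun_eq {Q Q' : Polynomial ℂ} (h : ∀ τ : ℍ, Q.eval (jFun τ) = Q'.eval (jFun τ)) :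
    Q = Q' := by
  apply Polynomial.funext
  intro c
  obtain ⟨τ, rfl⟩ := jFun_surjective c
  exact h τ

/-! ### polynomial version -/

/-- A polynomial whose coefficients are polynomial expressions in the `J_i`, `ũ_i`, invariant under
simultaneous permutations of the indices, descends to a polynomial over `ℂ[j]`. -/
theorem exists_polynomial_of_map_rename_eq
    (F : Polynomial (MvPolynomial (Option (ZMod p) ⊕ Option (ZMod p)) ℂ))
    (hF : ∀ σ : Equiv.Perm (Option (ZMod p)),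
      F.map (MvPolynomial.rename (Sum.map σ σ) :
        MvPolynomial (Option (ZMod p) ⊕ Option (ZMod p)) ℂ →ₐ[ℂ] _).toRingHom = F) :
    ∃ F' : Polynomial (Polynomial ℂ), F'.natDegree ≤ F.natDegree ∧
      (∀ (m : ℕ) (τ : ℍ), (F'.coeff m).eval (jFun τ) = MvPolynomial.eval (JU p τ) (F.coeff m)) ∧
      ∀ τ : ℍ, F'.map (Polynomial.evalRingHom (jFun τ)) = F.map (MvPolynomial.eval (JU p τ)) := by
  have hsym : ∀ m, IsIndexSymmetric p (F.coeff m) := by
    intro m σ
    have := congrArg (fun G => Polynomial.coeff G m) (hF σ)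
    simpa [Polynomial.coeff_map] using this
  choose Q hQ using fun m => exists_polynomial_of_isIndexSymmetric p (F.coeff m) (hsym m)
  let F' : Polynomial (Polynomial ℂ) :=
    ∑ m ∈ Finset.range (F.natDegree + 1), Polynomial.C (Q m) * Polynomial.X ^ m
  have hcoeff : ∀ m, F'.coeff m = if m ∈ Finset.range (F.natDegree + 1) then Q m else 0 := by
    intro m
    simp only [F', Polynomial.finsetSum_coeff, Polynomial.coeff_C_mul, Polynomial.coeff_X_pow]
    simp only [mul_ite, mul_one, mul_zero]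
    rw [Finset.sum_ite_eq]
  have hcoeff_eval : ∀ (m : ℕ) (τ : ℍ),
      (F'.coeff m).eval (jFun τ) = MvPolynomial.eval (JU p τ) (F.coeff m) := by
    intro m τ
    rw [hcoeff]
    split_ifs with hm
    · exact (hQ m τ).symm
    · rw [Finset.mem_range, not_lt] at hm
      rw [Polynomial.coeff_eq_zero_of_natDegree_lt (by omega)]
      simp
  refine ⟨F', ?_, hcoeff_eval, ?_⟩
  · rw [Polynomial.natDegree_le_iff_coeff_eq_zero]
    intro m hm
    rw [hcoeff, if_neg]
    rw [Finset.mem_range]; omega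
  · intro τ
    ext m
    rw [Polynomial.coeff_map, Polynomial.coeff_map]
    exact hcoeff_eval m τ

/-! ### part 8 -/

local notation "ι" => Option (ZMod p)

/-- `∏ i, (X - x_i)` over the ring of polynomials in the variables `x_i, u_i`. -/
def univJ : Polynomial (MvPolynomial (ι ⊕ ι) ℂ) :=
  ∏ i : ι, (Polynomial.X - Polynomial.C (MvPolynomial.X (Sum.inl i)))

/-- `∏ i, (X - u_i)`. -/
def univU : Polynomial (MvPolynomial (ι ⊕ ι) ℂ) :=
  ∏ i : ι, (Polynomial.X - Polynomial.C (MvPolynomial.X (Sum.inr i)))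

/-- `∑ i, u_i ∏_{k ≠ i} (X - x_k)`. -/
def univG : Polynomial (MvPolynomial (ι ⊕ ι) ℂ) :=
  ∑ i : ι, Polynomial.C (MvPolynomial.X (Sum.inr i)) *
    ∏ k ∈ Finset.univ.erase i, (Polynomial.X - Polynomial.C (MvPolynomial.X (Sum.inl k)))

theorem univJ_map_rename (σ : Equiv.Perm ι) :
    (univJ p).map (MvPolynomial.rename (Sum.map σ σ) :
      MvPolynomial (ι ⊕ ι) ℂ →ₐ[ℂ] _).toRingHom = univJ p := by
  unfold univJ
  rw [Polynomial.map_prod]
  simp only [Polynomial.map_sub, Polynomial.map_X, Polynomial.map_C, AlgHom.toRingHom_eq_coe,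
    RingHom.coe_coe, MvPolynomial.rename_X, Sum.map_inl]
  exact Equiv.prod_comp σ (fun i => (Polynomial.X - Polynomial.C (MvPolynomial.X (Sum.inl i)) :
    Polynomial (MvPolynomial (ι ⊕ ι) ℂ)))

theorem univU_map_rename (σ : Equiv.Perm ι) :
    (univU p).map (MvPolynomial.rename (Sum.map σ σ) :
      MvPolynomial (ι ⊕ ι) ℂ →ₐ[ℂ] _).toRingHom = univU p := by
  unfold univU
  rw [Polynomial.map_prod]
  simp only [Polynomial.map_sub, Polynomial.map_X, Polynomial.map_C, AlgHom.toRingHom_eq_coe,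
    RingHom.coe_coe, MvPolynomial.rename_X, Sum.map_inr]
  exact Equiv.prod_comp σ (fun i => (Polynomial.X - Polynomial.C (MvPolynomial.X (Sum.inr i)) :
    Polynomial (MvPolynomial (ι ⊕ ι) ℂ)))

theorem univG_map_rename (σ : Equiv.Perm ι) :
    (univG p).map (MvPolynomial.rename (Sum.map σ σ) :
      MvPolynomial (ι ⊕ ι) ℂ →ₐ[ℂ] _).toRingHom = univG p := by
  unfold univG
  rw [Polynomial.map_sum]
  simp only [Polynomial.map_mul, Polynomial.map_prod, Polynomial.map_sub, Polynomial.map_X,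
    Polynomial.map_C, AlgHom.toRingHom_eq_coe, RingHom.coe_coe, MvPolynomial.rename_X,
    Sum.map_inl, Sum.map_inr]
  rw [← Equiv.sum_comp σ (fun i => Polynomial.C (MvPolynomial.X (Sum.inr i)) *
    ∏ k ∈ Finset.univ.erase i, (Polynomial.X - Polynomial.C (MvPolynomial.X (Sum.inl k)) :
      Polynomial (MvPolynomial (ι ⊕ ι) ℂ)))]
  refine Finset.sum_congr rfl fun i _ => ?_
  congr 1
  refine Finset.prod_bij (fun k _ => σ k) ?_ ?_ ?_ ?_
  · intro k hk
    rw [Finset.mem_erase] at hk ⊢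
    exact ⟨fun h => hk.1 (σ.injective h), Finset.mem_univ _⟩
  · intro a _ b _ h
    exact σ.injective h
  · intro k hk
    rw [Finset.mem_erase] at hk
    refine ⟨σ.symm k, ?_, by simp⟩
    rw [Finset.mem_erase]
    exact ⟨fun h => hk.1 (by rw [← h]; simp), Finset.mem_univ _⟩
  · intro k _
    rfl

theorem card_index : Fintype.card ι = p + 1 := by
  rw [Fintype.card_option, ZMod.card]

/-- **The modular polynomial over `ℂ`**: `Φ(X, j(τ)) = ∏_i (X - J_i(τ))` with `Φ ∈ ℂ[Y][X]` monic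
of degree `p + 1`. -/
theorem exists_modularPolynomial :
    ∃ Φ : Polynomial (Polynomial ℂ), Φ.Monic ∧ Φ.natDegree = p + 1 ∧
      ∀ τ : ℍ, Φ.map (Polynomial.evalRingHom (jFun τ)) =
        ∏ i : ι, (Polynomial.X - Polynomial.C (J p i τ)) := by
  obtain ⟨Φ, hdeg, hcoeff, hmap⟩ := exists_polynomial_of_map_rename_eq p (univJ p)
    (univJ_map_rename p)
  have hmonic : (univJ p).Monic := Polynomial.monic_prod_of_monic _ _ fun i _ =>
    Polynomial.monic_X_sub_C _
  have hnd : (univJ p).natDegree = p + 1 := by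
    unfold univJ
    rw [Polynomial.natDegree_prod_of_monic _ _ fun i _ => Polynomial.monic_X_sub_C _]
    simp only [Polynomial.natDegree_X_sub_C, Finset.sum_const, Finset.card_univ, smul_eq_mul,
      mul_one]
    exact card_index p
  have hlead : Φ.coeff (p + 1) = 1 := by
    apply eq_of_eval_jFun_eq
    intro τ
    rw [hcoeff, ← hnd, hmonic.coeff_natDegree]
    simp
  have hΦmonic : Φ.Monic :=
    Polynomial.monic_of_natDegree_le_of_coeff_eq_one (p + 1) (hnd ▸ hdeg) hlead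
  refine ⟨Φ, hΦmonic, ?_, ?_⟩
  · apply le_antisymm (hnd ▸ hdeg)
    exact Polynomial.le_natDegree_of_ne_zero (by rw [hlead]; exact one_ne_zero)
  · intro τ
    rw [hmap, univJ, Polynomial.map_prod]
    simp [JU]

/-- `∏_i (X - ũ_i(τ)) = Ψ(X, j(τ))` with `Ψ ∈ ℂ[Y][X]` monic of degree `p + 1`: the `ũ_i` are
integral over `ℂ[j]`. -/
theorem exists_unitPolynomial :
    ∃ Ψ : Polynomial (Polynomial ℂ), Ψ.Monic ∧ Ψ.natDegree = p + 1 ∧
      ∀ τ : ℍ, Ψ.map (Polynomial.evalRingHom (jFun τ)) =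
        ∏ i : ι, (Polynomial.X - Polynomial.C (U p i τ)) := by
  obtain ⟨Φ, hdeg, hcoeff, hmap⟩ := exists_polynomial_of_map_rename_eq p (univU p)
    (univU_map_rename p)
  have hmonic : (univU p).Monic := Polynomial.monic_prod_of_monic _ _ fun i _ =>
    Polynomial.monic_X_sub_C _
  have hnd : (univU p).natDegree = p + 1 := by
    unfold univU
    rw [Polynomial.natDegree_prod_of_monic _ _ fun i _ => Polynomial.monic_X_sub_C _]
    simp only [Polynomial.natDegree_X_sub_C, Finset.sum_const, Finset.card_univ, smul_eq_mul,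
      mul_one]
    exact card_index p
  have hlead : Φ.coeff (p + 1) = 1 := by
    apply eq_of_eval_jFun_eq
    intro τ
    rw [hcoeff, ← hnd, hmonic.coeff_natDegree]
    simp
  have hΦmonic : Φ.Monic :=
    Polynomial.monic_of_natDegree_le_of_coeff_eq_one (p + 1) (hnd ▸ hdeg) hlead
  refine ⟨Φ, hΦmonic, ?_, ?_⟩
  · apply le_antisymm (hnd ▸ hdeg)
    exact Polynomial.le_natDegree_of_ne_zero (by rw [hlead]; exact one_ne_zero)
  · intro τ
    rw [hmap, univU, Polynomial.map_prod]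
    simp [JU]

/-- The interpolation polynomial: `∑_i ũ_i(τ) ∏_{k ≠ i} (X - J_k(τ)) = G(X, j(τ))` with
`G ∈ ℂ[Y][X]` of degree `≤ p`. -/
theorem exists_interpolationPolynomial :
    ∃ G : Polynomial (Polynomial ℂ), G.natDegree ≤ p ∧
      ∀ τ : ℍ, G.map (Polynomial.evalRingHom (jFun τ)) =
        ∑ i : ι, Polynomial.C (U p i τ) *
          ∏ k ∈ Finset.univ.erase i, (Polynomial.X - Polynomial.C (J p k τ)) := by
  obtain ⟨G, hdeg, -, hmap⟩ := exists_polynomial_of_map_rename_eq p (univG p)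
    (univG_map_rename p)
  refine ⟨G, hdeg.trans ?_, ?_⟩
  · unfold univG
    refine Polynomial.natDegree_sum_le_of_forall_le _ _ fun i _ => ?_
    refine (Polynomial.natDegree_C_mul_le _ _).trans ?_
    rw [Polynomial.natDegree_prod_of_monic _ _ fun i _ => Polynomial.monic_X_sub_C _]
    simp only [Polynomial.natDegree_X_sub_C, Finset.sum_const, smul_eq_mul, mul_one]
    rw [Finset.card_erase_of_mem (Finset.mem_univ _), Finset.card_univ, card_index]
    simp
  · intro τ
    rw [hmap, univG, Polynomial.map_sum]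
    simp [JU, Polynomial.map_prod]

/-! ### non-vanishing of the units -/

theorem U_ne_zero (i : Option (ZMod p)) (τ : ℍ) : U p i τ ≠ 0 := by
  have hp0 : (p : ℂ) ≠ 0 := Nat.cast_ne_zero.mpr hp.out.ne_zero
  cases i with
  | none =>
    rw [U_none_apply]
    exact div_ne_zero (mul_ne_zero (pow_ne_zero _ hp0) (discriminant_ne_zero _))
      (discriminant_ne_zero _)
  | some b =>
    rw [U_some_apply]
    exact div_ne_zero (discriminant_ne_zero _) (discriminant_ne_zero _)

end Fermat.Agent.S28.AnConj
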