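import Mathlib
import Fermat.Agent.S28.ANQ
import Fermat.Agent.S28.AnConj
import Fermat.Agent.S28.FormalInput

/-!
# S28: glue `AN-CONJ + ANQ ⇒ FORMAL.HANQ p`
-/

set_option autoImplicit false

noncomputable section

namespace Fermat.Agent.S28.HanqGlue

open UpperHalfPlane ModularCurve

variable (p : ℕ) [NeZero p]

/-- `Fin p ≃ ZMod p` via the natural number representative. -/
def finZMod : Fin p ≃ ZMod p where
  toFun b := ((b : ℕ) : ZMod p)
  invFun z := ⟨z.val, ZMod.val_lt z⟩
  left_inv b := Fin.ext (ZMod.val_natCast_of_lt b.2)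
  right_inv z := ZMod.natCast_zmod_val z

lemma val_finZMod (b : Fin p) : (finZMod p b).val = (b : ℕ) := ZMod.val_natCast_of_lt b.2

/-- `Option (Fin p) ≃ Option (ZMod p)`. -/
def idxEquiv : Option (Fin p) ≃ Option (ZMod p) := Equiv.optionCongr (finZMod p)

lemma formal_defs_eq : FORMAL.JC p = ANQ.Jhat p ∧ FORMAL.UC p = ANQ.Uhat p ∧
    FORMAL.tpC p = qExpand ℂ p (jqModC ℂ) := by
  refine ⟨?_, ?_, rfl⟩
  · funext i
    rcases i with _ | b
    · rfl
    · rfl
  · funext i
    rcases i with _ | b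
    · rw [FORMAL.UC_none, ANQ.Uhat, mul_assoc]
    · rfl

/-- **AN-CONJ + ANQ ⇒ the analytic input of FORMAL.** -/
theorem hanq (hp : p.Prime) : FORMAL.HANQ p := by
  have : Fact p.Prime := ⟨hp⟩
  obtain ⟨hJ, hU, ht⟩ := formal_defs_eq p
  intro P hP
  rw [hJ, hU, ht]
  let e := idxEquiv p
  refine ANQ.hanq (p := p) (fun i => AnConj.J p (e i)) (fun i => AnConj.U p (e i))
    ?_ ?_ ?_ ?_ ?_ P hP
  · intro τ σ hσ
    show AnConj.J p none τ = _
    rw [AnConj.J_none_apply]
    congr 1
    exact UpperHalfPlane.ext (by rw [AnConj.coe_aInf_smul, hσ])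
  · intro b τ σ hσ
    show AnConj.J p (some (finZMod p b)) τ = _
    rw [AnConj.J_some_apply, val_finZMod]
    congr 1
    refine UpperHalfPlane.ext ?_
    rw [AnConj.coe_aFin_smul, hσ]
    push_cast
    rfl
  · intro τ σ hσ
    show AnConj.U p none τ = _
    rw [AnConj.U_none_apply]
    congr 3
    exact UpperHalfPlane.ext (by rw [AnConj.coe_aInf_smul, hσ])
  · intro b τ σ hσ
    show AnConj.U p (some (finZMod p b)) τ = _
    rw [AnConj.U_some_apply, val_finZMod]
    congr 2
    refine UpperHalfPlane.ext ?_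
    rw [AnConj.coe_aFin_smul, hσ]
    push_cast
    rfl
  · intro P' hP'
    have hsym : AnConj.IsIndexSymmetric p (MvPolynomial.rename (Sum.map e e) P') := by
      intro σ'
      rw [MvPolynomial.rename_rename]
      have hcomp : (Sum.map σ' σ' ∘ Sum.map e e : Option (Fin p) ⊕ Option (Fin p) → _)
          = Sum.map e e ∘ Sum.map (e.trans (σ'.trans e.symm)) (e.trans (σ'.trans e.symm)) := by
        funext s
        rcases s with i | i <;> simp
      rw [hcomp, ← MvPolynomial.rename_rename, hP' (e.trans (σ'.trans e.symm))]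
    obtain ⟨Q, hQ⟩ := AnConj.exists_polynomial_of_isIndexSymmetric p _ hsym
    refine ⟨Q, fun τ => Eq.trans ?_ (hQ τ)⟩
    rw [AnConj.symFun, MvPolynomial.eval_rename, MvPolynomial.aeval_def,
      MvPolynomial.eval, MvPolynomial.eval₂Hom]
    congr 1
    funext s
    rcases s with i | i <;> rfl

end Fermat.Agent.S28.HanqGlue

namespace Fermat.Agent.S28.HanqGlue

/-- The three families used by FORMAL. -/
theorem hanq3 (p : ℕ) [NeZero p] (hp : p.Prime) : FORMAL.HANQ3 p := (hanq p hp).hanq3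

end Fermat.Agent.S28.HanqGlue
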