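import Mathlib
import Fermat.Agent.S28.HanqGlue
import Fermat.Agent.S28.FormalUnit

/-!
# S28: `ModEqStatement` (AN-CONJ + ANQ + FORMAL)
-/

set_option autoImplicit false

namespace Fermat.Agent.S28

/-- Output of FORMAL + AN-CONJ + ANQ: modular equation data exists for every prime `p`. -/
theorem modEqStatement : ModEqStatement :=
  FORMAL.modEqStatement_of_hanq3 fun p _ hp => HanqGlue.hanq3 p hp

end Fermat.Agent.S28
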