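/-
S28, package P1 (helper94): abstract core of the prime-level irreducibility argument.
* `dichotomy`: a monic polynomial `f = (X - s) ∏_{b<p} (X - r b)` over `E` whose roots `r b` are
  distinct and cyclically permuted by an `E`-automorphism is irreducible, or `s ∈ E`.
* `mem_adjoin_of_isIntegral`: `K[t]` is integrally closed in `K(t)` for transcendental `t`.
* `coeff_aeval_jq`: polynomials in `t = jqModC K` have non-positive `q`-order.
-/
import Mathlib
import Fermat.Prelude.Def_ModularCurve_X0ModL

set_option autoImplicit false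
set_option linter.style.haveILetI false

namespace Fermat.Agent.S28.P1

open Polynomial

section Dichotomy

variable {E L : Type*} [Field E] [Field L] [Algebra E L]

/-- **Dichotomy.** -/
theorem dichotomy (τ : L ≃ₐ[E] L) {p : ℕ} (hp : 0 < p) (f : E[X]) (hf : f.Monic)
    (s : L) (r : ℕ → L) (hr : ∀ b, τ (r b) = r (b + 1))
    (hinj : ∀ b < p, ∀ b' < p, r b = r b' → b = b')
    (hsplit : f.map (algebraMap E L) = (X - C s) * ∏ b ∈ Finset.range p, (X - C (r b))) :
    Irreducible f ∨ s ∈ (algebraMap E L).range := by
  classical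
  set P : L[X] := ∏ b ∈ Finset.range p, (X - C (r b)) with hP
  have hPmonic : P.Monic := monic_prod_of_monic _ _ fun b _ => monic_X_sub_C (r b)
  have hPdeg : P.natDegree = p := by
    rw [hP, natDegree_finsetProd_X_sub_C_eq_card, Finset.card_range]
  have hfdeg : f.natDegree = p + 1 := by
    have h1 : (f.map (algebraMap E L)).natDegree = f.natDegree :=
      natDegree_map_eq_of_injective (algebraMap E L).injective f
    rw [← h1, hsplit, (monic_X_sub_C s).natDegree_mul hPmonic, natDegree_X_sub_C, hPdeg, add_comm]
  -- `r 0` is a root of `f`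
  have hroot0 : aeval (r 0) f = 0 := by
    rw [aeval_def, ← eval_map, hsplit, eval_mul, hP, eval_prod,
      Finset.prod_eq_zero (Finset.mem_range.mpr hp) (by simp), mul_zero]
  have hint : IsIntegral E (r 0) := ⟨f, hf, hroot0⟩
  set g : E[X] := minpoly E (r 0) with hg
  have hgmonic : g.Monic := minpoly.monic hint
  have hgf : g ∣ f := minpoly.dvd E (r 0) hroot0
  -- all `r b` are roots of `g`
  have hrootg : ∀ b, aeval (r b) g = 0 := by
    intro b
    induction b with
    | zero => exact minpoly.aeval E (r 0)
    | succ b ih =>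
      rw [← hr b, ← AlgEquiv.coe_toAlgHom, aeval_algHom_apply, ih, map_zero]
  -- hence `P ∣ g`
  have hPg : P ∣ g.map (algebraMap E L) := by
    rw [hP]
    apply Finset.prod_dvd_of_coprime
    · intro b hb b' hb' hbb'
      apply isCoprime_X_sub_C_of_isUnit_sub
      rw [isUnit_iff_ne_zero, sub_ne_zero]
      intro h
      exact hbb' (hinj b (Finset.mem_range.mp hb) b' (Finset.mem_range.mp hb') h)
    · intro b _
      rw [dvd_iff_isRoot, IsRoot.def, eval_map, ← aeval_def]
      exact hrootg b
  have hgmap_monic : (g.map (algebraMap E L)).Monic := hgmonic.map _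
  have hgdeg_ge : p ≤ g.natDegree := by
    have := natDegree_le_of_dvd hPg hgmap_monic.ne_zero
    rwa [hPdeg, natDegree_map_eq_of_injective (algebraMap E L).injective] at this
  have hgdeg_le : g.natDegree ≤ p + 1 := by
    have := natDegree_le_of_dvd hgf hf.ne_zero
    rwa [hfdeg] at this
  rcases Nat.lt_or_ge g.natDegree (p + 1) with hlt | hge
  · -- `deg g = p`: then `s ∈ E`
    right
    have hgp : g.natDegree = p := le_antisymm (Nat.lt_succ_iff.mp hlt) hgdeg_ge
    have hgP : g.map (algebraMap E L) = P := by
      refine (eq_of_monic_of_dvd_of_natDegree_le hPmonic hgmap_monic hPg ?_)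
      rw [hPdeg, natDegree_map_eq_of_injective (algebraMap E L).injective, hgp]
    obtain ⟨h, hh⟩ := hgf
    have hhmonic : h.Monic := hgmonic.of_mul_monic_left (hh ▸ hf)
    have hhmap : h.map (algebraMap E L) = X - C s := by
      have h1 : P * h.map (algebraMap E L) = P * (X - C s) := by
        rw [← hgP, ← Polynomial.map_mul, ← hh, hsplit, hgP, mul_comm]
      exact mul_left_cancel₀ hPmonic.ne_zero h1
    refine ⟨-h.coeff 0, ?_⟩
    have h2 := congrArg (fun q : L[X] => q.coeff 0) hhmap
    simp only [coeff_map, coeff_sub, coeff_X_zero, coeff_C_zero, zero_sub] at h2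
    rw [map_neg, h2, neg_neg]
  · -- `deg g = p + 1`: then `f = g` is irreducible
    left
    have hfg : f = g := eq_of_monic_of_dvd_of_natDegree_le hgmonic hf hgf (by rw [hfdeg]; exact hge)
    rw [hfg]
    exact minpoly.irreducible hint

end Dichotomy

section IntClosed

open IntermediateField

variable {K L : Type*} [Field K] [Field L] [Algebra K L]

open IntermediateField.algebraAdjoinAdjoin in
/-- `K[t]` is integrally closed in `K(t)` when `t` is transcendental. -/
theorem mem_adjoin_of_isIntegral {t u : L} (ht : Transcendental K t)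
    (hu : u ∈ IntermediateField.adjoin K {t})
    (hint : IsIntegral (Algebra.adjoin K {t}) u) : u ∈ Algebra.adjoin K {t} := by
  -- `K[t] ≃ K[X]`
  have hinj : Function.Injective (aeval t : K[X] →ₐ[K] L) := transcendental_iff_injective.mp ht
  let e : K[X] ≃ₐ[K] Algebra.adjoin K {t} :=
    (AlgEquiv.ofInjective (aeval t) hinj).trans
      (Subalgebra.equivOfEq _ _ (by rw [Algebra.adjoin_singleton_eq_range_aeval]))
  haveI : IsIntegrallyClosed (Algebra.adjoin K {t}) :=
    IsIntegrallyClosed.of_equiv e.toRingEquiv
  -- `u`, as an element of `K(t)`, is integral over `K[t]`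
  have hint' : IsIntegral (Algebra.adjoin K {t}) (⟨u, hu⟩ : IntermediateField.adjoin K {t}) := by
    have h1 : (algebraMap (IntermediateField.adjoin K {t}) L) ⟨u, hu⟩ = u := rfl
    rw [← h1] at hint
    exact (isIntegral_algebraMap_iff
      (algebraMap (IntermediateField.adjoin K {t}) L).injective).mp hint
  obtain ⟨y, hy⟩ := (IsIntegrallyClosed.isIntegral_iff
    (K := IntermediateField.adjoin K {t})).mp hint'
  have h2 : (y : L) = u := by
    have := congrArg (fun z : IntermediateField.adjoin K {t} => (z : L)) hy
    simpa using this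
  rw [← h2]
  exact y.2

end IntClosed

section Order

open ModularCurve HahnSeries

variable (K : Type*) [Field K]

/-- a polynomial in `t = jqModC K`: the coefficient of `q ^ (-deg P)` is the leading coefficient
and all lower coefficients vanish. -/
theorem coeff_aeval_jq (P : K[X]) :
    (aeval (jqModC K) P).coeff (-(P.natDegree : ℤ)) = P.leadingCoeff ∧
      ∀ m : ℤ, m < -(P.natDegree : ℤ) → (aeval (jqModC K) P).coeff m = 0 := by
  have hcoeff : ∀ m : ℤ, (aeval (jqModC K) P).coeff m =
      ∑ i ∈ Finset.range (P.natDegree + 1), P.coeff i * (jqModC K ^ i).coeff m := by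
    intro m
    rw [aeval_eq_sum_range, HahnSeries.coeff_sum]
    refine Finset.sum_congr rfl fun i _ => ?_
    rw [Algebra.smul_def, algebraMap_laurentSeries_eq_single, HahnSeries.coeff_single_zero_mul]
  constructor
  · rw [hcoeff, Finset.sum_eq_single P.natDegree]
    · rw [coeff_jqModC_pow_self, mul_one, coeff_natDegree]
    · intro i hi hne
      have hlt : i < P.natDegree :=
        lt_of_le_of_ne (Nat.lt_succ_iff.mp (Finset.mem_range.mp hi)) hne
      rw [coeff_jqModC_pow_of_lt K (by exact_mod_cast (neg_lt_neg (by exact_mod_cast hlt))),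
        mul_zero]
    · intro h
      exact absurd (Finset.mem_range.mpr (Nat.lt_succ_self _)) h
  · intro m hm
    rw [hcoeff]
    refine Finset.sum_eq_zero fun i hi => ?_
    have hle : i ≤ P.natDegree := Nat.lt_succ_iff.mp (Finset.mem_range.mp hi)
    have : m < -(i : ℤ) := lt_of_lt_of_le hm (neg_le_neg (by exact_mod_cast hle))
    rw [coeff_jqModC_pow_of_lt K this, mul_zero]

/-- `t = jqModC K` is transcendental over `K`. -/
theorem transcendental_jq : Transcendental K (jqModC K) := by
  rw [transcendental_iff]
  intro P hP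
  by_contra hne
  have h := (coeff_aeval_jq K P).1
  rw [hP, HahnSeries.coeff_zero] at h
  exact hne (leadingCoeff_eq_zero.mp h.symm)

/-- an element of `K[t]` all of whose coefficients at `q ^ m`, `m ≤ 0`, vanish is zero. -/
theorem eq_zero_of_mem_adjoin_of_coeff {u : LaurentSeries K}
    (hu : u ∈ Algebra.adjoin K {jqModC K}) (hcoeff : ∀ m : ℤ, m ≤ 0 → u.coeff m = 0) : u = 0 := by
  rw [Algebra.adjoin_singleton_eq_range_aeval] at hu
  obtain ⟨P, hPu⟩ := hu
  have hPu' : aeval (jqModC K) P = u := hPu
  subst hPu'
  by_contra hne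
  have hP : P ≠ 0 := by
    rintro rfl
    exact hne (map_zero _)
  have h := (coeff_aeval_jq K P).1
  rw [hcoeff _ (neg_nonpos.mpr (by exact_mod_cast Nat.zero_le _))] at h
  exact hP (leadingCoeff_eq_zero.mp h.symm)

end Order

end Fermat.Agent.S28.P1
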