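import Fermat.Agent.S28.Subst

/-!
# S28 package [SUBST], part 2: ROOTS at a general monomial

If `Φ ∈ ℤ[Y][X]` satisfies the ROOTS identity at `q`,
`Φ(X, t(q^r)) = (X - t(q^(r^2))) * ∏_{b<r} (X - t(ζ^b q))` in `B((q))[X]`, then it satisfies it at
every monomial `x = c q^a`:
`Φ(X, t(x^r)) = (X - t(x^(r^2))) * ∏_{b<r} (X - t(ζ^b x))`, where `t(c q^a) = subst c a t`.
-/

set_option autoImplicit false

noncomputable section

open HahnSeries ModularCurve Polynomial

namespace Fermat.Agent.S28.Subst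

variable {B : Type*} [CommRing B]

/-- `Φ(X, y)`: evaluate the inner variable of `Φ ∈ ℤ[Y][X]` at `y`. -/
def evalInner {A : Type*} [CommRing A] (Φ : Polynomial (Polynomial ℤ)) (y : A) : Polynomial A :=
  Φ.map (Polynomial.eval₂RingHom (Int.castRingHom A) y)

theorem evalInner_map {A A' : Type*} [CommRing A] [CommRing A'] (σ : A →+* A')
    (Φ : Polynomial (Polynomial ℤ)) (y : A) :
    (evalInner Φ y).map σ = evalInner Φ (σ y) :=
  map_map_eval₂RingHom σ Φ y

/-- The ROOTS identity for `Φ` at the monomial `x = c q ^ a` (with `ζ : Bˣ`):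
`Φ(X, t(x^r)) = (X - t(x^(r^2))) * ∏_{b<r} (X - t(ζ^b x))`. -/
def RootsAt (Φ : Polynomial (Polynomial ℤ)) (r : ℕ) [NeZero r] (ζ : Bˣ) (c : Bˣ) (a : ℕ)
    [NeZero a] : Prop :=
  evalInner Φ (subst (c ^ r) (a * r) (jqModC B))
    = (X - Polynomial.C (subst (c ^ (r * r)) (a * (r * r)) (jqModC B)))
        * ∏ b ∈ Finset.range r, (X - Polynomial.C (subst (c * ζ ^ b) a (jqModC B)))

/-- The ROOTS identity at `q` itself, written with `qExpand` and `twist`. -/
theorem rootsAt_one_iff (Φ : Polynomial (Polynomial ℤ)) (r : ℕ) [NeZero r] (ζ : Bˣ) :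
    RootsAt Φ r ζ (1 : Bˣ) 1 ↔
      evalInner Φ (qExpand B r (jqModC B))
        = (X - Polynomial.C (qExpand B (r * r) (jqModC B)))
            * ∏ b ∈ Finset.range r, (X - Polynomial.C (twist (ζ ^ b) (jqModC B))) := by
  unfold RootsAt
  have h1 : subst ((1 : Bˣ) ^ r) (1 * r) (jqModC B) = qExpand B r (jqModC B) := by
    rw [one_pow, subst_one_left]
    exact qExpand_congr (one_mul r) _
  have h2 : subst ((1 : Bˣ) ^ (r * r)) (1 * (r * r)) (jqModC B)
      = qExpand B (r * r) (jqModC B) := by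
    rw [one_pow, subst_one_left]
    exact qExpand_congr (one_mul (r * r)) _
  have h3 : ∀ b : ℕ, subst ((1 : Bˣ) * ζ ^ b) 1 (jqModC B) = twist (ζ ^ b) (jqModC B) := by
    intro b
    rw [one_mul, subst_one_right]
  rw [h1, h2]
  simp only [h3]

/-- ROOTS at `q` implies ROOTS at every monomial `c q ^ a`. -/
theorem RootsAt.of_one {Φ : Polynomial (Polynomial ℤ)} {r : ℕ} [NeZero r] {ζ : Bˣ}
    (h : RootsAt Φ r ζ (1 : Bˣ) 1) (c : Bˣ) (a : ℕ) [NeZero a] : RootsAt Φ r ζ c a := by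
  rw [rootsAt_one_iff] at h
  have h' := congrArg (Polynomial.map (subst c a)) h
  rw [evalInner_map, subst_qExpand, Polynomial.map_mul, Polynomial.map_sub, Polynomial.map_X,
    Polynomial.map_C, subst_qExpand, Polynomial.map_prod] at h'
  unfold RootsAt
  rw [h']
  congr 1
  refine Finset.prod_congr rfl (fun b _ => ?_)
  rw [Polynomial.map_sub, Polynomial.map_X, Polynomial.map_C, subst_twist]

/-- In a domain, the roots of `Φ(X, t(x^r))` are exactly `t(x^(r^2))` and the `t(ζ^b x)`. -/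
theorem RootsAt.eval_eq_zero_iff [IsDomain B] {Φ : Polynomial (Polynomial ℤ)} {r : ℕ} [NeZero r]
    {ζ c : Bˣ} {a : ℕ} [NeZero a] (h : RootsAt Φ r ζ c a) (y : LaurentSeries B) :
    (evalInner Φ (subst (c ^ r) (a * r) (jqModC B))).eval y = 0 ↔
      y = subst (c ^ (r * r)) (a * (r * r)) (jqModC B) ∨
        ∃ b < r, y = subst (c * ζ ^ b) a (jqModC B) := by
  unfold RootsAt at h
  rw [h, Polynomial.eval_mul, Polynomial.eval_sub, Polynomial.eval_X, Polynomial.eval_C,
    Polynomial.eval_prod, mul_eq_zero, sub_eq_zero, Finset.prod_eq_zero_iff]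
  refine or_congr Iff.rfl ⟨?_, ?_⟩
  · rintro ⟨b, hb, hb0⟩
    rw [Polynomial.eval_sub, Polynomial.eval_X, Polynomial.eval_C, sub_eq_zero] at hb0
    exact ⟨b, Finset.mem_range.mp hb, hb0⟩
  · rintro ⟨b, hb, rfl⟩
    exact ⟨b, Finset.mem_range.mpr hb, by simp⟩

end Fermat.Agent.S28.Subst
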