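/-
S28, package P1 (helper94): prime-level irreducibility of the modular equation over `K(t_p)`,
from the ROOTS identity and the modular unit.
-/
import Mathlib
import Fermat.Prelude.Def_ModularCurve_X0ModL
import Fermat.Agent.S28.SubstRoots
import Fermat.Agent.S28.PrimeIrredCore

set_option autoImplicit false
set_option linter.style.haveILetI false

namespace Fermat.Agent.S28.P1

open ModularCurve HahnSeries Polynomial IntermediateField Fermat.Agent.S28.Subst

section TwistAut

variable {K : Type*} [Field K]

/-- the twist as a `K`-algebra automorphism of `K((q))`. -/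
noncomputable def twistAut (c : Kˣ) : LaurentSeries K ≃ₐ[K] LaurentSeries K :=
  AlgEquiv.ofRingEquiv (f := twistEquiv c) (by
    intro a
    show twist c (algebraMap K (LaurentSeries K) a) = algebraMap K (LaurentSeries K) a
    rw [algebraMap_laurentSeries_eq_single, twist_single, zpow_zero, Units.val_one, one_mul])

@[simp]
theorem twistAut_apply (c : Kˣ) (x : LaurentSeries K) : twistAut c x = twist c x := rfl

/-- the twist by a `p`-th root of unity fixes `q ^ p`-series. -/
theorem twist_qExpand_of_pow_eq_one (c : Kˣ) (p : ℕ) [NeZero p] (hc : c ^ p = 1)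
    (x : LaurentSeries K) : twist c (qExpand K p x) = qExpand K p x := by
  rw [twist_qExpand, hc, twist_one]

/-- the twist by a `p`-th root of unity, as an automorphism over an intermediate field
contained in `K((q ^ p))`. -/
noncomputable def twistAutOver (c : Kˣ) (p : ℕ) [NeZero p] (hc : c ^ p = 1)
    (E : IntermediateField K (LaurentSeries K))
    (hE : ∀ x ∈ E, x ∈ Set.range (qExpand K p)) : LaurentSeries K ≃ₐ[E] LaurentSeries K :=
  AlgEquiv.ofRingEquiv (f := twistEquiv c) (by
    intro e
    obtain ⟨y, hy⟩ := hE e.1 e.2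
    show twist c (e : LaurentSeries K) = e
    rw [← hy, twist_qExpand_of_pow_eq_one c p hc])

@[simp]
theorem twistAutOver_apply (c : Kˣ) (p : ℕ) [NeZero p] (hc : c ^ p = 1)
    (E : IntermediateField K (LaurentSeries K)) (hE : ∀ x ∈ E, x ∈ Set.range (qExpand K p))
    (x : LaurentSeries K) : twistAutOver c p hc E hE x = twist c x := rfl

end TwistAut

section Main

variable (K : Type*) [Field K] (p : ℕ) [NeZero p]

/-- **DICHOTOMY** over an intermediate field `K(t_p) ≤ E ≤ K((q^p))`: the modular equation
`Φ(X, t_p)` is irreducible over `E`, or `t_{p²} ∈ E`. -/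
theorem dichotomy_laurent (ζ : Kˣ) (hζ : IsPrimitiveRoot ζ p)
    (Φ : Polynomial (Polynomial ℤ)) (hΦ : Φ.Monic)
    (hroots : evalInner Φ (qExpand K p (jqModC K))
      = (X - Polynomial.C (qExpand K (p * p) (jqModC K)))
          * ∏ b ∈ Finset.range p, (X - Polynomial.C (twist (ζ ^ b) (jqModC K))))
    (E : IntermediateField K (LaurentSeries K))
    (htp : qExpand K p (jqModC K) ∈ E) (hE : ∀ x ∈ E, x ∈ Set.range (qExpand K p)) :
    Irreducible (evalInner Φ (⟨qExpand K p (jqModC K), htp⟩ : E)) ∨
      qExpand K (p * p) (jqModC K) ∈ E := by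
  have hc : ζ ^ p = 1 := hζ.pow_eq_one
  have hmonic : (evalInner Φ (⟨qExpand K p (jqModC K), htp⟩ : E)).Monic := hΦ.map _
  have hmap : (evalInner Φ (⟨qExpand K p (jqModC K), htp⟩ : E)).map
      (algebraMap E (LaurentSeries K)) = evalInner Φ (qExpand K p (jqModC K)) :=
    evalInner_map _ Φ _
  have h := dichotomy (twistAutOver ζ p hc E hE) (Nat.pos_of_ne_zero (NeZero.ne p))
    (evalInner Φ (⟨qExpand K p (jqModC K), htp⟩ : E)) hmonic
    (qExpand K (p * p) (jqModC K)) (fun b => twist (ζ ^ b) (jqModC K))
    (fun b => by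
      rw [twistAutOver_apply, twist_twist, ← pow_succ'])
    (fun b hb b' hb' hbb' => by
      have h1 := congrArg (fun x : LaurentSeries K => x.coeff (-1)) hbb'
      simp only [twist_coeff, coeff_jqModC_neg_one, mul_one] at h1
      have h2 : (ζ ^ b) ^ (-1 : ℤ) = (ζ ^ b') ^ (-1 : ℤ) := Units.ext h1
      rw [zpow_neg_one, zpow_neg_one, inv_inj] at h2
      exact hζ.pow_inj hb hb' h2)
    (by rw [hmap, hroots])
  rcases h with h | ⟨e, he⟩
  · exact Or.inl h
  · right
    rw [← he]
    exact e.2

/-- **Exclusion**: `t_p ∉ K(t)`, from the modular unit `u` (nonzero, of positive `q`-order,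
integral over `K[t]`, lying in `K(t, t_p)`). -/
theorem qExpand_jq_not_mem_adjoin (u : LaurentSeries K) (hu0 : u ≠ 0)
    (hcoeff : ∀ m : ℤ, m ≤ 0 → u.coeff m = 0)
    (hint : IsIntegral (Algebra.adjoin K {jqModC K}) u)
    (hrat : u ∈ IntermediateField.adjoin K {jqModC K, qExpand K p (jqModC K)}) :
    qExpand K p (jqModC K) ∉ IntermediateField.adjoin K {jqModC K} := by
  intro hmem
  have h1 : IntermediateField.adjoin K {jqModC K, qExpand K p (jqModC K)} ≤
      IntermediateField.adjoin K {jqModC K} := by
    rw [IntermediateField.adjoin_le_iff]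
    rintro x (rfl | rfl)
    · exact IntermediateField.mem_adjoin_simple_self K _
    · exact hmem
  have h2 := mem_adjoin_of_isIntegral (transcendental_jq K) (h1 hrat) hint
  exact hu0 (eq_zero_of_mem_adjoin_of_coeff K h2 hcoeff)

/-- `K(t_p)` is the image of `K(t)` under `q ↦ q ^ p`. -/
theorem adjoin_qExpand_eq_map :
    IntermediateField.adjoin K {qExpand K p (jqModC K)} =
      (IntermediateField.adjoin K {jqModC K}).map (qExpandAlgHomC K p) := by
  rw [IntermediateField.adjoin_map, Set.image_singleton]
  rfl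

theorem mem_range_of_mem_adjoin_qExpand {x : LaurentSeries K}
    (hx : x ∈ IntermediateField.adjoin K {qExpand K p (jqModC K)}) :
    x ∈ Set.range (qExpand K p) := by
  rw [adjoin_qExpand_eq_map] at hx
  obtain ⟨y, -, hy⟩ := hx
  exact ⟨y, hy⟩

/-- **Exclusion**, transported by `q ↦ q ^ p`: `t_{p²} ∉ K(t_p)`. -/
theorem qExpand_sq_jq_not_mem_adjoin
    (hne : qExpand K p (jqModC K) ∉ IntermediateField.adjoin K {jqModC K}) :
    qExpand K (p * p) (jqModC K) ∉ IntermediateField.adjoin K {qExpand K p (jqModC K)} := by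
  intro hmem
  rw [adjoin_qExpand_eq_map] at hmem
  obtain ⟨y, hy, hyx⟩ := hmem
  have h1 : qExpand K p y = qExpand K p (qExpand K p (jqModC K)) := by
    rw [qExpand_qExpand]
    exact hyx
  have h2 := qExpand_injective p h1
  exact hne (h2 ▸ hy)

/-- **Irreducibility** of `Φ(X, t_p)` over `K(t_p)` (for `K ∋ ζ_p`). -/
theorem irreducible_evalInner_qExpand (ζ : Kˣ) (hζ : IsPrimitiveRoot ζ p)
    (Φ : Polynomial (Polynomial ℤ)) (hΦ : Φ.Monic)
    (hroots : evalInner Φ (qExpand K p (jqModC K))
      = (X - Polynomial.C (qExpand K (p * p) (jqModC K)))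
          * ∏ b ∈ Finset.range p, (X - Polynomial.C (twist (ζ ^ b) (jqModC K))))
    (hne : qExpand K p (jqModC K) ∉ IntermediateField.adjoin K {jqModC K}) :
    Irreducible (evalInner Φ (AdjoinSimple.gen K (qExpand K p (jqModC K)))) := by
  rcases dichotomy_laurent K p ζ hζ Φ hΦ hroots
    (IntermediateField.adjoin K {qExpand K p (jqModC K)})
    (IntermediateField.mem_adjoin_simple_self K _)
    (fun x hx => mem_range_of_mem_adjoin_qExpand K p hx) with h | h
  · exact h
  · exact absurd h (qExpand_sq_jq_not_mem_adjoin K p hne)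

end Main

end Fermat.Agent.S28.P1
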