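/-
S28, package P1 (helper94): the modular unit `unitInf K p` has positive `q`-order `p - 1`
and leading coefficient `p ^ 12`.
-/
import Mathlib
import Fermat.Prelude.Def_ModularCurve_X0ModL
import Fermat.Agent.S28.Interface

set_option autoImplicit false

namespace Fermat.Agent.S28.P1

open ModularCurve HahnSeries

section LowerBound

variable {R : Type*} [CommRing R]

/-- `x` has no terms below `q ^ a`. -/
def VanishesBelow (x : LaurentSeries R) (a : ℤ) : Prop := ∀ m : ℤ, m < a → x.coeff m = 0

theorem VanishesBelow.mul {x y : LaurentSeries R} {a b : ℤ} (hx : VanishesBelow x a)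
    (hy : VanishesBelow y b) :
    VanishesBelow (x * y) (a + b) ∧ (x * y).coeff (a + b) = x.coeff a * y.coeff b := by
  constructor
  · intro m hm
    rw [HahnSeries.coeff_mul]
    apply Finset.sum_eq_zero
    intro ij hij
    rw [Finset.mem_antidiagonal] at hij
    obtain ⟨h1, h2, h3⟩ := hij
    have h1' : a ≤ ij.1 := by
      by_contra h
      exact h1 (hx _ (not_le.mp h))
    have h2' : b ≤ ij.2 := by
      by_contra h
      exact h2 (hy _ (not_le.mp h))
    omega
  · rw [HahnSeries.coeff_mul]
    by_cases hxa : x.coeff a = 0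
    · rw [hxa, zero_mul]
      apply Finset.sum_eq_zero
      intro ij hij
      rw [Finset.mem_antidiagonal] at hij
      obtain ⟨h1, h2, h3⟩ := hij
      have h1' : a ≤ ij.1 := by
        by_contra h
        exact h1 (hx _ (not_le.mp h))
      have h2' : b ≤ ij.2 := by
        by_contra h
        exact h2 (hy _ (not_le.mp h))
      have : ij.1 = a := by omega
      rw [this, hxa, zero_mul]
    by_cases hyb : y.coeff b = 0
    · rw [hyb, mul_zero]
      apply Finset.sum_eq_zero
      intro ij hij
      rw [Finset.mem_antidiagonal] at hij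
      obtain ⟨h1, h2, h3⟩ := hij
      have h1' : a ≤ ij.1 := by
        by_contra h
        exact h1 (hx _ (not_le.mp h))
      have h2' : b ≤ ij.2 := by
        by_contra h
        exact h2 (hy _ (not_le.mp h))
      have : ij.2 = b := by omega
      rw [this, hyb, mul_zero]
    rw [Finset.sum_eq_single (a, b)]
    · intro ij hij hne
      rw [Finset.mem_antidiagonal] at hij
      obtain ⟨h1, h2, h3⟩ := hij
      have h1' : a ≤ ij.1 := by
        by_contra h
        exact h1 (hx _ (not_le.mp h))
      have h2' : b ≤ ij.2 := by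
        by_contra h
        exact h2 (hy _ (not_le.mp h))
      exfalso
      apply hne
      apply Prod.ext <;> simp only <;> omega
    · intro h
      exfalso
      apply h
      rw [Finset.mem_antidiagonal]
      exact ⟨hxa, hyb, rfl⟩

theorem VanishesBelow.qExpand {x : LaurentSeries R} {a : ℤ} (hx : VanishesBelow x a) (N : ℕ)
    [NeZero N] : VanishesBelow (qExpand R N x) ((N : ℤ) * a) := by
  intro m hm
  by_cases hdvd : (N : ℤ) ∣ m
  · obtain ⟨k, rfl⟩ := hdvd
    rw [qExpand_coeff_mul]
    apply hx
    have hN : (0 : ℤ) < N := by exact_mod_cast Nat.pos_of_ne_zero (NeZero.ne N)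
    exact lt_of_mul_lt_mul_left hm hN.le
  · exact qExpand_coeff_of_not_dvd N x hdvd

theorem vanishesBelow_single_mul_ofPowerSeries (a : ℤ) (f : PowerSeries R) :
    VanishesBelow (HahnSeries.single a (1 : R) * HahnSeries.ofPowerSeries ℤ R f) a ∧
      (HahnSeries.single a (1 : R) * HahnSeries.ofPowerSeries ℤ R f).coeff a =
        PowerSeries.constantCoeff f := by
  constructor
  · intro m hm
    rw [HahnSeries.coeff_single_mul, one_mul]
    exact ofPowerSeries_coeff_of_neg _ (by omega)
  · rw [HahnSeries.coeff_single_mul, one_mul, sub_self, show (0 : ℤ) = ((0 : ℕ) : ℤ) from rfl,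
      HahnSeries.ofPowerSeries_apply_coeff, PowerSeries.coeff_zero_eq_constantCoeff]

end LowerBound

section Unit

variable (K : Type*) [Field K] (p : ℕ) [NeZero p]

theorem deltaQ_vanishesBelow : VanishesBelow (deltaQ K) 1 ∧ (deltaQ K).coeff 1 = 1 := by
  have h := vanishesBelow_single_mul_ofPowerSeries (R := K) 1
    (dedekindEtaUnit.map (Int.castRingHom K))
  refine ⟨h.1, ?_⟩
  have h2 := h.2
  rw [← PowerSeries.coeff_zero_eq_constantCoeff, PowerSeries.coeff_map,
    PowerSeries.coeff_zero_eq_constantCoeff, constantCoeff_dedekindEtaUnit] at h2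
  simpa [deltaQ] using h2

theorem deltaInvQ_vanishesBelow :
    VanishesBelow (deltaInvQ K) (-1) ∧ (deltaInvQ K).coeff (-1) = 1 := by
  have h := vanishesBelow_single_mul_ofPowerSeries (R := K) (-1)
    (dedekindEtaUnitInv.map (Int.castRingHom K))
  refine ⟨h.1, ?_⟩
  have h2 := h.2
  rw [← PowerSeries.coeff_zero_eq_constantCoeff, PowerSeries.coeff_map,
    PowerSeries.coeff_zero_eq_constantCoeff, constantCoeff_dedekindEtaUnitInv] at h2
  simpa [deltaInvQ] using h2

/-- the coefficients of the modular unit: nothing below `q ^ (p - 1)`, and `p ^ 12` there. -/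
theorem unitInf_coeff :
    (∀ m : ℤ, m < (p : ℤ) - 1 → (unitInf K p).coeff m = 0) ∧
      (unitInf K p).coeff ((p : ℤ) - 1) = (p : K) ^ 12 := by
  have h1 := deltaQ_vanishesBelow K
  have h2 := deltaInvQ_vanishesBelow K
  have h3 : VanishesBelow (qExpand K p (deltaQ K)) ((p : ℤ) * 1) := h1.1.qExpand p
  have h3' : (qExpand K p (deltaQ K)).coeff ((p : ℤ) * 1) = 1 := by
    rw [qExpand_coeff_mul, h1.2]
  have h4 := h3.mul h2.1
  have hC : ∀ m : ℤ, (unitInf K p).coeff m =
      (p : K) ^ 12 * (qExpand K p (deltaQ K) * deltaInvQ K).coeff m := by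
    intro m
    rw [unitInf, HahnSeries.C_apply, HahnSeries.coeff_single_zero_mul]
  have hidx : (p : ℤ) * 1 + -1 = (p : ℤ) - 1 := by ring
  constructor
  · intro m hm
    rw [hC, h4.1 m (by rw [hidx]; exact hm), mul_zero]
  · rw [hC, ← hidx, h4.2, h3', h2.2, mul_one, mul_one]

theorem unitInf_ne_zero (hpK : (p : K) ≠ 0) : unitInf K p ≠ 0 := by
  intro h
  have h1 := (unitInf_coeff K p).2
  rw [h, HahnSeries.coeff_zero] at h1
  exact pow_ne_zero 12 hpK h1.symm

theorem unitInf_coeff_of_nonpos (hp : 2 ≤ p) (m : ℤ) (hm : m ≤ 0) : (unitInf K p).coeff m = 0 := by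
  apply (unitInf_coeff K p).1
  have : (2 : ℤ) ≤ p := by exact_mod_cast hp
  omega

end Unit

end Fermat.Agent.S28.P1
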