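import Fermat.Agent.S28.SubstInterface

/-!
# S28 project: compatibility names

The SUBST package (helper17) uses `Fermat.Agent.S28.twist` from `Twist.lean` directly, and
`Fermat/Agent/S28/SubstInterface.lean` provides `modEqData_roots_monomial`,
`modEqData_eval_eq_zero_iff`, `rootsAt_of_modEqData`.  This file keeps the names that earlier
versions of this file / of `Subst.lean` exported, so that files written against them still build.
-/

set_option autoImplicit false

noncomputable section

namespace Fermat.Agent.S28

open HahnSeries ModularCurve Polynomial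

/-- `Subst.evalInner Φ y` is `Φ.map (evalY y)`. -/
theorem evalInner_eq_map_evalY {B : Type*} [CommRing B] (Φ : Polynomial (Polynomial ℤ))
    (y : LaurentSeries B) : Subst.evalInner Φ y = Φ.map (evalY y) := rfl

/-- The ROOTS field of `ModEqData` in the `RootsAt` form of the SUBST package. -/
theorem ModEqData.rootsAt_one {p : ℕ} [NeZero p] (D : ModEqData p) (B : Type) [CommRing B]
    (ζ : Bˣ) (hζ : (Polynomial.cyclotomic p B).IsRoot (ζ : B)) :
    Subst.RootsAt (B := B) D.Phi p ζ 1 1 :=
  Subst.rootsAt_one_of_modEqData D B ζ hζ

/-- ROOTS at every monomial `c q^a`. -/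
theorem ModEqData.rootsAt {p : ℕ} [NeZero p] (D : ModEqData p) (B : Type) [CommRing B]
    (ζ : Bˣ) (hζ : (Polynomial.cyclotomic p B).IsRoot (ζ : B)) (c : Bˣ) (a : ℕ) [NeZero a] :
    Subst.RootsAt (B := B) D.Phi p ζ c a :=
  Subst.rootsAt_of_modEqData D B ζ hζ c a

namespace Subst

/-- compatibility alias of `Fermat.Agent.S28.twist_one` -/
theorem twist_one {B : Type*} [CommRing B] (f : LaurentSeries B) : twist (1 : Bˣ) f = f :=
  Fermat.Agent.S28.twist_one f

end Subst

end Fermat.Agent.S28
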