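/-
S28, package P1 (helper94): the P1 statement of the interface.
-/
import Mathlib
import Fermat.Prelude.Def_ModularCurve_X0ModL
import Fermat.Agent.S28.Interface
import Fermat.Agent.S28.TwistBridge
import Fermat.Agent.S28.PrimeIrred
import Fermat.Agent.S28.PrimeIrredUnit

set_option autoImplicit false
set_option linter.style.haveILetI false

namespace Fermat.Agent.S28.P1

open ModularCurve HahnSeries Polynomial IntermediateField Fermat.Agent.S28.Subst

section CoeffMapAdjoin

variable {k0 K : Type*} [Field k0] [Field K] (f : k0 →+* K)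

theorem coeffMap_injective : Function.Injective (coeffMap f) := by
  intro x y hxy
  ext n
  have := congrArg (fun z : LaurentSeries K => z.coeff n) hxy
  simp only [coeffMap_coeff] at this
  exact f.injective this

theorem coeffMap_algebraMap' (c : k0) :
    coeffMap f (algebraMap k0 (LaurentSeries k0) c) = algebraMap K (LaurentSeries K) (f c) := by
  rw [algebraMap_laurentSeries_eq_single, algebraMap_laurentSeries_eq_single, coeffMap_single]

/-- `coeffMap` maps `k0(S)` into `K(coeffMap S)`. -/
theorem coeffMap_mem_adjoin (S : Set (LaurentSeries k0)) {x : LaurentSeries k0}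
    (hx : x ∈ IntermediateField.adjoin k0 S) :
    coeffMap f x ∈ IntermediateField.adjoin K (coeffMap f '' S) := by
  induction hx using IntermediateField.adjoin_induction with
  | mem x hx => exact IntermediateField.subset_adjoin K _ ⟨x, hx, rfl⟩
  | algebraMap c =>
    rw [coeffMap_algebraMap']
    exact IntermediateField.algebraMap_mem _ _
  | add x y _ _ hx hy =>
    rw [map_add]
    exact add_mem hx hy
  | inv x _ hx =>
    rw [map_inv₀]
    exact inv_mem hx
  | mul x y _ _ hx hy =>
    rw [map_mul]
    exact mul_mem hx hy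

/-- the restriction of `coeffMap` to `k0(y) → K(y')`, where `y' = coeffMap y`. -/
noncomputable def adjoinMap (y : LaurentSeries k0) (y' : LaurentSeries K) (hy : coeffMap f y = y') :
    IntermediateField.adjoin k0 {y} →+* IntermediateField.adjoin K {y'} :=
  ((coeffMap f).comp (algebraMap (IntermediateField.adjoin k0 {y}) (LaurentSeries k0))).codRestrict
    (IntermediateField.adjoin K {y'}) (fun x => by
      have := coeffMap_mem_adjoin f {y} x.2
      rwa [Set.image_singleton, hy] at this)

theorem adjoinMap_gen (y : LaurentSeries k0) (y' : LaurentSeries K) (hy : coeffMap f y = y') :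
    adjoinMap f y y' hy (AdjoinSimple.gen k0 y) = AdjoinSimple.gen K y' :=
  Subtype.ext hy

/-- irreducibility of `Φ(X, y)` over `k0(y)` descends from `K(y')`. -/
theorem irreducible_descent (Φ : Polynomial (Polynomial ℤ)) (hΦ : Φ.Monic)
    (y : LaurentSeries k0) (y' : LaurentSeries K) (hy : coeffMap f y = y')
    (h : Irreducible (evalInner Φ (AdjoinSimple.gen K y'))) :
    Irreducible (evalInner Φ (AdjoinSimple.gen k0 y)) := by
  refine Polynomial.Monic.irreducible_of_irreducible_map (adjoinMap f y y' hy) _ (hΦ.map _) ?_
  rw [evalInner_map, adjoinMap_gen]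
  exact h

/-- vanishing of `Φ(x, y)` descends along `coeffMap`. -/
theorem eval_descent (Φ : Polynomial (Polynomial ℤ)) (x y : LaurentSeries k0)
    (h : (evalInner Φ (coeffMap f y)).eval (coeffMap f x) = 0) :
    (evalInner Φ y).eval x = 0 := by
  apply coeffMap_injective f
  rw [map_zero, ← Polynomial.eval_map_apply, evalInner_map]
  exact h

end CoeffMapAdjoin

section Relrank

variable {F L : Type*} [Field F] [Field L] [Algebra F L]

/-- `[F(x, y) : F(y)] = deg f` if `f` is the minimal polynomial of `x` over `F(y)`. -/
theorem relrank_adjoin_pair (x y : L) (f : (IntermediateField.adjoin F {y})[X]) (hirr : Irreducible f)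
    (hmonic : f.Monic) (hroot : Polynomial.aeval x f = 0) :
    IntermediateField.relrank (IntermediateField.adjoin F {y}) (IntermediateField.adjoin F {x, y}) =
      (f.natDegree : Cardinal) := by
  have hle : IntermediateField.adjoin F {y} ≤ IntermediateField.adjoin F {x, y} :=
    IntermediateField.adjoin.mono F _ _ (by simp)
  rw [IntermediateField.relrank_eq_rank_of_le hle]
  have hext : IntermediateField.extendScalars hle =
      IntermediateField.adjoin (IntermediateField.adjoin F {y}) {x} := by
    apply IntermediateField.restrictScalars_injective F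
    rw [IntermediateField.extendScalars_restrictScalars, IntermediateField.adjoin_adjoin_left,
      Set.union_singleton]
  have hint : IsIntegral (IntermediateField.adjoin F {y}) x := ⟨f, hmonic, hroot⟩
  have hmin : minpoly (IntermediateField.adjoin F {y}) x = f :=
    (minpoly.eq_of_irreducible_of_monic hirr hroot hmonic).symm
  rw [hext]
  haveI := IntermediateField.adjoin.finiteDimensional hint
  rw [← Module.finrank_eq_rank, IntermediateField.adjoin.finrank hint, hmin]

end Relrank

section WithZeta

variable (K : Type) [Field K] (p : ℕ) [NeZero p] (D : ModEqData p)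

/-- all P1 facts over a field containing a primitive `p`-th root of unity. -/
theorem p1_with_zeta (hp : 2 ≤ p) (hpK : (p : K) ≠ 0) (ζ : K) (hζ : IsPrimitiveRoot ζ p) :
    Irreducible (evalInner D.Phi (AdjoinSimple.gen K (jqModC K))) ∧
    (evalInner D.Phi (jqModC K)).eval (qExpand K p (jqModC K)) = 0 ∧
    Irreducible (evalInner D.Phi (AdjoinSimple.gen K (qExpand K p (jqModC K)))) ∧
    (evalInner D.Phi (qExpand K p (jqModC K))).eval (jqModC K) = 0 := by
  have hp0 : 0 < p := by omega
  haveI : NeZero (p : K) := ⟨hpK⟩
  have hcyc : (Polynomial.cyclotomic p K).IsRoot ζ := Polynomial.isRoot_cyclotomic_iff.mpr hζ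
  set ζu : Kˣ := (hζ.isUnit hp0.ne').unit with hζu
  have hζu_val : (ζu : K) = ζ := IsUnit.unit_spec _
  have hζu_prim : IsPrimitiveRoot ζu p := by
    rw [← IsPrimitiveRoot.coe_units_iff, hζu_val]
    exact hζ
  have hcyc' : (Polynomial.cyclotomic p K).IsRoot (ζu : K) := by rw [hζu_val]; exact hcyc
  have hroots := (rootsAt_one_iff D.Phi p ζu).mp (rootsAt_one_of_modEqData D K ζu hcyc')
  have hne : qExpand K p (jqModC K) ∉ IntermediateField.adjoin K {jqModC K} :=
    qExpand_jq_not_mem_adjoin K p (unitInf K p) (unitInf_ne_zero K p hpK)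
      (unitInf_coeff_of_nonpos K p hp) (D.unit_integral K ζ hcyc hpK) (D.unit_mem K ζ hcyc hpK)
  have hirr_p := irreducible_evalInner_qExpand K p ζu hζu_prim D.Phi D.monic hroots hne
  -- root facts
  have hroot_t : (evalInner D.Phi (qExpand K p (jqModC K))).eval (jqModC K) = 0 := by
    rw [hroots, Polynomial.eval_mul, Polynomial.eval_prod,
      Finset.prod_eq_zero (Finset.mem_range.mpr hp0) (by
        rw [pow_zero, twist_one]; simp), mul_zero]
  have hroot_tpp : (evalInner D.Phi (qExpand K p (jqModC K))).eval
      (qExpand K (p * p) (jqModC K)) = 0 := by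
    rw [hroots, Polynomial.eval_mul]
    simp
  have hroot_tp : (evalInner D.Phi (jqModC K)).eval (qExpand K p (jqModC K)) = 0 := by
    apply qExpand_injective (R := K) p
    rw [map_zero, ← Polynomial.eval_map_apply, evalInner_map, qExpand_qExpand]
    exact hroot_tpp
  -- transport of irreducibility to `K(t)` along `q ↦ q ^ p`
  let ψ : IntermediateField.adjoin K {jqModC K} →+*
      IntermediateField.adjoin K {qExpand K p (jqModC K)} :=
    ((qExpand K p).comp (algebraMap (IntermediateField.adjoin K {jqModC K})
      (LaurentSeries K))).codRestrict (IntermediateField.adjoin K {qExpand K p (jqModC K)})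
      (fun x => by
        rw [adjoin_qExpand_eq_map]
        exact ⟨x, x.2, rfl⟩)
  have hψ : ψ (AdjoinSimple.gen K (jqModC K)) = AdjoinSimple.gen K (qExpand K p (jqModC K)) :=
    Subtype.ext rfl
  have hirr_1 : Irreducible (evalInner D.Phi (AdjoinSimple.gen K (jqModC K))) := by
    refine Polynomial.Monic.irreducible_of_irreducible_map ψ _ (D.monic.map _) ?_
    rw [evalInner_map, hψ]
    exact hirr_p
  exact ⟨hirr_1, hroot_tp, hirr_p, hroot_t⟩

end WithZeta

section Final

/-- **P1**: the statement of the interface (for `2 ≤ p`). -/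
theorem p1Statement (p : ℕ) [NeZero p] (hp : 2 ≤ p) (D : ModEqData p) : P1Statement p D := by
  intro k0 _ hpk0
  have hp0 : 0 < p := by omega
  -- pass to the algebraic closure
  let f : k0 →+* AlgebraicClosure k0 := algebraMap k0 (AlgebraicClosure k0)
  have hpK : (p : AlgebraicClosure k0) ≠ 0 := by
    have h1 : f (p : k0) = (p : AlgebraicClosure k0) := map_natCast f p
    rw [← h1]
    exact (map_ne_zero f).mpr hpk0
  haveI : NeZero (p : AlgebraicClosure k0) := ⟨hpK⟩
  obtain ⟨ζ, hζ⟩ : ∃ ζ : AlgebraicClosure k0, IsPrimitiveRoot ζ p := by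
    obtain ⟨ζ, hζ⟩ := IsAlgClosed.exists_root (Polynomial.cyclotomic p (AlgebraicClosure k0))
      (by
        rw [Polynomial.degree_cyclotomic]
        exact_mod_cast (Nat.totient_pos.mpr hp0).ne')
    exact ⟨ζ, Polynomial.isRoot_cyclotomic_iff.mp hζ⟩
  obtain ⟨h1, h2, h3, h4⟩ := p1_with_zeta (AlgebraicClosure k0) p D hp hpK ζ hζ
  have ht : coeffMap f (jqModC k0) = jqModC (AlgebraicClosure k0) := coeffMap_jqModC f
  have htp : coeffMap f (qExpand k0 p (jqModC k0)) =
      qExpand (AlgebraicClosure k0) p (jqModC (AlgebraicClosure k0)) := by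
    rw [coeffMap_qExpand, ht]
  have hirrT : Irreducible (evalInner D.Phi (AdjoinSimple.gen k0 (jqModC k0))) :=
    irreducible_descent f D.Phi D.monic _ _ ht h1
  have hirrTp : Irreducible (evalInner D.Phi (AdjoinSimple.gen k0 (qExpand k0 p (jqModC k0)))) :=
    irreducible_descent f D.Phi D.monic _ _ htp h3
  have hrootTp : (evalInner D.Phi (jqModC k0)).eval (qExpand k0 p (jqModC k0)) = 0 :=
    eval_descent f D.Phi _ _ (by rw [ht, htp]; exact h2)
  have hrootT : (evalInner D.Phi (qExpand k0 p (jqModC k0))).eval (jqModC k0) = 0 :=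
    eval_descent f D.Phi _ _ (by rw [ht, htp]; exact h4)
  have hdeg : ∀ (y : LaurentSeries k0),
      (evalInner D.Phi (AdjoinSimple.gen k0 y)).natDegree = p + 1 := by
    intro y
    rw [evalInner, D.monic.natDegree_map, D.natDegree_eq]
  have haeval : ∀ (x y : LaurentSeries k0), (evalInner D.Phi y).eval x = 0 →
      Polynomial.aeval x (evalInner D.Phi (AdjoinSimple.gen k0 y)) = 0 := by
    intro x y h
    rw [Polynomial.aeval_def, ← Polynomial.eval_map, evalInner_map]
    exact h
  refine ⟨hirrT, hrootTp, hirrTp, hrootT, ?_, ?_⟩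
  · have := relrank_adjoin_pair (F := k0) (qExpand k0 p (jqModC k0)) (jqModC k0) _ hirrT
      (D.monic.map _) (haeval _ _ hrootTp)
    rw [hdeg] at this
    rw [← this]
    congr 1
    exact congrArg (IntermediateField.adjoin k0) (Set.pair_comm _ _)
  · have := relrank_adjoin_pair (F := k0) (jqModC k0) (qExpand k0 p (jqModC k0)) _ hirrTp
      (D.monic.map _) (haeval _ _ hrootT)
    rw [hdeg] at this
    exact this

end Final

end Fermat.Agent.S28.P1
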