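import Fermat.Agent.S28.Interface
import Fermat.Agent.S28.SubstRoots

/-!
# S28 package [SUBST], part 3: ROOTS of `ModEqData` at a general monomial

For `D : ModEqData p`, a commutative ring `B` with a root `ζ : Bˣ` of the `p`-th cyclotomic
polynomial, `c : Bˣ` and `a ≥ 1`, writing `mon c a := subst c a (jqModC B) = t(c q^a)`:
`Φ_p(X, mon (c^p) (a p)) = (X - mon (c^(p p)) (a (p p))) * ∏_{b<p} (X - mon (c ζ^b) a)`.
-/

set_option autoImplicit false

noncomputable section

open HahnSeries ModularCurve Polynomial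

namespace Fermat.Agent.S28.Subst

theorem evalInner_eq_map_evalY {B : Type*} [CommRing B] (Φ : Polynomial (Polynomial ℤ))
    (y : LaurentSeries B) : evalInner Φ y = Φ.map (evalY y) := rfl

/-- ROOTS at `q`, in `RootsAt` form. -/
theorem rootsAt_one_of_modEqData {p : ℕ} [NeZero p] (D : ModEqData p) (B : Type) [CommRing B]
    (ζ : Bˣ) (hζ : (Polynomial.cyclotomic p B).IsRoot (ζ : B)) :
    RootsAt D.Phi p ζ (1 : Bˣ) 1 :=
  (rootsAt_one_iff D.Phi p ζ).mpr (D.roots B ζ hζ)

/-- ROOTS at every monomial `c q ^ a`. -/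
theorem rootsAt_of_modEqData {p : ℕ} [NeZero p] (D : ModEqData p) (B : Type) [CommRing B]
    (ζ : Bˣ) (hζ : (Polynomial.cyclotomic p B).IsRoot (ζ : B)) (c : Bˣ) (a : ℕ) [NeZero a] :
    RootsAt D.Phi p ζ c a :=
  (rootsAt_one_of_modEqData D B ζ hζ).of_one c a

/-- ROOTS at every monomial, fully unfolded, in the `Interface` notation (`evalY`). -/
theorem modEqData_roots_monomial {p : ℕ} [NeZero p] (D : ModEqData p) (B : Type) [CommRing B]
    (ζ : Bˣ) (hζ : (Polynomial.cyclotomic p B).IsRoot (ζ : B)) (c : Bˣ) (a : ℕ) [NeZero a] :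
    D.Phi.map (evalY (subst (c ^ p) (a * p) (jqModC B))) =
      (X - Polynomial.C (subst (c ^ (p * p)) (a * (p * p)) (jqModC B))) *
        ∏ b ∈ Finset.range p, (X - Polynomial.C (subst (c * ζ ^ b) a (jqModC B))) :=
  rootsAt_of_modEqData D B ζ hζ c a

/-- Root classification over a domain. -/
theorem modEqData_eval_eq_zero_iff {p : ℕ} [NeZero p] (D : ModEqData p) (B : Type) [CommRing B]
    [IsDomain B] (ζ : Bˣ) (hζ : (Polynomial.cyclotomic p B).IsRoot (ζ : B)) (c : Bˣ) (a : ℕ)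
    [NeZero a] (y : LaurentSeries B) :
    (D.Phi.map (evalY (subst (c ^ p) (a * p) (jqModC B)))).eval y = 0 ↔
      y = subst (c ^ (p * p)) (a * (p * p)) (jqModC B) ∨
        ∃ b < p, y = subst (c * ζ ^ b) a (jqModC B) :=
  (rootsAt_of_modEqData D B ζ hζ c a).eval_eq_zero_iff y

end Fermat.Agent.S28.Subst
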