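/-
S28 / KEYL (helper11): the lower bound in the shape of `Interface.lean`:
`keyLower : ModEqStatement → ¬ ℓ ∣ N → KeyLower N ℓ`.

The hypothesis bundle `KeyLower.Input K` is built, for an algebraically closed field `K : Type`,
from `ModEqStatement` (package FORMAL), the monomial ROOTS identity (package SUBST) and the
prime-level facts of package P1 (`P1.p1Statement`, `P1.dichotomy_laurent`).
-/
import Fermat.Agent.S28.Interface
import Fermat.Agent.S28.SubstInterface
import Fermat.Agent.S28.PrimeIrredMain
import Fermat.Agent.S28.KeyLower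

set_option autoImplicit false
set_option linter.style.haveILetI false

noncomputable section

namespace Fermat.Agent.S28.KeyLower

open HahnSeries ModularCurve IntermediateField Polynomial
open Fermat.Agent.S28 Fermat.Agent.S28.Subst Fermat.Agent.S28.KeyLowerBasic

section Adapter

variable (K : Type) [Field K]

/-- `t(c q^a)`, total in `a` (junk value `0` at `a = 0`). -/
def monT (c : Kˣ) (a : ℕ) : LaurentSeries K :=
  if h : a = 0 then 0 else @subst K _ c a ⟨h⟩ (jqModC K)

theorem monT_eq (c : Kˣ) (a : ℕ) [ha : NeZero a] : monT K c a = subst c a (jqModC K) := by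
  rw [monT, dif_neg ha.out]

/-- the data of prime level `r` chosen from `ModEqStatement`. -/
def dataT (hD : ModEqStatement) (r : ℕ) [NeZero r] (h : r.Prime) : ModEqData r :=
  (hD r h).some

/-- the modular polynomial, total in `r` (junk value `0` for `r` not prime). -/
def phiT (hD : ModEqStatement) (r : ℕ) : Polynomial (Polynomial ℤ) :=
  if h : r.Prime then @ModEqData.Phi r ⟨h.ne_zero⟩ (@dataT hD r ⟨h.ne_zero⟩ h) else 0

theorem phiT_eq (hD : ModEqStatement) (r : ℕ) [NeZero r] (h : r.Prime) :
    phiT hD r = (dataT hD r h).Phi := by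
  rw [phiT, dif_pos h]

theorem polyAt_eq_map_evalY (P : Polynomial (Polynomial ℤ)) (y : LaurentSeries K) :
    polyAt P y = P.map (evalY y) := rfl

/-- a primitive `r`-th root of unity, as a unit, with the cyclotomic root property. -/
theorem exists_zeta [IsAlgClosed K] (r : ℕ) (hr : 0 < r) (hrK : (r : K) ≠ 0) :
    ∃ ζ : Kˣ, IsPrimitiveRoot ζ r ∧ (Polynomial.cyclotomic r K).IsRoot (ζ : K) := by
  haveI : NeZero (r : K) := ⟨hrK⟩
  obtain ⟨ζ, hζ⟩ := HasEnoughRootsOfUnity.exists_primitiveRoot K r
  refine ⟨(hζ.isUnit hr.ne').unit, ?_, ?_⟩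
  · rw [← IsPrimitiveRoot.coe_units_iff, IsUnit.unit_spec]
    exact hζ
  · rw [IsUnit.unit_spec]
    exact Polynomial.isRoot_cyclotomic_iff.mpr hζ

/-- The hypothesis bundle of `KeyLower.lean` from the packages FORMAL, SUBST and P1. -/
def inputOf [IsAlgClosed K] (hD : ModEqStatement) : Input K where
  Φ := phiT hD
  monic r hr := by
    haveI : NeZero r := ⟨hr.ne_zero⟩
    rw [phiT_eq hD r hr]
    exact (dataT hD r hr).monic
  natDegree r hr := by
    haveI : NeZero r := ⟨hr.ne_zero⟩
    rw [phiT_eq hD r hr]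
    exact (dataT hD r hr).natDegree_eq
  mon := monT K
  mon_one a := by
    by_cases h : a = 0
    · rw [monT, tq, dif_pos h, dif_pos h]
    · rw [monT, tq, dif_neg h, dif_neg h]
      exact @subst_one_left K _ a ⟨h⟩ _
  mon_coeff c a n hn := by
    by_cases h : a = 0
    · rw [monT, dif_pos h, HahnSeries.coeff_zero]
    · rw [monT, dif_neg h]
      exact @subst_coeff_of_not_dvd K _ c a ⟨h⟩ _ n hn
  roots r hr hrK c a ha := by
    haveI : NeZero r := ⟨hr.ne_zero⟩
    haveI : NeZero a := ⟨ha.ne'⟩
    obtain ⟨ζ, -, hcyc⟩ := exists_zeta K r hr.pos hrK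
    refine ⟨fun b => c * ζ ^ (b : ℕ), ⟨⟨0, hr.pos⟩, by simp⟩, ?_⟩
    have h := modEqData_roots_monomial (dataT hD r hr) K ζ hcyc c a
    rw [phiT_eq hD r hr, polyAt_eq_map_evalY, mul_comm r a, sq, mul_comm (r * r) a,
      monT_eq, monT_eq, h, Finset.prod_range]
    congr 1
    apply Finset.prod_congr rfl
    intro b _
    rw [monT_eq]
  deg_tp p hp hpK := by
    haveI : NeZero p := ⟨hp.ne_zero⟩
    obtain ⟨hirr, hroot, -, -, -, -⟩ := P1.p1Statement p hp.two_le (dataT hD p hp) K hpK
    rw [tq_one, tq_eq]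
    have hmonic : ((dataT hD p hp).Phi.map (evalYF (fieldT K) (tGen K))).Monic :=
      (dataT hD p hp).monic.map _
    have hcomp : (algebraMap (fieldT K) (LaurentSeries K)).comp (evalYF (fieldT K) (tGen K))
        = evalY (jqModC K) := by
      apply Polynomial.ringHom_ext
      · intro a; simp [evalYF, evalY]
      · simp [evalYF, evalY, tGen]
    have hroot' : aeval (qExpand K p (jqModC K))
        ((dataT hD p hp).Phi.map (evalYF (fieldT K) (tGen K))) = 0 := by
      rw [aeval_def, eval₂_eq_eval_map, Polynomial.map_map, hcomp]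
      exact hroot
    have hmin := minpoly.eq_of_irreducible_of_monic hirr hroot' hmonic
    show (minpoly (fieldT K) (qExpand K p (jqModC K))).natDegree = p + 1
    rw [← hmin, (dataT hD p hp).monic.natDegree_map, (dataT hD p hp).natDegree_eq]
  dich p _ hp hpK E' h1 h2 h3 := by
    obtain ⟨ζ, hζ, hcyc⟩ := exists_zeta K p hp.pos hpK
    have hroots := (dataT hD p hp).roots K ζ hcyc
    have htp : qExpand K p (jqModC K) ∈ E' :=
      h1 (by rw [← tq_eq]; exact mem_adjoin_simple_self K _)
    have hE : ∀ x ∈ E', x ∈ Set.range (qExpand K p) := fun x hx => by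
      obtain ⟨y, hy⟩ := h2 hx
      exact ⟨y, hy⟩
    rcases P1.dichotomy_laurent K p ζ hζ _ (dataT hD p hp).monic hroots E' htp hE with h | h
    · have hmonic : (evalInner (dataT hD p hp).Phi
          (⟨qExpand K p (jqModC K), htp⟩ : E')).Monic := (dataT hD p hp).monic.map _
      have hroot : aeval (tq K 1) (evalInner (dataT hD p hp).Phi
          (⟨qExpand K p (jqModC K), htp⟩ : E')) = 0 := by
        rw [tq_one, aeval_def, eval₂_eq_eval_map, evalInner_map]
        show (evalInner (dataT hD p hp).Phi (qExpand K p (jqModC K))).eval (jqModC K) = 0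
        rw [evalInner_eq_map_evalY, hroots, Polynomial.eval_mul, Polynomial.eval_prod,
          Finset.prod_eq_zero (Finset.mem_range.mpr hp.pos) (by
            rw [pow_zero, twist_one]; simp), mul_zero]
      have hmin := minpoly.eq_of_irreducible_of_monic h hroot hmonic
      rw [← hmin]
      show ((dataT hD p hp).Phi.map _).natDegree = p + 1
      rw [(dataT hD p hp).monic.natDegree_map, (dataT hD p hp).natDegree_eq]
    · exfalso
      apply h3
      haveI : NeZero (p ^ 2) := ⟨pow_ne_zero 2 hp.ne_zero⟩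
      rw [tq_eq, qExpand_congr (sq p)]
      exact h

end Adapter

/-- **KEYL** over an algebraically closed field `K : Type` with `(N : K) ≠ 0`. -/
theorem keyLower_algClosed (hD : ModEqStatement) (K : Type) [Field K] [IsAlgClosed K]
    (N : ℕ) [NeZero N] (hNK : (N : K) ≠ 0) :
    ((dedekindPsi N : ℕ) : Cardinal) ≤
      IntermediateField.relrank (fieldT K) (modularFunctionFieldFullC K N) :=
  (inputOf K hD).keyL' N (Nat.pos_of_ne_zero (NeZero.ne N)) hNK

/-- **KEYL** in the shape of the interface. -/
theorem keyLower (hD : ModEqStatement) (N : ℕ) [NeZero N] (ℓ : ℕ) [Fact ℓ.Prime]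
    (hℓN : ¬ ℓ ∣ N) : KeyLower N ℓ := by
  refine ⟨AlgebraicClosure (ZMod ℓ), inferInstance, inferInstance, ?_⟩
  apply keyLower_algClosed hD
  intro h
  exact hℓN ((CharP.cast_eq_zero_iff (AlgebraicClosure (ZMod ℓ)) ℓ N).mp h)

end Fermat.Agent.S28.KeyLower
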