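import Mathlib

/-!
# S28 / ALG-V : the Gauss valuation ring `V = 𝒪 ∩ Q(j)`

Abstract setting (all hypotheses explicit, so that the file plugs into any construction of `𝒪`):

* `R` a "DVR-like" ring with fraction field `Q`, uniformiser `ℓ`, residue map `π : R →+* k`;
* `E ⊇ Q` a field, `𝒪 ⊆ E` a subring containing `R`, `ρ : 𝒪 →+* κ` a ring hom extending `π`
  such that every `x ∈ 𝒪` with `ρ x ≠ 0` is a unit of `𝒪`;
* `j ∈ 𝒪` with `ρ j` transcendental over `k`.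

Then `V := {c ∈ Q(j) | c ∈ 𝒪}` is a valuation subring of `Q(j)` (hence integrally closed with
fraction field `Q(j)`), every nonzero `c ∈ Q(j)` is `ℓ ^ m * (unit of V)`, `ρ V ⊆ k(ρ j)`,
and `𝒪 ∩ Q[j] = R[j]`.
-/

set_option autoImplicit false

open Polynomial IntermediateField

namespace Fermat.Agent.S28.GaussRing

section

variable {R Q k E κ : Type*} [CommRing R] [Field Q] [Algebra R Q] [Field k] [Field E]
  [Algebra Q E] [Field κ] [Algebra k κ]

/-- Every nonzero polynomial over `Q` is `ℓ ^ m` times (the image of) a polynomial over `R`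
whose reduction modulo `ℓ` is nonzero. -/
theorem exists_primitive_part (π : R →+* k) (ℓ : R)
    (hinj : Function.Injective (algebraMap R Q)) (hℓ0 : ℓ ≠ 0)
    (hQ : ∀ c : Q, c ≠ 0 → ∃ (m : ℤ) (u : Rˣ),
      c = algebraMap R Q ℓ ^ m * algebraMap R Q (u : R))
    (a : Q[X]) (ha : a ≠ 0) :
    ∃ (m : ℤ) (a₀ : R[X]), a = C (algebraMap R Q ℓ ^ m) * a₀.map (algebraMap R Q) ∧
      a₀.map π ≠ 0 := by
  classical
  have hL : algebraMap R Q ℓ ≠ 0 := fun h => hℓ0 (hinj (by rw [h, map_zero]))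
  -- valuations of the coefficients
  have hex : ∀ i : ℕ, ∃ (m : ℤ) (u : R), a.coeff i ≠ 0 →
      (IsUnit u ∧ a.coeff i = algebraMap R Q ℓ ^ m * algebraMap R Q u) := by
    intro i
    by_cases hi : a.coeff i = 0
    · exact ⟨0, 0, fun h => absurd hi h⟩
    · obtain ⟨m, u, hu⟩ := hQ _ hi
      exact ⟨m, u, fun _ => ⟨u.isUnit, hu⟩⟩
  choose v u hvu using hex
  -- the minimum over the support
  have hsupp : a.support.Nonempty := by
    rwa [Finset.nonempty_iff_ne_empty, Ne, Polynomial.support_eq_empty]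
  obtain ⟨i₀, hi₀, hmin⟩ := Finset.exists_min_image a.support v hsupp
  have hi₀' : a.coeff i₀ ≠ 0 := Polynomial.mem_support_iff.1 hi₀
  set m := v i₀ with hm
  -- the scaled polynomial has coefficients in `R`
  have hlift : C (algebraMap R Q ℓ ^ (-m)) * a ∈ Polynomial.lifts (algebraMap R Q) := by
    rw [Polynomial.lifts_iff_coeff_lifts]
    intro i
    rw [Polynomial.coeff_C_mul]
    by_cases hi : a.coeff i = 0
    · rw [hi, mul_zero]; exact ⟨0, map_zero _⟩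
    · obtain ⟨-, hc⟩ := hvu i hi
      have hle : m ≤ v i := hmin i (Polynomial.mem_support_iff.2 hi)
      obtain ⟨n, hn⟩ := Int.eq_ofNat_of_zero_le (sub_nonneg.2 hle)
      refine ⟨ℓ ^ n * u i, ?_⟩
      rw [hc, map_mul, map_pow, ← mul_assoc, ← zpow_add₀ hL, ← zpow_natCast, ← hn]
      congr 2
      ring
  obtain ⟨a₀, ha₀'⟩ := hlift
  have ha₀ : a₀.map (algebraMap R Q) = C (algebraMap R Q ℓ ^ (-m)) * a := ha₀'
  refine ⟨m, a₀, ?_, ?_⟩
  · rw [ha₀, ← mul_assoc, ← C_mul, ← zpow_add₀ hL, add_neg_cancel, zpow_zero, C_1, one_mul]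
  · intro h0
    have h1 : (a₀.map π).coeff i₀ = 0 := by rw [h0, coeff_zero]
    rw [coeff_map] at h1
    obtain ⟨hunit, hc⟩ := hvu i₀ hi₀'
    have h2 : algebraMap R Q (a₀.coeff i₀) = algebraMap R Q (u i₀) := by
      have h3 := congrArg (fun p => Polynomial.coeff p i₀) ha₀
      simp only [Polynomial.coeff_map, Polynomial.coeff_C_mul] at h3
      rw [h3, hc, hm, ← mul_assoc, ← zpow_add₀ hL, neg_add_cancel, zpow_zero, one_mul]
    rw [hinj h2] at h1
    exact (hunit.map π).ne_zero h1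

end

section main

variable {R Q k E κ : Type*} [CommRing R] [Field Q] [Algebra R Q] [Field k] [Field E]
  [Algebra Q E] [Field κ] [Algebra k κ]
  (π : R →+* k) (ℓ : R) (O : Subring E) (ρ : O →+* κ) (j : E)
  (hinj : Function.Injective (algebraMap R Q)) (hℓ0 : ℓ ≠ 0) (hπℓ : π ℓ = 0)
  (hQ : ∀ c : Q, c ≠ 0 → ∃ (m : ℤ) (u : Rˣ),
    c = algebraMap R Q ℓ ^ m * algebraMap R Q (u : R))
  (hRO : ∀ r : R, algebraMap Q E (algebraMap R Q r) ∈ O)
  (hρR : ∀ r : R, ρ ⟨algebraMap Q E (algebraMap R Q r), hRO r⟩ = algebraMap k κ (π r))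
  (hunit : ∀ x : O, ρ x ≠ 0 → IsUnit x)
  (hj : j ∈ O) (ht : Transcendental k (ρ ⟨j, hj⟩))

/-- The structure map `R →+* 𝒪`. -/
def toO : R →+* O :=
  ((algebraMap Q E).comp (algebraMap R Q)).codRestrict O hRO

omit [Field k] [Field κ] in
@[simp] theorem coe_toO (r : R) : ((toO O hRO r : O) : E) = algebraMap Q E (algebraMap R Q r) := rfl

/-- Evaluation at `j` of polynomials with coefficients in `R`, as a ring hom into `𝒪`. -/
def evalO : R[X] →+* O := Polynomial.eval₂RingHom (toO O hRO) ⟨j, hj⟩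

omit [Field k] [Field κ] in
theorem coe_evalO (a₀ : R[X]) :
    ((evalO O j hRO hj a₀ : O) : E) = aeval j (a₀.map (algebraMap R Q)) := by
  have h1 : ((evalO O j hRO hj a₀ : O) : E) = O.subtype (evalO O j hRO hj a₀) := rfl
  rw [h1, evalO, Polynomial.coe_eval₂RingHom, Polynomial.hom_eval₂, aeval_def,
    Polynomial.eval₂_map]
  rfl

include hρR in
theorem rho_evalO (a₀ : R[X]) :
    ρ (evalO O j hRO hj a₀) = aeval (ρ ⟨j, hj⟩) (a₀.map π) := by
  rw [evalO, Polynomial.coe_eval₂RingHom, Polynomial.hom_eval₂, aeval_def, Polynomial.eval₂_map]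
  congr 1
  ext r
  exact hρR r

include hρR hunit ht in
theorem isUnit_evalO {a₀ : R[X]} (h : a₀.map π ≠ 0) : IsUnit (evalO O j hRO hj a₀) := by
  apply hunit
  rw [rho_evalO π O ρ j hRO hρR hj]
  exact fun h' => h ((transcendental_iff.1 ht) _ h')

include hπℓ hρR in
theorem rho_ell : ρ (toO O hRO ℓ) = 0 := by
  have h := hρR ℓ
  rw [hπℓ, map_zero] at h
  exact h

include hinj hℓ0 hQ hRO hρR hunit ht in
/-- (V1) in `E`: every nonzero element of `Q(j)` is `ℓ ^ m` times a unit `u` of `𝒪`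
(with `u, u⁻¹ ∈ Q(j)`), and `ρ u ∈ k(ρ j)`. -/
theorem exists_zpow_mul_unit {c : E} (hc : c ∈ Q⟮j⟯) (hc0 : c ≠ 0) :
    ∃ (m : ℤ) (u : Oˣ), c = algebraMap Q E (algebraMap R Q ℓ) ^ m * ((u : O) : E) ∧
      ((u : O) : E) ∈ Q⟮j⟯ ∧ ρ (u : O) ∈ k⟮ρ ⟨j, hj⟩⟯ := by
  obtain ⟨a, b, hab⟩ := (IntermediateField.mem_adjoin_simple_iff Q c).1 hc
  have hb0 : aeval j b ≠ 0 := by
    intro h
    rw [h, div_zero] at hab
    exact hc0 hab
  have ha0 : aeval j a ≠ 0 := by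
    intro h
    rw [h, zero_div] at hab
    exact hc0 hab
  have ha : a ≠ 0 := fun h => ha0 (by rw [h, map_zero])
  have hb : b ≠ 0 := fun h => hb0 (by rw [h, map_zero])
  obtain ⟨m₁, a₀, ha₀, ha₀π⟩ := exists_primitive_part π ℓ hinj hℓ0 hQ a ha
  obtain ⟨m₂, b₀, hb₀, hb₀π⟩ := exists_primitive_part π ℓ hinj hℓ0 hQ b hb
  obtain ⟨ua, hua⟩ := isUnit_evalO π O ρ j hRO hρR hunit hj ht ha₀π
  obtain ⟨ub, hub⟩ := isUnit_evalO π O ρ j hRO hρR hunit hj ht hb₀π
  have hL : algebraMap Q E (algebraMap R Q ℓ) ≠ 0 := by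
    intro h
    apply hℓ0
    apply hinj
    rw [map_zero]
    exact (algebraMap Q E).injective (by rw [h, map_zero])
  have hkey : ((ua * ub⁻¹ : Oˣ) : O) * evalO O j hRO hj b₀ = evalO O j hRO hj a₀ := by
    rw [← hua, ← hub, Units.val_mul, mul_assoc, Units.inv_mul, mul_one]
  have hb1 : ((evalO O j hRO hj b₀ : O) : E) ≠ 0 := by
    intro h
    have h3 : (evalO O j hRO hj b₀ : O) = 0 := Subtype.ext h
    rw [← hub] at h3
    exact ub.ne_zero h3
  have e3 : (((ua * ub⁻¹ : Oˣ) : O) : E) =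
      ((evalO O j hRO hj a₀ : O) : E) / ((evalO O j hRO hj b₀ : O) : E) := by
    rw [eq_div_iff hb1]
    have h7 := congrArg (fun x : O => (x : E)) hkey
    simpa using h7
  refine ⟨m₁ - m₂, ua * ub⁻¹, ?_, ?_, ?_⟩
  · have e1 : aeval j a = algebraMap Q E (algebraMap R Q ℓ) ^ m₁ *
        ((evalO O j hRO hj a₀ : O) : E) := by
      rw [coe_evalO]
      conv_lhs => rw [ha₀]
      rw [map_mul, aeval_C, map_zpow₀]
    have e2 : aeval j b = algebraMap Q E (algebraMap R Q ℓ) ^ m₂ *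
        ((evalO O j hRO hj b₀ : O) : E) := by
      rw [coe_evalO]
      conv_lhs => rw [hb₀]
      rw [map_mul, aeval_C, map_zpow₀]
    rw [hab, e1, e2, e3, zpow_sub₀ hL]
    have hL2 : algebraMap Q E (algebraMap R Q ℓ) ^ m₂ ≠ 0 := zpow_ne_zero _ hL
    field_simp
  · have h1 : ((evalO O j hRO hj a₀ : O) : E) ∈ Q⟮j⟯ := by
      rw [coe_evalO]
      exact (IntermediateField.mem_adjoin_simple_iff Q _).2
        ⟨a₀.map (algebraMap R Q), 1, by simp⟩
    have h2 : ((evalO O j hRO hj b₀ : O) : E) ∈ Q⟮j⟯ := by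
      rw [coe_evalO]
      exact (IntermediateField.mem_adjoin_simple_iff Q _).2
        ⟨b₀.map (algebraMap R Q), 1, by simp⟩
    rw [e3]
    exact div_mem h1 h2
  · have h4 : ρ ((ua * ub⁻¹ : Oˣ) : O) * ρ (evalO O j hRO hj b₀) =
        ρ (evalO O j hRO hj a₀) := by
      rw [← map_mul, hkey]
    have hb2 : ρ (evalO O j hRO hj b₀) ≠ 0 := by
      rw [← hub]
      exact (ub.isUnit.map ρ).ne_zero
    have h8 : ρ ((ua * ub⁻¹ : Oˣ) : O) =
        ρ (evalO O j hRO hj a₀) / ρ (evalO O j hRO hj b₀) := by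
      rw [eq_div_iff hb2, h4]
    rw [h8, rho_evalO π O ρ j hRO hρR hj, rho_evalO π O ρ j hRO hρR hj]
    exact (IntermediateField.mem_adjoin_simple_iff k _).2 ⟨a₀.map π, b₀.map π, rfl⟩

include hRO in
omit [Field k] [Field κ] in
theorem zpow_mem_of_nonneg {m : ℤ} (hm : 0 ≤ m) :
    algebraMap Q E (algebraMap R Q ℓ) ^ m ∈ O := by
  obtain ⟨n, rfl⟩ := Int.eq_ofNat_of_zero_le hm
  rw [zpow_natCast]
  exact pow_mem (hRO ℓ) n

include hinj hℓ0 in
omit [Field k] [Field κ] in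
theorem ell_ne_zero : algebraMap Q E (algebraMap R Q ℓ) ≠ 0 := by
  intro h
  apply hℓ0
  apply hinj
  rw [map_zero]
  exact (algebraMap Q E).injective (by rw [h, map_zero])

include hπℓ hρR in
/-- if `ℓ ^ n * x = y` in `𝒪` with `n > 0` then `ρ y = 0`. -/
theorem rho_eq_zero_of_eq_pow_mul {n : ℕ} (hn : 0 < n) {x y : O}
    (h : ((y : O) : E) = algebraMap Q E (algebraMap R Q ℓ) ^ n * ((x : O) : E)) : ρ y = 0 := by
  have h1 : y = toO O hRO ℓ ^ n * x := Subtype.ext (by rw [h]; rfl)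
  rw [h1, map_mul, map_pow, rho_ell π ℓ O ρ hπℓ hRO hρR, zero_pow hn.ne', zero_mul]

include hinj hℓ0 hπℓ hQ hRO hρR hunit ht in
/-- (V2) `ρ (𝒪 ∩ Q(j)) ⊆ k(ρ j)`. -/
theorem rho_mem_adjoin {c : E} (hc : c ∈ Q⟮j⟯) (hcO : c ∈ O) :
    ρ ⟨c, hcO⟩ ∈ k⟮ρ ⟨j, hj⟩⟯ := by
  by_cases hc0 : c = 0
  · subst hc0
    have : (⟨0, hcO⟩ : O) = 0 := rfl
    rw [this, map_zero]
    exact zero_mem _
  obtain ⟨m, u, hcu, -, hρu⟩ :=
    exists_zpow_mul_unit π ℓ O ρ j hinj hℓ0 hQ hRO hρR hunit hj ht hc hc0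
  have hL := ell_ne_zero (E := E) ℓ hinj hℓ0
  rcases lt_trichotomy m 0 with hm | hm | hm
  · -- impossible: `u = ℓ ^ (-m) * c`
    exfalso
    obtain ⟨n, hn⟩ := Int.eq_ofNat_of_zero_le (neg_nonneg.2 hm.le)
    have hn0 : 0 < n := by omega
    have h1 : (((u : O)) : E) = algebraMap Q E (algebraMap R Q ℓ) ^ n *
        (((⟨c, hcO⟩ : O)) : E) := by
      change _ = _ * c
      rw [hcu, ← mul_assoc, ← zpow_natCast, ← hn, ← zpow_add₀ hL, neg_add_cancel, zpow_zero,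
        one_mul]
    have h2 := rho_eq_zero_of_eq_pow_mul π ℓ O ρ hπℓ hRO hρR hn0 h1
    exact (u.isUnit.map ρ).ne_zero h2
  · subst hm
    have h1 : (⟨c, hcO⟩ : O) = u := Subtype.ext (by
      change c = _
      rw [hcu, zpow_zero, one_mul])
    rw [h1]
    exact hρu
  · obtain ⟨n, hn⟩ := Int.eq_ofNat_of_zero_le hm.le
    have hn0 : 0 < n := by omega
    have h1 : (((⟨c, hcO⟩ : O)) : E) = algebraMap Q E (algebraMap R Q ℓ) ^ n *
        (((u : O)) : E) := by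
      change c = _
      rw [hcu, hn, zpow_natCast]
    rw [rho_eq_zero_of_eq_pow_mul π ℓ O ρ hπℓ hRO hρR hn0 h1]
    exact zero_mem _

include hinj hℓ0 hπℓ hQ hRO hρR ht in
/-- (V4) `𝒪 ∩ Q[j] = R[j]`: a polynomial over `Q` whose value at `j` lies in `𝒪` has
coefficients in `R`. -/
theorem exists_lift_of_aeval_mem (a : Q[X]) (h : aeval j a ∈ O) :
    ∃ a₀ : R[X], a₀.map (algebraMap R Q) = a := by
  by_cases ha : a = 0
  · exact ⟨0, by rw [ha, Polynomial.map_zero]⟩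
  obtain ⟨m, a₀, ha₀, ha₀π⟩ := exists_primitive_part π ℓ hinj hℓ0 hQ a ha
  have hL := ell_ne_zero (E := E) ℓ hinj hℓ0
  have hL' : algebraMap R Q ℓ ≠ 0 := fun h0 => hL (by rw [h0, map_zero])
  rcases lt_or_ge m 0 with hm | hm
  · exfalso
    obtain ⟨n, hn⟩ := Int.eq_ofNat_of_zero_le (neg_nonneg.2 hm.le)
    have hn0 : 0 < n := by omega
    have e1 : aeval j a = algebraMap Q E (algebraMap R Q ℓ) ^ m *
        ((evalO O j hRO hj a₀ : O) : E) := by
      rw [coe_evalO]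
      conv_lhs => rw [ha₀]
      rw [map_mul, aeval_C, map_zpow₀]
    have h1 : ((evalO O j hRO hj a₀ : O) : E) = algebraMap Q E (algebraMap R Q ℓ) ^ n *
        (((⟨aeval j a, h⟩ : O)) : E) := by
      change _ = _ * aeval j a
      rw [e1, ← mul_assoc, ← zpow_natCast, ← hn, ← zpow_add₀ hL, neg_add_cancel, zpow_zero,
        one_mul]
    have h2 := rho_eq_zero_of_eq_pow_mul π ℓ O ρ hπℓ hRO hρR hn0 h1
    rw [rho_evalO π O ρ j hRO hρR hj] at h2
    exact ha₀π ((transcendental_iff.1 ht) _ h2)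
  · obtain ⟨n, hn⟩ := Int.eq_ofNat_of_zero_le hm
    refine ⟨C (ℓ ^ n) * a₀, ?_⟩
    rw [Polynomial.map_mul, Polynomial.map_C, map_pow, ha₀, hn, zpow_natCast]

/-- The Gauss valuation ring `V = 𝒪 ∩ Q(j)` as a valuation subring of `Q(j)`. -/
def gaussRing (hinj : Function.Injective (algebraMap R Q)) (hℓ0 : ℓ ≠ 0)
    (hQ : ∀ c : Q, c ≠ 0 → ∃ (m : ℤ) (u : Rˣ),
      c = algebraMap R Q ℓ ^ m * algebraMap R Q (u : R))
    (hRO : ∀ r : R, algebraMap Q E (algebraMap R Q r) ∈ O)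
    (hρR : ∀ r : R, ρ ⟨algebraMap Q E (algebraMap R Q r), hRO r⟩ = algebraMap k κ (π r))
    (hunit : ∀ x : O, ρ x ≠ 0 → IsUnit x)
    (hj : j ∈ O) (ht : Transcendental k (ρ ⟨j, hj⟩)) : ValuationSubring Q⟮j⟯ where
  carrier := {c | (c : E) ∈ O}
  mul_mem' ha hb := O.mul_mem ha hb
  one_mem' := O.one_mem
  add_mem' ha hb := O.add_mem ha hb
  zero_mem' := O.zero_mem
  neg_mem' ha := O.neg_mem ha
  mem_or_inv_mem' := by
    intro c
    by_cases hc0 : c = 0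
    · left
      subst hc0
      exact zero_mem O
    have hc0' : (c : E) ≠ 0 := fun h => hc0 (Subtype.ext h)
    obtain ⟨m, u, hcu, -, -⟩ :=
      exists_zpow_mul_unit π ℓ O ρ j hinj hℓ0 hQ hRO hρR hunit hj ht c.2 hc0'
    rcases le_or_gt 0 m with hm | hm
    · left
      change (c : E) ∈ O
      rw [hcu]
      exact mul_mem (zpow_mem_of_nonneg ℓ O hRO hm) (u : O).2
    · right
      change ((c⁻¹ : Q⟮j⟯) : E) ∈ O
      have h1 : ((c⁻¹ : Q⟮j⟯) : E) =
          algebraMap Q E (algebraMap R Q ℓ) ^ (-m) * (((u⁻¹ : Oˣ) : O) : E) := by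
        have h2 : ((u : O) : E) * (((u⁻¹ : Oˣ) : O) : E) = 1 := by
          rw [← Subring.coe_mul, Units.mul_inv]
          rfl
        have h4 : ((u : O) : E) ≠ 0 := left_ne_zero_of_mul_eq_one h2
        have h5 : (((u⁻¹ : Oˣ) : O) : E) = (((u : O) : E))⁻¹ := eq_inv_of_mul_eq_one_right h2
        push_cast
        rw [hcu, h5, mul_inv, zpow_neg]
      rw [h1]
      exact mul_mem (zpow_mem_of_nonneg ℓ O hRO (by omega)) ((u⁻¹ : Oˣ) : O).2

omit hπℓ in
theorem mem_gaussRing_iff (c : Q⟮j⟯) :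
    c ∈ gaussRing π ℓ O ρ j hinj hℓ0 hQ hRO hρR hunit hj ht ↔ (c : E) ∈ O :=
  ⟨fun h => h, fun h => h⟩

include hRO in
omit [Field k] [Field κ] in
/-- if `ℓ ^ m * c ∈ 𝒪` with `m ≤ 0` then `c ∈ 𝒪`. -/
theorem mem_of_zpow_mul_mem (hinj : Function.Injective (algebraMap R Q)) (hℓ0 : ℓ ≠ 0)
    {m : ℤ} (hm : m ≤ 0) {c : E}
    (h : algebraMap Q E (algebraMap R Q ℓ) ^ m * c ∈ O) : c ∈ O := by
  have hL := ell_ne_zero (E := E) ℓ hinj hℓ0
  have h1 : c = algebraMap Q E (algebraMap R Q ℓ) ^ (-m) *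
      (algebraMap Q E (algebraMap R Q ℓ) ^ m * c) := by
    rw [← mul_assoc, ← zpow_add₀ hL, neg_add_cancel, zpow_zero, one_mul]
  rw [h1]
  exact O.mul_mem (zpow_mem_of_nonneg ℓ O hRO (by omega)) h

include hinj hℓ0 hQ hRO hρR hunit ht in
/-- Simultaneous scaling: a finite family of elements of `Q(j)`, not all zero, can be scaled by
a power of `ℓ` into `𝒪` in such a way that some member has nonzero reduction. -/
theorem exists_scale {ι : Type*} [Finite ι] (c : ι → E) (hc : ∀ i, c i ∈ Q⟮j⟯)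
    (hne : ∃ i, c i ≠ 0) :
    ∃ (m : ℤ) (hm : ∀ i, algebraMap Q E (algebraMap R Q ℓ) ^ m * c i ∈ O),
      ∃ i, ρ ⟨_, hm i⟩ ≠ 0 := by
  classical
  have := Fintype.ofFinite ι
  have hL := ell_ne_zero (E := E) ℓ hinj hℓ0
  have hex : ∀ i, ∃ (v : ℤ) (u : O), c i ≠ 0 →
      (IsUnit u ∧ c i = algebraMap Q E (algebraMap R Q ℓ) ^ v * (u : E)) := by
    intro i
    by_cases hi : c i = 0
    · exact ⟨0, 0, fun h => absurd hi h⟩
    · obtain ⟨m, u, hu, -, -⟩ :=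
        exists_zpow_mul_unit π ℓ O ρ j hinj hℓ0 hQ hRO hρR hunit hj ht (hc i) hi
      exact ⟨m, u, fun _ => ⟨u.isUnit, hu⟩⟩
  choose v u hvu using hex
  have hS : (Finset.univ.filter fun i => c i ≠ 0).Nonempty := by
    obtain ⟨i, hi⟩ := hne
    exact ⟨i, by simp [hi]⟩
  obtain ⟨i₀, hi₀, hmin⟩ := Finset.exists_min_image _ v hS
  have hi₀' : c i₀ ≠ 0 := (Finset.mem_filter.1 hi₀).2
  have key : ∀ i, c i ≠ 0 → algebraMap Q E (algebraMap R Q ℓ) ^ (-v i₀) * c i =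
      algebraMap Q E (algebraMap R Q ℓ) ^ (v i - v i₀) * (u i : E) := by
    intro i hi
    obtain ⟨-, hci⟩ := hvu i hi
    conv_lhs => rw [hci]
    rw [← mul_assoc, ← zpow_add₀ hL]
    congr 2
    ring
  have hm : ∀ i, algebraMap Q E (algebraMap R Q ℓ) ^ (-v i₀) * c i ∈ O := by
    intro i
    by_cases hi : c i = 0
    · rw [hi, mul_zero]; exact O.zero_mem
    · rw [key i hi]
      have hle : v i₀ ≤ v i := hmin i (by simp [hi])
      exact O.mul_mem (zpow_mem_of_nonneg ℓ O hRO (by omega)) (u i).2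
  refine ⟨-v i₀, hm, i₀, ?_⟩
  have h1 : (⟨_, hm i₀⟩ : O) = u i₀ := Subtype.ext (by
    change algebraMap Q E (algebraMap R Q ℓ) ^ (-v i₀) * c i₀ = _
    rw [key i₀ hi₀', sub_self, zpow_zero, one_mul])
  rw [h1]
  exact ((hvu i₀ hi₀').1.map ρ).ne_zero

/-! ### The same results in "subring of `E`" form (shapes used by `MainKernelCore`) -/

/-- `V = 𝒪 ∩ Q(j)` as a subring of `E`. -/
def gaussSubring (O : Subring E) (j : E) : Subring E := O ⊓ (Q⟮j⟯).toSubring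

omit [Field k] [Field κ] in
theorem mem_gaussSubring_iff {x : E} :
    x ∈ gaussSubring (Q := Q) O j ↔ x ∈ O ∧ x ∈ Q⟮j⟯ := Iff.rfl

include hinj hℓ0 hQ hRO hρR hunit ht in
/-- (V1), `Setting.hV1` shape. -/
theorem gaussSubring_hV1 (c : E) (hc : c ∈ Q⟮j⟯) (hc0 : c ≠ 0) :
    ∃ (m : ℤ) (v : E), v ∈ gaussSubring (Q := Q) O j ∧ v⁻¹ ∈ gaussSubring (Q := Q) O j ∧
      c = algebraMap Q E (algebraMap R Q ℓ) ^ m * v := by
  obtain ⟨m, u, hcu, huF, -⟩ :=
    exists_zpow_mul_unit π ℓ O ρ j hinj hℓ0 hQ hRO hρR hunit hj ht hc hc0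
  have h2 : ((u : O) : E) * (((u⁻¹ : Oˣ) : O) : E) = 1 := by
    rw [← Subring.coe_mul, Units.mul_inv]
    rfl
  have h5 : (((u : O) : E))⁻¹ = (((u⁻¹ : Oˣ) : O) : E) := (eq_inv_of_mul_eq_one_right h2).symm
  refine ⟨m, ((u : O) : E), ⟨(u : O).2, huF⟩, ⟨?_, (Q⟮j⟯).inv_mem huF⟩, hcu⟩
  rw [h5]
  exact ((u⁻¹ : Oˣ) : O).2

include hinj hℓ0 hπℓ hQ hRO hρR hunit ht in
/-- (V2), `Setting.hρV` shape. -/
theorem gaussSubring_rho_mem (v : E) (hv : v ∈ gaussSubring (Q := Q) O j) :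
    ρ ⟨v, hv.1⟩ ∈ k⟮ρ ⟨j, hj⟩⟯ :=
  rho_mem_adjoin π ℓ O ρ j hinj hℓ0 hπℓ hQ hRO hρR hunit hj ht hv.2 hv.1

include hinj hℓ0 hQ hRO hρR hunit ht in
/-- (V3): `V` is integrally closed in `Q(j)` (classical valuation-ring argument). -/
theorem gaussSubring_integrallyClosed (c : E) (hc : c ∈ Q⟮j⟯)
    (hint : IsIntegral (gaussSubring (Q := Q) O j) c) : c ∈ gaussSubring (Q := Q) O j := by
  refine ⟨?_, hc⟩
  by_cases hc0 : c = 0
  · rw [hc0]; exact O.zero_mem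
  obtain ⟨m, u, hcu, huF, -⟩ :=
    exists_zpow_mul_unit π ℓ O ρ j hinj hℓ0 hQ hRO hρR hunit hj ht hc hc0
  rcases le_or_gt 0 m with hm | hm
  · rw [hcu]
    exact O.mul_mem (zpow_mem_of_nonneg ℓ O hRO hm) (u : O).2
  · -- `c⁻¹ ∈ V`, and `c = -(∑_{i<d} a_i (c⁻¹)^(d-1-i))`
    have h2 : ((u : O) : E) * (((u⁻¹ : Oˣ) : O) : E) = 1 := by
      rw [← Subring.coe_mul, Units.mul_inv]
      rfl
    have h5 : (((u : O) : E))⁻¹ = (((u⁻¹ : Oˣ) : O) : E) :=
      (eq_inv_of_mul_eq_one_right h2).symm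
    have hcinv : c⁻¹ ∈ O := by
      rw [hcu, mul_inv, h5, ← zpow_neg]
      exact O.mul_mem (zpow_mem_of_nonneg ℓ O hRO (by omega)) ((u⁻¹ : Oˣ) : O).2
    have hVO : ∀ v : gaussSubring (Q := Q) O j, ((v : E)) ∈ O := fun v => v.2.1
    obtain ⟨p, hpm, hp⟩ := hint
    -- expand the equation
    rw [Polynomial.eval₂_eq_sum_range] at hp
    set d := p.natDegree with hd
    have hd0 : d ≠ 0 := by
      intro h0
      rw [h0, Finset.sum_range_one, pow_zero, mul_one] at hp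
      have h1 : p.coeff 0 = 1 := by
        have := hpm.coeff_natDegree
        rwa [← hd, h0] at this
      rw [h1, map_one] at hp
      exact one_ne_zero hp
    obtain ⟨e, he⟩ := Nat.exists_eq_succ_of_ne_zero hd0
    rw [he, Finset.sum_range_succ] at hp
    have hlead : p.coeff (e + 1) = 1 := by
      have := hpm.coeff_natDegree
      rwa [← hd, he] at this
    rw [hlead, map_one, one_mul] at hp
    -- `c = - ∑ i < e+1, a_i * (c⁻¹)^(e - i)`
    have hc' : c = -∑ i ∈ Finset.range (e + 1),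
        algebraMap (gaussSubring (Q := Q) O j) E (p.coeff i) * (c⁻¹) ^ (e - i) := by
      have h3 : c ^ (e + 1) = -∑ i ∈ Finset.range (e + 1),
          algebraMap (gaussSubring (Q := Q) O j) E (p.coeff i) * c ^ i :=
        eq_neg_of_add_eq_zero_right hp
      have h4 : c = c ^ (e + 1) * (c⁻¹) ^ e := by
        rw [pow_succ, mul_assoc, mul_comm c, ← mul_assoc, ← mul_pow, mul_inv_cancel₀ hc0, one_pow,
          one_mul]
      have h8 : (-∑ i ∈ Finset.range (e + 1),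
          algebraMap (gaussSubring (Q := Q) O j) E (p.coeff i) * c ^ i) * (c⁻¹) ^ e =
          -∑ i ∈ Finset.range (e + 1),
            algebraMap (gaussSubring (Q := Q) O j) E (p.coeff i) * (c⁻¹) ^ (e - i) := by
        rw [neg_mul, Finset.sum_mul]
        congr 1
        refine Finset.sum_congr rfl fun i hi => ?_
        have hie : i ≤ e := Nat.lt_succ_iff.1 (Finset.mem_range.1 hi)
        have h6 : c ^ i * (c⁻¹) ^ e = (c⁻¹) ^ (e - i) := by
          have h7 : (c⁻¹) ^ e = (c⁻¹) ^ i * (c⁻¹) ^ (e - i) := by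
            rw [← pow_add, Nat.add_sub_cancel' hie]
          rw [h7, ← mul_assoc, ← mul_pow, mul_inv_cancel₀ hc0, one_pow, one_mul]
        rw [mul_assoc, h6]
      calc c = c ^ (e + 1) * (c⁻¹) ^ e := h4
        _ = _ := by rw [h3, h8]
    rw [hc']
    refine O.neg_mem (O.sum_mem fun i _ => ?_)
    exact O.mul_mem (hVO (p.coeff i)) (O.pow_mem hcinv _)

include hinj hℓ0 hπℓ hQ hRO hρR ht in
/-- (V4), membership form: an element of `𝒪` which is a `Q`-polynomial in `j` is an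
`R`-polynomial in `j`. -/
theorem exists_lift_of_mem_adjoin (x : E) (hxO : x ∈ O) (hx : x ∈ Algebra.adjoin Q {j}) :
    ∃ a₀ : R[X], x = aeval j (a₀.map (algebraMap R Q)) := by
  rw [Algebra.adjoin_singleton_eq_range_aeval] at hx
  obtain ⟨a, rfl⟩ := hx
  obtain ⟨a₀, ha₀⟩ := exists_lift_of_aeval_mem π ℓ O ρ j hinj hℓ0 hπℓ hQ hRO hρR hj ht a hxO
  exact ⟨a₀, by rw [ha₀]; rfl⟩

end main

end Fermat.Agent.S28.GaussRing
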