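import Mathlib
import Fermat.Agent.S28.Interface
import Fermat.Agent.S28.GaussRing

/-!
# S28 / ALG-V : concrete inputs for the Gauss valuation ring over `ℤ_(ℓ)`

The hypotheses of `Fermat.Agent.S28.GaussRing` that do not depend on the construction of `𝒪`:
`R = ℤ_(ℓ) = GaloisRep.ratLocalizedAt ℓ`, `Q = ℚ`, `k = ZMod ℓ`, `π = resHom ℓ`.
-/

set_option autoImplicit false

open Polynomial

namespace Fermat.Agent.S28.GaussRingRat

variable (ℓ : ℕ) [hℓ : Fact ℓ.Prime]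

omit hℓ in
theorem algebraMap_injective : Function.Injective (algebraMap ↥(GaloisRep.ratLocalizedAt ℓ) ℚ) :=
  fun _ _ h => Subtype.ext h

omit hℓ in
theorem coe_natCast : (((ℓ : ℕ) : ↥(GaloisRep.ratLocalizedAt ℓ)) : ℚ) = (ℓ : ℚ) := rfl

theorem natCast_ne_zero : ((ℓ : ℕ) : ↥(GaloisRep.ratLocalizedAt ℓ)) ≠ 0 := by
  intro h
  have h1 : (((ℓ : ℕ) : ↥(GaloisRep.ratLocalizedAt ℓ)) : ℚ) = 0 := by rw [h]; rfl
  rw [coe_natCast] at h1
  exact hℓ.out.ne_zero (by exact_mod_cast h1)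

/-- A fraction with denominator prime to `ℓ` lies in `ℤ_(ℓ)`. -/
theorem mem_of_eq_div {q : ℚ} {a b : ℤ} (hb : ¬ (ℓ : ℤ) ∣ b) (h : q = a / b) :
    q ∈ GaloisRep.ratLocalizedAt ℓ := by
  change q.den.Coprime ℓ
  have hb0 : b ≠ 0 := by
    rintro rfl
    exact hb (dvd_zero _)
  have h1 : (q.den : ℤ) ∣ b := by
    rw [h, ← Rat.divInt_eq_div]
    exact Rat.den_dvd a b
  have h2 : ¬ ℓ ∣ q.den := by
    intro h3
    exact hb ((Int.natCast_dvd_natCast.2 h3).trans h1)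
  exact ((Nat.Prime.coprime_iff_not_dvd hℓ.out).2 h2).symm

/-- `ℤ_(ℓ)` is a DVR with uniformiser `ℓ` and fraction field `ℚ`. -/
theorem exists_zpow_mul_unit (c : ℚ) (hc : c ≠ 0) :
    ∃ (m : ℤ) (u : (↥(GaloisRep.ratLocalizedAt ℓ))ˣ),
      c = algebraMap ↥(GaloisRep.ratLocalizedAt ℓ) ℚ ((ℓ : ℕ) : ↥(GaloisRep.ratLocalizedAt ℓ)) ^ m * algebraMap ↥(GaloisRep.ratLocalizedAt ℓ) ℚ (u : ↥(GaloisRep.ratLocalizedAt ℓ)) := by
  have hℓ1 : ((ℓ : ℤ)).natAbs ≠ 1 := by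
    simpa using hℓ.out.ne_one
  have hn0 : c.num ≠ 0 := Rat.num_ne_zero.2 hc
  have hd0 : (c.den : ℤ) ≠ 0 := by exact_mod_cast c.den_ne_zero
  obtain ⟨n₁, hn₁, hn₁'⟩ :=
    (Int.finiteMultiplicity_iff.2 ⟨hℓ1, hn0⟩).exists_eq_pow_mul_and_not_dvd
  obtain ⟨d₁, hd₁, hd₁'⟩ :=
    (Int.finiteMultiplicity_iff.2 ⟨hℓ1, hd0⟩).exists_eq_pow_mul_and_not_dvd
  set a := multiplicity (ℓ : ℤ) c.num
  set b := multiplicity (ℓ : ℤ) (c.den : ℤ)
  have hn₁0 : n₁ ≠ 0 := by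
    rintro rfl
    exact hn₁' (dvd_zero _)
  have hd₁0 : d₁ ≠ 0 := by
    rintro rfl
    exact hd₁' (dvd_zero _)
  have hu : ((n₁ : ℚ) / d₁) ∈ GaloisRep.ratLocalizedAt ℓ := mem_of_eq_div ℓ hd₁' rfl
  have hu' : ((d₁ : ℚ) / n₁) ∈ GaloisRep.ratLocalizedAt ℓ := mem_of_eq_div ℓ hn₁' rfl
  have hn₁Q : (n₁ : ℚ) ≠ 0 := by exact_mod_cast hn₁0
  have hd₁Q : (d₁ : ℚ) ≠ 0 := by exact_mod_cast hd₁0
  have hℓQ : (ℓ : ℚ) ≠ 0 := by exact_mod_cast hℓ.out.ne_zero
  let u : (↥(GaloisRep.ratLocalizedAt ℓ))ˣ :=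
    ⟨⟨(n₁ : ℚ) / d₁, hu⟩, ⟨(d₁ : ℚ) / n₁, hu'⟩,
      Subtype.ext (by
        change (n₁ : ℚ) / d₁ * ((d₁ : ℚ) / n₁) = 1
        field_simp),
      Subtype.ext (by
        change (d₁ : ℚ) / n₁ * ((n₁ : ℚ) / d₁) = 1
        field_simp)⟩
  refine ⟨(a : ℤ) - b, u, ?_⟩
  change c = (ℓ : ℚ) ^ ((a : ℤ) - b) * ((n₁ : ℚ) / d₁)
  have hc' : c = (c.num : ℚ) / (c.den : ℚ) := (Rat.num_div_den c).symm
  have hdQ : ((c.den : ℤ) : ℚ) = (c.den : ℚ) := by norm_cast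
  rw [zpow_sub₀ hℓQ, zpow_natCast, zpow_natCast]
  conv_lhs => rw [hc', hn₁, ← hdQ, hd₁]
  push_cast
  field_simp

/-- `resHom ℓ` kills `ℓ`. -/
theorem resHom_natCast : resHom ℓ ((ℓ : ℕ) : ↥(GaloisRep.ratLocalizedAt ℓ)) = 0 := by
  rw [map_natCast]
  exact ZMod.natCast_self ℓ

section Transc

open ModularCurve

theorem coeff_algebraMap_mul_laurent {k : Type*} [Field k] (a : k) (t : LaurentSeries k) (m : ℤ) :
    (algebraMap k (LaurentSeries k) a * t).coeff m = a * t.coeff m := by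
  rw [HahnSeries.algebraMap_apply']
  simp

/-- A Laurent series with a simple pole whose powers have leading coefficient `1` is transcendental
over the coefficient field. -/
theorem transcendental_of_pole {k : Type*} [Field k] (t : LaurentSeries k)
    (h1 : ∀ n : ℕ, (t ^ n).coeff (-(n : ℤ)) = 1)
    (h2 : ∀ (n : ℕ) (m : ℤ), m < -(n : ℤ) → (t ^ n).coeff m = 0) : Transcendental k t := by
  rw [transcendental_iff]
  intro p hp
  by_contra hp0
  have hlead : p.coeff p.natDegree ≠ 0 := by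
    rwa [Polynomial.coeff_natDegree, Ne, Polynomial.leadingCoeff_eq_zero]
  have h3 := congrArg (fun f : LaurentSeries k => f.coeff (-(p.natDegree : ℤ))) hp
  simp only [HahnSeries.coeff_zero] at h3
  rw [Polynomial.aeval_eq_sum_range, HahnSeries.coeff_sum] at h3
  rw [Finset.sum_eq_single_of_mem p.natDegree (Finset.self_mem_range_succ _)] at h3
  · rw [Algebra.smul_def, coeff_algebraMap_mul_laurent, h1, mul_one] at h3
    exact hlead h3
  · intro i hi hne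
    have hlt : i < p.natDegree :=
      lt_of_le_of_ne (Nat.lt_succ_iff.1 (Finset.mem_range.1 hi)) hne
    rw [Algebra.smul_def, coeff_algebraMap_mul_laurent, h2 i _ (by omega), mul_zero]

theorem transcendental_jqModC (k : Type*) [Field k] : Transcendental k (jqModC k) :=
  transcendental_of_pole _ (fun n => coeff_jqModC_pow_self k n)
    (fun _ _ hm => coeff_jqModC_pow_of_lt k hm)

theorem transcendental_jqModC_inv (k : Type*) [Field k] : Transcendental k (jqModC k)⁻¹ := by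
  intro h
  exact transcendental_jqModC k (by simpa using h.inv)

end Transc

end Fermat.Agent.S28.GaussRingRat
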