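/-
S28 package KEYGLUE (helper74): from the lower bound KEYL (over some field `K'` of
characteristic `ℓ`) and the upper bound KEY0 (over `ℚ`) produce the datum KEY(N,ℓ):
integral monomials in the `j(q^d)` whose reductions mod `ℓ` are `k(t)`-linearly independent.
-/
import Mathlib
import Fermat.Prelude.Def_ModularCurve_X0ModL

set_option autoImplicit false

noncomputable section

namespace Fermat.Agent.S28.KeyGlue

open ModularCurve IntermediateField

/-! ### Extraction of independent monomials -/

section Extract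

variable {F L : Type*} [Field F] [Field L] [Algebra F L]

/-- If `[F(D) : E] ≥ m` for an intermediate field `E ≤ F(D)`, there are `m` monomials in the
elements of `D` that are `E`-linearly independent. -/
theorem exists_linearIndependent_monomials (E : IntermediateField F L) (D : Set L)
    (h : E ≤ adjoin F D) (m : ℕ) (hm : m ≤ Module.finrank ↥E ↥(extendScalars h)) :
    ∃ f : Fin m → L, (∀ i, f i ∈ Submonoid.closure D) ∧ LinearIndependent ↥E f := by
  rcases Nat.eq_zero_or_pos m with rfl | hpos
  · exact ⟨Fin.elim0, fun i => i.elim0, linearIndependent_empty_type⟩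
  have hfin : Module.Finite ↥E ↥(extendScalars h) :=
    Module.finite_of_finrank_pos (lt_of_lt_of_le hpos hm)
  have hadj : extendScalars h = adjoin ↥E D := extendScalars_adjoin h
  have halg : ∀ x ∈ D, IsAlgebraic ↥E x := by
    intro x hx
    have hxmem : x ∈ extendScalars h := by
      rw [hadj]
      exact subset_adjoin _ _ hx
    have : IsAlgebraic ↥E (⟨x, hxmem⟩ : ↥(extendScalars h)) :=
      Algebra.IsAlgebraic.isAlgebraic _
    exact (isAlgebraic_iff (S := extendScalars h) (x := ⟨x, hxmem⟩)).mp this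
  have hsub : (adjoin ↥E D).toSubalgebra = Algebra.adjoin ↥E D :=
    adjoin_toSubalgebra_of_isAlgebraic halg
  have hspan : Subalgebra.toSubmodule (adjoin ↥E D).toSubalgebra =
      Submodule.span ↥E (Submonoid.closure D : Set L) := by
    rw [hsub, Algebra.adjoin_eq_span]
  have hrank : Module.finrank ↥E ↥(Submodule.span ↥E (Submonoid.closure D : Set L)) =
      Module.finrank ↥E ↥(extendScalars h) := by
    rw [← hspan, hadj]
    rfl
  have hfin' : Module.Finite ↥E ↥(Submodule.span ↥E (Submonoid.closure D : Set L)) := by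
    rw [← hspan]
    have : Module.Finite ↥E ↥(adjoin ↥E D) := hadj ▸ hfin
    exact this
  obtain ⟨f, hf, -, hlin⟩ :=
    Submodule.exists_fun_fin_finrank_span_eq ↥E (Submonoid.closure D : Set L)
  have hm' : m ≤ Module.finrank ↥E ↥(Submodule.span ↥E (Submonoid.closure D : Set L)) :=
    hrank ▸ hm
  refine ⟨f ∘ Fin.castLE hm', fun i => hf _, hlin.comp _ (Fin.castLE_injective hm')⟩

/-- powers of a transcendental element are linearly independent -/
theorem linearIndependent_pow_of_transcendental {R A : Type*} [Field R] [CommRing A] [Algebra R A]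
    {x : A} (hx : Transcendental R x) : LinearIndependent R (fun i : ℕ => x ^ i) := by
  have hinj : Function.Injective (Polynomial.aeval x : Polynomial R →ₐ[R] A) :=
    transcendental_iff_injective.mp hx
  have h1 : LinearIndependent R (fun i : ℕ => (Polynomial.X : Polynomial R) ^ i) := by
    have := (Polynomial.basisMonomials R).linearIndependent
    have hfun : (fun i : ℕ => (Polynomial.X : Polynomial R) ^ i) =
        ⇑(Polynomial.basisMonomials R) := by
      funext i
      rw [Polynomial.coe_basisMonomials, Polynomial.X_pow_eq_monomial]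
    rw [hfun]
    exact this
  have h2 := h1.map' (Polynomial.aeval x : Polynomial R →ₐ[R] A).toLinearMap
    (LinearMap.ker_eq_bot.mpr hinj)
  have hfun2 : (⇑(Polynomial.aeval x : Polynomial R →ₐ[R] A).toLinearMap ∘
      fun i : ℕ => (Polynomial.X : Polynomial R) ^ i) = fun i : ℕ => x ^ i := by
    funext i
    simp
  rw [hfun2] at h2
  exact h2

/-- Rank (cardinal) version: if `(m : Cardinal) ≤ [F(D) : E]` (possibly infinite), there are
`m` monomials in the elements of `D` that are `E`-linearly independent. -/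
theorem exists_linearIndependent_monomials_of_le_rank (E : IntermediateField F L) (D : Set L)
    (h : E ≤ adjoin F D) (m : ℕ)
    (hm : (m : Cardinal) ≤ Module.rank ↥E ↥(extendScalars h)) :
    ∃ f : Fin m → L, (∀ i, f i ∈ Submonoid.closure D) ∧ LinearIndependent ↥E f := by
  by_cases halg : ∀ x ∈ D, IsAlgebraic ↥E x
  · have hadj : extendScalars h = adjoin ↥E D := extendScalars_adjoin h
    have hsub : (adjoin ↥E D).toSubalgebra = Algebra.adjoin ↥E D :=
      adjoin_toSubalgebra_of_isAlgebraic halg
    have hspan : Subalgebra.toSubmodule (adjoin ↥E D).toSubalgebra =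
        Submodule.span ↥E (Submonoid.closure D : Set L) := by
      rw [hsub, Algebra.adjoin_eq_span]
    have hrank : Module.rank ↥E ↥(Submodule.span ↥E (Submonoid.closure D : Set L)) =
        Module.rank ↥E ↥(extendScalars h) := by
      rw [← hspan, hadj]
      rfl
    obtain ⟨b, hb_sub, hb_span, hb_lin⟩ :=
      exists_linearIndependent ↥E (Submonoid.closure D : Set L)
    have hcard : (m : Cardinal) ≤ Cardinal.mk ↥b := by
      have h1 : Module.rank ↥E ↥(Submodule.span ↥E b) = Cardinal.mk ↥b := rank_span_set hb_lin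
      rw [hb_span, hrank] at h1
      rw [← h1]
      exact hm
    have hemb : Nonempty (Fin m ↪ ↥b) := by
      rw [← Cardinal.lift_mk_le', Cardinal.mk_fin, Cardinal.lift_natCast]
      exact le_trans hcard (Cardinal.lift_id' _).ge
    obtain ⟨e⟩ := hemb
    refine ⟨fun i => ((e i : ↥b) : L), fun i => hb_sub (e i).2, ?_⟩
    have : LinearIndependent ↥E (fun x : ↥b => (x : L)) := hb_lin
    exact this.comp e e.injective
  · rw [not_forall] at halg
    obtain ⟨d, halg⟩ := halg
    rw [Classical.not_imp] at halg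
    obtain ⟨hd, hdtr⟩ := halg
    have hdtr' : Transcendental ↥E d := hdtr
    refine ⟨fun i => d ^ (i : ℕ), fun i => pow_mem (Submonoid.subset_closure hd) _, ?_⟩
    exact (linearIndependent_pow_of_transcendental hdtr').comp (fun i : Fin m => (i : ℕ))
      Fin.val_injective

end Extract

/-! ### Integral monomials and their reductions -/

/-- the integral `q`-expansions `j(q^d)`, `d ∣ N`, in `ℤ((q))`. -/
def divisorExpansionsZ (N : ℕ) : Set (LaurentSeries ℤ) :=
  {x | ∃ (d : ℕ) (_ : NeZero d), d ∣ N ∧ x = qExpand ℤ d (jqModC ℤ)}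

/-- integral monomials in the `j(q^d)`, `d ∣ N`. -/
def monomialsZ (N : ℕ) : Submonoid (LaurentSeries ℤ) := Submonoid.closure (divisorExpansionsZ N)

theorem coeffMap_mem_divisorExpansionsC {N : ℕ} (K : Type*) [Field K] {y : LaurentSeries ℤ}
    (hy : y ∈ divisorExpansionsZ N) :
    coeffMap (Int.castRingHom K) y ∈ divisorExpansionsC K N := by
  obtain ⟨d, hd, hdN, rfl⟩ := hy
  exact ⟨d, hd, hdN, by rw [coeffMap_qExpand, coeffMap_jqModC]⟩

/-- every monomial in the `t_d` over a field `K` is the reduction of an integral monomial. -/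
theorem exists_monomialsZ_of_mem_closure {N : ℕ} (K : Type*) [Field K] {x : LaurentSeries K}
    (hx : x ∈ Submonoid.closure (divisorExpansionsC K N)) :
    ∃ y ∈ monomialsZ N, coeffMap (Int.castRingHom K) y = x := by
  induction hx using Submonoid.closure_induction with
  | mem x hx =>
    obtain ⟨d, hd, hdN, rfl⟩ := hx
    refine ⟨qExpand ℤ d (jqModC ℤ), Submonoid.subset_closure ⟨d, hd, hdN, rfl⟩, ?_⟩
    rw [coeffMap_qExpand, coeffMap_jqModC]
  | one => exact ⟨1, one_mem _, map_one _⟩
  | mul x y _ _ hx hy =>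
    obtain ⟨a, ha, rfl⟩ := hx
    obtain ⟨b, hb, rfl⟩ := hy
    exact ⟨a * b, mul_mem ha hb, map_mul _ _ _⟩

/-- integral monomials, viewed over `ℚ`, lie in the full modular function field. -/
theorem coeffMap_mem_full_of_mem_monomialsZ {N : ℕ} {y : LaurentSeries ℤ} (hy : y ∈ monomialsZ N) :
    coeffMap (Int.castRingHom ℚ) y ∈ modularFunctionFieldFull N := by
  induction hy using Submonoid.closure_induction with
  | mem y hy =>
    have h := coeffMap_mem_divisorExpansionsC ℚ hy
    rw [← modularFunctionFieldFullC_rat]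
    exact subset_adjoin ℚ _ h
  | one => rw [map_one]; exact one_mem _
  | mul x y _ _ hx hy => rw [map_mul]; exact mul_mem hx hy

/-! ### Descent of linear independence along a field embedding `k → K'` -/

section Descent

variable {k K' : Type*} [Field k] [Field K'] (ι : k →+* K')

theorem coeffMap_mem_adjoin_jqModC {c : LaurentSeries k} (hc : c ∈ k⟮jqModC k⟯) :
    coeffMap ι c ∈ K'⟮jqModC K'⟯ := by
  have hle : (k⟮jqModC k⟯).toSubfield ≤ (K'⟮jqModC K'⟯).toSubfield.comap (coeffMap ι) := by
    apply adjoin_le_subfield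
    · rintro _ ⟨a, rfl⟩
      show coeffMap ι (algebraMap k (LaurentSeries k) a) ∈ K'⟮jqModC K'⟯
      rw [algebraMap_laurentSeries_eq_single, coeffMap_single,
        ← algebraMap_laurentSeries_eq_single]
      exact (K'⟮jqModC K'⟯).algebraMap_mem _
    · rintro _ rfl
      show coeffMap ι (jqModC k) ∈ K'⟮jqModC K'⟯
      rw [coeffMap_jqModC]
      exact mem_adjoin_simple_self K' _
  exact hle hc

include ι in
theorem linearIndependent_of_coeffMap {n : ℕ} (y : Fin n → LaurentSeries ℤ)
    (h : LinearIndependent ↥(K'⟮jqModC K'⟯) (fun i => coeffMap (Int.castRingHom K') (y i))) :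
    LinearIndependent ↥(k⟮jqModC k⟯) (fun i => coeffMap (Int.castRingHom k) (y i)) := by
  rw [Fintype.linearIndependent_iff] at h ⊢
  intro g hg i
  have hinj : Function.Injective (coeffMap ι) := (coeffMap ι).injective
  have hcomp : ∀ z : LaurentSeries ℤ,
      coeffMap ι (coeffMap (Int.castRingHom k) z) = coeffMap (Int.castRingHom K') z := by
    intro z
    rw [coeffMap_coeffMap]
    exact coeffMap_congr (RingHom.ext_int _ _) z
  let g' : Fin n → ↥(K'⟮jqModC K'⟯) := fun j =>
    ⟨coeffMap ι (g j : LaurentSeries k), coeffMap_mem_adjoin_jqModC ι (g j).2⟩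
  have hg' : ∑ j, g' j • coeffMap (Int.castRingHom K') (y j) = 0 := by
    have := congrArg (coeffMap ι) hg
    rw [map_sum, map_zero] at this
    rw [← this]
    refine Finset.sum_congr rfl fun j _ => ?_
    show coeffMap ι (g j : LaurentSeries k) * coeffMap (Int.castRingHom K') (y j) =
      coeffMap ι ((g j : LaurentSeries k) * coeffMap (Int.castRingHom k) (y j))
    rw [map_mul, hcomp]
  have h0 := h g' hg' i
  have h1 : coeffMap ι (g i : LaurentSeries k) = 0 := congrArg Subtype.val h0
  have h2 : (g i : LaurentSeries k) = 0 := hinj (by rw [h1, map_zero])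
  exact Subtype.ext h2

end Descent

/-! ### Assembly -/

theorem adjoin_jqModC_le_full (K : Type*) [Field K] (N : ℕ) :
    K⟮jqModC K⟯ ≤ modularFunctionFieldFullC K N := by
  rw [adjoin_simple_le_iff]
  exact jqModC_mem_full K N

/-- **KEYGLUE**, `extendScalars` form: if over some field `K'` of characteristic `ℓ` the degree
`[K'(t_d : d ∣ N) : K'(t)]` is at least `m`, there are `m` integral monomials in the `j(q^d)`
(so lying in the full modular function field over `ℚ`) whose reductions modulo `ℓ` are linearly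
independent over `𝔽_ℓ(t)`. -/
theorem exists_monomials_of_le_finrank (N : ℕ) (ℓ : ℕ) [Fact ℓ.Prime]
    (K' : Type*) [Field K'] [CharP K' ℓ] (m : ℕ)
    (hL : m ≤ Module.finrank ↥(K'⟮jqModC K'⟯)
      ↥(extendScalars (adjoin_jqModC_le_full K' N))) :
    ∃ x : Fin m → LaurentSeries ℤ, (∀ i, x i ∈ monomialsZ N) ∧
      (∀ i, coeffMap (Int.castRingHom ℚ) (x i) ∈ modularFunctionFieldFull N) ∧
      LinearIndependent ↥((ZMod ℓ)⟮jqModC (ZMod ℓ)⟯)
        (fun i => coeffMap (Int.castRingHom (ZMod ℓ)) (x i)) := by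
  obtain ⟨f, hf, hlin⟩ := exists_linearIndependent_monomials (K'⟮jqModC K'⟯)
    (divisorExpansionsC K' N) (adjoin_jqModC_le_full K' N) m hL
  choose x hx hxf using fun i => exists_monomialsZ_of_mem_closure K' (hf i)
  refine ⟨x, hx, fun i => coeffMap_mem_full_of_mem_monomialsZ (hx i), ?_⟩
  have hlin' : LinearIndependent ↥(K'⟮jqModC K'⟯)
      (fun i => coeffMap (Int.castRingHom K') (x i)) := by
    have hfun : (fun i => coeffMap (Int.castRingHom K') (x i)) = f := funext hxf
    rw [hfun]
    exact hlin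
  exact linearIndependent_of_coeffMap (ZMod.castHom (dvd_refl ℓ) K') x hlin'

/-- **KEYGLUE**, cardinal `relrank` form (the shape of `Fermat.Agent.S28.KeyLower`). -/
theorem exists_monomials_of_le_relrank (N : ℕ) (ℓ : ℕ) [Fact ℓ.Prime]
    (K' : Type*) [Field K'] [CharP K' ℓ] (m : ℕ)
    (hL : (m : Cardinal) ≤
      IntermediateField.relrank (K'⟮jqModC K'⟯) (modularFunctionFieldFullC K' N)) :
    ∃ x : Fin m → LaurentSeries ℤ, (∀ i, x i ∈ monomialsZ N) ∧
      (∀ i, coeffMap (Int.castRingHom ℚ) (x i) ∈ modularFunctionFieldFull N) ∧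
      LinearIndependent ↥((ZMod ℓ)⟮jqModC (ZMod ℓ)⟯)
        (fun i => coeffMap (Int.castRingHom (ZMod ℓ)) (x i)) := by
  rw [relrank_eq_rank_of_le (adjoin_jqModC_le_full K' N)] at hL
  obtain ⟨f, hf, hlin⟩ := exists_linearIndependent_monomials_of_le_rank (K'⟮jqModC K'⟯)
    (divisorExpansionsC K' N) (adjoin_jqModC_le_full K' N) m hL
  choose x hx hxf using fun i => exists_monomialsZ_of_mem_closure K' (hf i)
  refine ⟨x, hx, fun i => coeffMap_mem_full_of_mem_monomialsZ (hx i), ?_⟩
  have hlin' : LinearIndependent ↥(K'⟮jqModC K'⟯)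
      (fun i => coeffMap (Int.castRingHom K') (x i)) := by
    have hfun : (fun i => coeffMap (Int.castRingHom K') (x i)) = f := funext hxf
    rw [hfun]
    exact hlin
  exact linearIndependent_of_coeffMap (ZMod.castHom (dvd_refl ℓ) K') x hlin'

/-- **KEYGLUE**, `relfinrank` form. -/
theorem exists_monomials_of_le_relfinrank (N : ℕ) (ℓ : ℕ) [Fact ℓ.Prime]
    (K' : Type*) [Field K'] [CharP K' ℓ] (m : ℕ)
    (hL : m ≤ IntermediateField.relfinrank (K'⟮jqModC K'⟯) (modularFunctionFieldFullC K' N)) :
    ∃ x : Fin m → LaurentSeries ℤ, (∀ i, x i ∈ monomialsZ N) ∧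
      (∀ i, coeffMap (Int.castRingHom ℚ) (x i) ∈ modularFunctionFieldFull N) ∧
      LinearIndependent ↥((ZMod ℓ)⟮jqModC (ZMod ℓ)⟯)
        (fun i => coeffMap (Int.castRingHom (ZMod ℓ)) (x i)) := by
  rw [relfinrank_eq_finrank_of_le (adjoin_jqModC_le_full K' N)] at hL
  exact exists_monomials_of_le_finrank N ℓ K' m hL

/-- The datum KEY(N,ℓ) of the S28 blueprint. -/
def Key (N : ℕ) (ℓ : ℕ) [Fact ℓ.Prime] : Prop :=
  ∃ (n : ℕ) (x : Fin n → LaurentSeries ℤ),
    (∀ i, coeffMap (Int.castRingHom ℚ) (x i) ∈ modularFunctionFieldFull N) ∧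
    LinearIndependent ↥((ZMod ℓ)⟮jqModC (ZMod ℓ)⟯)
      (fun i => coeffMap (Int.castRingHom (ZMod ℓ)) (x i)) ∧
    IntermediateField.relfinrank ℚ⟮jq⟯ (modularFunctionFieldFull N) ≤ n

/-- **KEYGLUE**: KEYL ∧ KEY0 ⇒ KEY(N,ℓ). -/
theorem key_of_keyL_key0 (N : ℕ) (ℓ : ℕ) [Fact ℓ.Prime]
    (K' : Type*) [Field K'] [CharP K' ℓ]
    (hL : dedekindPsi N ≤
      IntermediateField.relfinrank (K'⟮jqModC K'⟯) (modularFunctionFieldFullC K' N))
    (h0 : IntermediateField.relfinrank ℚ⟮jq⟯ (modularFunctionFieldFull N) ≤ dedekindPsi N) :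
    Key N ℓ := by
  obtain ⟨x, -, hx, hlin⟩ := exists_monomials_of_le_relfinrank N ℓ K' (dedekindPsi N) hL
  exact ⟨dedekindPsi N, x, hx, hlin, h0⟩

end Fermat.Agent.S28.KeyGlue
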