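/-
S28 / KEYL (helper11): basic facts on the expansions `t_d = qExpand d t`, `t = jqModC K`,
the fields `L_N`, bivariate evaluation of `Φ ∈ ℤ[Y][X]`, and the subfield of series supported
on multiples of `p`.  No sorry.
-/
import Mathlib
import Fermat.Prelude.Def_ModularCurve_X0ModL

set_option autoImplicit false
set_option linter.style.haveILetI false

namespace Fermat.Agent.S28.KeyLowerBasic

open HahnSeries ModularCurve IntermediateField Polynomial

noncomputable section

/-! ### Bivariate evaluation -/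

section Ev

variable {R S : Type*} [CommRing R] [CommRing S]

/-- evaluation `ℤ[Y] → R`, `Y ↦ y`. -/
def evY (y : R) : Polynomial ℤ →+* R := Polynomial.eval₂RingHom (Int.castRingHom R) y

/-- `Φ(X, y) ∈ R[X]` for `Φ ∈ ℤ[Y][X]`. -/
def polyAt (P : Polynomial (Polynomial ℤ)) (y : R) : Polynomial R := P.map (evY y)

/-- `Φ(x, y)`. -/
def ev (P : Polynomial (Polynomial ℤ)) (x y : R) : R := (polyAt P y).eval x

theorem evY_comp (f : R →+* S) (y : R) : f.comp (evY y) = evY (f y) := by
  apply Polynomial.ringHom_ext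
  · intro a; simp [evY]
  · simp [evY]

theorem polyAt_map (f : R →+* S) (P : Polynomial (Polynomial ℤ)) (y : R) :
    (polyAt P y).map f = polyAt P (f y) := by
  rw [polyAt, polyAt, Polynomial.map_map, evY_comp]

theorem map_ev (f : R →+* S) (P : Polynomial (Polynomial ℤ)) (x y : R) :
    f (ev P x y) = ev P (f x) (f y) := by
  rw [ev, ev, ← polyAt_map f, Polynomial.eval_map, Polynomial.eval₂_hom]

theorem polyAt_monic {P : Polynomial (Polynomial ℤ)} (hP : P.Monic) (y : R) :
    (polyAt P y).Monic := hP.map _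

theorem polyAt_natDegree [Nontrivial R] {P : Polynomial (Polynomial ℤ)} (hP : P.Monic) (y : R) :
    (polyAt P y).natDegree = P.natDegree := hP.natDegree_map _

end Ev

/-! ### The series `t_d` -/

section Tq

variable (K : Type*) [Field K]

/-- `t(q^d)`, total in `d` (junk value `0` at `d = 0`). -/
def tq (d : ℕ) : LaurentSeries K :=
  if h : d = 0 then 0 else @qExpand K _ d ⟨h⟩ (jqModC K)

theorem tq_eq (d : ℕ) [hd : NeZero d] : tq K d = qExpand K d (jqModC K) := by
  rw [tq, dif_neg hd.out]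

theorem tq_one : tq K 1 = jqModC K := by
  rw [tq_eq, qExpand_one_apply]

theorem qExpand_tq (p d : ℕ) [NeZero p] [NeZero d] :
    qExpand K p (tq K d) = tq K (p * d) := by
  haveI : NeZero (p * d) := ⟨Nat.mul_ne_zero (NeZero.ne p) (NeZero.ne d)⟩
  rw [tq_eq, tq_eq, qExpand_qExpand]

theorem coeff_tq_neg (d : ℕ) [NeZero d] : (tq K d).coeff (-(d : ℤ)) = 1 := by
  rw [tq_eq, show (-(d : ℤ)) = (d : ℤ) * (-1) by ring, qExpand_coeff_mul]
  exact coeff_jqModC_neg_one K

theorem coeff_tq_of_not_dvd (d : ℕ) [NeZero d] {n : ℤ} (hn : ¬ (d : ℤ) ∣ n) :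
    (tq K d).coeff n = 0 := by
  rw [tq_eq]; exact qExpand_coeff_of_not_dvd d _ hn

theorem tq_ne_zero (d : ℕ) [NeZero d] : tq K d ≠ 0 := by
  intro h
  have := coeff_tq_neg K d
  rw [h, HahnSeries.coeff_zero] at this
  exact zero_ne_one this

theorem jqModC_ne_zero' : jqModC K ≠ 0 := jqModC_ne_zero_of_nontrivial K

theorem order_jqModC : (jqModC K).order = -1 := by
  have hne := jqModC_ne_zero' K
  refine le_antisymm (order_le_of_coeff_ne_zero ?_) ?_
  · rw [coeff_jqModC_neg_one]; exact one_ne_zero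
  · by_contra hlt
    push Not at hlt
    have h0 : (jqModC K).coeff (jqModC K).order = 0 := coeff_jqModC_of_lt K hlt
    exact (coeff_order_eq_zero.not.mpr hne) h0

/-- `L_N` is generated by the `t_d`, `d ∣ N`. -/
theorem fullC_eq_adjoin (N : ℕ) [NeZero N] :
    modularFunctionFieldFullC K N = adjoin K ((fun d => tq K d) '' {d | d ∣ N}) := by
  rw [modularFunctionFieldFullC]
  congr 1
  ext x
  constructor
  · rintro ⟨d, hd, hdN, rfl⟩
    exact ⟨d, hdN, by haveI := hd; exact tq_eq K d⟩
  · rintro ⟨d, hdN, rfl⟩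
    have hd : d ≠ 0 := fun h => NeZero.ne N (by simpa [h] using hdN)
    haveI : NeZero d := ⟨hd⟩
    exact ⟨d, ⟨hd⟩, hdN, tq_eq K d⟩

theorem tq_mem_fullC {N d : ℕ} [NeZero N] (hd : d ∣ N) : tq K d ∈ modularFunctionFieldFullC K N := by
  rw [fullC_eq_adjoin]
  exact subset_adjoin K _ ⟨d, hd, rfl⟩

end Tq

/-! ### Series supported on multiples of `p` -/

section Supp

variable (K : Type*) [Field K] (p : ℕ) [NeZero p]

/-- The subfield `K((q^p))` of `K((q))`. -/
def Ep : IntermediateField K (LaurentSeries K) := (qExpandAlgHomC K p).fieldRange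

theorem mem_Ep_iff {x : LaurentSeries K} :
    x ∈ Ep K p ↔ ∀ n : ℤ, ¬ (p : ℤ) ∣ n → x.coeff n = 0 := by
  constructor
  · rintro ⟨y, rfl⟩ n hn
    exact qExpand_coeff_of_not_dvd p y hn
  · intro h
    have hp : (0 : ℤ) < p := by exact_mod_cast Nat.pos_of_ne_zero (NeZero.ne p)
    -- build the preimage
    have hbdd : BddBelow (Function.support fun n : ℤ => x.coeff ((p : ℤ) * n)) := by
      by_cases hx : x = 0
      · subst hx; simp
      · refine ⟨x.order / p, ?_⟩
        intro n hn
        simp only [Function.mem_support] at hn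
        have h1 : x.order ≤ (p : ℤ) * n := order_le_of_coeff_ne_zero hn
        exact (Int.ediv_le_ediv hp h1).trans (by rw [Int.mul_ediv_cancel_left _ hp.ne'])
    refine ⟨HahnSeries.ofSuppBddBelow (fun n : ℤ => x.coeff ((p : ℤ) * n)) hbdd, ?_⟩
    ext n
    show (qExpand K p _).coeff n = x.coeff n
    by_cases hn : (p : ℤ) ∣ n
    · obtain ⟨m, rfl⟩ := hn
      rw [qExpand_coeff_mul]
      rfl
    · rw [qExpand_coeff_of_not_dvd p _ hn, h n hn]

theorem qExpand_mem_Ep (y : LaurentSeries K) : qExpand K p y ∈ Ep K p := ⟨y, rfl⟩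

theorem map_le_Ep (L : IntermediateField K (LaurentSeries K)) :
    L.map (qExpandAlgHomC K p) ≤ Ep K p := by
  rintro x ⟨y, -, rfl⟩
  exact ⟨y, rfl⟩

end Supp

end

end Fermat.Agent.S28.KeyLowerBasic
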