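import Mathlib

/-!
# S28, package ALG-main-kernel: auxiliary abstract lemmas

* `mem_of_isIntegral_of_inv_mem`: an element of a field which is integral over a subring `A` and
  whose inverse lies in `A` lies in `A`.
* `DVRLike`: a subring `O` of a field `E` with a ring hom `ρ : O →+* κ` to a field, an element
  `ℓ ∈ O` with `ρ ℓ = 0`, such that every `x` with `ρ x ≠ 0` is a unit and every nonzero `x ∈ O` is
  `ℓ ^ m * y` with `ρ y ≠ 0`.  Its "fraction field" `DVRLike.fractionField : Subfield E`, and `O` is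
  integrally closed in it.
* `mem_adjoin_of_isIntegral_of_transcendental`: `K[s]` is integrally closed in `K(s)` for
  transcendental `s`.
-/

set_option autoImplicit false

namespace Fermat.Agent.S28.MainKernel

open Polynomial

/-- An element of a field which is integral over a subring `A` and whose inverse lies in `A`
lies in `A`. -/
theorem mem_of_isIntegral_of_inv_mem {E : Type*} [Field E] (A : Subring E) {c : E}
    (hc : IsIntegral A c) (hinv : c⁻¹ ∈ A) : c ∈ A := by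
  obtain ⟨p, hm', hp⟩ := hc
  have hm : p.Monic := hm'
  by_cases hc0 : c = 0
  · rw [hc0]; exact A.zero_mem
  set d := p.natDegree with hd
  have hd0 : d ≠ 0 := by
    intro h0
    have : p = 1 := (Polynomial.Monic.natDegree_eq_zero hm).1 (hd ▸ h0)
    rw [this, eval₂_one] at hp
    exact one_ne_zero hp
  have hlead : p.coeff d = 1 := hm.coeff_natDegree
  rw [eval₂_eq_sum_range, Finset.sum_range_succ, ← hd, hlead, map_one, one_mul] at hp
  have h1 : c ^ d = -∑ i ∈ Finset.range d, algebraMap A E (p.coeff i) * c ^ i := by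
    rw [eq_neg_iff_add_eq_zero, add_comm]; exact hp
  have h2 : c = c ^ d * c⁻¹ ^ (d - 1) := by
    obtain ⟨e, he⟩ := Nat.exists_eq_succ_of_ne_zero hd0
    rw [he, Nat.succ_sub_one, pow_succ, mul_comm (c ^ e) c, mul_assoc, ← mul_pow,
      mul_inv_cancel₀ hc0, one_pow, mul_one]
  rw [h2, h1, neg_mul, Finset.sum_mul]
  refine A.neg_mem (A.sum_mem fun i hi => ?_)
  have hi' : i < d := Finset.mem_range.1 hi
  have h3 : c ^ i * c⁻¹ ^ (d - 1) = c⁻¹ ^ (d - 1 - i) := by
    have : d - 1 = (d - 1 - i) + i := by omega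
    conv_lhs => rw [this, pow_add, mul_comm (c⁻¹ ^ (d - 1 - i)), ← mul_assoc, ← mul_pow,
      mul_inv_cancel₀ hc0, one_pow, one_mul]
  rw [mul_assoc, h3]
  exact A.mul_mem (p.coeff i).2 (A.pow_mem hinv _)

/-- A "discrete-valuation-like" subring of a field. -/
structure DVRLike (E κ : Type*) [Field E] [Field κ] where
  O : Subring E
  ρ : O →+* κ
  ℓ : E
  hℓ0 : ℓ ≠ 0
  hℓO : ℓ ∈ O
  hρℓ : ρ ⟨ℓ, hℓO⟩ = 0
  hunit : ∀ x : O, ρ x ≠ 0 → IsUnit x
  hsep : ∀ x : O, x ≠ 0 → ∃ (m : ℕ) (y : O), (x : E) = ℓ ^ m * (y : E) ∧ ρ y ≠ 0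

namespace DVRLike

variable {E κ : Type*} [Field E] [Field κ] (D : DVRLike E κ)

/-- The kernel of `ρ` is generated by `ℓ`. -/
theorem exists_eq_mul_of_rho_eq_zero (x : D.O) (hx : D.ρ x = 0) :
    ∃ z : D.O, (x : E) = D.ℓ * (z : E) := by
  by_cases hx0 : x = 0
  · exact ⟨0, by rw [hx0]; simp⟩
  obtain ⟨m, y, hxy, hy⟩ := D.hsep x hx0
  rcases Nat.eq_zero_or_pos m with rfl | hm
  · exfalso
    apply hy
    have : y = x := Subtype.ext (by rw [hxy]; simp)
    rw [this]; exact hx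
  · obtain ⟨e, rfl⟩ := Nat.exists_eq_succ_of_ne_zero hm.ne'
    refine ⟨⟨D.ℓ, D.hℓO⟩ ^ e * y, ?_⟩
    rw [hxy, pow_succ]
    push_cast
    ring

/-- The inverse (in `E`) of an element with nonzero reduction lies in `O`. -/
theorem inv_mem_of_rho_ne_zero (x : D.O) (hx : D.ρ x ≠ 0) : ((x : E))⁻¹ ∈ D.O := by
  obtain ⟨u, hu⟩ := D.hunit x hx
  have h1 : (x : E) * ((u⁻¹ : D.Oˣ) : D.O) = 1 := by
    have : x * ((u⁻¹ : D.Oˣ) : D.O) = 1 := by rw [← hu]; exact u.mul_inv
    exact_mod_cast congrArg Subtype.val this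
  rw [← eq_inv_of_mul_eq_one_right h1]
  exact ((u⁻¹ : D.Oˣ) : D.O).2

/-- The elements of the form `ℓ ^ m * u`, `u` with nonzero reduction. -/
def IsFrac (c : E) : Prop :=
  c = 0 ∨ ∃ (m : ℤ) (y : D.O), D.ρ y ≠ 0 ∧ c = D.ℓ ^ m * (y : E)

theorem isFrac_of_mem {c : E} (hc : c ∈ D.O) : D.IsFrac c := by
  by_cases hc0 : c = 0
  · exact Or.inl hc0
  obtain ⟨m, y, hxy, hy⟩ := D.hsep ⟨c, hc⟩ (fun h => hc0 (congrArg Subtype.val h))
  exact Or.inr ⟨m, y, hy, by rw [zpow_natCast]; exact hxy⟩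

theorem ne_zero_of_rho_ne_zero (y : D.O) (hy : D.ρ y ≠ 0) : (y : E) ≠ 0 := by
  intro h
  apply hy
  have : y = 0 := Subtype.ext h
  rw [this, map_zero]

theorem isFrac_mul {a b : E} (ha : D.IsFrac a) (hb : D.IsFrac b) : D.IsFrac (a * b) := by
  rcases ha with rfl | ⟨m, y, hy, rfl⟩
  · exact Or.inl (zero_mul _)
  rcases hb with rfl | ⟨n, z, hz, rfl⟩
  · exact Or.inl (mul_zero _)
  refine Or.inr ⟨m + n, y * z, ?_, ?_⟩
  · rw [map_mul]; exact mul_ne_zero hy hz
  · rw [zpow_add₀ D.hℓ0]; push_cast; ring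

theorem isFrac_inv {a : E} (ha : D.IsFrac a) : D.IsFrac a⁻¹ := by
  rcases ha with rfl | ⟨m, y, hy, rfl⟩
  · exact Or.inl inv_zero
  obtain ⟨u, hu⟩ := D.hunit y hy
  have h1 : (y : E) * ((u⁻¹ : D.Oˣ) : D.O) = 1 := by
    have : y * ((u⁻¹ : D.Oˣ) : D.O) = 1 := by rw [← hu]; exact u.mul_inv
    exact_mod_cast congrArg Subtype.val this
  refine Or.inr ⟨-m, ((u⁻¹ : D.Oˣ) : D.O), ?_, ?_⟩
  · intro h0
    have : D.ρ (y * ((u⁻¹ : D.Oˣ) : D.O)) = 1 := by
      rw [← hu, u.mul_inv, map_one]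
    rw [map_mul, h0, mul_zero] at this
    exact zero_ne_one this
  · rw [mul_inv, zpow_neg, eq_inv_of_mul_eq_one_right h1]

theorem isFrac_neg {a : E} (ha : D.IsFrac a) : D.IsFrac (-a) := by
  rcases ha with rfl | ⟨m, y, hy, rfl⟩
  · exact Or.inl neg_zero
  refine Or.inr ⟨m, -y, ?_, ?_⟩
  · rw [map_neg]; exact neg_ne_zero.2 hy
  · push_cast; ring

theorem isFrac_add {a b : E} (ha : D.IsFrac a) (hb : D.IsFrac b) : D.IsFrac (a + b) := by
  rcases ha with rfl | ⟨m, y, hy, rfl⟩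
  · rw [zero_add]; exact hb
  rcases hb with rfl | ⟨n, z, hz, rfl⟩
  · rw [add_zero]; exact Or.inr ⟨m, y, hy, rfl⟩
  -- wlog m ≤ n
  wlog hmn : m ≤ n generalizing m n y z
  · rw [add_comm]
    exact this n z hz m y hy (le_of_not_ge hmn)
  obtain ⟨e, he⟩ := Int.eq_ofNat_of_zero_le (sub_nonneg.2 hmn)
  have hsum : D.ℓ ^ m * (y : E) + D.ℓ ^ n * (z : E) =
      D.ℓ ^ m * ((y + ⟨D.ℓ, D.hℓO⟩ ^ e * z : D.O) : E) := by
    have hn : n = m + e := by omega
    rw [hn, zpow_add₀ D.hℓ0, zpow_natCast]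
    push_cast
    ring
  rw [hsum]
  exact D.isFrac_mul (Or.inr ⟨m, 1, by rw [map_one]; exact one_ne_zero, by simp⟩)
    (D.isFrac_of_mem (y + ⟨D.ℓ, D.hℓO⟩ ^ e * z : D.O).2)

/-- The "fraction field" of `O` inside `E`. -/
def fractionField : Subfield E where
  carrier := {c | D.IsFrac c}
  mul_mem' ha hb := D.isFrac_mul ha hb
  one_mem' := D.isFrac_of_mem D.O.one_mem
  add_mem' ha hb := D.isFrac_add ha hb
  zero_mem' := Or.inl rfl
  neg_mem' ha := D.isFrac_neg ha
  inv_mem' _ ha := D.isFrac_inv ha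

theorem mem_fractionField_iff {c : E} : c ∈ D.fractionField ↔ D.IsFrac c := Iff.rfl

theorem le_fractionField : D.O ≤ D.fractionField.toSubring := fun _ hc => D.isFrac_of_mem hc

/-- `O` is integrally closed in its fraction field. -/
theorem mem_of_isIntegral {c : E} (hc : c ∈ D.fractionField) (hint : IsIntegral D.O c) :
    c ∈ D.O := by
  rcases hc with rfl | ⟨m, y, hy, rfl⟩
  · exact D.O.zero_mem
  rcases le_or_gt 0 m with hm | hm
  · obtain ⟨e, rfl⟩ := Int.eq_ofNat_of_zero_le hm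
    rw [zpow_natCast]
    exact D.O.mul_mem (D.O.pow_mem D.hℓO e) y.2
  · apply mem_of_isIntegral_of_inv_mem D.O hint
    obtain ⟨e, he⟩ := Int.eq_ofNat_of_zero_le (neg_nonneg.2 hm.le)
    rw [mul_inv, ← zpow_neg, he, zpow_natCast]
    exact D.O.mul_mem (D.O.pow_mem D.hℓO e) (D.inv_mem_of_rho_ne_zero y hy)

end DVRLike

open IntermediateField in
open scoped IntermediateField.algebraAdjoinAdjoin in
/-- `K[s]` is integrally closed in `K(s)` for transcendental `s`. -/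
theorem mem_adjoin_of_isIntegral_of_transcendental {K L : Type*} [Field K] [Field L] [Algebra K L]
    {s : L} (hs : Transcendental K s) {c : L} (hc : c ∈ K⟮s⟯)
    (hint : IsIntegral (Algebra.adjoin K {s}) c) : c ∈ Algebra.adjoin K {s} := by
  have : IsIntegrallyClosed (Algebra.adjoin K {s}) :=
    IsIntegrallyClosed.of_equiv (Polynomial.algEquivOfTranscendental K s hs).toRingEquiv
  have h1 : IsIntegral (Algebra.adjoin K {s}) (⟨c, hc⟩ : K⟮s⟯) := by
    have : IsIntegral (Algebra.adjoin K {s}) (algebraMap K⟮s⟯ L ⟨c, hc⟩) := hint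
    exact (isIntegral_algebraMap_iff (algebraMap K⟮s⟯ L).injective).1 this
  obtain ⟨y, hy⟩ := (IsIntegrallyClosed.isIntegral_iff (R := Algebra.adjoin K {s})).1 h1
  have : (y : L) = c := congrArg Subtype.val hy
  rw [← this]
  exact y.2

end Fermat.Agent.S28.MainKernel
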