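import Mathlib

/-!
# S28, package ALG-main-kernel: abstract core (Claims 1–3)

Abstract setting: `F` a field, `F₀ ≤ F` a subfield, `V ≤ O'` subrings of `F` with `V ≤ F₀`,
`ρ : O' →+* κ` a ring hom to a field, `ℓ ∈ V` with `ρ ℓ = 0`, such that every nonzero element of
`F₀` is `ℓ ^ m * (unit of V)` and `ρ (V) ⊆ κ₀` for a subfield `κ₀ ≤ κ`.
If `x₁, …, xₙ ∈ O'` have `κ₀`-linearly independent reductions and `[F : F₀] ≤ n`, then
`(xᵢ)` is an `F₀`-basis of `F`, `O' = ⊕ V xᵢ` and every element of `O'` is integral over `V`.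
-/

set_option autoImplicit false

namespace Fermat.Agent.S28.MainKernel

open scoped BigOperators

section Span

variable {F κ : Type*} [Field F] [Field κ]

/-- The data of the abstract setting. -/
structure Setting (F κ : Type*) [Field F] [Field κ] where
  F₀ : Subfield F
  V : Subring F
  O' : Subring F
  κ₀ : Subfield κ
  ρ : O' →+* κ
  ℓ : F
  hℓ0 : ℓ ≠ 0
  hVF₀ : V ≤ F₀.toSubring
  hVO : V ≤ O'
  hℓV : ℓ ∈ V
  hρℓ : ρ ⟨ℓ, hVO hℓV⟩ = 0
  hρV : ∀ v (hv : v ∈ V), ρ ⟨v, hVO hv⟩ ∈ κ₀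
  hV1 : ∀ c ∈ F₀, c ≠ 0 → ∃ (m : ℤ) (v : F), v ∈ V ∧ v⁻¹ ∈ V ∧ c = ℓ ^ m * v

namespace Setting

variable (S : Setting F κ)

/-- A unit of `V` has nonzero reduction. -/
theorem rho_ne_zero_of_unit {v : F} (hv : v ∈ S.V) (hv' : v⁻¹ ∈ S.V) (hv0 : v ≠ 0) :
    S.ρ ⟨v, S.hVO hv⟩ ≠ 0 := by
  intro h
  have h1 : S.ρ (⟨v, S.hVO hv⟩ * ⟨v⁻¹, S.hVO hv'⟩) = 1 := by
    have : (⟨v, S.hVO hv⟩ * ⟨v⁻¹, S.hVO hv'⟩ : S.O') = 1 := by
      apply Subtype.ext
      simp [mul_inv_cancel₀ hv0]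
    rw [this, map_one]
  rw [map_mul, h, zero_mul] at h1
  exact zero_ne_one h1

theorem pow_mem_V (k : ℕ) : S.ℓ ^ k ∈ S.V := pow_mem S.hℓV k

/-- Scaling lemma: a nonzero family in `F₀` is `ℓ ^ m` times a family in `V` one of whose members is
a unit of `V`. -/
theorem exists_scaling {n : ℕ} (c : Fin n → F) (hc : ∀ i, c i ∈ S.F₀) (hne : ∃ i, c i ≠ 0) :
    ∃ (m : ℤ) (c' : Fin n → F), (∀ i, c' i ∈ S.V) ∧
      (∃ i₀, c' i₀ ≠ 0 ∧ (c' i₀)⁻¹ ∈ S.V) ∧ ∀ i, c i = S.ℓ ^ m * c' i := by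
  classical
  -- choose exponents and units
  have hex : ∀ i, ∃ (m : ℤ) (v : F), c i ≠ 0 → (v ∈ S.V ∧ v⁻¹ ∈ S.V ∧ c i = S.ℓ ^ m * v) := by
    intro i
    by_cases h : c i = 0
    · exact ⟨0, 0, fun h' => absurd h h'⟩
    · obtain ⟨m, v, h1, h2, h3⟩ := S.hV1 (c i) (hc i) h
      exact ⟨m, v, fun _ => ⟨h1, h2, h3⟩⟩
  choose mi vi hmv using hex
  set T : Finset (Fin n) := Finset.univ.filter (fun i => c i ≠ 0) with hT
  have hTne : T.Nonempty := by
    obtain ⟨i, hi⟩ := hne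
    exact ⟨i, by simp [hT, hi]⟩
  obtain ⟨i₀, hi₀T, hmin⟩ := Finset.exists_min_image T mi hTne
  have hi₀ : c i₀ ≠ 0 := by simpa [hT] using hi₀T
  refine ⟨mi i₀, fun i => if c i = 0 then 0 else S.ℓ ^ ((mi i - mi i₀).toNat) * vi i, ?_, ?_, ?_⟩
  · intro i
    by_cases h : c i = 0
    · simp [h]
    · simp only [h, if_false]
      exact mul_mem (S.pow_mem_V _) (hmv i h).1
  · refine ⟨i₀, ?_, ?_⟩
    · simp only [hi₀, if_false, sub_self, Int.toNat_zero, pow_zero, one_mul]
      intro hv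
      apply hi₀
      rw [(hmv i₀ hi₀).2.2, hv, mul_zero]
    · simp only [hi₀, if_false, sub_self, Int.toNat_zero, pow_zero, one_mul]
      exact (hmv i₀ hi₀).2.1
  · intro i
    by_cases h : c i = 0
    · simp [h]
    · simp only [h, if_false]
      have hle : mi i₀ ≤ mi i := hmin i (by simp [hT, h])
      have hnat : ((mi i - mi i₀).toNat : ℤ) = mi i - mi i₀ := Int.toNat_of_nonneg (by omega)
      rw [← mul_assoc, ← zpow_natCast, hnat, ← zpow_add₀ S.hℓ0]
      rw [show mi i₀ + (mi i - mi i₀) = mi i by ring]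
      exact (hmv i h).2.2

variable {n : ℕ} (x : Fin n → S.O')

/-- Reduction of a `V`-combination. -/
theorem rho_sum (c' : Fin n → F) (hc' : ∀ i, c' i ∈ S.V) (y : S.O')
    (hy : (y : F) = ∑ i, c' i * (x i : F)) :
    S.ρ y = ∑ i, S.ρ ⟨c' i, S.hVO (hc' i)⟩ * S.ρ (x i) := by
  have : y = ∑ i, (⟨c' i, S.hVO (hc' i)⟩ : S.O') * x i := by
    apply Subtype.ext
    rw [hy]
    simp
  rw [this, map_sum]
  simp [map_mul]

/-- Core contradiction: a `V`-combination with a unit coefficient cannot reduce to zero. -/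
theorem false_of_rho_eq_zero (hx : LinearIndependent S.κ₀ (fun i => S.ρ (x i)))
    (c' : Fin n → F) (hc' : ∀ i, c' i ∈ S.V)
    (hunit : ∃ i₀, c' i₀ ≠ 0 ∧ (c' i₀)⁻¹ ∈ S.V) (y : S.O')
    (hy : (y : F) = ∑ i, c' i * (x i : F)) (hρy : S.ρ y = 0) : False := by
  obtain ⟨i₀, hi₀, hi₀'⟩ := hunit
  have h := S.rho_sum x c' hc' y hy
  rw [hρy] at h
  have hli := Fintype.linearIndependent_iff.mp hx
    (fun i => (⟨S.ρ ⟨c' i, S.hVO (hc' i)⟩, S.hρV _ (hc' i)⟩ : S.κ₀)) (by
      rw [h]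
      simp [Subfield.smul_def])
  have := hli i₀
  have h0 : S.ρ ⟨c' i₀, S.hVO (hc' i₀)⟩ = 0 := by
    simpa using congrArg Subtype.val this
  exact S.rho_ne_zero_of_unit (hc' i₀) hi₀' hi₀ h0

/-- **Claim 1**: the `xᵢ` are linearly independent over `F₀`. -/
theorem linearIndependent (hx : LinearIndependent S.κ₀ (fun i => S.ρ (x i))) :
    LinearIndependent S.F₀ (fun i => (x i : F)) := by
  rw [Fintype.linearIndependent_iff]
  intro g hg
  by_contra hne
  push Not at hne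
  obtain ⟨j, hj⟩ := hne
  obtain ⟨m, c', hc', hunit, hcc'⟩ := S.exists_scaling (fun i => (g i : F)) (fun i => (g i).2)
    ⟨j, by simpa using hj⟩
  have hsum : ∑ i, c' i * (x i : F) = 0 := by
    have h1 : S.ℓ ^ m * ∑ i, c' i * (x i : F) = 0 := by
      rw [Finset.mul_sum, ← hg]
      refine Finset.sum_congr rfl fun i _ => ?_
      rw [← mul_assoc, ← hcc' i]
      rfl
    exact (mul_eq_zero.mp h1).resolve_left (zpow_ne_zero _ S.hℓ0)
  exact S.false_of_rho_eq_zero x hx c' hc' hunit 0 (by simpa using hsum.symm) (map_zero _)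

/-- **Claim 2**: every element of `O'` is a `V`-combination of the `xᵢ`. -/
theorem exists_repr (hx : LinearIndependent S.κ₀ (fun i => S.ρ (x i)))
    (hn : Module.finrank S.F₀ F ≤ n) [FiniteDimensional S.F₀ F] (f : F) (hf : f ∈ S.O') :
    ∃ c : Fin n → F, (∀ i, c i ∈ S.V) ∧ f = ∑ i, c i * (x i : F) := by
  classical
  have hli := S.linearIndependent x hx
  have hspan : ⊤ ≤ Submodule.span S.F₀ (Set.range fun i => (x i : F)) := by
    have hcard : Fintype.card (Fin n) = Module.finrank S.F₀ F := by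
      apply le_antisymm
      · exact hli.fintype_card_le_finrank
      · simpa using hn
    exact (hli.span_eq_top_of_card_eq_finrank' hcard).ge
  obtain ⟨g, hg⟩ := (Submodule.mem_span_range_iff_exists_fun S.F₀).mp (hspan (Submodule.mem_top : f ∈ ⊤))
  by_cases hall : ∀ i, g i = 0
  · refine ⟨fun _ => 0, fun _ => zero_mem _, ?_⟩
    rw [← hg]
    simp [hall]
  push Not at hall
  obtain ⟨j, hj⟩ := hall
  obtain ⟨m, c', hc', hunit, hcc'⟩ := S.exists_scaling (fun i => (g i : F)) (fun i => (g i).2)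
    ⟨j, by simpa using hj⟩
  have hf' : f = S.ℓ ^ m * ∑ i, c' i * (x i : F) := by
    rw [Finset.mul_sum, ← hg]
    refine Finset.sum_congr rfl fun i _ => ?_
    rw [← mul_assoc, ← hcc' i]
    rfl
  by_cases hm : 0 ≤ m
  · refine ⟨fun i => S.ℓ ^ m.toNat * c' i, fun i => mul_mem (S.pow_mem_V _) (hc' i), ?_⟩
    rw [hf', Finset.mul_sum]
    refine Finset.sum_congr rfl fun i _ => ?_
    rw [← zpow_natCast, Int.toNat_of_nonneg hm, mul_assoc]
  · exfalso
    rw [not_le] at hm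
    -- ℓ ^ (-m) * f = ∑ c' i * x i, and the left side reduces to zero
    set k : ℕ := (-m).toNat with hk
    have hkpos : 0 < k := by omega
    have hkm : (k : ℤ) = -m := Int.toNat_of_nonneg (by omega)
    have hy : S.ℓ ^ k * f = ∑ i, c' i * (x i : F) := by
      rw [hf', ← mul_assoc, ← zpow_natCast, hkm, ← zpow_add₀ S.hℓ0]
      simp
    let y : S.O' := ⟨S.ℓ, S.hVO S.hℓV⟩ ^ k * ⟨f, hf⟩
    have hyF : (y : F) = ∑ i, c' i * (x i : F) := by
      rw [← hy]; simp [y]
    have hρy : S.ρ y = 0 := by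
      simp only [y, map_mul, map_pow, S.hρℓ]
      rw [zero_pow hkpos.ne', zero_mul]
    exact S.false_of_rho_eq_zero x hx c' hc' hunit y hyF hρy

/-- **Claim 3**: every element of `O'` is integral over `V`. -/
theorem isIntegral_of_mem (hx : LinearIndependent S.κ₀ (fun i => S.ρ (x i)))
    (hn : Module.finrank S.F₀ F ≤ n) [FiniteDimensional S.F₀ F] (f : F) (hf : f ∈ S.O') :
    IsIntegral S.V f := by
  classical
  -- `O'` as a `V`-subalgebra of `F`
  let A : Subalgebra S.V F :=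
    { S.O'.toSubsemiring with
      algebraMap_mem' := fun v => S.hVO v.2 }
  have hfg : A.toSubmodule.FG := by
    refine ⟨Finset.univ.image (fun i => (x i : F)), ?_⟩
    apply le_antisymm
    · rw [Submodule.span_le]
      intro z hz
      simp only [Finset.coe_image, Finset.coe_univ, Set.image_univ, Set.mem_range] at hz
      obtain ⟨i, rfl⟩ := hz
      exact (x i).2
    · intro z hz
      obtain ⟨c, hc, hzc⟩ := S.exists_repr x hx hn z hz
      rw [hzc]
      refine Submodule.sum_mem _ fun i _ => ?_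
      have : c i * (x i : F) = (⟨c i, hc i⟩ : S.V) • (x i : F) := by
        rw [Subring.smul_def]; rfl
      rw [this]
      exact Submodule.smul_mem _ _ (Submodule.subset_span (by simp))
  exact IsIntegral.of_mem_of_fg A hfg f hf

end Setting

end Span

section Inf

open Polynomial

variable {L : Type*} [Field L] (K : Subfield L) [FiniteDimensional K L]

/-- If `f` is integral over a subring `P ≤ K` which is integrally closed in `K`, then the
coefficients of `minpoly K f` lie in `P`. -/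
theorem coeff_minpoly_mem (P : Subring L) (hPK : P ≤ K.toSubring)
    (hP : ∀ c ∈ K, IsIntegral P c → c ∈ P) (f : L) (hfP : IsIntegral P f) (n : ℕ) :
    (((minpoly K f).coeff n : K) : L) ∈ P := by
  obtain ⟨h, hmonic, hroot⟩ := hfP
  have hfK : IsIntegral K f := Algebra.IsIntegral.isIntegral f
  let ι : P →+* K := P.subtype.codRestrict K (fun x => hPK x.2)
  have hcomp : (algebraMap K L).comp ι = algebraMap P L := by
    ext x; rfl
  have hdvd : minpoly K f ∣ h.map ι := by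
    apply minpoly.dvd
    rw [aeval_def, eval₂_map, hcomp]; exact hroot
  have hdvd' : (minpoly K f).map (algebraMap K L) ∣ h.map (algebraMap P L) := by
    rw [← hcomp, ← Polynomial.map_map]
    exact Polynomial.map_dvd _ hdvd
  have := integralClosure.mem_lifts_of_monic_of_dvd_map L hmonic ((minpoly.monic hfK).map _) hdvd'
  rw [lifts_iff_coeff_lifts] at this
  obtain ⟨c, hc⟩ := this n
  rw [coeff_map] at hc
  have hcK : (c : L) ∈ K := by
    have : (c : L) = algebraMap K L ((minpoly K f).coeff n) := hc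
    rw [this]; exact ((minpoly K f).coeff n).2
  have hmem := hP _ hcK c.2
  have : (((minpoly K f).coeff n : K) : L) = (c : L) := hc.symm
  rw [this]; exact hmem

/-- An element integral over two subrings of `K`, both integrally closed in `K`, is integral over
their intersection. -/
theorem isIntegral_inf (P V : Subring L) (hPK : P ≤ K.toSubring) (hVK : V ≤ K.toSubring)
    (hP : ∀ c ∈ K, IsIntegral P c → c ∈ P) (hV : ∀ c ∈ K, IsIntegral V c → c ∈ V)
    (f : L) (hfP : IsIntegral P f) (hfV : IsIntegral V f) :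
    IsIntegral (P ⊓ V : Subring L) f := by
  have hfK : IsIntegral K f := Algebra.IsIntegral.isIntegral f
  have hl : (minpoly K f).map (algebraMap K L) ∈ lifts (algebraMap (P ⊓ V : Subring L) L) := by
    rw [lifts_iff_coeff_lifts]
    intro n
    rw [coeff_map]
    exact ⟨⟨_, coeff_minpoly_mem K P hPK hP f hfP n, coeff_minpoly_mem K V hVK hV f hfV n⟩, rfl⟩
  obtain ⟨q, hq, -, hqm⟩ := lifts_and_natDegree_eq_and_monic hl ((minpoly.monic hfK).map _)
  refine ⟨q, hqm, ?_⟩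
  have := minpoly.aeval K f
  rw [aeval_def, ← eval_map] at this
  rw [← eval_map, hq]
  exact this

end Inf

section Kernel

open Polynomial

theorem isIntegral_mono {F : Type*} [CommRing F] {A B : Subring F} (h : A ≤ B) {x : F}
    (hx : IsIntegral A x) : IsIntegral B x := by
  obtain ⟨p, hm, hr⟩ := hx
  refine ⟨p.map (Subring.inclusion h), hm.map _, ?_⟩
  rw [eval₂_map]
  exact hr

variable {F κ : Type*} [Field F] [Field κ] (S : Setting F κ) [FiniteDimensional S.F₀ F]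

/-- **Claim 4** (abstract form): let `R' ≤ P ≤ F₀` be subrings with `P` integrally closed in `F₀`,
`ℓ⁻¹ ∈ P`, `V` integrally closed in `F₀`, `P ⊓ V ≤ R'`, `O'` integrally closed in `F` and
`ker ρ = ℓ O'`.  Then the integral closure `A` of `R'` in `F` lies in `O'` and
`ker (ρ|A) = ℓ A`. -/
theorem exists_eq_mul_of_rho_eq_zero {n : ℕ} (x : Fin n → S.O')
    (hx : LinearIndependent S.κ₀ (fun i => S.ρ (x i))) (hn : Module.finrank S.F₀ F ≤ n)
    (P R' : Subring F) (hPF₀ : P ≤ S.F₀.toSubring) (hR'P : R' ≤ P) (hR'O : R' ≤ S.O')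
    (hℓinv : S.ℓ⁻¹ ∈ P)
    (hPcl : ∀ c ∈ S.F₀, IsIntegral P c → c ∈ P)
    (hVcl : ∀ c ∈ S.F₀, IsIntegral S.V c → c ∈ S.V)
    (hPV : P ⊓ S.V ≤ R')
    (hOcl : ∀ a : F, IsIntegral S.O' a → a ∈ S.O')
    (hker : ∀ y : S.O', S.ρ y = 0 → ∃ z : S.O', (y : F) = S.ℓ * z)
    (a : F) (ha : IsIntegral R' a) :
    ∃ haO : a ∈ S.O', (S.ρ ⟨a, haO⟩ = 0 → ∃ b : F, IsIntegral R' b ∧ a = S.ℓ * b) := by
  have haO : a ∈ S.O' := hOcl a (isIntegral_mono hR'O ha)
  refine ⟨haO, fun hρ => ?_⟩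
  obtain ⟨z, hz⟩ := hker ⟨a, haO⟩ hρ
  refine ⟨z, ?_, hz⟩
  -- `z` is integral over `V` and over `P`
  have hzV : IsIntegral S.V (z : F) := S.isIntegral_of_mem x hx hn z z.2
  have hzP : IsIntegral P (z : F) := by
    have hz' : (z : F) = S.ℓ⁻¹ * a := by
      have : a = S.ℓ * z := hz
      rw [this, ← mul_assoc, inv_mul_cancel₀ S.hℓ0, one_mul]
    rw [hz']
    have h1 : IsIntegral P (S.ℓ⁻¹ : F) := by
      have : (S.ℓ⁻¹ : F) = algebraMap P F ⟨S.ℓ⁻¹, hℓinv⟩ := rfl
      rw [this]; exact isIntegral_algebraMap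
    exact h1.mul (isIntegral_mono hR'P ha)
  exact isIntegral_mono hPV
    (isIntegral_inf S.F₀ P S.V hPF₀ S.hVF₀ hPcl hVcl z hzP hzV)

end Kernel

end Fermat.Agent.S28.MainKernel
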