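import Fermat.Agent.S28.ORing

/-!
# S28 / ALG-O, function-field layer: `𝒪 ∩ F_N` as a subring of `F_N`

For the instantiation of the abstract ALG core (`MainKernelCore.Setting` wants subrings of the
*field* `F = modularFunctionFieldFull N`):

* `OF ℓ N : Subring F` := `{f | (f : ℚ((q))) ∈ 𝒪}`, `rhoF ℓ N : OF ℓ N →+* 𝔽_ℓ((q))`;
* `rhoF_eq_zero_iff` : `ker ρ = ℓ · (𝒪 ∩ F)`;
* `mem_OF_of_isIntegral` : `𝒪 ∩ F` is integrally closed in `F`;
* `mem_OF_or_inv_mem_OF`, `exists_zpow_mul_unit_F` (valuation ring of `F`);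
* `jFull_mem_OF`, `rhoF_jFull`, `jFull_inv_mem_OF`, `algebraMap_mem_OF`, `rhoF_algebraMap`;
* `chartAlg_le_OF`.
-/

set_option autoImplicit false
set_option linter.unusedSectionVars false

namespace Fermat.Agent.S28.ORing

open ModularCurve HahnSeries ModularCurve.IgusaScheme

variable (ℓ : ℕ) [Fact ℓ.Prime] (N : ℕ) [NeZero N]

/-- `𝒪 ∩ F_N` as a subring of `F_N`. -/
noncomputable def OF : Subring (modularFunctionFieldFull N) :=
  (O ℓ).comap (algebraMap (modularFunctionFieldFull N) (LaurentSeries ℚ))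

theorem mem_OF_iff (f : modularFunctionFieldFull N) :
    f ∈ OF ℓ N ↔ (f : LaurentSeries ℚ) ∈ O ℓ := Iff.rfl

/-- `𝒪 ∩ F → 𝒪`. -/
noncomputable def OFtoO : OF ℓ N →+* O ℓ where
  toFun f := ⟨((f : modularFunctionFieldFull N) : LaurentSeries ℚ), f.2⟩
  map_one' := rfl
  map_mul' _ _ := rfl
  map_zero' := rfl
  map_add' _ _ := rfl

/-- The reduction map on `𝒪 ∩ F`. -/
noncomputable def rhoF : OF ℓ N →+* LaurentSeries (ZMod ℓ) := (rho ℓ).comp (OFtoO ℓ N)

theorem rhoF_apply (f : OF ℓ N) :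
    rhoF ℓ N f = rho ℓ ⟨((f : modularFunctionFieldFull N) : LaurentSeries ℚ), f.2⟩ := rfl

theorem natCast_mem_OF (n : ℕ) : (n : modularFunctionFieldFull N) ∈ OF ℓ N := natCast_mem _ _

/-- `ker ρ|_{𝒪 ∩ F} = ℓ (𝒪 ∩ F)`. -/
theorem rhoF_eq_zero_iff (f : OF ℓ N) :
    rhoF ℓ N f = 0 ↔ ∃ g : OF ℓ N, (f : modularFunctionFieldFull N) =
      (ℓ : modularFunctionFieldFull N) * (g : modularFunctionFieldFull N) := by
  rw [rhoF_apply, rho_eq_zero_iff]
  have hl : (ℓ : modularFunctionFieldFull N) ≠ 0 := by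
    intro h
    have h2 := congrArg (fun x : modularFunctionFieldFull N => (x : LaurentSeries ℚ)) h
    simp only [ZeroMemClass.coe_zero] at h2
    exact l_ne_zero ℓ (by simpa using h2)
  constructor
  · rintro ⟨y, hy⟩
    have hy' : ((f : modularFunctionFieldFull N) : LaurentSeries ℚ) =
        (ℓ : LaurentSeries ℚ) * (y : LaurentSeries ℚ) := by
      have := congrArg Subtype.val hy
      simpa using this
    -- y = f / ℓ ∈ F
    have hg : (((f : modularFunctionFieldFull N) / (ℓ : modularFunctionFieldFull N) :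
        modularFunctionFieldFull N) : LaurentSeries ℚ) = (y : LaurentSeries ℚ) := by
      have h1 : (((f : modularFunctionFieldFull N) / (ℓ : modularFunctionFieldFull N) :
        modularFunctionFieldFull N) : LaurentSeries ℚ) =
          ((f : modularFunctionFieldFull N) : LaurentSeries ℚ) / (ℓ : LaurentSeries ℚ) := by
        simp
      rw [h1, hy', mul_div_cancel_left₀ _ (l_ne_zero ℓ)]
    refine ⟨⟨(f : modularFunctionFieldFull N) / (ℓ : modularFunctionFieldFull N), ?_⟩, ?_⟩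
    · rw [mem_OF_iff, hg]; exact y.2
    · simp only
      rw [mul_div_cancel₀ _ hl]
  · rintro ⟨g, hg⟩
    refine ⟨OFtoO ℓ N g, Subtype.ext ?_⟩
    have := congrArg (fun x : modularFunctionFieldFull N => (x : LaurentSeries ℚ)) hg
    simpa [OFtoO] using this

/-- `𝒪 ∩ F` is integrally closed in `F`. -/
theorem mem_OF_of_isIntegral (f : modularFunctionFieldFull N) (hf : IsIntegral (OF ℓ N) f) :
    f ∈ OF ℓ N := by
  rw [mem_OF_iff]
  apply mem_O_of_isIntegral ℓ (mem_FracS_of_mem_full ℓ N f.2)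
  exact hf.map_of_comp_eq (OFtoO ℓ N)
    (algebraMap (modularFunctionFieldFull N) (LaurentSeries ℚ)) (by ext; rfl)

/-- `𝒪 ∩ F` is a valuation ring of `F`. -/
theorem mem_OF_or_inv_mem_OF (f : modularFunctionFieldFull N) : f ∈ OF ℓ N ∨ f⁻¹ ∈ OF ℓ N := by
  rcases mem_O_or_inv_mem_O ℓ (mem_FracS_of_mem_full ℓ N f.2) with h | h
  · exact Or.inl h
  · right
    rw [mem_OF_iff]
    simpa using h

/-- Unit criterion in `𝒪 ∩ F`. -/
theorem inv_mem_OF_of_rhoF_ne_zero (f : OF ℓ N) (hf : rhoF ℓ N f ≠ 0) :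
    (f : modularFunctionFieldFull N)⁻¹ ∈ OF ℓ N := by
  rw [mem_OF_iff]
  have := inv_mem_O_of_rho_ne_zero ℓ (OFtoO ℓ N f) hf
  simpa [OFtoO] using this

theorem jFull_mem_OF : jFull N ∈ OF ℓ N := jq_mem_O ℓ

theorem rhoF_jFull : rhoF ℓ N ⟨jFull N, jFull_mem_OF ℓ N⟩ = jqModC (ZMod ℓ) := rho_jq ℓ

theorem jFull_inv_mem_OF : (jFull N)⁻¹ ∈ OF ℓ N := by
  rw [mem_OF_iff]
  have : (((jFull N)⁻¹ : modularFunctionFieldFull N) : LaurentSeries ℚ) = jq⁻¹ := by simp
  rw [this]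
  exact jq_inv_mem_O ℓ

theorem algebraMap_mem_OF (r : Rl ℓ) :
    algebraMap (Rl ℓ) (modularFunctionFieldFull N) r ∈ OF ℓ N := by
  rw [mem_OF_iff, coe_algebraMap_Rl_full]
  exact C_mem_O ℓ r

theorem rhoF_algebraMap (r : Rl ℓ) :
    rhoF ℓ N ⟨algebraMap (Rl ℓ) (modularFunctionFieldFull N) r, algebraMap_mem_OF ℓ N r⟩ =
      HahnSeries.C (resR ℓ r) := by
  rw [rhoF_apply]
  have h : (⟨((algebraMap (Rl ℓ) (modularFunctionFieldFull N) r : modularFunctionFieldFull N) :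
      LaurentSeries ℚ), algebraMap_mem_OF ℓ N r⟩ : O ℓ) = ⟨HahnSeries.C (r : ℚ), C_mem_O ℓ r⟩ :=
    Subtype.ext (coe_algebraMap_Rl_full ℓ N r)
  rw [h, rho_C]

/-- Elements of `F` with integer-coefficient expansions lie in `𝒪 ∩ F`, and `ρ` reduces the
coefficients. -/
theorem mem_OF_of_int (f : modularFunctionFieldFull N) (a : LaurentSeries ℤ)
    (h : (f : LaurentSeries ℚ) = coeffMap (Int.castRingHom ℚ) a) : f ∈ OF ℓ N := by
  rw [mem_OF_iff, h]; exact coeffMap_int_mem_O ℓ a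

theorem rhoF_of_int (f : modularFunctionFieldFull N) (a : LaurentSeries ℤ)
    (h : (f : LaurentSeries ℚ) = coeffMap (Int.castRingHom ℚ) a) :
    rhoF ℓ N ⟨f, mem_OF_of_int ℓ N f a h⟩ = coeffMap (Int.castRingHom (ZMod ℓ)) a := by
  rw [rhoF_apply]
  have h' : (⟨(f : LaurentSeries ℚ), mem_OF_of_int ℓ N f a h⟩ : O ℓ) =
      ⟨coeffMap (Int.castRingHom ℚ) a, coeffMap_int_mem_O ℓ a⟩ := Subtype.ext h
  rw [h', rho_coeffMap_int]

/-- The charts lie in `𝒪 ∩ F`. -/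
theorem chartAlg_le_OF (S : Set (modularFunctionFieldFull N))
    (hS : ∀ s ∈ S, s ∈ OF ℓ N) {x : modularFunctionFieldFull N} (hx : x ∈ chartAlg N ℓ S) :
    x ∈ OF ℓ N :=
  coe_mem_O_of_mem_chartAlg ℓ N S hS hx

end Fermat.Agent.S28.ORing
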