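import Mathlib
import Fermat.Statements.S28
import Fermat.Agent.S28.Interface

/-!
# S28 project: final assembly from the package statements
-/

set_option autoImplicit false

noncomputable section

namespace Fermat.Agent.S28

open HahnSeries ModularCurve ModularCurve.IgusaScheme Polynomial IntermediateField
open scoped TensorProduct

section ResHomLemmas

variable (ℓ : ℕ) [Fact ℓ.Prime]

theorem resHom_surjective : Function.Surjective (resHom ℓ) := by
  intro x
  obtain ⟨n, rfl⟩ := ZMod.intCast_surjective x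
  exact ⟨(n : ↥(GaloisRep.ratLocalizedAt ℓ)), by simp⟩

theorem resHom_natCast_self : resHom ℓ ((ℓ : ℕ) : ↥(GaloisRep.ratLocalizedAt ℓ)) = 0 := by
  rw [map_natCast]
  exact ZMod.natCast_self ℓ

omit [Fact ℓ.Prime] in
/-- Two ring homs out of `ℤ_(ℓ)` into a field agree. -/
theorem ratLocalizedAt_ringHom_ext {K : Type*} [Field K]
    (f g : ↥(GaloisRep.ratLocalizedAt ℓ) →+* K) : f = g := by
  ext x
  -- x * den = num
  have hden : (x : ℚ).den.Coprime ℓ := x.2
  set d : ↥(GaloisRep.ratLocalizedAt ℓ) := ((x : ℚ).den : ↥(GaloisRep.ratLocalizedAt ℓ)) with hd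
  set n : ↥(GaloisRep.ratLocalizedAt ℓ) := ((x : ℚ).num : ↥(GaloisRep.ratLocalizedAt ℓ)) with hn
  have hxd : x * d = n := by
    apply Subtype.ext
    simp only [hd, hn, Subring.coe_mul, Subring.coe_natCast, Subring.coe_intCast]
    exact Rat.mul_den_eq_num (x : ℚ)
  -- d is a unit of ℤ_(ℓ)
  have hdinv : ((x : ℚ).den : ℚ)⁻¹ ∈ GaloisRep.ratLocalizedAt ℓ := by
    show (((x : ℚ).den : ℚ)⁻¹).den.Coprime ℓ
    have h1 : (((x : ℚ).den : ℚ)⁻¹).den = (x : ℚ).den := by
      have hpos : 0 < (x : ℚ).den := (x : ℚ).den_pos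
      simp [Rat.inv_natCast_den_of_pos hpos]
    rw [h1]; exact hden
  set e : ↥(GaloisRep.ratLocalizedAt ℓ) := ⟨((x : ℚ).den : ℚ)⁻¹, hdinv⟩ with he
  have hde : d * e = 1 := by
    apply Subtype.ext
    simp only [hd, he, Subring.coe_mul, Subring.coe_natCast, Subring.coe_one]
    exact mul_inv_cancel₀ (by exact_mod_cast (x : ℚ).den_pos.ne')
  have hfd : f d ≠ 0 := fun h => by
    have := congrArg f hde
    rw [map_mul, h, zero_mul, map_one] at this
    exact zero_ne_one this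
  have hfg_d : f d = g d := by simp [hd]
  have hfg_n : f n = g n := by simp [hn]
  have h1 : f x * f d = f n := by rw [← map_mul, hxd]
  have h2 : g x * f d = f n := by rw [hfg_d, ← map_mul, hxd, hfg_n]
  exact mul_right_cancel₀ hfd (h1.trans h2.symm)

end ResHomLemmas

/-- Final assembly: AG + TENSOR + RED ⇒ the statement of S28. -/
theorem result_of (hAG : AGStatement) (hT : TensorStatement)
    (N : ℕ) [NeZero N] (ℓ : ℕ) [Fact ℓ.Prime]
    (K : Type) [Field K] [CharP K ℓ] [Algebra ↥(GaloisRep.ratLocalizedAt ℓ) K]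
    (hRed : RedStatement N ℓ) :
    AlgebraicGeometry.IsIntegral (CategoryTheory.Limits.pullback (igusaTo N ℓ)
      (AlgebraicGeometry.Spec.map (CommRingCat.ofHom
        (algebraMap ↥(GaloisRep.ratLocalizedAt ℓ) K)))) := by
  obtain ⟨⟨redF, hF1, hF2⟩, ⟨redI, hI1, hI2⟩, ⟨redM, hM1⟩⟩ := hRed
  have hcomp : (ZMod.castHom (dvd_refl ℓ) K).comp (resHom ℓ) =
      algebraMap ↥(GaloisRep.ratLocalizedAt ℓ) K :=
    ratLocalizedAt_ringHom_ext ℓ _ _
  have hsurj := resHom_surjective ℓ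
  have hker : ∀ {A : Type} [CommRing A] [Algebra ↥(GaloisRep.ratLocalizedAt ℓ) A]
      (red : A →+* LaurentSeries (ZMod ℓ)),
      (∀ a, red a = 0 → ∃ b, a = ((ℓ : ℕ) : ↥(GaloisRep.ratLocalizedAt ℓ)) • b) →
      ∀ a, red a = 0 → ∃ (r : ↥(GaloisRep.ratLocalizedAt ℓ)) (b : A), resHom ℓ r = 0 ∧ a = r • b :=
    fun red h a ha => by
      obtain ⟨b, hb⟩ := h a ha
      exact ⟨_, b, resHom_natCast_self ℓ, hb⟩
  refine hAG N ℓ K ?_ ?_ ?_
  · exact (hT _ _ K (ZMod ℓ) (resHom ℓ) hsurj _ hcomp redF hF1).2 (hker redF hF2)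
  · exact (hT _ _ K (ZMod ℓ) (resHom ℓ) hsurj _ hcomp redI hI1).2 (hker redI hI2)
  · exact (hT _ _ K (ZMod ℓ) (resHom ℓ) hsurj _ hcomp redM hM1).1

end Fermat.Agent.S28
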