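import Mathlib
import Fermat.Prelude.Def_ModularCurve_IgusaScheme
import Fermat.Prelude.Def_ModularCurve_LaurentCoeff
import Fermat.Prelude.Def_ModularCurve_X0ModL

/-!
# Package ALG-O of the S28 blueprint: the localised Laurent ring `𝒪`

`R = ℤ_(ℓ) = GaloisRep.ratLocalizedAt ℓ ⊆ ℚ`, `k = ZMod ℓ`.
* `resR : R →+* k` (surjective, kernel `ℓ R`), `incl : R((q)) →+* ℚ((q))`, `red : R((q)) →+* k((q))`.
* `O ℓ : Subring ℚ((q))` = quotients `a / b`, `a b ∈ R((q))`, `red b ≠ 0`;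
  `FracS ℓ : Subfield ℚ((q))` = all quotients; `FracI ℓ` the same as an intermediate field.
* `rho ℓ : O ℓ →+* k((q))`, `rho_eq`, `rho_incl`, `rho_eq_zero_iff` (`ker ρ = ℓ 𝒪`),
  `rho_coeffMap_int`, `rho_C`, `rho_jqN`, `rho_jq`, `rho_jq_inv`.
* (O2) `exists_zpow_mul_unit`, valuation ring property `mem_O_or_inv_mem_O`,
  (O3) `mem_O_of_isIntegral`.
* `modularFunctionFieldFull_le_FracI`, and for the charts: `coe_mem_O_of_mem_chartAlg`,
  `redChart` with `redChart_smul`.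
-/

set_option autoImplicit false
set_option linter.unusedSectionVars false
set_option linter.style.haveILetI false

namespace Fermat.Agent.S28.ORing

open ModularCurve HahnSeries

variable (ℓ : ℕ) [Fact ℓ.Prime]

/-- `ℤ_(ℓ)` as in the Prelude. -/
abbrev Rl : Subring ℚ := GaloisRep.ratLocalizedAt ℓ

theorem mem_Rl_iff (q : ℚ) : q ∈ Rl ℓ ↔ q.den.Coprime ℓ := Iff.rfl

theorem den_ne_zero_zmod (r : Rl ℓ) : ((r : ℚ).den : ZMod ℓ) ≠ 0 := by
  have hp : ℓ.Prime := Fact.out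
  rw [Ne, ZMod.natCast_eq_zero_iff]
  intro h
  have hc : (r : ℚ).den.Coprime ℓ := r.2
  have := Nat.Coprime.eq_one_of_dvd hc.symm h
  exact hp.one_lt.ne' this

/-- The residue map `ℤ_(ℓ) → 𝔽_ℓ`. -/
noncomputable def resR : Rl ℓ →+* ZMod ℓ where
  toFun r := ((r : ℚ) : ZMod ℓ)
  map_one' := by simp
  map_zero' := by simp
  map_mul' r s := by
    simp only [Subring.coe_mul]
    exact Rat.cast_mul_of_ne_zero (den_ne_zero_zmod ℓ r) (den_ne_zero_zmod ℓ s)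
  map_add' r s := by
    simp only [Subring.coe_add]
    exact Rat.cast_add_of_ne_zero (den_ne_zero_zmod ℓ r) (den_ne_zero_zmod ℓ s)

theorem resR_apply (r : Rl ℓ) : resR ℓ r = ((r : ℚ) : ZMod ℓ) := rfl

theorem intCast_mem (n : ℤ) : (n : ℚ) ∈ Rl ℓ := by
  rw [mem_Rl_iff]; simp

theorem resR_intCast (n : ℤ) : resR ℓ ⟨(n : ℚ), intCast_mem ℓ n⟩ = (n : ZMod ℓ) := by
  rw [resR_apply]; simp

theorem resR_surjective : Function.Surjective (resR ℓ) := by
  intro x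
  refine ⟨⟨((ZMod.val x : ℤ) : ℚ), intCast_mem ℓ _⟩, ?_⟩
  rw [resR_intCast]
  simp

/-- the element `ℓ` of `ℤ_(ℓ)` -/
def lR : Rl ℓ := ⟨(ℓ : ℚ), by rw [mem_Rl_iff]; simp⟩

theorem resR_lR : resR ℓ (lR ℓ) = 0 := by
  rw [resR_apply]; simp [lR]

theorem resR_eq_zero_iff (r : Rl ℓ) : resR ℓ r = 0 ↔ ∃ s : Rl ℓ, r = lR ℓ * s := by
  have hp : ℓ.Prime := Fact.out
  constructor
  · intro h
    rw [resR_apply, Rat.cast_def, div_eq_zero_iff] at h
    rcases h with h | h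
    · rw [ZMod.intCast_zmod_eq_zero_iff_dvd] at h
      obtain ⟨t, ht⟩ := h
      have hmem : ((t : ℚ) / (r : ℚ).den) ∈ Rl ℓ := by
        rw [mem_Rl_iff]
        have hc : (r : ℚ).den.Coprime ℓ := r.2
        have hd : ((t : ℚ) / (r : ℚ).den).den ∣ (r : ℚ).den := by
          have := Rat.den_dvd t ((r : ℚ).den : ℤ)
          rw [Rat.divInt_eq_div] at this
          exact_mod_cast this
        exact Nat.Coprime.coprime_dvd_left hd hc
      refine ⟨⟨_, hmem⟩, Subtype.ext ?_⟩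
      simp only [lR, Subring.coe_mul]
      have h1 : (r : ℚ) * (r : ℚ).den = ((r : ℚ).num : ℚ) := Rat.mul_den_eq_num _
      have hden : ((r : ℚ).den : ℚ) ≠ 0 := by exact_mod_cast (r : ℚ).den_nz
      calc (r : ℚ) = (r : ℚ) * (r : ℚ).den / (r : ℚ).den := by field_simp
        _ = ((r : ℚ).num : ℚ) / (r : ℚ).den := by rw [h1]
        _ = (ℓ : ℚ) * ((t : ℚ) / (r : ℚ).den) := by rw [ht]; push_cast; ring
    · exact absurd h (den_ne_zero_zmod ℓ r)
  · rintro ⟨s, rfl⟩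
    rw [map_mul, resR_lR, zero_mul]


theorem lR_ne_zero : lR ℓ ≠ 0 := by
  have hp : ℓ.Prime := Fact.out
  intro h
  have := congrArg Subtype.val h
  simp only [lR] at this
  exact hp.ne_zero (by exact_mod_cast this)

open scoped Classical in
/-- division by `ℓ` on `ℤ_(ℓ)` (zero when not divisible) -/
noncomputable def divl : ZeroHom (Rl ℓ) (Rl ℓ) where
  toFun r := if h : ∃ s, r = lR ℓ * s then h.choose else 0
  map_zero' := by
    have h : ∃ s, (0 : Rl ℓ) = lR ℓ * s := ⟨0, by simp⟩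
    rw [dif_pos h]
    have := h.choose_spec
    rcases mul_eq_zero.mp this.symm with h' | h'
    · exact absurd h' (lR_ne_zero ℓ)
    · exact h'

open scoped Classical in
theorem lR_mul_divl (r : Rl ℓ) (h : ∃ s, r = lR ℓ * s) : lR ℓ * divl ℓ r = r := by
  show lR ℓ * (if h : ∃ s, r = lR ℓ * s then h.choose else 0) = r
  rw [dif_pos h]
  exact h.choose_spec.symm

/-- `R((q)) → ℚ((q))` -/
noncomputable def incl : LaurentSeries (Rl ℓ) →+* LaurentSeries ℚ := coeffMap (Rl ℓ).subtype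

/-- `R((q)) → 𝔽_ℓ((q))` -/
noncomputable def red : LaurentSeries (Rl ℓ) →+* LaurentSeries (ZMod ℓ) := coeffMap (resR ℓ)

theorem incl_coeff (a : LaurentSeries (Rl ℓ)) (n : ℤ) : (incl ℓ a).coeff n = (a.coeff n : ℚ) := rfl

theorem red_coeff (a : LaurentSeries (Rl ℓ)) (n : ℤ) : (red ℓ a).coeff n = resR ℓ (a.coeff n) := rfl

theorem incl_injective : Function.Injective (incl ℓ) := by
  intro a b h
  ext n
  have := congrArg (fun x => x.coeff n) h
  simp only [incl_coeff] at this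
  exact this

theorem red_eq_zero_iff (a : LaurentSeries (Rl ℓ)) :
    red ℓ a = 0 ↔ ∃ a' : LaurentSeries (Rl ℓ), a = lR ℓ • a' := by
  constructor
  · intro h
    refine ⟨a.map (divl ℓ), ?_⟩
    ext n
    rw [HahnSeries.coeff_smul, HahnSeries.map_coeff, smul_eq_mul]
    have hn : resR ℓ (a.coeff n) = 0 := by
      have := congrArg (fun x => x.coeff n) h
      simpa [red_coeff] using this
    exact congrArg Subtype.val (lR_mul_divl ℓ _ ((resR_eq_zero_iff ℓ _).mp hn)).symm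
  · rintro ⟨a', rfl⟩
    ext n
    rw [red_coeff, HahnSeries.coeff_smul, smul_eq_mul, map_mul, resR_lR, zero_mul]
    rfl

theorem padicValRat_nonneg_of_mem (r : Rl ℓ) : 0 ≤ padicValRat ℓ (r : ℚ) := by
  have hp : ℓ.Prime := Fact.out
  have hc : (r : ℚ).den.Coprime ℓ := r.2
  have : padicValNat ℓ (r : ℚ).den = 0 := by
    apply padicValNat.eq_zero_of_not_dvd
    intro h
    exact hp.one_lt.ne' (Nat.Coprime.eq_one_of_dvd hc.symm h)
  rw [padicValRat_def, this]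
  simp

theorem le_padicValRat_of_eq (m : ℕ) (c d : Rl ℓ) (hc : c ≠ 0) (h : c = lR ℓ ^ m * d) :
    (m : ℤ) ≤ padicValRat ℓ (c : ℚ) := by
  have hp : ℓ.Prime := Fact.out
  have hd : d ≠ 0 := by
    rintro rfl
    exact hc (by rw [h, mul_zero])
  have hd' : (d : ℚ) ≠ 0 := fun h0 => hd (Subtype.ext h0)
  have hl : ((ℓ : ℚ)) ≠ 0 := by exact_mod_cast hp.ne_zero
  have e : (c : ℚ) = (ℓ : ℚ) ^ m * (d : ℚ) := by
    have := congrArg Subtype.val h
    simpa [lR] using this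
  rw [e, padicValRat.mul (pow_ne_zero _ hl) hd', padicValRat.pow, padicValRat.self hp.one_lt]
  have := padicValRat_nonneg_of_mem ℓ d
  linarith

/-- Content decomposition: a nonzero series over `ℤ_(ℓ)` is `ℓ^m` times a series with nonzero
reduction. -/
theorem exists_pow_smul_red_ne_zero (a : LaurentSeries (Rl ℓ)) (ha : a ≠ 0) :
    ∃ (m : ℕ) (a₀ : LaurentSeries (Rl ℓ)), a = lR ℓ ^ m • a₀ ∧ red ℓ a₀ ≠ 0 := by
  by_contra hcon
  simp only [not_exists, not_and, not_not] at hcon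
  have hall : ∀ m : ℕ, ∃ b : LaurentSeries (Rl ℓ), a = lR ℓ ^ m • b := by
    intro m
    induction m with
    | zero => exact ⟨a, by simp⟩
    | succ m ih =>
      obtain ⟨b, hb⟩ := ih
      obtain ⟨b', hb'⟩ := (red_eq_zero_iff ℓ b).mp (hcon m b hb)
      exact ⟨b', by rw [hb, hb', smul_smul, pow_succ]⟩
  obtain ⟨n, hn⟩ : ∃ n, a.coeff n ≠ 0 := by
    by_contra h
    simp only [not_exists, not_not] at h
    exact ha (HahnSeries.ext (funext h))
  obtain ⟨b, hb⟩ := hall ((padicValRat ℓ (a.coeff n : ℚ)).toNat + 1)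
  have hc : a.coeff n = lR ℓ ^ ((padicValRat ℓ (a.coeff n : ℚ)).toNat + 1) * b.coeff n := by
    conv_lhs => rw [hb]
    rw [HahnSeries.coeff_smul, smul_eq_mul]
  have := le_padicValRat_of_eq ℓ _ _ _ hn hc
  have h2 := padicValRat_nonneg_of_mem ℓ (a.coeff n)
  have h3 : ((padicValRat ℓ (a.coeff n : ℚ)).toNat : ℤ) = padicValRat ℓ (a.coeff n : ℚ) :=
    Int.toNat_of_nonneg h2
  push_cast at this
  omega


/-! ### The subfield `Frac(R((q)))` of `ℚ((q))` and the local ring `𝒪` -/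

/-- `x` is a quotient `a / b` of series with coefficients in `ℤ_(ℓ)`. -/
def IsFrac (x : LaurentSeries ℚ) : Prop :=
  ∃ a b : LaurentSeries (Rl ℓ), b ≠ 0 ∧ x * incl ℓ b = incl ℓ a

/-- `x` is a quotient `a / b` of series with coefficients in `ℤ_(ℓ)`, `b` nonzero mod `ℓ`. -/
def IsInO (x : LaurentSeries ℚ) : Prop :=
  ∃ a b : LaurentSeries (Rl ℓ), red ℓ b ≠ 0 ∧ x * incl ℓ b = incl ℓ a

theorem red_ne_zero_imp_ne_zero {b : LaurentSeries (Rl ℓ)} (hb : red ℓ b ≠ 0) : b ≠ 0 := by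
  rintro rfl
  exact hb (map_zero _)

theorem IsInO.isFrac {x : LaurentSeries ℚ} (hx : IsInO ℓ x) : IsFrac ℓ x := by
  obtain ⟨a, b, hb, h⟩ := hx
  exact ⟨a, b, red_ne_zero_imp_ne_zero ℓ hb, h⟩

theorem incl_ne_zero {b : LaurentSeries (Rl ℓ)} (hb : b ≠ 0) : incl ℓ b ≠ 0 := by
  intro h
  exact hb (incl_injective ℓ (by rw [h, map_zero]))

/-- The local ring `𝒪 ⊆ ℚ((q))`. -/
def O : Subring (LaurentSeries ℚ) where
  carrier := {x | IsInO ℓ x}
  mul_mem' := by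
    rintro x y ⟨a, b, hb, h⟩ ⟨c, d, hd, h'⟩
    refine ⟨a * c, b * d, ?_, ?_⟩
    · rw [map_mul]; exact mul_ne_zero hb hd
    · rw [map_mul, map_mul, ← h, ← h']; ring
  one_mem' := ⟨1, 1, by rw [map_one]; exact one_ne_zero, by simp⟩
  add_mem' := by
    rintro x y ⟨a, b, hb, h⟩ ⟨c, d, hd, h'⟩
    refine ⟨a * d + c * b, b * d, ?_, ?_⟩
    · rw [map_mul]; exact mul_ne_zero hb hd
    · rw [map_mul, map_add, map_mul, map_mul, ← h, ← h']; ring
  zero_mem' := ⟨0, 1, by rw [map_one]; exact one_ne_zero, by simp⟩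
  neg_mem' := by
    rintro x ⟨a, b, hb, h⟩
    exact ⟨-a, b, hb, by rw [map_neg, ← h]; ring⟩

theorem mem_O_iff (x : LaurentSeries ℚ) : x ∈ O ℓ ↔ IsInO ℓ x := Iff.rfl

theorem incl_mem_O (a : LaurentSeries (Rl ℓ)) : incl ℓ a ∈ O ℓ :=
  ⟨a, 1, by rw [map_one]; exact one_ne_zero, by simp⟩

/-- The subfield `Frac(R((q))) ⊆ ℚ((q))`. -/
def FracS : Subfield (LaurentSeries ℚ) where
  carrier := {x | IsFrac ℓ x}
  mul_mem' := by
    rintro x y ⟨a, b, hb, h⟩ ⟨c, d, hd, h'⟩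
    refine ⟨a * c, b * d, mul_ne_zero hb hd, ?_⟩
    rw [map_mul, map_mul, ← h, ← h']; ring
  one_mem' := ⟨1, 1, one_ne_zero, by simp⟩
  add_mem' := by
    rintro x y ⟨a, b, hb, h⟩ ⟨c, d, hd, h'⟩
    refine ⟨a * d + c * b, b * d, mul_ne_zero hb hd, ?_⟩
    rw [map_mul, map_add, map_mul, map_mul, ← h, ← h']; ring
  zero_mem' := ⟨0, 1, one_ne_zero, by simp⟩
  neg_mem' := by
    rintro x ⟨a, b, hb, h⟩
    exact ⟨-a, b, hb, by rw [map_neg, ← h]; ring⟩
  inv_mem' := by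
    rintro x ⟨a, b, hb, h⟩
    by_cases hx : x = 0
    · subst hx
      exact ⟨0, 1, one_ne_zero, by simp⟩
    · have ha : a ≠ 0 := by
        rintro rfl
        rw [map_zero] at h
        rcases mul_eq_zero.mp h with h1 | h1
        · exact hx h1
        · exact incl_ne_zero ℓ hb h1
      refine ⟨b, a, ha, ?_⟩
      rw [← h]
      field_simp

theorem mem_FracS_iff (x : LaurentSeries ℚ) : x ∈ FracS ℓ ↔ IsFrac ℓ x := Iff.rfl

theorem O_le_FracS {x : LaurentSeries ℚ} (hx : x ∈ O ℓ) : x ∈ FracS ℓ := IsInO.isFrac ℓ hx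


/-! ### The reduction map `ρ : 𝒪 → 𝔽_ℓ((q))` -/

/-- The reduction map as a function. -/
noncomputable def rhoFun (x : O ℓ) : LaurentSeries (ZMod ℓ) :=
  red ℓ (x.2.choose) / red ℓ (x.2.choose_spec.choose)

theorem rhoFun_eq (x : O ℓ) (a b : LaurentSeries (Rl ℓ)) (hb : red ℓ b ≠ 0)
    (h : (x : LaurentSeries ℚ) * incl ℓ b = incl ℓ a) : rhoFun ℓ x = red ℓ a / red ℓ b := by
  obtain ⟨hb', h'⟩ := x.2.choose_spec.choose_spec
  set a' := x.2.choose
  set b' := x.2.choose_spec.choose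
  have e : a' * b = a * b' := by
    apply incl_injective ℓ
    rw [map_mul, map_mul, ← h, ← h']; ring
  unfold rhoFun
  rw [div_eq_div_iff hb' hb, ← map_mul, ← map_mul, e]

/-- The reduction map `ρ : 𝒪 → 𝔽_ℓ((q))`. -/
noncomputable def rho : O ℓ →+* LaurentSeries (ZMod ℓ) where
  toFun := rhoFun ℓ
  map_one' := by
    rw [rhoFun_eq ℓ 1 1 1 (by rw [map_one]; exact one_ne_zero) (by simp), map_one, div_one]
  map_mul' := by
    intro x y
    obtain ⟨a, b, hb, h⟩ := x.2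
    obtain ⟨c, d, hd, h'⟩ := y.2
    rw [rhoFun_eq ℓ x a b hb h, rhoFun_eq ℓ y c d hd h',
      rhoFun_eq ℓ (x * y) (a * c) (b * d)
        (by rw [map_mul]; exact mul_ne_zero hb hd)
        (by simp only [Subring.coe_mul, map_mul]; rw [← h, ← h']; ring),
      map_mul, map_mul, div_mul_div_comm]
  map_zero' := by
    rw [rhoFun_eq ℓ 0 0 1 (by rw [map_one]; exact one_ne_zero) (by simp), map_zero, zero_div]
  map_add' := by
    intro x y
    obtain ⟨a, b, hb, h⟩ := x.2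
    obtain ⟨c, d, hd, h'⟩ := y.2
    rw [rhoFun_eq ℓ x a b hb h, rhoFun_eq ℓ y c d hd h',
      rhoFun_eq ℓ (x + y) (a * d + c * b) (b * d)
        (by rw [map_mul]; exact mul_ne_zero hb hd)
        (by simp only [Subring.coe_add, map_mul, map_add]; rw [← h, ← h']; ring),
      map_mul, map_add, map_mul, map_mul, div_add_div _ _ hb hd, mul_comm (red ℓ b) (red ℓ c)]

theorem rho_eq (x : O ℓ) (a b : LaurentSeries (Rl ℓ)) (hb : red ℓ b ≠ 0)
    (h : (x : LaurentSeries ℚ) * incl ℓ b = incl ℓ a) : rho ℓ x = red ℓ a / red ℓ b :=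
  rhoFun_eq ℓ x a b hb h

theorem rho_incl (a : LaurentSeries (Rl ℓ)) : rho ℓ ⟨incl ℓ a, incl_mem_O ℓ a⟩ = red ℓ a := by
  rw [rho_eq ℓ _ a 1 (by rw [map_one]; exact one_ne_zero) (by simp), map_one, div_one]

theorem incl_smul (r : Rl ℓ) (a : LaurentSeries (Rl ℓ)) :
    incl ℓ (r • a) = HahnSeries.C (r : ℚ) * incl ℓ a := by
  ext n
  rw [HahnSeries.C_mul_eq_smul, HahnSeries.coeff_smul, incl_coeff, HahnSeries.coeff_smul,
    incl_coeff]
  rfl

theorem natCast_eq_C (n : ℕ) : (n : LaurentSeries ℚ) = HahnSeries.C (n : ℚ) := by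
  rw [map_natCast]

theorem l_mem_O : (ℓ : LaurentSeries ℚ) ∈ O ℓ := natCast_mem _ _

theorem coe_lR : ((lR ℓ : Rl ℓ) : ℚ) = (ℓ : ℚ) := rfl

theorem l_ne_zero : (ℓ : LaurentSeries ℚ) ≠ 0 := by
  have hp : ℓ.Prime := Fact.out
  rw [natCast_eq_C]
  intro h
  have h2 : (ℓ : ℚ) = 0 := HahnSeries.C_injective (by rw [h, map_zero])
  exact hp.ne_zero (by exact_mod_cast h2)

/-- `ker ρ = ℓ 𝒪`. -/
theorem rho_eq_zero_iff (x : O ℓ) :
    rho ℓ x = 0 ↔ ∃ y : O ℓ, x = (ℓ : O ℓ) * y := by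
  constructor
  · intro hx
    obtain ⟨a, b, hb, h⟩ := x.2
    rw [rho_eq ℓ x a b hb h, div_eq_zero_iff] at hx
    rcases hx with hx | hx
    · obtain ⟨a', rfl⟩ := (red_eq_zero_iff ℓ a).mp hx
      have hl : (ℓ : LaurentSeries ℚ) ≠ 0 := l_ne_zero ℓ
      have hy : IsInO ℓ ((x : LaurentSeries ℚ) / (ℓ : LaurentSeries ℚ)) := by
        refine ⟨a', b, hb, ?_⟩
        rw [div_mul_eq_mul_div, h, incl_smul, coe_lR, ← natCast_eq_C, mul_div_assoc,
          mul_div_cancel₀ _ hl]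
      refine ⟨⟨_, hy⟩, Subtype.ext ?_⟩
      simp only [Subring.coe_mul, Subring.coe_natCast]
      rw [mul_div_cancel₀ _ hl]
    · exact absurd hx hb
  · rintro ⟨y, rfl⟩
    rw [map_mul, map_natCast]
    have : ((ℓ : ℕ) : LaurentSeries (ZMod ℓ)) = 0 := by
      rw [← map_natCast (HahnSeries.C : ZMod ℓ →+* LaurentSeries (ZMod ℓ)), ZMod.natCast_self,
        map_zero]
    rw [this, zero_mul]


/-! ### Units, `ℓ^m · unit` decomposition, integral closedness -/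

theorem incl_pow_smul (m : ℕ) (a : LaurentSeries (Rl ℓ)) :
    incl ℓ (lR ℓ ^ m • a) = (ℓ : LaurentSeries ℚ) ^ m * incl ℓ a := by
  rw [incl_smul, natCast_eq_C, ← map_pow, Subring.coe_pow, coe_lR]

/-- If `x = a / b` with both `a` and `b` nonzero mod `ℓ` then `x` and `x⁻¹` are in `𝒪`. -/
theorem inv_mem_O_of_red_ne_zero {x : LaurentSeries ℚ} (a b : LaurentSeries (Rl ℓ))
    (ha : red ℓ a ≠ 0) (hb : red ℓ b ≠ 0) (h : x * incl ℓ b = incl ℓ a) : x⁻¹ ∈ O ℓ := by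
  refine ⟨b, a, ha, ?_⟩
  have hb0 : incl ℓ b ≠ 0 := incl_ne_zero ℓ (red_ne_zero_imp_ne_zero ℓ hb)
  have ha0 : incl ℓ a ≠ 0 := incl_ne_zero ℓ (red_ne_zero_imp_ne_zero ℓ ha)
  have hx : x ≠ 0 := by
    rintro rfl
    rw [zero_mul] at h
    exact ha0 h.symm
  rw [← h]
  field_simp

/-- Unit criterion: `u ∈ 𝒪` with `ρ u ≠ 0` has `u⁻¹ ∈ 𝒪`. -/
theorem inv_mem_O_of_rho_ne_zero (u : O ℓ) (hu : rho ℓ u ≠ 0) : (u : LaurentSeries ℚ)⁻¹ ∈ O ℓ := by
  obtain ⟨a, b, hb, h⟩ := u.2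
  rw [rho_eq ℓ u a b hb h] at hu
  have ha : red ℓ a ≠ 0 := fun h0 => hu (by rw [h0, zero_div])
  exact inv_mem_O_of_red_ne_zero ℓ a b ha hb h

/-- (O2) every nonzero element of `Frac(R((q)))` is `ℓ^m · u` with `u, u⁻¹ ∈ 𝒪`. -/
theorem exists_zpow_mul_unit {x : LaurentSeries ℚ} (hx : x ∈ FracS ℓ) (hx0 : x ≠ 0) :
    ∃ (m : ℤ) (u : LaurentSeries ℚ) (hu : u ∈ O ℓ), u⁻¹ ∈ O ℓ ∧ rho ℓ ⟨u, hu⟩ ≠ 0 ∧
      x = (ℓ : LaurentSeries ℚ) ^ m * u := by
  obtain ⟨a, b, hb, h⟩ := hx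
  have ha : a ≠ 0 := by
    rintro rfl
    rw [map_zero] at h
    rcases mul_eq_zero.mp h with h1 | h1
    · exact hx0 h1
    · exact incl_ne_zero ℓ hb h1
  obtain ⟨m, a₀, rfl, ha₀⟩ := exists_pow_smul_red_ne_zero ℓ a ha
  obtain ⟨n, b₀, rfl, hb₀⟩ := exists_pow_smul_red_ne_zero ℓ b hb
  have hb0 : incl ℓ b₀ ≠ 0 := incl_ne_zero ℓ (red_ne_zero_imp_ne_zero ℓ hb₀)
  have hl := l_ne_zero ℓ
  have hu : incl ℓ a₀ / incl ℓ b₀ ∈ O ℓ :=
    ⟨a₀, b₀, hb₀, by rw [div_mul_cancel₀ _ hb0]⟩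
  refine ⟨(m : ℤ) - n, incl ℓ a₀ / incl ℓ b₀, hu, ?_, ?_, ?_⟩
  · exact inv_mem_O_of_red_ne_zero ℓ a₀ b₀ ha₀ hb₀ (by rw [div_mul_cancel₀ _ hb0])
  · rw [rho_eq ℓ ⟨_, hu⟩ a₀ b₀ hb₀ (by rw [div_mul_cancel₀ _ hb0])]
    exact div_ne_zero ha₀ hb₀
  · rw [incl_pow_smul, incl_pow_smul] at h
    rw [zpow_sub₀ hl, zpow_natCast, zpow_natCast]
    have hln : (ℓ : LaurentSeries ℚ) ^ n ≠ 0 := pow_ne_zero _ hl
    field_simp
    linear_combination h

/-- `𝒪` is a valuation ring of `Frac(R((q)))`. -/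
theorem mem_O_or_inv_mem_O {x : LaurentSeries ℚ} (hx : x ∈ FracS ℓ) : x ∈ O ℓ ∨ x⁻¹ ∈ O ℓ := by
  by_cases hx0 : x = 0
  · left; rw [hx0]; exact zero_mem _
  obtain ⟨m, u, hu, hu', -, rfl⟩ := exists_zpow_mul_unit ℓ hx hx0
  rcases le_or_gt 0 m with hm | hm
  · left
    lift m to ℕ using hm
    rw [zpow_natCast]
    exact mul_mem (pow_mem (l_mem_O ℓ) m) hu
  · right
    obtain ⟨n, rfl⟩ : ∃ n : ℕ, m = -(n : ℤ) := ⟨(-m).toNat, by omega⟩
    rw [mul_inv, zpow_neg, inv_inv, zpow_natCast]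
    exact mul_mem (pow_mem (l_mem_O ℓ) n) hu'

/-- General lemma: an element integral over a subring `A` of a field whose inverse is in `A`
lies in `A`. -/
theorem mem_of_isIntegral_of_inv_mem {L : Type*} [Field L] (A : Subring L) (x : L)
    (hx : IsIntegral A x) (hinv : x⁻¹ ∈ A) : x ∈ A := by
  by_cases hx0 : x = 0
  · rw [hx0]; exact zero_mem _
  obtain ⟨p, hp, hpx⟩ := hx
  have hd : p.natDegree ≠ 0 := by
    intro h0
    have : p = 1 := Polynomial.eq_one_of_monic_natDegree_zero hp h0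
    rw [this, Polynomial.eval₂_one] at hpx
    exact one_ne_zero hpx
  obtain ⟨d, hd'⟩ : ∃ d, p.natDegree = d + 1 := ⟨p.natDegree - 1, by omega⟩
  rw [Polynomial.eval₂_eq_sum_range, hd', Finset.sum_range_succ] at hpx
  have hlead : p.coeff (d + 1) = 1 := by rw [← hd']; exact hp.coeff_natDegree
  rw [hlead, map_one, one_mul] at hpx
  -- x^(d+1) = - Σ_{i ≤ d} c_i x^i ; multiply by (x⁻¹)^d
  have key : x = - ∑ i ∈ Finset.range (d + 1), (algebraMap A L (p.coeff i)) * (x⁻¹) ^ (d - i) := by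
    have h1 : x ^ (d + 1) = - ∑ i ∈ Finset.range (d + 1), algebraMap A L (p.coeff i) * x ^ i := by
      linear_combination hpx
    have h2 : x = x ^ (d + 1) * (x⁻¹) ^ d := by
      rw [pow_succ, mul_assoc, mul_comm x, ← mul_assoc, ← mul_pow, mul_inv_cancel₀ hx0, one_pow,
        one_mul]
    have h3 : ∀ i ∈ Finset.range (d + 1), algebraMap A L (p.coeff i) * x ^ i * (x⁻¹) ^ d =
        algebraMap A L (p.coeff i) * (x⁻¹) ^ (d - i) := by
      intro i hi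
      have hi' : i ≤ d := Nat.lt_succ_iff.mp (Finset.mem_range.mp hi)
      rw [mul_assoc]
      congr 1
      obtain ⟨j, rfl⟩ := Nat.exists_eq_add_of_le hi'
      rw [Nat.add_sub_cancel_left, pow_add (x⁻¹), ← mul_assoc, ← mul_pow, mul_inv_cancel₀ hx0,
        one_pow, one_mul]
    calc x = x ^ (d + 1) * (x⁻¹) ^ d := h2
      _ = (- ∑ i ∈ Finset.range (d + 1), algebraMap A L (p.coeff i) * x ^ i) * (x⁻¹) ^ d := by
          rw [h1]
      _ = - ∑ i ∈ Finset.range (d + 1), (algebraMap A L (p.coeff i)) * (x⁻¹) ^ (d - i) := by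
          rw [neg_mul, Finset.sum_mul, Finset.sum_congr rfl h3]
  rw [key]
  refine neg_mem (Subring.sum_mem _ ?_)
  intro i _
  exact mul_mem (p.coeff i).2 (pow_mem hinv _)

/-- (O3) `𝒪` is integrally closed in `Frac(R((q)))`. -/
theorem mem_O_of_isIntegral {x : LaurentSeries ℚ} (hx : x ∈ FracS ℓ) (hint : IsIntegral (O ℓ) x) :
    x ∈ O ℓ := by
  rcases mem_O_or_inv_mem_O ℓ hx with h | h
  · exact h
  · exact mem_of_isIntegral_of_inv_mem (O ℓ) x hint h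


/-! ### Integer series, constants, the `j`-expansions -/

/-- `ℤ((q)) → R((q))`. -/
noncomputable def intToR : LaurentSeries ℤ →+* LaurentSeries (Rl ℓ) :=
  coeffMap (Int.castRingHom (Rl ℓ))

theorem incl_intToR (a : LaurentSeries ℤ) :
    incl ℓ (intToR ℓ a) = coeffMap (Int.castRingHom ℚ) a := by
  unfold incl intToR
  rw [coeffMap_coeffMap]
  exact coeffMap_congr (RingHom.ext_int _ _) a

theorem red_intToR (a : LaurentSeries ℤ) :
    red ℓ (intToR ℓ a) = coeffMap (Int.castRingHom (ZMod ℓ)) a := by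
  unfold red intToR
  rw [coeffMap_coeffMap]
  exact coeffMap_congr (RingHom.ext_int _ _) a

/-- Series with integer coefficients lie in `𝒪`. -/
theorem coeffMap_int_mem_O (a : LaurentSeries ℤ) : coeffMap (Int.castRingHom ℚ) a ∈ O ℓ := by
  rw [← incl_intToR ℓ]; exact incl_mem_O ℓ _

/-- `ρ` on a series with integer coefficients is reduction of the coefficients mod `ℓ`. -/
theorem rho_coeffMap_int (a : LaurentSeries ℤ) :
    rho ℓ ⟨coeffMap (Int.castRingHom ℚ) a, coeffMap_int_mem_O ℓ a⟩ =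
      coeffMap (Int.castRingHom (ZMod ℓ)) a := by
  have h : (⟨coeffMap (Int.castRingHom ℚ) a, coeffMap_int_mem_O ℓ a⟩ : O ℓ) =
      ⟨incl ℓ (intToR ℓ a), incl_mem_O ℓ _⟩ := Subtype.ext (incl_intToR ℓ a).symm
  rw [h, rho_incl, red_intToR]

theorem coeffMap_C {A B : Type*} [CommRing A] [CommRing B] (f : A →+* B) (r : A) :
    coeffMap f (HahnSeries.C r : LaurentSeries A) = HahnSeries.C (f r) := by
  rw [HahnSeries.C_apply, coeffMap_single, HahnSeries.C_apply]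

theorem incl_C (r : Rl ℓ) : incl ℓ (HahnSeries.C r) = HahnSeries.C (r : ℚ) := coeffMap_C _ r

theorem red_C (r : Rl ℓ) : red ℓ (HahnSeries.C r) = HahnSeries.C (resR ℓ r) := coeffMap_C _ r

/-- constants of `ℤ_(ℓ)` -/
theorem C_mem_O (r : Rl ℓ) : HahnSeries.C (r : ℚ) ∈ O ℓ := by
  rw [← incl_C]; exact incl_mem_O ℓ _

theorem rho_C (r : Rl ℓ) : rho ℓ ⟨HahnSeries.C (r : ℚ), C_mem_O ℓ r⟩ = HahnSeries.C (resR ℓ r) := by
  have h : (⟨HahnSeries.C (r : ℚ), C_mem_O ℓ r⟩ : O ℓ) = ⟨incl ℓ (HahnSeries.C r), incl_mem_O ℓ _⟩ :=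
    Subtype.ext (incl_C ℓ r).symm
  rw [h, rho_incl, red_C]

/-- The `ℤ_(ℓ)`-algebra structure of `𝒪`. -/
noncomputable def algHomRO : Rl ℓ →+* O ℓ :=
  ((incl ℓ).codRestrict (O ℓ) (incl_mem_O ℓ)).comp HahnSeries.C

theorem coe_algHomRO (r : Rl ℓ) : (algHomRO ℓ r : LaurentSeries ℚ) = HahnSeries.C (r : ℚ) :=
  incl_C ℓ r

theorem rho_algHomRO (r : Rl ℓ) : rho ℓ (algHomRO ℓ r) = HahnSeries.C (resR ℓ r) := by
  have h : algHomRO ℓ r = ⟨HahnSeries.C (r : ℚ), C_mem_O ℓ r⟩ := Subtype.ext (coe_algHomRO ℓ r)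
  rw [h, rho_C]

theorem jqNModC_rat_eq (d : ℕ) [NeZero d] :
    jqNModC ℚ d = coeffMap (Int.castRingHom ℚ) (jqNModC ℤ d) :=
  (coeffMap_jqNModC (Int.castRingHom ℚ) d).symm

/-- `j(q^d) ∈ 𝒪`. -/
theorem jqN_mem_O (d : ℕ) [NeZero d] : qExpand ℚ d jq ∈ O ℓ := by
  have : qExpand ℚ d jq = coeffMap (Int.castRingHom ℚ) (jqNModC ℤ d) := jqNModC_rat_eq d
  rw [this]; exact coeffMap_int_mem_O ℓ _

/-- `ρ (j(q^d)) = t(q^d)`. -/
theorem rho_jqN (d : ℕ) [NeZero d] :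
    rho ℓ ⟨qExpand ℚ d jq, jqN_mem_O ℓ d⟩ = jqNModC (ZMod ℓ) d := by
  have e : qExpand ℚ d jq = coeffMap (Int.castRingHom ℚ) (jqNModC ℤ d) := jqNModC_rat_eq d
  have h : (⟨qExpand ℚ d jq, jqN_mem_O ℓ d⟩ : O ℓ) =
      ⟨coeffMap (Int.castRingHom ℚ) (jqNModC ℤ d), coeffMap_int_mem_O ℓ _⟩ := Subtype.ext e
  rw [h, rho_coeffMap_int, coeffMap_jqNModC]

theorem jq_mem_O : jq ∈ O ℓ := by
  have := jqN_mem_O ℓ 1
  rwa [qExpand_one_apply] at this

theorem rho_jq : rho ℓ ⟨jq, jq_mem_O ℓ⟩ = jqModC (ZMod ℓ) := by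
  have h : (⟨jq, jq_mem_O ℓ⟩ : O ℓ) = ⟨qExpand ℚ 1 jq, jqN_mem_O ℓ 1⟩ :=
    Subtype.ext (qExpand_one_apply jq).symm
  rw [h, rho_jqN, jqNModC_one]

theorem jq_inv_mem_O : jq⁻¹ ∈ O ℓ := by
  have hp : ℓ.Prime := Fact.out
  have : Nontrivial (ZMod ℓ) := ZMod.nontrivial_iff.mpr hp.ne_one
  apply inv_mem_O_of_rho_ne_zero ℓ ⟨jq, jq_mem_O ℓ⟩
  rw [rho_jq]
  exact jqModC_ne_zero_of_nontrivial (ZMod ℓ)

theorem rho_jq_inv : rho ℓ ⟨jq⁻¹, jq_inv_mem_O ℓ⟩ = (jqModC (ZMod ℓ))⁻¹ := by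
  have hp : ℓ.Prime := Fact.out
  have : Nontrivial (ZMod ℓ) := ZMod.nontrivial_iff.mpr hp.ne_one
  have h1 : rho ℓ ⟨jq, jq_mem_O ℓ⟩ * rho ℓ ⟨jq⁻¹, jq_inv_mem_O ℓ⟩ = 1 := by
    rw [← map_mul]
    have : (⟨jq, jq_mem_O ℓ⟩ : O ℓ) * ⟨jq⁻¹, jq_inv_mem_O ℓ⟩ = 1 :=
      Subtype.ext (mul_inv_cancel₀ jq_ne_zero)
    rw [this, map_one]
  rw [rho_jq] at h1
  exact eq_inv_of_mul_eq_one_right h1

/-! ### `F ⊆ Frac(R((q)))` -/

theorem algebraMap_rat_mem_FracS (r : ℚ) : algebraMap ℚ (LaurentSeries ℚ) r ∈ FracS ℓ := by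
  refine ⟨HahnSeries.C ((r.num : ℤ) : Rl ℓ), HahnSeries.C ((r.den : ℕ) : Rl ℓ), ?_, ?_⟩
  · intro h
    have h2 : ((r.den : ℕ) : Rl ℓ) = 0 := HahnSeries.C_injective (by rw [h, map_zero])
    have h3 : ((r.den : ℕ) : ℚ) = 0 := by
      have := congrArg Subtype.val h2
      simp at this
    exact r.den_nz (by exact_mod_cast h3)
  · rw [algebraMap_apply_eq_single, incl_C, incl_C, ← HahnSeries.C_apply, ← map_mul]
    congr 1
    simp only [Subring.coe_natCast, Subring.coe_intCast]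
    exact Rat.mul_den_eq_num r

/-- `Frac(R((q)))` as an intermediate field of `ℚ((q))/ℚ`. -/
def FracI : IntermediateField ℚ (LaurentSeries ℚ) where
  toSubalgebra :=
    { (FracS ℓ).toSubring with
      algebraMap_mem' := algebraMap_rat_mem_FracS ℓ }
  inv_mem' := fun x hx => (FracS ℓ).inv_mem hx

theorem mem_FracI_iff (x : LaurentSeries ℚ) : x ∈ FracI ℓ ↔ x ∈ FracS ℓ := Iff.rfl

/-- The function field `F_N = ℚ(j(q^d) : d ∣ N)` lies in `Frac(R((q)))`. -/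
theorem modularFunctionFieldFull_le_FracI (N : ℕ) : modularFunctionFieldFull N ≤ FracI ℓ := by
  rw [modularFunctionFieldFull, IntermediateField.adjoin_le_iff]
  rintro x ⟨d, hd, -, rfl⟩
  haveI := hd
  exact O_le_FracS ℓ (jqN_mem_O ℓ d)

theorem mem_FracS_of_mem_full (N : ℕ) {x : LaurentSeries ℚ} (hx : x ∈ modularFunctionFieldFull N) :
    x ∈ FracS ℓ := modularFunctionFieldFull_le_FracI ℓ N hx


/-! ### The charts `A_S ⊆ 𝒪` and the reduction maps `red_S = ρ|A_S` -/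

section Charts

open ModularCurve.IgusaScheme

variable (N : ℕ) [NeZero N]

theorem coe_algebraMap_Rl_full (r : Rl ℓ) :
    ((algebraMap (Rl ℓ) (modularFunctionFieldFull N) r : modularFunctionFieldFull N) :
      LaurentSeries ℚ) = HahnSeries.C (r : ℚ) := by
  have h : algebraMap (Rl ℓ) (modularFunctionFieldFull N) r =
      algebraMap ℚ (modularFunctionFieldFull N) (r : ℚ) := rfl
  rw [h, eq_ratCast (algebraMap ℚ (modularFunctionFieldFull N)) (r : ℚ)]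
  have h2 : HahnSeries.C (r : ℚ) = (((r : ℚ) : ℚ) : LaurentSeries ℚ) :=
    eq_ratCast (HahnSeries.C : ℚ →+* LaurentSeries ℚ) (r : ℚ)
  rw [h2]
  exact SubfieldClass.coe_ratCast _ _

/-- `R[S] ⊆ 𝒪` as soon as `S ⊆ 𝒪`. -/
theorem coe_mem_O_of_mem_adjoin (S : Set (modularFunctionFieldFull N))
    (hS : ∀ s ∈ S, (s : LaurentSeries ℚ) ∈ O ℓ) {x : modularFunctionFieldFull N}
    (hx : x ∈ Algebra.adjoin (Rl ℓ) S) : (x : LaurentSeries ℚ) ∈ O ℓ := by
  induction hx using Algebra.adjoin_induction with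
  | mem y hy => exact hS y hy
  | algebraMap r => rw [coe_algebraMap_Rl_full]; exact C_mem_O ℓ r
  | add y z _ _ hy hz => exact add_mem hy hz
  | mul y z _ _ hy hz => exact mul_mem hy hz

/-- `A_S ⊆ 𝒪` as soon as `S ⊆ 𝒪` (uses that `𝒪` is integrally closed in `Frac(R((q))) ⊇ F`). -/
theorem coe_mem_O_of_mem_chartAlg (S : Set (modularFunctionFieldFull N))
    (hS : ∀ s ∈ S, (s : LaurentSeries ℚ) ∈ O ℓ) {x : modularFunctionFieldFull N}
    (hx : x ∈ chartAlg N ℓ S) : (x : LaurentSeries ℚ) ∈ O ℓ := by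
  apply mem_O_of_isIntegral ℓ (mem_FracS_of_mem_full ℓ N x.2)
  rw [mem_chartAlg_iff] at hx
  let φ : Algebra.adjoin (Rl ℓ) S →+* O ℓ :=
    { toFun := fun c => ⟨((c : modularFunctionFieldFull N) : LaurentSeries ℚ),
        coe_mem_O_of_mem_adjoin ℓ N S hS c.2⟩
      map_one' := rfl
      map_mul' := fun _ _ => rfl
      map_zero' := rfl
      map_add' := fun _ _ => rfl }
  exact hx.map_of_comp_eq φ (algebraMap (modularFunctionFieldFull N) (LaurentSeries ℚ)) (by ext; rfl)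

theorem hS_fin : ∀ s ∈ ({jFull N} : Set (modularFunctionFieldFull N)),
    (s : LaurentSeries ℚ) ∈ O ℓ := by
  rintro s rfl
  exact jq_mem_O ℓ

theorem hS_inf : ∀ s ∈ ({(jFull N)⁻¹} : Set (modularFunctionFieldFull N)),
    (s : LaurentSeries ℚ) ∈ O ℓ := by
  rintro s rfl
  exact jq_inv_mem_O ℓ

theorem hS_mid : ∀ s ∈ ({jFull N, (jFull N)⁻¹} : Set (modularFunctionFieldFull N)),
    (s : LaurentSeries ℚ) ∈ O ℓ := by
  rintro s (rfl | rfl)
  · exact jq_mem_O ℓ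
  · exact jq_inv_mem_O ℓ

/-- The chart algebra `A_S` mapped into `𝒪`. -/
noncomputable def chartToO (S : Set (modularFunctionFieldFull N))
    (hS : ∀ s ∈ S, (s : LaurentSeries ℚ) ∈ O ℓ) : chartAlg N ℓ S →+* O ℓ where
  toFun a := ⟨((a : modularFunctionFieldFull N) : LaurentSeries ℚ),
    coe_mem_O_of_mem_chartAlg ℓ N S hS a.2⟩
  map_one' := rfl
  map_mul' _ _ := rfl
  map_zero' := rfl
  map_add' _ _ := rfl

/-- The reduction map `red_S : A_S → 𝔽_ℓ((q))`. -/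
noncomputable def redChart (S : Set (modularFunctionFieldFull N))
    (hS : ∀ s ∈ S, (s : LaurentSeries ℚ) ∈ O ℓ) : chartAlg N ℓ S →+* LaurentSeries (ZMod ℓ) :=
  (rho ℓ).comp (chartToO ℓ N S hS)

theorem redChart_apply (S : Set (modularFunctionFieldFull N))
    (hS : ∀ s ∈ S, (s : LaurentSeries ℚ) ∈ O ℓ) (a : chartAlg N ℓ S) :
    redChart ℓ N S hS a = rho ℓ ⟨((a : modularFunctionFieldFull N) : LaurentSeries ℚ),
      coe_mem_O_of_mem_chartAlg ℓ N S hS a.2⟩ := rfl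

theorem redChart_smul (S : Set (modularFunctionFieldFull N))
    (hS : ∀ s ∈ S, (s : LaurentSeries ℚ) ∈ O ℓ) (r : Rl ℓ) (a : chartAlg N ℓ S) :
    redChart ℓ N S hS (r • a) = HahnSeries.C (resR ℓ r) * redChart ℓ N S hS a := by
  have h : chartToO ℓ N S hS (r • a) = algHomRO ℓ r * chartToO ℓ N S hS a := by
    apply Subtype.ext
    show (((r • a : chartAlg N ℓ S) : modularFunctionFieldFull N) : LaurentSeries ℚ) = _
    rw [Subring.coe_mul, coe_algHomRO, Algebra.smul_def]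
    show ((algebraMap (Rl ℓ) (modularFunctionFieldFull N) r * (a : modularFunctionFieldFull N) :
      modularFunctionFieldFull N) : LaurentSeries ℚ) = _
    rw [MulMemClass.coe_mul, coe_algebraMap_Rl_full]
    rfl
  unfold redChart
  rw [RingHom.comp_apply, h, map_mul, rho_algHomRO]
  rfl

end Charts

end Fermat.Agent.S28.ORing
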