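import Fermat.Agent.S28.Interface
import Fermat.Agent.S28.Assembly
import Fermat.Agent.S28.ORing

/-!
# S28: bridge between package ALG-O (`ORing.lean`) and the interface (`Interface.lean`)

* `resR_eq_resHom` : the residue map of `ORing.lean` is the interface's `resHom`.
* `isResLinear_redChart` : `redChart` is `IsResLinear` in the sense of the interface.
* `redStatement_mid` : the third component of `RedStatement`.
* `redStatement_of_kernels` : `RedStatement N ℓ` from the two kernel statements for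
  `redChart` on `A_fin`, `A_inf` (to be supplied by ALG-main).
-/

set_option autoImplicit false

namespace Fermat.Agent.S28.ORing

open ModularCurve HahnSeries ModularCurve.IgusaScheme Fermat.Agent.S28

variable (ℓ : ℕ) [Fact ℓ.Prime] (N : ℕ) [NeZero N]

theorem resR_eq_resHom : resR ℓ = resHom ℓ := ratLocalizedAt_ringHom_ext ℓ _ _

theorem isResLinear_redChart (S : Set (modularFunctionFieldFull N))
    (hS : ∀ s ∈ S, (s : LaurentSeries ℚ) ∈ O ℓ) : IsResLinear (redChart ℓ N S hS) := by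
  intro r a
  rw [redChart_smul, resR_eq_resHom]

/-- `red_fin`, `red_inf`, `red_mid` of the blueprint. -/
noncomputable def redFin : chartAlgFin N ℓ →+* LaurentSeries (ZMod ℓ) :=
  redChart ℓ N _ (hS_fin ℓ N)

noncomputable def redInf : chartAlgInf N ℓ →+* LaurentSeries (ZMod ℓ) :=
  redChart ℓ N _ (hS_inf ℓ N)

noncomputable def redMid : chartAlgMid N ℓ →+* LaurentSeries (ZMod ℓ) :=
  redChart ℓ N _ (hS_mid ℓ N)

theorem redStatement_mid : ∃ red : chartAlgMid N ℓ →+* LaurentSeries (ZMod ℓ), IsResLinear red :=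
  ⟨redMid ℓ N, isResLinear_redChart ℓ N _ _⟩

/-- If `x ∈ A_S` is `ℓ • y` with `y ∈ A_S` then ... (trivial direction, for reference):
`redChart (ℓ • y) = 0`. -/
theorem redChart_natCast_smul (S : Set (modularFunctionFieldFull N))
    (hS : ∀ s ∈ S, (s : LaurentSeries ℚ) ∈ O ℓ) (y : chartAlg N ℓ S) :
    redChart ℓ N S hS (((ℓ : ℕ) : Rl ℓ) • y) = 0 := by
  rw [redChart_smul, map_natCast, ZMod.natCast_self, map_zero, zero_mul]

/-- `redChart a = 0` iff the Laurent series of `a` is `ℓ` times an element of `𝒪`. -/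
theorem redChart_eq_zero_iff (S : Set (modularFunctionFieldFull N))
    (hS : ∀ s ∈ S, (s : LaurentSeries ℚ) ∈ O ℓ) (a : chartAlg N ℓ S) :
    redChart ℓ N S hS a = 0 ↔
      ∃ y ∈ O ℓ, ((a : modularFunctionFieldFull N) : LaurentSeries ℚ) = (ℓ : LaurentSeries ℚ) * y := by
  rw [redChart_apply, rho_eq_zero_iff]
  constructor
  · rintro ⟨y, hy⟩
    refine ⟨y, y.2, ?_⟩
    have := congrArg Subtype.val hy
    simpa using this
  · rintro ⟨y, hy, h⟩
    exact ⟨⟨y, hy⟩, Subtype.ext (by simpa using h)⟩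

/-- Assembly of `RedStatement` from the kernel statements for `A_fin` and `A_inf`. -/
theorem redStatement_of_kernels
    (hfin : ∀ a : chartAlgFin N ℓ, redFin ℓ N a = 0 → ∃ b, a = ((ℓ : ℕ) : Rl ℓ) • b)
    (hinf : ∀ a : chartAlgInf N ℓ, redInf ℓ N a = 0 → ∃ b, a = ((ℓ : ℕ) : Rl ℓ) • b) :
    RedStatement N ℓ :=
  ⟨⟨redFin ℓ N, isResLinear_redChart ℓ N _ _, hfin⟩,
   ⟨redInf ℓ N, isResLinear_redChart ℓ N _ _, hinf⟩,
   redStatement_mid ℓ N⟩

end Fermat.Agent.S28.ORing
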