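import Mathlib
import Fermat.Agent.S28.Interface
import Fermat.Agent.S28.ORingF
import Fermat.Agent.S28.ORingIface
import Fermat.Agent.S28.GaussRing
import Fermat.Agent.S28.MainKernelCore
import Fermat.Agent.S28.MainKernelAux

/-!
# S28, package ALG-main-kernel: `KeyStatement N ℓ → RedStatement N ℓ`

Instantiation of the abstract core (`MainKernelCore.lean`) with the localised Laurent ring `𝒪`
(`ORing.lean`, `ORingF.lean`, helper61) and the Gauss valuation ring (`GaussRing.lean`, helper15).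

Main result: `Fermat.Agent.S28.MainKernel.redStatement_of_keyStatement`.
-/

set_option autoImplicit false
set_option linter.unusedSectionVars false

noncomputable section

namespace Fermat.Agent.S28.MainKernel

open HahnSeries ModularCurve ModularCurve.IgusaScheme Polynomial IntermediateField
open Fermat.Agent.S28.ORing

/-- `V` is integrally closed in `F₀`. -/
theorem Setting.mem_V_of_isIntegral {F κ : Type*} [Field F] [Field κ] (S : Setting F κ) {c : F}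
    (hc : c ∈ S.F₀) (hint : IsIntegral S.V c) : c ∈ S.V := by
  by_cases hc0 : c = 0
  · rw [hc0]; exact S.V.zero_mem
  obtain ⟨m, v, hv, hv', rfl⟩ := S.hV1 c hc hc0
  rcases le_or_gt 0 m with hm | hm
  · obtain ⟨e, rfl⟩ := Int.eq_ofNat_of_zero_le hm
    rw [zpow_natCast]
    exact S.V.mul_mem (S.V.pow_mem S.hℓV e) hv
  · apply mem_of_isIntegral_of_inv_mem S.V hint
    obtain ⟨e, he⟩ := Int.eq_ofNat_of_zero_le (neg_nonneg.2 hm.le)
    rw [mul_inv, ← zpow_neg, he, zpow_natCast]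
    exact S.V.mul_mem (S.V.pow_mem S.hℓV e) hv'

theorem transcendental_inv' {K L : Type*} [Field K] [Field L] [Algebra K L] {x : L}
    (hx : Transcendental K x) : Transcendental K x⁻¹ :=
  fun h => hx (IsAlgebraic.inv_iff.1 h)

theorem transcendental_jqModC' (K : Type*) [Field K] : Transcendental K (jqModC K) :=
  P2MW.S_ModularCurve_coeff_jqModC_neg_one.ModularCurve.CharLRows.transcendental_jqModC K

theorem adjoin_simple_inv {K L : Type*} [Field K] [Field L] [Algebra K L] (x : L) :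
    K⟮x⁻¹⟯ = K⟮x⟯ := by
  apply le_antisymm
  · rw [IntermediateField.adjoin_le_iff]
    rintro y rfl
    exact K⟮x⟯.inv_mem (mem_adjoin_simple_self K x)
  · rw [IntermediateField.adjoin_le_iff]
    rintro y rfl
    have := K⟮y⁻¹⟯.inv_mem (mem_adjoin_simple_self K y⁻¹)
    rwa [inv_inv] at this

variable (ℓ : ℕ) [Fact ℓ.Prime] (N : ℕ) [NeZero N]

/-! ### `ℤ_(ℓ)` -/

/-- Every nonzero rational is `ℓ ^ m` times a unit of `ℤ_(ℓ)`. -/
theorem exists_zpow_mul_unit_rat (c : ℚ) (hc : c ≠ 0) :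
    ∃ (m : ℤ) (u : (Rl ℓ)ˣ),
      c = algebraMap (Rl ℓ) ℚ (lR ℓ) ^ m * algebraMap (Rl ℓ) ℚ (u : Rl ℓ) := by
  have hp : ℓ.Prime := Fact.out
  have hl0 : (ℓ : ℚ) ≠ 0 := by exact_mod_cast hp.ne_zero
  set m := padicValRat ℓ c with hm
  set u : ℚ := c / (ℓ : ℚ) ^ m with hu
  have hu0 : u ≠ 0 := div_ne_zero hc (zpow_ne_zero _ hl0)
  have hval : padicValRat ℓ u = 0 := by
    rw [hu, padicValRat.div hc (zpow_ne_zero _ hl0), padicValRat.zpow,
      padicValRat.self hp.one_lt]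
    simp [hm]
  have hnum0 : u.num ≠ 0 := Rat.num_ne_zero.2 hu0
  have hval' : (padicValInt ℓ u.num : ℤ) = padicValNat ℓ u.den := by
    have := hval
    rw [padicValRat_def] at this
    omega
  have hor : padicValInt ℓ u.num = 0 ∨ padicValNat ℓ u.den = 0 := by
    by_contra hcon
    push Not at hcon
    have h1 : ℓ ∣ u.num.natAbs := dvd_of_one_le_padicValNat (Nat.one_le_iff_ne_zero.2 hcon.1)
    have h2 : ℓ ∣ u.den := dvd_of_one_le_padicValNat (Nat.one_le_iff_ne_zero.2 hcon.2)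
    exact hp.one_lt.ne' (Nat.eq_one_of_dvd_coprimes u.reduced h1 h2)
  have hnumv : padicValInt ℓ u.num = 0 := by omega
  have hdenv : padicValNat ℓ u.den = 0 := by omega
  have hden : ¬ ℓ ∣ u.den := by
    rcases padicValNat.eq_zero_iff.1 hdenv with h | h | h
    · exact absurd h hp.one_lt.ne'
    · exact absurd h u.den_nz
    · exact h
  have hnum : ¬ ℓ ∣ u.num.natAbs := by
    rcases padicValNat.eq_zero_iff.1 hnumv with h | h | h
    · exact absurd h hp.one_lt.ne'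
    · exact absurd (Int.natAbs_eq_zero.1 h) hnum0
    · exact h
  have huR : u ∈ Rl ℓ := by
    rw [mem_Rl_iff]
    exact ((Nat.Prime.coprime_iff_not_dvd hp).2 hden).symm
  have huinvR : u⁻¹ ∈ Rl ℓ := by
    rw [mem_Rl_iff, Rat.den_inv, if_neg hnum0]
    exact ((Nat.Prime.coprime_iff_not_dvd hp).2 hnum).symm
  refine ⟨m, ⟨⟨u, huR⟩, ⟨u⁻¹, huinvR⟩, Subtype.ext (mul_inv_cancel₀ hu0),
    Subtype.ext (inv_mul_cancel₀ hu0)⟩, ?_⟩
  show c = (ℓ : ℚ) ^ m * u
  rw [hu, mul_div_cancel₀ _ (zpow_ne_zero _ hl0)]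

theorem algebraMap_Rl_injective : Function.Injective (algebraMap (Rl ℓ) ℚ) :=
  Subtype.val_injective

/-! ### The function field `F_N ⊆ ℚ((q))` -/

/-- The inclusion `F → ℚ((q))` as a `ℚ`-algebra hom (for the ambient `ℚ`-algebra instances). -/
def incF : modularFunctionFieldFull N →ₐ[ℚ] LaurentSeries ℚ :=
  (algebraMap (modularFunctionFieldFull N) (LaurentSeries ℚ)).toRatAlgHom

theorem incF_apply (c : modularFunctionFieldFull N) : incF N c = (c : LaurentSeries ℚ) := rfl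

theorem transcendental_jFull : Transcendental ℚ (jFull N) := by
  have h : Transcendental ℚ jq := transcendental_jqModC' ℚ
  intro halg
  apply h
  exact halg.algHom (incF N)

/-- `ℚ(j)` inside `F`, pulled back from `ℚ((q))`. -/
theorem comap_adjoin_jq :
    (ℚ⟮jq⟯).comap (incF N) = ℚ⟮jFull N⟯ := by
  apply le_antisymm
  · intro c hc
    have hc' : (c : LaurentSeries ℚ) ∈ ℚ⟮jq⟯ := hc
    have hmap : (ℚ⟮jFull N⟯).map (incF N) = ℚ⟮jq⟯ := by
      rw [IntermediateField.adjoin_map]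
      simp [incF_apply]
    rw [← hmap] at hc'
    obtain ⟨c', hc'mem, hcc'⟩ := hc'
    have : c' = c := Subtype.ext hcc'
    rw [← this]; exact hc'mem
  · rw [IntermediateField.adjoin_le_iff]
    rintro x rfl
    show ((jFull N : modularFunctionFieldFull N) : LaurentSeries ℚ) ∈ ℚ⟮jq⟯
    exact mem_adjoin_simple_self ℚ jq

theorem fieldRange_incF : (incF N).fieldRange = modularFunctionFieldFull N := by
  ext x
  constructor
  · rintro ⟨c, rfl⟩
    exact c.2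
  · intro hx
    exact ⟨⟨x, hx⟩, rfl⟩

theorem rank_adjoin_jFull :
    Module.rank ℚ⟮jFull N⟯ (modularFunctionFieldFull N) =
      IntermediateField.relrank (ℚ⟮jq⟯) (modularFunctionFieldFull N) := by
  have h := IntermediateField.rank_comap (ℚ⟮jq⟯) (incF N)
  rw [fieldRange_incF, comap_adjoin_jq] at h
  exact h

/-! ### The hypotheses of `GaussRing` for `𝒪 ∩ F` -/

theorem algebraMap_rat_mem_OF (r : Rl ℓ) :
    algebraMap ℚ (modularFunctionFieldFull N) (algebraMap (Rl ℓ) ℚ r) ∈ OF ℓ N :=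
  algebraMap_mem_OF ℓ N r

theorem rhoF_algebraMap_rat (r : Rl ℓ) :
    rhoF ℓ N ⟨algebraMap ℚ (modularFunctionFieldFull N) (algebraMap (Rl ℓ) ℚ r),
      algebraMap_rat_mem_OF ℓ N r⟩ = algebraMap (ZMod ℓ) (LaurentSeries (ZMod ℓ)) (resR ℓ r) := by
  have h := rhoF_algebraMap ℓ N r
  rw [algebraMap_laurentSeries_eq_single, ← HahnSeries.C_apply]
  exact h

theorem isUnit_of_rhoF_ne_zero (x : OF ℓ N) (hx : rhoF ℓ N x ≠ 0) : IsUnit x := by
  have hinv := inv_mem_OF_of_rhoF_ne_zero ℓ N x hx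
  have hx0 : (x : modularFunctionFieldFull N) ≠ 0 := by
    intro h
    apply hx
    have : x = 0 := Subtype.ext h
    rw [this, map_zero]
  exact IsUnit.of_mul_eq_one ⟨_, hinv⟩ (Subtype.ext (mul_inv_cancel₀ hx0))

theorem algebraMap_lR :
    algebraMap ℚ (modularFunctionFieldFull N) (algebraMap (Rl ℓ) ℚ (lR ℓ)) =
      ((ℓ : ℕ) : modularFunctionFieldFull N) := by
  show algebraMap ℚ (modularFunctionFieldFull N) ((ℓ : ℕ) : ℚ) = _
  rw [map_natCast]

theorem transcendental_rhoF_jFull :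
    Transcendental (ZMod ℓ) (rhoF ℓ N ⟨jFull N, jFull_mem_OF ℓ N⟩) := by
  rw [rhoF_jFull]
  exact transcendental_jqModC' _

theorem rhoF_inv (s : modularFunctionFieldFull N) (hs0 : s ≠ 0) (hs : s ∈ OF ℓ N)
    (hs' : s⁻¹ ∈ OF ℓ N) : rhoF ℓ N ⟨s⁻¹, hs'⟩ = (rhoF ℓ N ⟨s, hs⟩)⁻¹ := by
  have h1 : rhoF ℓ N ⟨s, hs⟩ * rhoF ℓ N ⟨s⁻¹, hs'⟩ = 1 := by
    rw [← map_mul]
    have : (⟨s, hs⟩ : OF ℓ N) * ⟨s⁻¹, hs'⟩ = 1 := Subtype.ext (mul_inv_cancel₀ hs0)
    rw [this, map_one]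
  exact eq_inv_of_mul_eq_one_right h1

theorem transcendental_rhoF_jFull_inv :
    Transcendental (ZMod ℓ) (rhoF ℓ N ⟨(jFull N)⁻¹, jFull_inv_mem_OF ℓ N⟩) := by
  rw [rhoF_inv ℓ N (jFull N) (jFull_ne_zero N) (jFull_mem_OF ℓ N)]
  exact transcendental_inv' (transcendental_rhoF_jFull ℓ N)

section Gauss

variable (s : modularFunctionFieldFull N) (hs : s ∈ OF ℓ N)
  (hts : Transcendental (ZMod ℓ) (rhoF ℓ N ⟨s, hs⟩))

include hts

theorem gauss_V1 {c : modularFunctionFieldFull N} (hc : c ∈ ℚ⟮s⟯) (hc0 : c ≠ 0) :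
    ∃ (m : ℤ) (u : (OF ℓ N)ˣ),
      c = ((ℓ : ℕ) : modularFunctionFieldFull N) ^ m *
        ((u : OF ℓ N) : modularFunctionFieldFull N) ∧
      ((u : OF ℓ N) : modularFunctionFieldFull N) ∈ ℚ⟮s⟯ ∧
      rhoF ℓ N (u : OF ℓ N) ∈ (ZMod ℓ)⟮rhoF ℓ N ⟨s, hs⟩⟯ := by
  have h := GaussRing.exists_zpow_mul_unit (resR ℓ) (lR ℓ) (OF ℓ N) (rhoF ℓ N) s
    (algebraMap_Rl_injective ℓ) (lR_ne_zero ℓ) (exists_zpow_mul_unit_rat ℓ)
    (algebraMap_rat_mem_OF ℓ N) (rhoF_algebraMap_rat ℓ N) (isUnit_of_rhoF_ne_zero ℓ N) hs hts hc hc0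
  rw [algebraMap_lR] at h
  exact h

theorem gauss_V2 {c : modularFunctionFieldFull N} (hc : c ∈ ℚ⟮s⟯) (hcO : c ∈ OF ℓ N) :
    rhoF ℓ N ⟨c, hcO⟩ ∈ (ZMod ℓ)⟮rhoF ℓ N ⟨s, hs⟩⟯ :=
  GaussRing.rho_mem_adjoin (resR ℓ) (lR ℓ) (OF ℓ N) (rhoF ℓ N) s
    (algebraMap_Rl_injective ℓ) (lR_ne_zero ℓ) (resR_lR ℓ) (exists_zpow_mul_unit_rat ℓ)
    (algebraMap_rat_mem_OF ℓ N) (rhoF_algebraMap_rat ℓ N) (isUnit_of_rhoF_ne_zero ℓ N) hs hts hc hcO

theorem gauss_V4 (a : ℚ[X]) (h : aeval s a ∈ OF ℓ N) :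
    ∃ a₀ : (Rl ℓ)[X], a₀.map (algebraMap (Rl ℓ) ℚ) = a :=
  GaussRing.exists_lift_of_aeval_mem (resR ℓ) (lR ℓ) (OF ℓ N) (rhoF ℓ N) s
    (algebraMap_Rl_injective ℓ) (lR_ne_zero ℓ) (resR_lR ℓ) (exists_zpow_mul_unit_rat ℓ)
    (algebraMap_rat_mem_OF ℓ N) (rhoF_algebraMap_rat ℓ N) hs hts a h

end Gauss

/-! ### The setting -/

theorem natCast_ne_zero_F : ((ℓ : ℕ) : modularFunctionFieldFull N) ≠ 0 := by
  have hp : ℓ.Prime := Fact.out
  exact_mod_cast hp.ne_zero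

theorem rhoF_natCast_self :
    rhoF ℓ N ⟨((ℓ : ℕ) : modularFunctionFieldFull N), natCast_mem_OF ℓ N ℓ⟩ = 0 := by
  have h : (⟨((ℓ : ℕ) : modularFunctionFieldFull N), natCast_mem_OF ℓ N ℓ⟩ : OF ℓ N) =
      ((ℓ : ℕ) : OF ℓ N) := Subtype.ext (by simp)
  rw [h, map_natCast]
  have : ((ℓ : ℕ) : LaurentSeries (ZMod ℓ)) = HahnSeries.C ((ℓ : ℕ) : ZMod ℓ) := by
    rw [map_natCast]
  rw [this, ZMod.natCast_self, map_zero]

/-- The setting of `MainKernelCore` for the function field `F_N`. -/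
def setting : Setting (modularFunctionFieldFull N) (LaurentSeries (ZMod ℓ)) where
  F₀ := (ℚ⟮jFull N⟯).toSubfield
  V := OF ℓ N ⊓ (ℚ⟮jFull N⟯).toSubfield.toSubring
  O' := OF ℓ N
  κ₀ := (fieldT (ZMod ℓ)).toSubfield
  ρ := rhoF ℓ N
  ℓ := ((ℓ : ℕ) : modularFunctionFieldFull N)
  hℓ0 := natCast_ne_zero_F ℓ N
  hVF₀ := inf_le_right
  hVO := inf_le_left
  hℓV := ⟨natCast_mem_OF ℓ N ℓ, _root_.natCast_mem _ _⟩
  hρℓ := rhoF_natCast_self ℓ N
  hρV := fun v hv => by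
    have h := gauss_V2 ℓ N (jFull N) (jFull_mem_OF ℓ N) (transcendental_rhoF_jFull ℓ N)
      (c := v) hv.2 hv.1
    rw [rhoF_jFull] at h
    exact h
  hV1 := fun c hc hc0 => by
    obtain ⟨m, u, hcu, hu, -⟩ := gauss_V1 ℓ N (jFull N) (jFull_mem_OF ℓ N)
      (transcendental_rhoF_jFull ℓ N) (c := c) hc hc0
    refine ⟨m, ((u : OF ℓ N) : modularFunctionFieldFull N), ⟨(u : OF ℓ N).2, hu⟩, ⟨?_, ?_⟩, hcu⟩
    · have h1 : (((u⁻¹ : (OF ℓ N)ˣ) : OF ℓ N) : modularFunctionFieldFull N) =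
          ((u : OF ℓ N) : modularFunctionFieldFull N)⁻¹ := by
        have h2 : ((u : OF ℓ N) : modularFunctionFieldFull N) *
            (((u⁻¹ : (OF ℓ N)ˣ) : OF ℓ N) : modularFunctionFieldFull N) = 1 := by
          have : (u : OF ℓ N) * ((u⁻¹ : (OF ℓ N)ˣ) : OF ℓ N) = 1 := u.mul_inv
          exact_mod_cast congrArg Subtype.val this
        exact eq_inv_of_mul_eq_one_right h2
      rw [← h1]
      exact ((u⁻¹ : (OF ℓ N)ˣ) : OF ℓ N).2
    · exact (ℚ⟮jFull N⟯).inv_mem hu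

/-- Data extracted from `KeyStatement`. -/
theorem exists_family (hkey : KeyStatement N ℓ) :
    ∃ (n : ℕ) (x : Fin n → (setting ℓ N).O'),
      LinearIndependent (setting ℓ N).κ₀ (fun i => (setting ℓ N).ρ (x i)) ∧
      FiniteDimensional (setting ℓ N).F₀ (modularFunctionFieldFull N) ∧
      Module.finrank (setting ℓ N).F₀ (modularFunctionFieldFull N) ≤ n := by
  obtain ⟨n, xs, hmem, hli, hrank⟩ := hkey
  have hO : ∀ i, (⟨coeffMap (Int.castRingHom ℚ) (xs i), hmem i⟩ : modularFunctionFieldFull N)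
      ∈ OF ℓ N := fun i => mem_OF_of_int ℓ N _ (xs i) rfl
  refine ⟨n, fun i => ⟨⟨coeffMap (Int.castRingHom ℚ) (xs i), hmem i⟩, hO i⟩, ?_, ?_, ?_⟩
  · have hfun : (fun i => (setting ℓ N).ρ ⟨⟨coeffMap (Int.castRingHom ℚ) (xs i), hmem i⟩, hO i⟩) =
        fun i => coeffMap (Int.castRingHom (ZMod ℓ)) (xs i) := by
      funext i
      exact rhoF_of_int ℓ N _ (xs i) rfl
    rw [hfun]
    exact hli
  · rw [← rank_adjoin_jFull] at hrank
    have hlt : Module.rank ℚ⟮jFull N⟯ (modularFunctionFieldFull N) < Cardinal.aleph0 :=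
      lt_of_le_of_lt hrank Cardinal.natCast_lt_aleph0
    exact Module.rank_lt_aleph0_iff.1 hlt
  · rw [← rank_adjoin_jFull] at hrank
    exact Module.finrank_le_of_rank_le hrank

/-- The kernel statement for the chart generated by `s` (`s = j` or `s = 1/j`). -/
theorem kernel_chart (hkey : KeyStatement N ℓ) (s : modularFunctionFieldFull N)
    (hS : ∀ s' ∈ ({s} : Set (modularFunctionFieldFull N)), (s' : LaurentSeries ℚ) ∈ O ℓ)
    (hts : Transcendental (ZMod ℓ) (rhoF ℓ N ⟨s, hS s rfl⟩)) (hsQ : Transcendental ℚ s)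
    (hadj : ℚ⟮s⟯ = ℚ⟮jFull N⟯)
    (a : chartAlg N ℓ {s}) (ha : redChart ℓ N {s} hS a = 0) :
    ∃ b : chartAlg N ℓ {s}, a = ((ℓ : ℕ) : Rl ℓ) • b := by
  obtain ⟨n, x, hx, hfd, hn⟩ := exists_family ℓ N hkey
  have := hfd
  have hs : s ∈ OF ℓ N := hS s rfl
  set P : Subring (modularFunctionFieldFull N) := (Algebra.adjoin ℚ {s}).toSubring with hP
  set R' : Subring (modularFunctionFieldFull N) := (Algebra.adjoin (Rl ℓ) {s}).toSubring with hR'
  have hPF₀ : P ≤ (setting ℓ N).F₀.toSubring := by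
    intro c hc
    have h1 : c ∈ ℚ⟮s⟯ := IntermediateField.algebra_adjoin_le_adjoin ℚ {s} hc
    rw [hadj] at h1
    exact h1
  have hR'P : R' ≤ P := by
    have key : ∀ c, c ∈ Algebra.adjoin (Rl ℓ) {s} → c ∈ Algebra.adjoin ℚ {s} := by
      intro c hc'
      induction hc' using Algebra.adjoin_induction with
      | mem y hy => exact Algebra.subset_adjoin hy
      | algebraMap r => exact (Algebra.adjoin ℚ {s}).algebraMap_mem (r : ℚ)
      | add y z _ _ hy hz => exact add_mem hy hz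
      | mul y z _ _ hy hz => exact mul_mem hy hz
    exact fun c hc => key c hc
  have hR'O : R' ≤ (setting ℓ N).O' := fun c hc => coe_mem_O_of_mem_adjoin ℓ N {s} hS hc
  have hℓinv : (setting ℓ N).ℓ⁻¹ ∈ P := by
    have h1 : ((ℓ : ℕ) : modularFunctionFieldFull N)⁻¹ =
        algebraMap ℚ (modularFunctionFieldFull N) ((ℓ : ℚ)⁻¹) := by
      rw [map_inv₀, map_natCast]
    show ((ℓ : ℕ) : modularFunctionFieldFull N)⁻¹ ∈ P
    rw [h1]
    exact (Algebra.adjoin ℚ {s}).algebraMap_mem _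
  have hPcl : ∀ c ∈ (setting ℓ N).F₀, IsIntegral P c → c ∈ P := by
    intro c hc hint
    have hc' : c ∈ ℚ⟮s⟯ := by rw [hadj]; exact hc
    exact mem_adjoin_of_isIntegral_of_transcendental hsQ hc' hint
  have hVcl : ∀ c ∈ (setting ℓ N).F₀, IsIntegral (setting ℓ N).V c → c ∈ (setting ℓ N).V :=
    fun c hc hint => (setting ℓ N).mem_V_of_isIntegral hc hint
  have hPV : P ⊓ (setting ℓ N).V ≤ R' := by
    rintro c ⟨hcP, hcV⟩
    have hcP' : c ∈ Algebra.adjoin ℚ {s} := hcP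
    rw [Algebra.adjoin_singleton_eq_range_aeval] at hcP'
    obtain ⟨p, rfl⟩ := hcP'
    obtain ⟨p₀, rfl⟩ := gauss_V4 ℓ N s hs hts p hcV.1
    show aeval s (p₀.map (algebraMap (Rl ℓ) ℚ)) ∈ Algebra.adjoin (Rl ℓ) {s}
    rw [aeval_map_algebraMap, Algebra.adjoin_singleton_eq_range_aeval]
    exact ⟨p₀, rfl⟩
  have hOcl : ∀ c : modularFunctionFieldFull N, IsIntegral (setting ℓ N).O' c →
      c ∈ (setting ℓ N).O' := fun c hc => mem_OF_of_isIntegral ℓ N c hc
  have hker : ∀ y : (setting ℓ N).O', (setting ℓ N).ρ y = 0 →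
      ∃ z : (setting ℓ N).O', (y : modularFunctionFieldFull N) = (setting ℓ N).ℓ * z :=
    fun y hy => (rhoF_eq_zero_iff ℓ N y).1 hy
  have haint : IsIntegral R' (a : modularFunctionFieldFull N) := a.2
  obtain ⟨haO, h⟩ := exists_eq_mul_of_rho_eq_zero (setting ℓ N) x hx hn P R' hPF₀ hR'P hR'O hℓinv
    hPcl hVcl hPV hOcl hker (a : modularFunctionFieldFull N) haint
  obtain ⟨b, hb, hab⟩ := h ha
  refine ⟨⟨b, hb⟩, Subtype.ext ?_⟩
  rw [hab]
  show ((ℓ : ℕ) : modularFunctionFieldFull N) * b =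
    algebraMap (Rl ℓ) (modularFunctionFieldFull N) ((ℓ : ℕ) : Rl ℓ) * b
  rw [map_natCast]

/-- **ALG-main**: `KEY(N, ℓ)` implies the reduction statement for the three chart algebras. -/
theorem redStatement_of_keyStatement (hkey : KeyStatement N ℓ) : RedStatement N ℓ :=
  redStatement_of_kernels ℓ N
    (fun a ha => kernel_chart ℓ N hkey (jFull N) (hS_fin ℓ N) (transcendental_rhoF_jFull ℓ N)
      (transcendental_jFull N) rfl a ha)
    (fun a ha => kernel_chart ℓ N hkey (jFull N)⁻¹ (hS_inf ℓ N)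
      (transcendental_rhoF_jFull_inv ℓ N) (transcendental_inv' (transcendental_jFull N))
      (adjoin_simple_inv (jFull N)) a ha)

end Fermat.Agent.S28.MainKernel
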