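import Mathlib
import Fermat.Prelude.Def_ModularCurve_IgusaScheme
import Fermat.Prelude.Def_ModularCurve_X0ModL

/-!
# S28, package AG: integrality of the fibre of the Igusa scheme from the three charts

Pure scheme theory: if `A_fin ⊗ K` and `A_inf ⊗ K` are domains and `A_mid ⊗ K` is nontrivial,
then the base change of the glued scheme `IgusaScheme N ℓ` to `K` is an integral scheme.
-/

set_option autoImplicit false

set_option linter.style.haveILetI false

open AlgebraicGeometry CategoryTheory CategoryTheory.Limits TopologicalSpace Function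

namespace Fermat.Agent.S28.AG

universe u

/-- A scheme covered by two integral open subschemes which meet is integral. -/
theorem isIntegral_of_two_opens {P Y₁ Y₂ : Scheme.{u}} (a : Y₁ ⟶ P) (b : Y₂ ⟶ P)
    [IsOpenImmersion a] [IsOpenImmersion b] [IsIntegral Y₁] [IsIntegral Y₂]
    (hcov : ∀ x : P, x ∈ Set.range a ∨ x ∈ Set.range b)
    (hmeet : ∃ x : P, x ∈ Set.range a ∧ x ∈ Set.range b) : IsIntegral P := by
  -- reducedness: stalkwise
  haveI : IsReduced P := by
    have (x : P) : _root_.IsReduced (P.presheaf.stalk x) := by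
      rcases hcov x with ⟨y, rfl⟩ | ⟨y, rfl⟩
      · exact isReduced_of_injective _
          (asIso <| a.stalkMap y).commRingCatIsoToRingEquiv.injective
      · exact isReduced_of_injective _
          (asIso <| b.stalkMap y).commRingCatIsoToRingEquiv.injective
    exact isReduced_of_isReduced_stalk _
  -- irreducibility: two irreducible opens which meet
  haveI : IrreducibleSpace P := by
    let U : Bool → Opens P := fun i => cond i a.opensRange b.opensRange
    have hUa : (U true : Set P) = Set.range a := rfl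
    have hUb : (U false : Set P) = Set.range b := rfl
    have h' : ∀ i, IsPreirreducible (U i : Set P) := by
      intro i
      cases i
      · rw [hUb, ← Set.image_univ]
        exact (PreirreducibleSpace.isPreirreducible_univ (X := Y₂)).image _
          b.continuous.continuousOn
      · rw [hUa, ← Set.image_univ]
        exact (PreirreducibleSpace.isPreirreducible_univ (X := Y₁)).image _
          a.continuous.continuousOn
    obtain ⟨x₀, hxa, hxb⟩ := hmeet
    have hn : Pairwise ((¬ Disjoint · ·) on U) := by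
      intro i j hij
      have hmem : ∀ k, x₀ ∈ U k := by
        intro k
        cases k
        · exact hxb
        · exact hxa
      intro hdis
      exact (hdis.le_bot : U i ⊓ U j ≤ ⊥) ⟨hmem i, hmem j⟩
    have hpre : IsPreirreducible (Set.univ : Set P) := by
      refine IsPreirreducible.of_subset_iUnion hn h' isOpen_univ ?_
      intro x _
      rcases hcov x with h | h
      · exact Set.mem_iUnion.mpr ⟨true, h⟩
      · exact Set.mem_iUnion.mpr ⟨false, h⟩
    exact { toPreirreducibleSpace := ⟨hpre⟩, toNonempty := ⟨x₀⟩ }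
  exact isIntegral_of_irreducibleSpace_of_isReduced P

section Igusa

open ModularCurve ModularCurve.IgusaScheme TensorProduct

variable (N : ℕ) [NeZero N] (ℓ : ℕ) [Fact ℓ.Prime]
  (K : Type) [Field K] [Algebra ↥(GaloisRep.ratLocalizedAt ℓ) K]

set_option quotPrecheck false in
local notation "ℤℓ" => ↥(GaloisRep.ratLocalizedAt ℓ)

/-- The structure morphism `Spec K ⟶ Spec ℤ_(ℓ)`. -/
noncomputable abbrev gK : Spec (CommRingCat.of K) ⟶ Spec (CommRingCat.of ℤℓ) :=
  Spec.map (CommRingCat.ofHom (algebraMap ℤℓ K))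

/-- The three-piece open cover of the Igusa scheme from the Prelude. -/
noncomputable abbrev cover0 : (ModularCurve.IgusaScheme N ℓ).OpenCover :=
  Scheme.IsLocallyDirected.openCover (span (fFin N ℓ) (fInf N ℓ))

theorem cover0_f_left : (cover0 N ℓ).f WalkingSpan.left = ιFin N ℓ := rfl

theorem cover0_f_right : (cover0 N ℓ).f WalkingSpan.right = ιInf N ℓ := rfl

theorem cover0_f_none_fin : (cover0 N ℓ).f none = fFin N ℓ ≫ ιFin N ℓ :=
  (colimit.w (span (fFin N ℓ) (fInf N ℓ)) WalkingSpan.Hom.fst).symm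

theorem cover0_f_none_inf : (cover0 N ℓ).f none = fInf N ℓ ≫ ιInf N ℓ :=
  (colimit.w (span (fFin N ℓ) (fInf N ℓ)) WalkingSpan.Hom.snd).symm

end Igusa

section MapFactor

variable {C : Type*} [Category C] [HasPullbacks C]

/-- Functoriality of the base-change maps `U ×_Z Y ⟶ X ×_Z Y` in `U ⟶ X`. -/
theorem pullback_map_factor {X Y Z U V : C} (f : X ⟶ Z) (g : Y ⟶ Z) (u : U ⟶ X) (v : V ⟶ X)
    (w : V ⟶ U) (hw : v = w ≫ u) :
    pullback.map (v ≫ f) g f g v (𝟙 Y) (𝟙 Z) (by simp) (by simp) =
      pullback.map (v ≫ f) g (u ≫ f) g w (𝟙 Y) (𝟙 Z) (by simp [hw]) (by simp) ≫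
        pullback.map (u ≫ f) g f g u (𝟙 Y) (𝟙 Z) (by simp) (by simp) := by
  subst hw
  apply pullback.hom_ext
  · simp only [pullback.map, Category.assoc, pullback.lift_fst, pullback.lift_fst_assoc]
  · simp only [pullback.map, Category.assoc, pullback.lift_snd, Category.comp_id]

end MapFactor

section Piece

open TensorProduct

variable {R S K : Type} [CommRing R] [CommRing S] [CommRing K] [Algebra R S] [Algebra R K]

/-- The base change of an affine piece. -/
noncomputable def pieceIso (h : Spec (CommRingCat.of S) ⟶ Spec (CommRingCat.of R))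
    (hh : h = Spec.map (CommRingCat.ofHom (algebraMap R S))) :
    pullback h (Spec.map (CommRingCat.ofHom (algebraMap R K))) ≅
      Spec (CommRingCat.of (S ⊗[R] K)) :=
  pullback.congrHom hh rfl ≪≫ pullbackSpecIso R S K

theorem isIntegral_piece (h : Spec (CommRingCat.of S) ⟶ Spec (CommRingCat.of R))
    (hh : h = Spec.map (CommRingCat.ofHom (algebraMap R S))) [IsDomain (S ⊗[R] K)] :
    IsIntegral (pullback h (Spec.map (CommRingCat.ofHom (algebraMap R K)))) := by
  have : IsIntegral (Spec (CommRingCat.of (S ⊗[R] K))) := inferInstance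
  exact IsIntegral.of_isIso (pieceIso (K := K) h hh).inv

theorem nonempty_piece (h : Spec (CommRingCat.of S) ⟶ Spec (CommRingCat.of R))
    (hh : h = Spec.map (CommRingCat.ofHom (algebraMap R S))) [Nontrivial (S ⊗[R] K)] :
    Nonempty ↥(pullback h (Spec.map (CommRingCat.ofHom (algebraMap R K)))) := by
  have : Nonempty ↥(Spec (CommRingCat.of (S ⊗[R] K))) := inferInstance
  exact Nonempty.map (pieceIso (K := K) h hh).inv this

end Piece

section Main

open ModularCurve ModularCurve.IgusaScheme TensorProduct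

variable (N : ℕ) [NeZero N] (ℓ : ℕ) [Fact ℓ.Prime]
  (K : Type) [Field K] [Algebra ↥(GaloisRep.ratLocalizedAt ℓ) K]

set_option quotPrecheck false in
local notation "ℤℓ" => ↥(GaloisRep.ratLocalizedAt ℓ)

theorem fFin_comp_toBase :
    fFin N ℓ ≫ Spec.map (CommRingCat.ofHom (algebraMap ℤℓ (chartAlgFin N ℓ))) =
      Spec.map (CommRingCat.ofHom (algebraMap ℤℓ (chartAlgMid N ℓ))) := by
  have h : (inclFin N ℓ).toRingHom.comp (algebraMap ℤℓ (chartAlgFin N ℓ)) =
      algebraMap ℤℓ (chartAlgMid N ℓ) :=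
    RingHom.ext fun a => (inclFin N ℓ).commutes a
  simp only [← Spec.map_comp, ← CommRingCat.ofHom_comp, h]

/-- **Package AG.** If the base changes of the two charts are domains and the base change of the
overlap is nontrivial, the base change of the Igusa scheme is integral. -/
theorem isIntegral_pullback_igusaTo
    (hfin : IsDomain (↥(chartAlgFin N ℓ) ⊗[ℤℓ] K))
    (hinf : IsDomain (↥(chartAlgInf N ℓ) ⊗[ℤℓ] K))
    (hmid : Nontrivial (↥(chartAlgMid N ℓ) ⊗[ℤℓ] K)) :
    IsIntegral ↑(pullback (igusaTo N ℓ) (gK ℓ K)) := by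
  let 𝒱 := Scheme.Pullback.openCoverOfLeft (cover0 N ℓ) (igusaTo N ℓ) (gK ℓ K)
  -- the three structure maps
  have eL : (cover0 N ℓ).f WalkingSpan.left ≫ igusaTo N ℓ =
      Spec.map (CommRingCat.ofHom (algebraMap ℤℓ (chartAlgFin N ℓ))) := ιFin_igusaTo N ℓ
  have eR : (cover0 N ℓ).f WalkingSpan.right ≫ igusaTo N ℓ =
      Spec.map (CommRingCat.ofHom (algebraMap ℤℓ (chartAlgInf N ℓ))) := ιInf_igusaTo N ℓ
  have eM : (cover0 N ℓ).f none ≫ igusaTo N ℓ =
      Spec.map (CommRingCat.ofHom (algebraMap ℤℓ (chartAlgMid N ℓ))) :=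
    (congrArg (· ≫ igusaTo N ℓ) (cover0_f_none_fin N ℓ)).trans
      ((Category.assoc _ _ _).trans
        ((congrArg (fFin N ℓ ≫ ·) (ιFin_igusaTo N ℓ)).trans (fFin_comp_toBase N ℓ)))
  haveI : IsIntegral (𝒱.X WalkingSpan.left) := isIntegral_piece (K := K) _ eL
  haveI : IsIntegral (𝒱.X WalkingSpan.right) := isIntegral_piece (K := K) _ eR
  have hne : Nonempty ↥(𝒱.X none) := nonempty_piece (K := K) _ eM
  haveI : IsOpenImmersion (𝒱.f WalkingSpan.left) := 𝒱.map_prop _
  haveI : IsOpenImmersion (𝒱.f WalkingSpan.right) := 𝒱.map_prop _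
  -- the middle piece factors through both
  have hML : 𝒱.f none = _ ≫ 𝒱.f WalkingSpan.left :=
    pullback_map_factor (igusaTo N ℓ) (gK ℓ K) ((cover0 N ℓ).f WalkingSpan.left)
      ((cover0 N ℓ).f none) (fFin N ℓ) (cover0_f_none_fin N ℓ)
  have hMR : 𝒱.f none = _ ≫ 𝒱.f WalkingSpan.right :=
    pullback_map_factor (igusaTo N ℓ) (gK ℓ K) ((cover0 N ℓ).f WalkingSpan.right)
      ((cover0 N ℓ).f none) (fInf N ℓ) (cover0_f_none_inf N ℓ)
  refine isIntegral_of_two_opens (𝒱.f WalkingSpan.left) (𝒱.f WalkingSpan.right) ?_ ?_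
  · intro x
    obtain ⟨i, y, hy⟩ := 𝒱.exists_eq x
    rcases i with (_ | _ | _)
    · left
      rw [← hy, hML]
      exact ⟨_, rfl⟩
    · exact Or.inl ⟨y, hy⟩
    · exact Or.inr ⟨y, hy⟩
  · obtain ⟨y⟩ := hne
    refine ⟨𝒱.f none y, ?_, ?_⟩
    · rw [hML]
      exact ⟨_, rfl⟩
    · rw [hMR]
      exact ⟨_, rfl⟩

end Main

end Fermat.Agent.S28.AG
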