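import Fermat.Agent.S28.KeyPlug61
import Fermat.Agent.S28.MainKernelCore
import Fermat.Agent.S28.GaussRingRat

/-!
# S28 / ALG: instantiation of the abstract kernel core — `KeyStatement N ℓ → RedStatement N ℓ`

Concrete setting: `F = F_N = modularFunctionFieldFull N`, `F₀ = ℚ(j)`, `O' = 𝒪 ∩ F` (`ORingF.OF`),
`ρ = rhoF`, `V = 𝒪 ∩ ℚ(j)` (`GaussRing.gaussSubring`), `κ₀ = 𝔽_ℓ(t)`.
-/

set_option autoImplicit false
set_option linter.unusedSectionVars false

namespace Fermat.Agent.S28.AlgFinal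

open ModularCurve HahnSeries ModularCurve.IgusaScheme IntermediateField Polynomial
open Fermat.Agent.S28 Fermat.Agent.S28.ORing Fermat.Agent.S28.KeyPlug

/-! ### Generic algebra -/

section Generic

/-- Integrality over a subalgebra, seen as a subring. -/
theorem isIntegral_toSubring_iff' {R A : Type*} [CommRing R] [CommRing A] [Algebra R A]
    (S : Subalgebra R A) (a : A) : IsIntegral S.toSubring a ↔ IsIntegral S a := by
  constructor
  · intro h
    let φ : S.toSubring →+* S :=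
      { toFun := fun c => ⟨c.1, c.2⟩
        map_one' := rfl
        map_mul' := fun _ _ => rfl
        map_zero' := rfl
        map_add' := fun _ _ => rfl }
    exact h.map_of_comp_eq φ (RingHom.id _) (by ext; rfl)
  · intro h
    let φ : S →+* S.toSubring :=
      { toFun := fun c => ⟨c.1, c.2⟩
        map_one' := rfl
        map_mul' := fun _ _ => rfl
        map_zero' := rfl
        map_add' := fun _ _ => rfl }
    exact h.map_of_comp_eq φ (RingHom.id _) (by ext; rfl)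

open scoped IntermediateField.algebraAdjoinAdjoin in
/-- `K[s]` is integrally closed in `K(s)` for `s` transcendental over `K`. -/
theorem mem_adjoin_of_isIntegral {K E : Type*} [Field K] [Field E] [Algebra K E] (s : E)
    (hs : Transcendental K s) (c : E) (hc : c ∈ K⟮s⟯)
    (hint : IsIntegral (Algebra.adjoin K {s}) c) : c ∈ Algebra.adjoin K {s} := by
  have hcl : IsIntegrallyClosed (Algebra.adjoin K {s}) :=
    IsIntegrallyClosed.of_equiv (Polynomial.algEquivOfTranscendental K s hs).toRingEquiv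
  have hint' : IsIntegral (Algebra.adjoin K {s}) (⟨c, hc⟩ : K⟮s⟯) := by
    have h1 : IsIntegral (Algebra.adjoin K {s}) (algebraMap K⟮s⟯ E ⟨c, hc⟩) := hint
    exact (isIntegral_algebraMap_iff (algebraMap K⟮s⟯ E).injective).1 h1
  obtain ⟨y, hy⟩ := (IsIntegrallyClosed.isIntegral_iff (K := K⟮s⟯)).mp hint'
  have h2 : (y : E) = c := congrArg Subtype.val hy
  rw [← h2]
  exact y.2

end Generic

/-! ### Concrete inputs of `GaussRing` -/

section Concrete

variable (ℓ : ℕ) [Fact ℓ.Prime] (N : ℕ) [NeZero N]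

/-- The uniformiser `ℓ ∈ ℤ_(ℓ)`. -/
noncomputable abbrev lRl : Rl ℓ := ((ℓ : ℕ) : Rl ℓ)

theorem resR_lRl : resR ℓ (lRl ℓ) = 0 := by
  rw [map_natCast]
  exact ZMod.natCast_self ℓ

theorem hRO (r : Rl ℓ) :
    algebraMap ℚ (modularFunctionFieldFull N) (algebraMap (Rl ℓ) ℚ r) ∈ OF ℓ N :=
  algebraMap_mem_OF ℓ N r

theorem hρR (r : Rl ℓ) :
    rhoF ℓ N ⟨algebraMap ℚ (modularFunctionFieldFull N) (algebraMap (Rl ℓ) ℚ r), hRO ℓ N r⟩ =
      algebraMap (ZMod ℓ) (LaurentSeries (ZMod ℓ)) (resR ℓ r) := by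
  rw [HahnSeries.algebraMap_apply', PowerSeries.algebraMap_apply, Algebra.algebraMap_self,
    RingHom.id_apply, HahnSeries.ofPowerSeries_C]
  exact rhoF_algebraMap ℓ N r

theorem hunit (x : OF ℓ N) (hx : rhoF ℓ N x ≠ 0) : IsUnit x := by
  have hx0 : (x : modularFunctionFieldFull N) ≠ 0 := by
    intro h
    apply hx
    have : x = 0 := Subtype.ext h
    rw [this, map_zero]
  refine IsUnit.of_mul_eq_one ⟨(x : modularFunctionFieldFull N)⁻¹,
    inv_mem_OF_of_rhoF_ne_zero ℓ N x hx⟩ (Subtype.ext ?_)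
  exact mul_inv_cancel₀ hx0

theorem transcendental_rhoF_jFull :
    Transcendental (ZMod ℓ) (rhoF ℓ N ⟨jFull N, jFull_mem_OF ℓ N⟩) := by
  rw [rhoF_jFull]
  exact GaussRingRat.transcendental_jqModC _

theorem rhoF_jFull_inv :
    rhoF ℓ N ⟨(jFull N)⁻¹, jFull_inv_mem_OF ℓ N⟩ = (jqModC (ZMod ℓ))⁻¹ := by
  rw [rhoF_apply]
  have h : (⟨(((jFull N)⁻¹ : modularFunctionFieldFull N) : LaurentSeries ℚ),
      jFull_inv_mem_OF ℓ N⟩ : O ℓ) = ⟨jq⁻¹, jq_inv_mem_O ℓ⟩ := Subtype.ext (by simp)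
  rw [h, rho_jq_inv]

theorem transcendental_rhoF_jFull_inv :
    Transcendental (ZMod ℓ) (rhoF ℓ N ⟨(jFull N)⁻¹, jFull_inv_mem_OF ℓ N⟩) := by
  rw [rhoF_jFull_inv]
  exact GaussRingRat.transcendental_jqModC_inv _

theorem algebraMap_lRl :
    algebraMap ℚ (modularFunctionFieldFull N) (algebraMap (Rl ℓ) ℚ (lRl ℓ)) =
      (ℓ : modularFunctionFieldFull N) := by
  rw [map_natCast, map_natCast]

theorem l_ne_zero_F : (ℓ : modularFunctionFieldFull N) ≠ 0 :=
  Nat.cast_ne_zero.2 (Fact.out : ℓ.Prime).ne_zero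

/-- `V = 𝒪 ∩ ℚ(j)` as a subring of `F_N`. -/
noncomputable def V : Subring (modularFunctionFieldFull N) :=
  GaussRing.gaussSubring (Q := ℚ) (OF ℓ N) (jFull N)

theorem mem_V_iff (x : modularFunctionFieldFull N) :
    x ∈ V ℓ N ↔ x ∈ OF ℓ N ∧ x ∈ F0 N := Iff.rfl

theorem hV1 (c : modularFunctionFieldFull N) (hc : c ∈ F0 N) (hc0 : c ≠ 0) :
    ∃ (m : ℤ) (v : modularFunctionFieldFull N), v ∈ V ℓ N ∧ v⁻¹ ∈ V ℓ N ∧
      c = (ℓ : modularFunctionFieldFull N) ^ m * v := by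
  have h := GaussRing.gaussSubring_hV1 (resR ℓ) (lRl ℓ) (OF ℓ N) (rhoF ℓ N) (jFull N)
    (GaussRingRat.algebraMap_injective ℓ) (GaussRingRat.natCast_ne_zero ℓ)
    (GaussRingRat.exists_zpow_mul_unit ℓ) (hRO ℓ N) (hρR ℓ N) (hunit ℓ N) (jFull_mem_OF ℓ N)
    (transcendental_rhoF_jFull ℓ N) c hc hc0
  rw [algebraMap_lRl] at h
  exact h

theorem hρV (v : modularFunctionFieldFull N) (hv : v ∈ V ℓ N) :
    rhoF ℓ N ⟨v, hv.1⟩ ∈ kappa0 ℓ := by
  have h := GaussRing.gaussSubring_rho_mem (resR ℓ) (lRl ℓ) (OF ℓ N) (rhoF ℓ N) (jFull N)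
    (GaussRingRat.algebraMap_injective ℓ) (GaussRingRat.natCast_ne_zero ℓ) (resR_lRl ℓ)
    (GaussRingRat.exists_zpow_mul_unit ℓ) (hRO ℓ N) (hρR ℓ N) (hunit ℓ N) (jFull_mem_OF ℓ N)
    (transcendental_rhoF_jFull ℓ N) v hv
  rw [rhoF_jFull] at h
  exact h

theorem hVcl (c : modularFunctionFieldFull N) (hc : c ∈ F0 N) (hint : IsIntegral (V ℓ N) c) :
    c ∈ V ℓ N :=
  GaussRing.gaussSubring_integrallyClosed (resR ℓ) (lRl ℓ) (OF ℓ N) (rhoF ℓ N) (jFull N)
    (GaussRingRat.algebraMap_injective ℓ) (GaussRingRat.natCast_ne_zero ℓ)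
    (GaussRingRat.exists_zpow_mul_unit ℓ) (hRO ℓ N) (hρR ℓ N) (hunit ℓ N) (jFull_mem_OF ℓ N)
    (transcendental_rhoF_jFull ℓ N) c hc hint

theorem rhoF_l : rhoF ℓ N ⟨(ℓ : modularFunctionFieldFull N), natCast_mem_OF ℓ N ℓ⟩ = 0 := by
  rw [rhoF_eq_zero_iff]
  exact ⟨1, by simp⟩

/-- The concrete setting. -/
noncomputable def setting :
    MainKernel.Setting (modularFunctionFieldFull N) (LaurentSeries (ZMod ℓ)) where
  F₀ := F0 N
  V := V ℓ N
  O' := OF ℓ N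
  κ₀ := kappa0 ℓ
  ρ := rhoF ℓ N
  ℓ := (ℓ : modularFunctionFieldFull N)
  hℓ0 := l_ne_zero_F ℓ N
  hVF₀ := fun _ hx => hx.2
  hVO := fun _ hx => hx.1
  hℓV := ⟨natCast_mem_OF ℓ N ℓ, _root_.natCast_mem _ ℓ⟩
  hρℓ := rhoF_l ℓ N
  hρV := hρV ℓ N
  hV1 := hV1 ℓ N

/-! ### Transcendence of `j` and `1/j` over `ℚ` -/

theorem transcendental_jFull : Transcendental ℚ (jFull N) := by
  have h : Transcendental ℚ jq := by
    rw [← jqModC_rat]
    exact GaussRingRat.transcendental_jqModC ℚ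
  intro halg
  apply h
  obtain ⟨p, hp0, hp⟩ := halg
  refine ⟨p, hp0, ?_⟩
  have key := Polynomial.map_aeval_eq_aeval_map (φ := RingHom.id ℚ)
    (ψ := algebraMap (modularFunctionFieldFull N) (LaurentSeries ℚ)) (RingHom.ext_rat _ _) p
    (jFull N)
  rw [hp, map_zero, Polynomial.map_id] at key
  exact key.symm

theorem transcendental_jFull_inv : Transcendental ℚ (jFull N)⁻¹ := by
  intro h
  exact transcendental_jFull N (by simpa using h.inv)

/-! ### The kernel statement on a chart `ℤ_(ℓ)[s]`, `s ∈ {j, 1/j}` -/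

section Core

variable (s : modularFunctionFieldFull N) (hsO : s ∈ OF ℓ N) (hsF0 : s ∈ F0 N)
  (hts : Transcendental (ZMod ℓ) (rhoF ℓ N ⟨s, hsO⟩)) (htsQ : Transcendental ℚ s)
  (hF0s : ∀ c ∈ F0 N, c ∈ ℚ⟮s⟯)

/-- `P = ℚ[s]`. -/
noncomputable def Ps : Subring (modularFunctionFieldFull N) := (Algebra.adjoin ℚ {s}).toSubring

/-- `R' = ℤ_(ℓ)[s]`. -/
noncomputable def Rs : Subring (modularFunctionFieldFull N) :=
  (Algebra.adjoin (Rl ℓ) {s}).toSubring

include hsF0 in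
theorem Ps_le_F0 : Ps N s ≤ (F0 N).toSubring := by
  intro c hc
  have hc' : c ∈ Algebra.adjoin ℚ {s} := hc
  have hle : Algebra.adjoin ℚ {s} ≤ (ℚ⟮jFull N⟯).toSubalgebra :=
    Algebra.adjoin_le (Set.singleton_subset_iff.2 hsF0)
  exact hle hc'

theorem Rs_le_Ps : Rs ℓ N s ≤ Ps N s := by
  intro c hc
  have hc' : c ∈ Algebra.adjoin (Rl ℓ) {s} := hc
  clear hc
  show c ∈ Algebra.adjoin ℚ {s}
  induction hc' using Algebra.adjoin_induction with
  | mem y hy => exact Algebra.subset_adjoin hy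
  | algebraMap r => exact Subalgebra.algebraMap_mem _ (r : ℚ)
  | add y z _ _ hy hz => exact add_mem hy hz
  | mul y z _ _ hy hz => exact mul_mem hy hz

include hsO in
theorem Rs_le_OF : Rs ℓ N s ≤ OF ℓ N := by
  intro c hc
  have hc' : c ∈ Algebra.adjoin (Rl ℓ) {s} := hc
  exact coe_mem_O_of_mem_adjoin ℓ N {s} (by rintro t rfl; exact hsO) hc'

theorem l_inv_mem_Ps : (ℓ : modularFunctionFieldFull N)⁻¹ ∈ Ps N s := by
  have h : (ℓ : modularFunctionFieldFull N)⁻¹ =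
      algebraMap ℚ (modularFunctionFieldFull N) ((ℓ : ℚ)⁻¹) := by
    rw [map_inv₀, map_natCast]
  rw [h]
  exact Subalgebra.algebraMap_mem (Algebra.adjoin ℚ {s}) _

include htsQ hF0s in
theorem hPcl (c : modularFunctionFieldFull N) (hc : c ∈ F0 N) (hint : IsIntegral (Ps N s) c) :
    c ∈ Ps N s :=
  mem_adjoin_of_isIntegral s htsQ c (hF0s c hc) ((isIntegral_toSubring_iff' _ c).1 hint)

include hts in
theorem hPV : Ps N s ⊓ V ℓ N ≤ Rs ℓ N s := by
  rintro c ⟨hcP, hcV⟩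
  have hcP' : c ∈ Algebra.adjoin ℚ {s} := hcP
  obtain ⟨a₀, ha₀⟩ := GaussRing.exists_lift_of_mem_adjoin (resR ℓ) (lRl ℓ) (OF ℓ N) (rhoF ℓ N) s
    (GaussRingRat.algebraMap_injective ℓ) (GaussRingRat.natCast_ne_zero ℓ) (resR_lRl ℓ)
    (GaussRingRat.exists_zpow_mul_unit ℓ) (hRO ℓ N) (hρR ℓ N) hsO hts c hcV.1 hcP'
  show c ∈ Algebra.adjoin (Rl ℓ) {s}
  rw [ha₀, Polynomial.aeval_map_algebraMap]
  exact Polynomial.aeval_mem_adjoin_singleton _ _

include hsO hsF0 hts htsQ hF0s in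
/-- The abstract kernel statement for `R' = ℤ_(ℓ)[s]`. -/
theorem core {n : ℕ} (x : Fin n → OF ℓ N)
    (hx : LinearIndependent (kappa0 ℓ) (fun i => rhoF ℓ N (x i)))
    (hfd : FiniteDimensional (F0 N) (modularFunctionFieldFull N))
    (hn : Module.finrank (F0 N) (modularFunctionFieldFull N) ≤ n)
    (a : modularFunctionFieldFull N) (ha : IsIntegral (Rs ℓ N s) a) :
    ∃ haO : a ∈ OF ℓ N, (rhoF ℓ N ⟨a, haO⟩ = 0 →
      ∃ b : modularFunctionFieldFull N, IsIntegral (Rs ℓ N s) b ∧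
        a = (ℓ : modularFunctionFieldFull N) * b) := by
  have : FiniteDimensional (setting ℓ N).F₀ (modularFunctionFieldFull N) := hfd
  exact MainKernel.exists_eq_mul_of_rho_eq_zero (setting ℓ N) x hx hn (Ps N s) (Rs ℓ N s)
    (Ps_le_F0 N s hsF0) (Rs_le_Ps ℓ N s) (Rs_le_OF ℓ N s hsO) (l_inv_mem_Ps ℓ N s)
    (hPcl N s htsQ hF0s) (hVcl ℓ N) (hPV ℓ N s hsO hts) (mem_OF_of_isIntegral ℓ N)
    (fun y hy => (rhoF_eq_zero_iff ℓ N y).1 hy) a ha

end Core

/-! ### The final statement -/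

theorem jFull_mem_F0 : jFull N ∈ F0 N := IntermediateField.mem_adjoin_simple_self ℚ _

theorem jFull_inv_mem_F0 : (jFull N)⁻¹ ∈ F0 N := (F0 N).inv_mem (jFull_mem_F0 N)

theorem F0_le_adjoin_inv (c : modularFunctionFieldFull N) (hc : c ∈ F0 N) :
    c ∈ ℚ⟮(jFull N)⁻¹⟯ := by
  have hle : ℚ⟮jFull N⟯ ≤ ℚ⟮(jFull N)⁻¹⟯ := by
    rw [IntermediateField.adjoin_simple_le_iff]
    have h2 := (ℚ⟮(jFull N)⁻¹⟯).inv_mem (IntermediateField.mem_adjoin_simple_self ℚ (jFull N)⁻¹)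
    rwa [inv_inv] at h2
  exact hle hc

/-- **ALG**: `KeyStatement N ℓ → RedStatement N ℓ`. -/
theorem redStatement_of_key (hKey : KeyStatement N ℓ) : RedStatement N ℓ := by
  obtain ⟨n, x, hx, hfd, hn⟩ := exists_key_data ℓ N hKey
  refine redStatement_of_kernels ℓ N ?_ ?_
  · exact kernel_of_core ℓ N {jFull N} (hS_fin ℓ N)
      (core ℓ N (jFull N) (jFull_mem_OF ℓ N) (jFull_mem_F0 N) (transcendental_rhoF_jFull ℓ N)
        (transcendental_jFull N) (fun c hc => hc) x hx hfd hn)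
  · exact kernel_of_core ℓ N {(jFull N)⁻¹} (hS_inf ℓ N)
      (core ℓ N (jFull N)⁻¹ (jFull_inv_mem_OF ℓ N) (jFull_inv_mem_F0 N)
        (transcendental_rhoF_jFull_inv ℓ N) (transcendental_jFull_inv N)
        (F0_le_adjoin_inv N) x hx hfd hn)

end Concrete

end Fermat.Agent.S28.AlgFinal

namespace Fermat.Agent.S28.AlgFinal

/-- **(C)** Output of ALG in the owner's argument order: `KeyStatement N ℓ → RedStatement N ℓ`. -/
theorem redStatement (N : ℕ) [NeZero N] (ℓ : ℕ) [Fact ℓ.Prime] (hKey : KeyStatement N ℓ) :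
    RedStatement N ℓ :=
  redStatement_of_key ℓ N hKey

end Fermat.Agent.S28.AlgFinal
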