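/-
S28 package KEYGLUE in the exact shape of `Fermat/Agent/S28/Interface.lean` (helper74):
`KeyLower N ℓ → KeyUpper N → KeyStatement N ℓ`.
-/
import Fermat.Agent.S28.Interface
import Fermat.Agent.S28.KeyGlue

set_option autoImplicit false

noncomputable section

namespace Fermat.Agent.S28

open ModularCurve IntermediateField

/-- **KEYGLUE**: `KEYL ∧ KEY0 ⇒ KEY(N, ℓ)`. -/
theorem keyStatement_of_keyLower_keyUpper (N : ℕ) [NeZero N] (ℓ : ℕ) [Fact ℓ.Prime]
    (hL : KeyLower N ℓ) (h0 : KeyUpper N) : KeyStatement N ℓ := by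
  obtain ⟨K', hField, hChar, hle⟩ := hL
  obtain ⟨x, -, hx, hlin⟩ :=
    KeyGlue.exists_monomials_of_le_relrank N ℓ K' (dedekindPsi N) hle
  exact ⟨dedekindPsi N, x, hx, hlin, h0⟩

end Fermat.Agent.S28
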