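import Mathlib
import Fermat.Prelude.Def_ModularCurve_LaurentCoeff

/-!
# S28 package [TENSOR] (helper42)

`A ⊗[R] K` is a domain as soon as `A` has a "reduction" ring hom `red : A → k((q))`
(semilinear over a surjection `π : R → k` onto a field `k ↪ K`) whose kernel is generated by
`ker π`.  The comparison map `Phi : A ⊗[R] K → K((q))`, `a ⊗ c ↦ coeffMap ι (red a) * C c`, is
injective (choose a `k`-basis of `K`).

Main results: `Phi_injective`, `isDomain_tensor`, `nontrivial_tensor`.
-/

set_option autoImplicit false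

namespace Fermat.Agent.S28.Tensor

open TensorProduct ModularCurve

universe uR uA uK uk

variable {R : Type uR} {A : Type uA} {K : Type uK} {k : Type uk} [CommRing R] [CommRing A] [Algebra R A] [Field K] [Algebra R K]
  [Field k]

theorem algebraMap_R_laurent (r : R) :
    algebraMap R (LaurentSeries K) r = HahnSeries.C (algebraMap R K r) := by
  rw [HahnSeries.algebraMap_apply', PowerSeries.algebraMap_apply, HahnSeries.ofPowerSeries_C]

theorem algebraMap_K_laurent (c : K) :
    algebraMap K (LaurentSeries K) c = HahnSeries.C c := by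
  rw [algebraMap_R_laurent]; rfl

/-- Mathlib's instance search finds the coefficientwise action first; this is the tower
instance for the action coming from `HahnSeries.powerSeriesAlgebra`. -/
theorem isScalarTower_laurent :
    @IsScalarTower R R (LaurentSeries K) _ Algebra.toSMul Algebra.toSMul :=
  @IsScalarTower.left R (LaurentSeries K) _
    (@DistribMulAction.toMulAction _ _ _ _ (@Module.toDistribMulAction _ _ _ _ Algebra.toModule))

section

variable (π : R →+* k) (ι : k →+* K) (red : A →+* LaurentSeries k)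

/-- the `R`-algebra hom `A → K((q))`. -/
noncomputable def redK (hι : ι.comp π = algebraMap R K)
    (hred_smul : ∀ (r : R) (a : A), red (r • a) = HahnSeries.C (π r) * red a) :
    A →ₐ[R] LaurentSeries K :=
  { toRingHom := (coeffMap ι).comp red
    commutes' := fun r => by
      show coeffMap ι (red (algebraMap R A r)) = algebraMap R (LaurentSeries K) r
      have h1 : algebraMap R A r = r • (1 : A) := by rw [Algebra.smul_def, mul_one]
      rw [h1, hred_smul, map_one, mul_one, algebraMap_R_laurent, ← hι]
      show coeffMap ι (HahnSeries.single 0 (π r)) = _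
      rw [coeffMap_single]
      rfl }

/-- the constants `K → K((q))` as an `R`-algebra hom. -/
noncomputable def constK : K →ₐ[R] LaurentSeries K :=
  { toRingHom := algebraMap K (LaurentSeries K)
    commutes' := fun r => by
      show algebraMap K (LaurentSeries K) (algebraMap R K r) = algebraMap R (LaurentSeries K) r
      rw [algebraMap_K_laurent, algebraMap_R_laurent] }

/-- the comparison map `A ⊗[R] K → K((q))`. -/
noncomputable def Phi (hι : ι.comp π = algebraMap R K)
    (hred_smul : ∀ (r : R) (a : A), red (r • a) = HahnSeries.C (π r) * red a) :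
    A ⊗[R] K →+* LaurentSeries K :=
  have := isScalarTower_laurent (R := R) (K := K)
  (Algebra.TensorProduct.lift (redK π ι red hι hred_smul) (constK (R := R) (K := K))
    (fun _ _ => Commute.all _ _)).toRingHom

theorem Phi_tmul (hι : ι.comp π = algebraMap R K)
    (hred_smul : ∀ (r : R) (a : A), red (r • a) = HahnSeries.C (π r) * red a) (a : A) (c : K) :
    Phi π ι red hι hred_smul (a ⊗ₜ[R] c) = coeffMap ι (red a) * HahnSeries.C c := by
  have := isScalarTower_laurent (R := R) (K := K)
  show (Algebra.TensorProduct.lift (redK π ι red hι hred_smul) (constK (R := R) (K := K))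
    (fun _ _ => Commute.all _ _)) (a ⊗ₜ[R] c) = _
  rw [Algebra.TensorProduct.lift_tmul]
  show coeffMap ι (red a) * algebraMap K (LaurentSeries K) c = _
  rw [algebraMap_K_laurent]

theorem coeff_Phi_tmul (hι : ι.comp π = algebraMap R K)
    (hred_smul : ∀ (r : R) (a : A), red (r • a) = HahnSeries.C (π r) * red a) (a : A) (c : K)
    (n : ℤ) :
    (Phi π ι red hι hred_smul (a ⊗ₜ[R] c)).coeff n = ι ((red a).coeff n) * c := by
  rw [Phi_tmul, mul_comm, HahnSeries.C_mul_eq_smul, HahnSeries.coeff_smul, coeffMap_coeff,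
    smul_eq_mul, mul_comm]

/-- `f ↦ ∑ f i ⊗ e i`. -/
noncomputable def Psi {I : Type*} (e : I → K) : (I →₀ A) →+ A ⊗[R] K :=
  Finsupp.liftAddHom (fun i => ((TensorProduct.mk R A K).flip (e i)).toAddMonoidHom)

theorem Psi_apply {I : Type*} (e : I → K) (f : I →₀ A) :
    Psi (R := R) e f = ∑ i ∈ f.support, f i ⊗ₜ[R] e i := by
  rw [Psi, Finsupp.liftAddHom_apply, Finsupp.sum]
  rfl

theorem Psi_single {I : Type*} (e : I → K) (i : I) (a : A) :
    Psi (R := R) e (Finsupp.single i a) = a ⊗ₜ[R] e i := by
  rw [Psi, Finsupp.liftAddHom_apply_single]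
  rfl

/-- every tensor is of the form `∑ a i ⊗ e i` when the `e i` span `K` over `k`. -/
theorem Psi_surjective (hπ : Function.Surjective π) (hι : ι.comp π = algebraMap R K)
    {I : Type*} (e : I → K)
    (hspan : ∀ c : K, ∃ (s : Finset I) (x : I → k), c = ∑ i ∈ s, ι (x i) * e i) :
    Function.Surjective (Psi (R := R) (A := A) e) := by
  intro z
  induction z using TensorProduct.induction_on with
  | zero => exact ⟨0, map_zero _⟩
  | tmul a c =>
    obtain ⟨s, x, rfl⟩ := hspan c
    choose r hr using fun i => hπ (x i)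
    refine ⟨∑ i ∈ s, Finsupp.single i (r i • a), ?_⟩
    rw [map_sum, TensorProduct.tmul_sum]
    refine Finset.sum_congr rfl fun i _ => ?_
    rw [Psi_single, TensorProduct.smul_tmul, Algebra.smul_def, ← hι, RingHom.comp_apply, hr]
  | add z₁ z₂ h₁ h₂ =>
    obtain ⟨f₁, rfl⟩ := h₁
    obtain ⟨f₂, rfl⟩ := h₂
    exact ⟨f₁ + f₂, map_add _ _ _⟩

theorem coeff_Phi_Psi (hι : ι.comp π = algebraMap R K)
    (hred_smul : ∀ (r : R) (a : A), red (r • a) = HahnSeries.C (π r) * red a)
    {I : Type*} (e : I → K) (f : I →₀ A) (n : ℤ) :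
    (Phi π ι red hι hred_smul (Psi e f)).coeff n =
      ∑ i ∈ f.support, ι ((red (f i)).coeff n) * e i := by
  rw [Psi_apply, map_sum]
  rw [← HahnSeries.coeff.addMonoidHom_apply, map_sum]
  refine Finset.sum_congr rfl fun i _ => ?_
  rw [HahnSeries.coeff.addMonoidHom_apply, coeff_Phi_tmul]

theorem Psi_eq_zero_of_Phi (hι : ι.comp π = algebraMap R K)
    (hred_smul : ∀ (r : R) (a : A), red (r • a) = HahnSeries.C (π r) * red a)
    (hker : ∀ a : A, red a = 0 → ∃ (r : R) (b : A), π r = 0 ∧ a = r • b)
    {I : Type*} (e : I → K)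
    (hli : ∀ (s : Finset I) (x : I → k), ∑ i ∈ s, ι (x i) * e i = 0 → ∀ i ∈ s, x i = 0)
    (f : I →₀ A) (hf : Phi π ι red hι hred_smul (Psi e f) = 0) : Psi (R := R) e f = 0 := by
  have hred : ∀ i ∈ f.support, red (f i) = 0 := by
    intro i hi
    ext n
    have h := coeff_Phi_Psi π ι red hι hred_smul e f n
    rw [hf, HahnSeries.coeff_zero] at h
    exact hli f.support (fun i => (red (f i)).coeff n) h.symm i hi
  rw [Psi_apply]
  refine Finset.sum_eq_zero fun i hi => ?_
  obtain ⟨r, b, hr, hb⟩ := hker (f i) (hred i hi)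
  rw [hb, TensorProduct.smul_tmul, Algebra.smul_def, ← hι, RingHom.comp_apply, hr, map_zero,
    zero_mul, TensorProduct.tmul_zero]

theorem Phi_injective_of_basis (hπ : Function.Surjective π) (hι : ι.comp π = algebraMap R K)
    (hred_smul : ∀ (r : R) (a : A), red (r • a) = HahnSeries.C (π r) * red a)
    (hker : ∀ a : A, red a = 0 → ∃ (r : R) (b : A), π r = 0 ∧ a = r • b)
    {I : Type*} (e : I → K)
    (hspan : ∀ c : K, ∃ (s : Finset I) (x : I → k), c = ∑ i ∈ s, ι (x i) * e i)
    (hli : ∀ (s : Finset I) (x : I → k), ∑ i ∈ s, ι (x i) * e i = 0 → ∀ i ∈ s, x i = 0) :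
    Function.Injective (Phi π ι red hι hred_smul) := by
  rw [injective_iff_map_eq_zero]
  intro z hz
  obtain ⟨f, rfl⟩ := Psi_surjective π ι hπ hι e hspan z
  exact Psi_eq_zero_of_Phi π ι red hι hred_smul hker e hli f hz

theorem exists_basis_data :
    ∃ (I : Type uK) (e : I → K),
      (∀ c : K, ∃ (s : Finset I) (x : I → k), c = ∑ i ∈ s, ι (x i) * e i) ∧
      (∀ (s : Finset I) (x : I → k), ∑ i ∈ s, ι (x i) * e i = 0 → ∀ i ∈ s, x i = 0) := by
  let _ : Algebra k K := ι.toAlgebra
  let b := Module.Free.chooseBasis k K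
  refine ⟨_, ⇑b, ?_, ?_⟩
  · intro c
    refine ⟨(b.repr c).support, ⇑(b.repr c), ?_⟩
    conv_lhs => rw [← b.linearCombination_repr c, Finsupp.linearCombination_apply, Finsupp.sum]
    rfl
  · intro s x h
    exact linearIndependent_iff'.mp b.linearIndependent s x h

theorem Phi_injective (hπ : Function.Surjective π) (hι : ι.comp π = algebraMap R K)
    (hred_smul : ∀ (r : R) (a : A), red (r • a) = HahnSeries.C (π r) * red a)
    (hker : ∀ a : A, red a = 0 → ∃ (r : R) (b : A), π r = 0 ∧ a = r • b) :
    Function.Injective (Phi π ι red hι hred_smul) := by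
  obtain ⟨I, e, hspan, hli⟩ := exists_basis_data (K := K) (k := k) ι
  exact Phi_injective_of_basis π ι red hπ hι hred_smul hker e hspan hli

/-- **[TENSOR]**: `A ⊗[R] K` is a domain. -/
theorem isDomain_tensor (hπ : Function.Surjective π) (hι : ι.comp π = algebraMap R K)
    (hred_smul : ∀ (r : R) (a : A), red (r • a) = HahnSeries.C (π r) * red a)
    (hker : ∀ a : A, red a = 0 → ∃ (r : R) (b : A), π r = 0 ∧ a = r • b) :
    IsDomain (A ⊗[R] K) :=
  (Phi_injective π ι red hπ hι hred_smul hker).isDomain _

/-- **[TENSOR]**, nontriviality only (no kernel condition needed). -/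
theorem nontrivial_tensor (hι : ι.comp π = algebraMap R K)
    (hred_smul : ∀ (r : R) (a : A), red (r • a) = HahnSeries.C (π r) * red a) :
    Nontrivial (A ⊗[R] K) :=
  (Phi π ι red hι hred_smul).domain_nontrivial

end

end Fermat.Agent.S28.Tensor
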