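import Fermat.Agent.S28.Interface
import Fermat.Agent.S28.Tensor

/-!
# S28 package [TENSOR]: the interface statement `TensorStatement` (helper42)
-/

set_option autoImplicit false

namespace Fermat.Agent.S28.Tensor

/-- The interface statement of the TENSOR package holds. -/
theorem tensorStatement : Fermat.Agent.S28.TensorStatement :=
  fun _ _ _ _ _ _ _ _ _ _ π hπ ι hι red hred =>
    ⟨nontrivial_tensor π ι red hι hred, fun hker => isDomain_tensor π ι red hπ hι hred hker⟩

end Fermat.Agent.S28.Tensor
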