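/-
S28 package ANQ (helper38, second seat / unit family): generic machinery.

Part A: Taylor series toolkit on the unit disc (on top of `Fermat.Agent.S24.JBridge.taylorPS`):
  `taylorPS_eq_of_hasSum` (uniqueness of power series expansions),
  `coeff_taylorPS_comp_mul_pow` (Taylor series of `u ↦ G (c * u ^ n)`),
  `ofPowerSeries_taylorPS_comp` (the same, as `Subst.subst c n` on Laurent series).
-/
import Mathlib
import Fermat.Agent.S24.JBridge
import Fermat.Agent.S28.Subst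

set_option autoImplicit false

noncomputable section

namespace Fermat.Agent.S28.AnQCore38

open Metric Filter Topology HahnSeries ModularCurve
open Fermat.Agent.S24.JBridge (taylorPS coeff_taylorPS taylorPS_congr taylorPS_mul taylorPS_one
  taylorPS_pow hasSum_taylorPS analyticAt_zero_of_differentiableOn_ball)

/-! ### Part A: Taylor series toolkit -/

/-- **Uniqueness of power series expansions**: if `G` is holomorphic on the unit disc and
`G u = ∑ b_j u^j` there, then `b` is the Taylor series of `G`. -/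
theorem coeff_taylorPS_of_hasSum {G : ℂ → ℂ} (hG : DifferentiableOn ℂ G (ball 0 1)) (b : ℕ → ℂ)
    (hb : ∀ u : ℂ, ‖u‖ < 1 → HasSum (fun j : ℕ => b j * u ^ j) (G u)) (j : ℕ) :
    PowerSeries.coeff j (taylorPS G) = b j := by
  have hA : AnalyticAt ℂ G 0 := analyticAt_zero_of_differentiableOn_ball hG
  have h1 := hA.hasFPowerSeriesAt
  set P : FormalMultilinearSeries ℂ ℂ ℂ := FormalMultilinearSeries.ofScalars ℂ b with hP
  -- radius of `P` is at least `1/2`
  have hrad : ((1 / 2 : NNReal) : ENNReal) ≤ P.radius := by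
    apply FormalMultilinearSeries.le_radius_of_tendsto (l := 0)
    have hs : Summable (fun j : ℕ => b j * (1 / 2 : ℂ) ^ j) := (hb (1 / 2) (by norm_num)).summable
    have ht := hs.tendsto_atTop_zero
    have ht' := (tendsto_zero_iff_norm_tendsto_zero.mp ht)
    refine ht'.congr (fun n => ?_)
    rw [hP, FormalMultilinearSeries.ofScalars_norm, norm_mul, norm_pow]
    simp
  have hpos : 0 < P.radius := lt_of_lt_of_le (by norm_num) hrad
  have h2 : HasFPowerSeriesAt P.sum P 0 := (P.hasFPowerSeriesOnBall hpos).hasFPowerSeriesAt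
  have hev : P.sum =ᶠ[𝓝 0] G := by
    filter_upwards [ball_mem_nhds (0 : ℂ) one_pos] with u hu
    have hu' : ‖u‖ < 1 := by simpa using hu
    have := (hb u hu').tsum_eq
    rw [← this, FormalMultilinearSeries.sum]
    refine tsum_congr (fun n => ?_)
    rw [hP, FormalMultilinearSeries.ofScalars_apply_eq, smul_eq_mul]
  have h3 : HasFPowerSeriesAt G P 0 := h2.congr hev
  have h4 := h1.eq_formalMultilinearSeries h3
  have h5 := FormalMultilinearSeries.ofScalars_series_injective ℂ ℂ h4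
  have h6 := congrFun h5 j
  rw [coeff_taylorPS, ← h6, div_eq_inv_mul]

theorem taylorPS_eq_of_hasSum {G : ℂ → ℂ} (hG : DifferentiableOn ℂ G (ball 0 1))
    (b : PowerSeries ℂ)
    (hb : ∀ u : ℂ, ‖u‖ < 1 → HasSum (fun j : ℕ => PowerSeries.coeff j b * u ^ j) (G u)) :
    taylorPS G = b := by
  ext j
  exact coeff_taylorPS_of_hasSum hG _ hb j

/-- the inner map `u ↦ c * u ^ n` maps the unit disc into itself. -/
theorem norm_mul_pow_lt_one {c u : ℂ} (hc : ‖c‖ ≤ 1) {n : ℕ} (hn : n ≠ 0) (hu : ‖u‖ < 1) :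
    ‖c * u ^ n‖ < 1 := by
  rw [norm_mul, norm_pow]
  have h1 : ‖u‖ ^ n < 1 := pow_lt_one₀ (norm_nonneg _) hu hn
  have h2 : 0 ≤ ‖u‖ ^ n := pow_nonneg (norm_nonneg _) _
  calc ‖c‖ * ‖u‖ ^ n ≤ 1 * ‖u‖ ^ n := mul_le_mul_of_nonneg_right hc h2
    _ < 1 := by rwa [one_mul]

theorem differentiableOn_comp_mul_pow {G : ℂ → ℂ} (hG : DifferentiableOn ℂ G (ball 0 1))
    {c : ℂ} (hc : ‖c‖ ≤ 1) {n : ℕ} (hn : n ≠ 0) :
    DifferentiableOn ℂ (fun u : ℂ => G (c * u ^ n)) (ball 0 1) := by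
  have hinner : DifferentiableOn ℂ (fun u : ℂ => c * u ^ n) (ball 0 1) := by
    fun_prop
  refine hG.comp hinner ?_
  intro u hu
  have hu' : ‖u‖ < 1 := by simpa using hu
  simpa using norm_mul_pow_lt_one hc hn hu'

/-- Taylor coefficients of `u ↦ G (c * u ^ n)`. -/
theorem coeff_taylorPS_comp_mul_pow {G : ℂ → ℂ} (hG : DifferentiableOn ℂ G (ball 0 1))
    {c : ℂ} (hc : ‖c‖ ≤ 1) {n : ℕ} (hn : n ≠ 0) (j : ℕ) :
    PowerSeries.coeff j (taylorPS (fun u : ℂ => G (c * u ^ n))) =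
      if n ∣ j then c ^ (j / n) * PowerSeries.coeff (j / n) (taylorPS G) else 0 := by
  refine coeff_taylorPS_of_hasSum (differentiableOn_comp_mul_pow hG hc hn)
    (fun j => if n ∣ j then c ^ (j / n) * PowerSeries.coeff (j / n) (taylorPS G) else 0) ?_ j
  intro u hu
  have hq := norm_mul_pow_lt_one hc hn hu
  have h1 := hasSum_taylorPS hG hq
  have hinj : Function.Injective (fun k : ℕ => n * k) := fun a b h =>
    Nat.eq_of_mul_eq_mul_left (Nat.pos_of_ne_zero hn) h
  rw [← hinj.hasSum_iff]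
  · convert h1 using 1
    funext k
    have hd : n ∣ n * k := dvd_mul_right n k
    have hk : n * k / n = k := Nat.mul_div_cancel_left k (Nat.pos_of_ne_zero hn)
    simp only [Function.comp_apply, if_pos hd, hk]
    rw [mul_pow, pow_mul]
    ring
  · intro j hj
    have hnd : ¬ n ∣ j := by
      rintro ⟨k, rfl⟩
      exact hj ⟨k, rfl⟩
    simp only [if_neg hnd, zero_mul]

/-- Taylor series of `u ↦ G (c * u ^ n)`, as a monomial substitution on Laurent series. -/
theorem ofPowerSeries_taylorPS_comp {G : ℂ → ℂ} (hG : DifferentiableOn ℂ G (ball 0 1))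
    (c : ℂˣ) (hc : ‖(c : ℂ)‖ ≤ 1) (n : ℕ) [NeZero n] :
    HahnSeries.ofPowerSeries ℤ ℂ (taylorPS (fun u : ℂ => G ((c : ℂ) * u ^ n))) =
      Subst.subst c n (HahnSeries.ofPowerSeries ℤ ℂ (taylorPS G)) := by
  have hn : n ≠ 0 := NeZero.ne n
  ext k
  rcases lt_or_ge k 0 with hk | hk
  · rw [ofPowerSeries_coeff_of_neg _ hk]
    by_cases hd : (n : ℤ) ∣ k
    · obtain ⟨k', rfl⟩ := hd
      have hk' : k' < 0 := by
        by_contra h
        have h0 : 0 ≤ k' := not_lt.mp h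
        have : 0 ≤ (n : ℤ) * k' := mul_nonneg (by positivity) h0
        omega
      rw [Subst.subst_coeff_mul, ofPowerSeries_coeff_of_neg _ hk', mul_zero]
    · rw [Subst.subst_coeff_of_not_dvd _ _ _ hd]
  · lift k to ℕ using hk
    rw [HahnSeries.ofPowerSeries_apply_coeff, coeff_taylorPS_comp_mul_pow hG hc hn]
    by_cases hd : n ∣ k
    · obtain ⟨k', rfl⟩ := hd
      rw [if_pos (dvd_mul_right n k'), Nat.mul_div_cancel_left k' (Nat.pos_of_ne_zero hn)]
      have : ((n * k' : ℕ) : ℤ) = (n : ℤ) * (k' : ℤ) := by push_cast; ring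
      rw [this, Subst.subst_coeff_mul, HahnSeries.ofPowerSeries_apply_coeff, zpow_natCast,
        Units.val_pow_eq_pow_val]
    · rw [if_neg hd, Subst.subst_coeff_of_not_dvd]
      exact fun h => hd (Int.natCast_dvd_natCast.mp h)

theorem taylorPS_const (a : ℂ) : taylorPS (fun _ : ℂ => a) = PowerSeries.C a := by
  ext m
  rw [coeff_taylorPS, iteratedDeriv_const, PowerSeries.coeff_C]
  split_ifs with h
  · subst h; simp
  · simp

theorem taylorPS_X_pow (k : ℕ) : taylorPS (fun u : ℂ => u ^ k) = PowerSeries.X ^ k := by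
  refine taylorPS_eq_of_hasSum (by fun_prop) _ (fun u _ => ?_)
  have := hasSum_ite_eq k (u ^ k)
  convert this using 1
  funext j
  rw [PowerSeries.coeff_X_pow]
  split_ifs with h
  · subst h; simp
  · simp

theorem taylorPS_add {f g : ℂ → ℂ} (hf : AnalyticAt ℂ f 0) (hg : AnalyticAt ℂ g 0) :
    taylorPS (f + g) = taylorPS f + taylorPS g := by
  ext m
  rw [map_add, coeff_taylorPS, coeff_taylorPS, coeff_taylorPS,
    iteratedDeriv_add hf.contDiffAt hg.contDiffAt, mul_add]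

theorem taylorPS_const_mul (a : ℂ) {f : ℂ → ℂ} (hf : AnalyticAt ℂ f 0) :
    taylorPS (fun u => a * f u) = PowerSeries.C a * taylorPS f := by
  have h := taylorPS_mul (f := fun _ : ℂ => a) (g := f) analyticAt_const hf
  rw [taylorPS_const] at h
  exact h

theorem taylorPS_X_pow_mul (k : ℕ) {f : ℂ → ℂ} (hf : AnalyticAt ℂ f 0) :
    taylorPS (fun u => u ^ k * f u) = PowerSeries.X ^ k * taylorPS f := by
  have h := taylorPS_mul (f := fun u : ℂ => u ^ k) (g := f) (by fun_prop) hf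
  rw [taylorPS_X_pow] at h
  exact h

/-! ### Part B: the relation "`f` has the `u`-expansion `E`", `u = exp (2πiτ/h)` -/

open UpperHalfPlane

local notation "𝕢" => Function.Periodic.qParam

/-- `f : ℍ → ℂ` has the Laurent expansion `E` in the variable `u = 𝕢 h τ = exp (2πiτ/h)`:
`f τ * u ^ m = G u` with `G` holomorphic on the unit disc and `E = u ^ (-m) * (Taylor series of G)`. -/
def HasUExp (h : ℕ) (f : ℍ → ℂ) (E : LaurentSeries ℂ) : Prop :=
  ∃ (m : ℕ) (G : ℂ → ℂ), DifferentiableOn ℂ G (ball 0 1) ∧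
    (∀ τ : ℍ, f τ * (𝕢 (h : ℝ) (τ : ℂ)) ^ m = G (𝕢 (h : ℝ) (τ : ℂ))) ∧
    E = HahnSeries.single (-(m : ℤ)) (1 : ℂ) * HahnSeries.ofPowerSeries ℤ ℂ (taylorPS G)

theorem single_neg_mul_single (m : ℕ) :
    HahnSeries.single (-(m : ℤ)) (1 : ℂ) * HahnSeries.single (m : ℤ) (1 : ℂ) = 1 := by
  rw [HahnSeries.single_mul_single, neg_add_cancel, mul_one]
  rfl

theorem single_mul_single_neg (m : ℕ) :
    HahnSeries.single (m : ℤ) (1 : ℂ) * HahnSeries.single (-(m : ℤ)) (1 : ℂ) = 1 := by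
  rw [mul_comm, single_neg_mul_single]

theorem ofPowerSeries_X_pow_mul (k : ℕ) (a : PowerSeries ℂ) :
    HahnSeries.ofPowerSeries ℤ ℂ (PowerSeries.X ^ k * a) =
      HahnSeries.single (k : ℤ) (1 : ℂ) * HahnSeries.ofPowerSeries ℤ ℂ a := by
  rw [map_mul, HahnSeries.ofPowerSeries_X_pow]

variable {h : ℕ}

theorem HasUExp.congr {f f' : ℍ → ℂ} {E : LaurentSeries ℂ} (H : HasUExp h f E)
    (hff : ∀ τ, f' τ = f τ) : HasUExp h f' E := by
  obtain ⟨m, G, hG, hf, hE⟩ := H
  exact ⟨m, G, hG, fun τ => by rw [hff, hf], hE⟩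

theorem HasUExp.const (a : ℂ) : HasUExp h (fun _ => a) (HahnSeries.C a) := by
  refine ⟨0, fun _ => a, differentiableOn_const a, fun τ => by simp, ?_⟩
  rw [taylorPS_const, HahnSeries.ofPowerSeries_C]
  simp

/-- raising the pole order bound. -/
theorem HasUExp.shift {m : ℕ} {G : ℂ → ℂ} (hG : DifferentiableOn ℂ G (ball 0 1))
    (k : ℕ) :
    HahnSeries.single (-(m : ℤ)) (1 : ℂ) * HahnSeries.ofPowerSeries ℤ ℂ (taylorPS G) =
      HahnSeries.single (-((m + k : ℕ) : ℤ)) (1 : ℂ) *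
        HahnSeries.ofPowerSeries ℤ ℂ (taylorPS (fun u => u ^ k * G u)) := by
  rw [taylorPS_X_pow_mul k (analyticAt_zero_of_differentiableOn_ball hG), ofPowerSeries_X_pow_mul,
    ← mul_assoc, HahnSeries.single_mul_single]
  congr 2
  · push_cast; ring_nf
  · simp

theorem HasUExp.mul {f f' : ℍ → ℂ} {E E' : LaurentSeries ℂ} (H : HasUExp h f E)
    (H' : HasUExp h f' E') : HasUExp h (fun τ => f τ * f' τ) (E * E') := by
  obtain ⟨m, G, hG, hf, rfl⟩ := H
  obtain ⟨m', G', hG', hf', rfl⟩ := H'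
  refine ⟨m + m', G * G', hG.mul hG', fun τ => ?_, ?_⟩
  · rw [Pi.mul_apply, ← hf, ← hf']
    ring
  · rw [taylorPS_mul (analyticAt_zero_of_differentiableOn_ball hG)
      (analyticAt_zero_of_differentiableOn_ball hG'), map_mul]
    have : HahnSeries.single (-((m + m' : ℕ) : ℤ)) (1 : ℂ) =
        HahnSeries.single (-(m : ℤ)) (1 : ℂ) * HahnSeries.single (-(m' : ℤ)) (1 : ℂ) := by
      rw [HahnSeries.single_mul_single, mul_one]
      congr 1
      push_cast; ring_nf
    rw [this]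
    ring

theorem HasUExp.add {f f' : ℍ → ℂ} {E E' : LaurentSeries ℂ} (H : HasUExp h f E)
    (H' : HasUExp h f' E') : HasUExp h (fun τ => f τ + f' τ) (E + E') := by
  obtain ⟨m, G, hG, hf, rfl⟩ := H
  obtain ⟨m', G', hG', hf', rfl⟩ := H'
  have hd1 : DifferentiableOn ℂ (fun u : ℂ => u ^ m' * G u) (ball 0 1) :=
    (by fun_prop : DifferentiableOn ℂ (fun u : ℂ => u ^ m') (ball 0 1)).mul hG
  have hd2 : DifferentiableOn ℂ (fun u : ℂ => u ^ m * G' u) (ball 0 1) :=
    (by fun_prop : DifferentiableOn ℂ (fun u : ℂ => u ^ m) (ball 0 1)).mul hG'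
  refine ⟨m + m', (fun u => u ^ m' * G u) + (fun u => u ^ m * G' u), hd1.add hd2, fun τ => ?_, ?_⟩
  · rw [Pi.add_apply, ← hf, ← hf']
    ring
  · rw [taylorPS_add (analyticAt_zero_of_differentiableOn_ball hd1)
      (analyticAt_zero_of_differentiableOn_ball hd2), map_add, mul_add,
      HasUExp.shift hG m', HasUExp.shift hG' m, add_comm m' m]

theorem HasUExp.pow {f : ℍ → ℂ} {E : LaurentSeries ℂ} (H : HasUExp h f E) (k : ℕ) :
    HasUExp h (fun τ => f τ ^ k) (E ^ k) := by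
  induction k with
  | zero =>
    simp only [pow_zero]
    have := HasUExp.const (h := h) 1
    rwa [map_one] at this
  | succ k ih =>
    simp only [pow_succ]
    exact ih.mul H

/-- every point of the punctured unit disc is `𝕢 h τ` for some `τ ∈ ℍ`. -/
theorem exists_qParam_eq (hh : 0 < h) {u : ℂ} (hu : ‖u‖ < 1) (hu0 : u ≠ 0) :
    ∃ τ : ℍ, 𝕢 (h : ℝ) (τ : ℂ) = u := by
  have hh' : (0 : ℝ) < (h : ℝ) := by exact_mod_cast hh
  refine ⟨⟨Function.Periodic.invQParam h u,
    Function.Periodic.im_invQParam_pos_of_norm_lt_one hh' hu hu0⟩, ?_⟩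
  exact Function.Periodic.qParam_right_inv hh'.ne' hu0

/-- two holomorphic functions on the disc which agree on the punctured disc have the same Taylor
series. -/
theorem taylorPS_eq_of_eqOn_punctured {A B : ℂ → ℂ} (hA : DifferentiableOn ℂ A (ball 0 1))
    (hB : DifferentiableOn ℂ B (ball 0 1)) (hAB : ∀ u : ℂ, ‖u‖ < 1 → u ≠ 0 → A u = B u) :
    taylorPS A = taylorPS B := by
  have h0mem : (0 : ℂ) ∈ ball (0 : ℂ) 1 := mem_ball_self one_pos
  have hcA : ContinuousAt A 0 := (hA.differentiableAt (ball_mem_nhds 0 one_pos)).continuousAt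
  have hcB : ContinuousAt B 0 := (hB.differentiableAt (ball_mem_nhds 0 one_pos)).continuousAt
  have hev : A =ᶠ[𝓝[≠] (0 : ℂ)] B := by
    filter_upwards [self_mem_nhdsWithin, nhdsWithin_le_nhds (ball_mem_nhds (0 : ℂ) one_pos)]
      with u hu1 hu2
    exact hAB u (by simpa using hu2) hu1
  have h1 : Tendsto A (𝓝[≠] (0 : ℂ)) (𝓝 (A 0)) := hcA.tendsto.mono_left nhdsWithin_le_nhds
  have h2 : Tendsto B (𝓝[≠] (0 : ℂ)) (𝓝 (B 0)) := hcB.tendsto.mono_left nhdsWithin_le_nhds
  have h00 : A 0 = B 0 := tendsto_nhds_unique (h1.congr' hev) h2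
  apply taylorPS_congr
  filter_upwards [ball_mem_nhds (0 : ℂ) one_pos] with u hu
  by_cases hu0 : u = 0
  · rw [hu0, h00]
  · exact hAB u (by simpa using hu) hu0

/-- **Uniqueness of the expansion.** -/
theorem HasUExp.unique (hh : 0 < h) {f : ℍ → ℂ} {E E' : LaurentSeries ℂ} (H : HasUExp h f E)
    (H' : HasUExp h f E') : E = E' := by
  obtain ⟨m, G, hG, hf, rfl⟩ := H
  obtain ⟨m', G', hG', hf', rfl⟩ := H'
  have hd1 : DifferentiableOn ℂ (fun u : ℂ => u ^ m' * G u) (ball 0 1) :=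
    (by fun_prop : DifferentiableOn ℂ (fun u : ℂ => u ^ m') (ball 0 1)).mul hG
  have hd2 : DifferentiableOn ℂ (fun u : ℂ => u ^ m * G' u) (ball 0 1) :=
    (by fun_prop : DifferentiableOn ℂ (fun u : ℂ => u ^ m) (ball 0 1)).mul hG'
  have key : taylorPS (fun u : ℂ => u ^ m' * G u) = taylorPS (fun u : ℂ => u ^ m * G' u) := by
    apply taylorPS_eq_of_eqOn_punctured hd1 hd2
    intro u hu hu0
    obtain ⟨τ, rfl⟩ := exists_qParam_eq hh hu hu0
    rw [← hf, ← hf']
    ring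
  rw [HasUExp.shift hG m', HasUExp.shift hG' m, key, add_comm m' m]

theorem subst_single_aux (c : ℂˣ) (n m : ℕ) (T : PowerSeries ℂ) :
    HahnSeries.single ((n : ℤ) * (-(m : ℤ))) (((c ^ (-(m : ℤ)) : ℂˣ) : ℂ) * 1) *
        HahnSeries.ofPowerSeries ℤ ℂ T =
      HahnSeries.single (-((n * m : ℕ) : ℤ)) (1 : ℂ) *
        HahnSeries.ofPowerSeries ℤ ℂ (PowerSeries.C (((c⁻¹ : ℂˣ) : ℂ) ^ m) * T) := by
  rw [map_mul (HahnSeries.ofPowerSeries ℤ ℂ), HahnSeries.ofPowerSeries_C, ← mul_assoc]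
  congr 1
  rw [HahnSeries.C_apply, HahnSeries.single_mul_single]
  congr 1
  · push_cast; ring_nf
  · rw [mul_one, one_mul, zpow_neg, zpow_natCast, ← inv_pow, Units.val_pow_eq_pow_val]

/-- **Substitution lemma.** If `g` has the `𝕢 h`-expansion `E` and `𝕢 h (σ τ) = c * (𝕢 h' τ) ^ n`
with `|c| = 1`, then `g ∘ σ` has the `𝕢 h'`-expansion `E(c u ^ n)`. -/
theorem HasUExp.comp_subst {h' : ℕ} {g : ℍ → ℂ} {E : LaurentSeries ℂ} (H : HasUExp h g E)
    (σ : ℍ → ℍ) (c : ℂˣ) (hc : ‖(c : ℂ)‖ = 1) (n : ℕ) [NeZero n]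
    (hσ : ∀ τ : ℍ, 𝕢 (h : ℝ) ((σ τ : ℍ) : ℂ) = (c : ℂ) * (𝕢 (h' : ℝ) (τ : ℂ)) ^ n) :
    HasUExp h' (fun τ => g (σ τ)) (Subst.subst c n E) := by
  obtain ⟨m, G, hG, hg, rfl⟩ := H
  have hn : n ≠ 0 := NeZero.ne n
  have hd := differentiableOn_comp_mul_pow hG hc.le hn
  refine ⟨n * m, fun u => ((c⁻¹ : ℂˣ) : ℂ) ^ m * G ((c : ℂ) * u ^ n),
    (differentiableOn_const _).mul hd, fun τ => ?_, ?_⟩
  · have h1 := hg (σ τ)
    rw [hσ] at h1
    beta_reduce
    rw [← h1]
    have hc0 : ((c⁻¹ : ℂˣ) : ℂ) * (c : ℂ) = 1 := by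
      rw [← Units.val_mul, inv_mul_cancel, Units.val_one]
    calc g (σ τ) * 𝕢 (h' : ℝ) (τ : ℂ) ^ (n * m)
        = (((c⁻¹ : ℂˣ) : ℂ) * (c : ℂ)) ^ m * (g (σ τ) * 𝕢 (h' : ℝ) (τ : ℂ) ^ (n * m)) := by
          rw [hc0, one_pow, one_mul]
      _ = ((c⁻¹ : ℂˣ) : ℂ) ^ m * (g (σ τ) * ((c : ℂ) * 𝕢 (h' : ℝ) (τ : ℂ) ^ n) ^ m) := by
          rw [pow_mul]; ring
  · rw [map_mul, Subst.subst_single, ← ofPowerSeries_taylorPS_comp hG c hc.le n,
      taylorPS_const_mul _ (analyticAt_zero_of_differentiableOn_ball hd)]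
    exact subst_single_aux c n m _

theorem HasUExp.algMap (a : ℂ) :
    HasUExp h (fun _ => a) (algebraMap ℂ (LaurentSeries ℂ) a) := by
  have e : (algebraMap ℂ (LaurentSeries ℂ)) a = HahnSeries.C a := by
    have h1 : algebraMap ℂ (PowerSeries ℂ) a = PowerSeries.C a := by simp
    rw [HahnSeries.algebraMap_apply', h1, HahnSeries.ofPowerSeries_C]
  rw [e]
  exact HasUExp.const a

/-- closure under multivariate polynomial expressions. -/
theorem HasUExp.mvPolynomial {ι : Type*} (F : ι → ℍ → ℂ) (E : ι → LaurentSeries ℂ)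
    (hFE : ∀ i, HasUExp h (F i) (E i)) (P : MvPolynomial ι ℂ) :
    HasUExp h (fun τ => MvPolynomial.eval (fun i => F i τ) P) (MvPolynomial.aeval E P) := by
  induction P using MvPolynomial.induction_on with
  | C a =>
    simp only [MvPolynomial.eval_C, MvPolynomial.aeval_C]
    exact HasUExp.algMap a
  | add p q hp hq =>
    simp only [map_add]
    exact hp.add hq
  | mul_X p i hp =>
    simp only [map_mul, MvPolynomial.eval_X, MvPolynomial.aeval_X]
    exact hp.mul (hFE i)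

/-- closure under polynomial expressions. -/
theorem HasUExp.polynomial {f : ℍ → ℂ} {E : LaurentSeries ℂ} (H : HasUExp h f E)
    (Q : Polynomial ℂ) :
    HasUExp h (fun τ => Q.eval (f τ)) (Polynomial.aeval E Q) := by
  induction Q using Polynomial.induction_on with
  | C a =>
    simp only [Polynomial.eval_C, Polynomial.aeval_C]
    exact HasUExp.algMap a
  | add p q hp hq =>
    simp only [Polynomial.eval_add, map_add]
    exact hp.add hq
  | monomial n a ih =>
    simp only [Polynomial.eval_mul, Polynomial.eval_C, Polynomial.eval_pow, Polynomial.eval_X,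
      map_mul, Polynomial.aeval_C, map_pow, Polynomial.aeval_X]
    exact (HasUExp.algMap a).mul (H.pow (n + 1))

end Fermat.Agent.S28.AnQCore38
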