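import Mathlib
import Fermat.Prelude.Def_ModularCurve_X0ModL
import Fermat.Agent.S28.Twist

/-!
# S28 package [SUBST]: twists and monomial substitutions on Laurent series

`twist c` (from `Fermat/Agent/S28/Twist.lean`, namespace `Fermat.Agent.S28`) is the ring
automorphism "`q ↦ c q`" of `LaurentSeries B` (`c : Bˣ`), i.e. `coeff n ↦ c ^ n * coeff n`; `subst c a = qExpand a ∘ twist c` is "`q ↦ c q ^ a`".
-/

set_option autoImplicit false

noncomputable section

open HahnSeries ModularCurve

namespace Fermat.Agent.S28.Subst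

variable {B : Type*} [CommRing B]

theorem twist_twist (c d : Bˣ) (x : LaurentSeries B) :
    twist c (twist d x) = twist (c * d) x :=
  twist_mul c d x

theorem twist_comp (c d : Bˣ) : twist (c * d) = (twist c).comp (twist d (B := B)) :=
  RingHom.ext fun x => (twist_twist c d x).symm

@[simp]
theorem twist_inv_twist (c : Bˣ) (x : LaurentSeries B) : twist c⁻¹ (twist c x) = x := by
  rw [twist_twist, inv_mul_cancel, twist_one]

@[simp]
theorem twist_twist_inv (c : Bˣ) (x : LaurentSeries B) : twist c (twist c⁻¹ x) = x := by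
  rw [twist_twist, mul_inv_cancel, twist_one]

/-- `twist c` as a ring automorphism. -/
def twistEquiv (c : Bˣ) : LaurentSeries B ≃+* LaurentSeries B :=
  { twist c with
    invFun := twist c⁻¹
    left_inv := twist_inv_twist c
    right_inv := twist_twist_inv c }

@[simp]
theorem twistEquiv_apply (c : Bˣ) (x : LaurentSeries B) : twistEquiv c x = twist c x := rfl

@[simp]
theorem twist_C (c : Bˣ) (r : B) : twist c (HahnSeries.C r) = HahnSeries.C r := by
  rw [HahnSeries.C_apply, twist_single]
  simp


/-! ### Compatibility with `coeffMap` and `qExpand` -/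

theorem twist_qExpand (c : Bˣ) (a : ℕ) [NeZero a] (x : LaurentSeries B) :
    twist c (qExpand B a x) = qExpand B a (twist (c ^ a) x) := by
  ext n
  by_cases hn : (a : ℤ) ∣ n
  · obtain ⟨k, rfl⟩ := hn
    rw [twist_coeff, qExpand_coeff_mul, qExpand_coeff_mul, twist_coeff, zpow_mul, zpow_natCast]
  · rw [twist_coeff, qExpand_coeff_of_not_dvd a _ hn, qExpand_coeff_of_not_dvd a _ hn, mul_zero]

/-- The monomial substitution "`q ↦ c q ^ a`". -/
def subst (c : Bˣ) (a : ℕ) [NeZero a] : LaurentSeries B →+* LaurentSeries B :=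
  (qExpand B a).comp (twist c)

theorem subst_apply (c : Bˣ) (a : ℕ) [NeZero a] (x : LaurentSeries B) :
    subst c a x = qExpand B a (twist c x) := rfl

@[simp]
theorem subst_coeff_mul (c : Bˣ) (a : ℕ) [NeZero a] (x : LaurentSeries B) (k : ℤ) :
    (subst c a x).coeff ((a : ℤ) * k) = ((c ^ k : Bˣ) : B) * x.coeff k := by
  rw [subst_apply, qExpand_coeff_mul, twist_coeff]

theorem subst_coeff_of_not_dvd (c : Bˣ) (a : ℕ) [NeZero a] (x : LaurentSeries B) {n : ℤ}
    (hn : ¬ (a : ℤ) ∣ n) : (subst c a x).coeff n = 0 := by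
  rw [subst_apply, qExpand_coeff_of_not_dvd a _ hn]

theorem subst_one_left (a : ℕ) [NeZero a] (x : LaurentSeries B) :
    subst (1 : Bˣ) a x = qExpand B a x := by
  rw [subst_apply, twist_one]

theorem subst_one_right (c : Bˣ) (x : LaurentSeries B) : subst c 1 x = twist c x := by
  rw [subst_apply, qExpand_one_apply]

theorem subst_injective (c : Bˣ) (a : ℕ) [NeZero a] : Function.Injective (subst c a (B := B)) :=
  (qExpand_injective a).comp (twist_injective c)

/-- Composition law: `x(c' q^a') ∘ (q ↦ c q^a) = x(c' c^a' q^(a a'))`. -/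
theorem subst_subst (c c' : Bˣ) (a a' : ℕ) [NeZero a] [NeZero a'] (x : LaurentSeries B) :
    subst c a (subst c' a' x) = subst (c ^ a' * c') (a * a') x := by
  rw [subst_apply, subst_apply, subst_apply, twist_qExpand, qExpand_qExpand, twist_twist]

/-- `t(x ^ r)` at the monomial `x = c q ^ a`. -/
theorem subst_qExpand (c : Bˣ) (a r : ℕ) [NeZero a] [NeZero r] (x : LaurentSeries B) :
    subst c a (qExpand B r x) = subst (c ^ r) (a * r) x := by
  rw [← subst_one_left, subst_subst, mul_one]

/-- `t(z x)` at the monomial `x = c q ^ a`. -/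
theorem subst_twist (c z : Bˣ) (a : ℕ) [NeZero a] (x : LaurentSeries B) :
    subst c a (twist z x) = subst (c * z) a x := by
  rw [subst_apply, subst_apply, twist_twist]

theorem qExpand_subst (c : Bˣ) (a r : ℕ) [NeZero a] [NeZero r] (x : LaurentSeries B) :
    qExpand B r (subst c a x) = subst c (r * a) x := by
  rw [subst_apply, subst_apply, qExpand_qExpand]

theorem twist_subst (z c : Bˣ) (a : ℕ) [NeZero a] (x : LaurentSeries B) :
    twist z (subst c a x) = subst (z ^ a * c) a x := by
  rw [subst_apply, subst_apply, twist_qExpand, twist_twist]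

theorem coeffMap_subst {S : Type*} [CommRing S] (f : B →+* S) (c : Bˣ) (a : ℕ) [NeZero a]
    (x : LaurentSeries B) :
    coeffMap f (subst c a x) = subst (Units.map (f : B →* S) c) a (coeffMap f x) := by
  rw [subst_apply, subst_apply, coeffMap_qExpand, coeffMap_twist]

@[simp]
theorem subst_C (c : Bˣ) (a : ℕ) [NeZero a] (r : B) :
    subst c a (HahnSeries.C r) = HahnSeries.C r := by
  rw [subst_apply, twist_C, qExpand_C]

@[simp]
theorem subst_single (c : Bˣ) (a : ℕ) [NeZero a] (k : ℤ) (r : B) :
    subst c a (HahnSeries.single k r)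
      = HahnSeries.single ((a : ℤ) * k) (((c ^ k : Bˣ) : B) * r) := by
  rw [subst_apply, twist_single, qExpand_single]

/-! ### The `j`-expansion at a monomial: `t(c q ^ a) = c⁻¹ q ^ (-a) + 744 + ⋯` -/

theorem coeff_subst_jqModC_neg (c : Bˣ) (a : ℕ) [NeZero a] :
    (subst c a (jqModC B)).coeff (-(a : ℤ)) = ((c⁻¹ : Bˣ) : B) := by
  have h : (-(a : ℤ)) = (a : ℤ) * (-1) := by ring
  rw [h, subst_coeff_mul, coeff_jqModC_neg_one, mul_one, zpow_neg_one]

theorem coeff_subst_jqModC_of_lt (c : Bˣ) (a : ℕ) [NeZero a] {n : ℤ} (hn : n < -(a : ℤ)) :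
    (subst c a (jqModC B)).coeff n = 0 := by
  by_cases hd : (a : ℤ) ∣ n
  · obtain ⟨k, rfl⟩ := hd
    have ha : (0 : ℤ) < a := by exact_mod_cast Nat.pos_of_ne_zero (NeZero.ne a)
    have hk : k < -1 := by
      by_contra hk
      have hk' : -1 ≤ k := not_lt.mp hk
      nlinarith
    rw [subst_coeff_mul, coeff_jqModC_of_lt B hk, mul_zero]
  · exact subst_coeff_of_not_dvd c a _ hd

/-- Injectivity of `x ↦ t(x)` on monomials `x = c q ^ a`. -/
theorem subst_jqModC_injective [Nontrivial B] {c c' : Bˣ} {a a' : ℕ} [NeZero a] [NeZero a']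
    (h : subst c a (jqModC B) = subst c' a' (jqModC B)) : a = a' ∧ c = c' := by
  have key : ∀ {c c' : Bˣ} {a a' : ℕ} [NeZero a] [NeZero a'],
      subst c a (jqModC B) = subst c' a' (jqModC B) → ¬ a' < a := by
    intro c c' a a' _ _ h hlt
    have h1 := coeff_subst_jqModC_neg c a
    rw [h, coeff_subst_jqModC_of_lt c' a' (by exact_mod_cast (neg_lt_neg (by exact_mod_cast hlt)))]
      at h1
    exact (c⁻¹).ne_zero h1.symm
  have haa : a = a' := le_antisymm (not_lt.mp (key h)) (not_lt.mp (key h.symm))
  subst haa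
  refine ⟨rfl, ?_⟩
  have h1 := coeff_subst_jqModC_neg c a
  rw [h, coeff_subst_jqModC_neg] at h1
  exact inv_injective (Units.ext h1.symm)

/-! ### Transport of polynomial identities along a ring homomorphism (for ROOTS) -/

open Polynomial in
/-- Evaluating the inner variable of a two-variable integer polynomial `Φ ∈ ℤ[Y][X]` at `y`
commutes with any ring homomorphism. -/
theorem map_map_eval₂RingHom {A A' : Type*} [CommRing A] [CommRing A'] (σ : A →+* A')
    (Φ : Polynomial (Polynomial ℤ)) (y : A) :
    (Φ.map (Polynomial.eval₂RingHom (Int.castRingHom A) y)).map σ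
      = Φ.map (Polynomial.eval₂RingHom (Int.castRingHom A') (σ y)) := by
  rw [Polynomial.map_map]
  congr 1
  refine Polynomial.ringHom_ext (fun n => ?_) ?_
  · simp
  · simp

end Fermat.Agent.S28.Subst
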