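/-
S28 package ANQ (helper38): base cases.  The `u`-expansions (`u = exp (2πiτ/p)`) of
`j(τ)`, `j(pτ)`, `j((τ+b)/p)`, `p^12 Δ(pτ)/Δ(τ)`, `Δ((τ+b)/p)/Δ(τ)`
are `tpC p`, `JC p none`, `JC p (some b)`, `UC p none`, `UC p (some b)` of `FormalInput.lean`.
-/
import Mathlib
import Fermat.Agent.S24.JBridge
import Fermat.Agent.S28.Subst
import Fermat.Agent.S28.AnConj
import Fermat.Agent.S28.FormalInput
import Fermat.Agent.S28.FormalBasic
import Fermat.Agent.S28.AnQCore38

set_option autoImplicit false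

noncomputable section

namespace Fermat.Agent.S28.AnQBase38

open Metric Filter Topology HahnSeries ModularCurve UpperHalfPlane
open Fermat.Agent.S24.JBridge (taylorPS coeff_taylorPS taylorPS_congr taylorPS_mul taylorPS_one
  taylorPS_pow hasSum_taylorPS analyticAt_zero_of_differentiableOn_ball etaDisc
  differentiableOn_etaDisc taylorPS_etaDisc etaDisc_ne_zero discriminant_eq_qParam_mul_etaDisc
  jNumDisc differentiableOn_jNumDisc taylorPS_jNumDisc jNumDisc_qParam)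
open Fermat.Agent.S28.AnQCore38

local notation "𝕢" => Function.Periodic.qParam
local notation "Δ" => ModularForm.discriminant

/-! ### level one -/

theorem hasUExp_jFun : HasUExp 1 Fermat.Agent.S24.JBridge.jFun (jqModC ℂ) := by
  refine ⟨1, jNumDisc, differentiableOn_jNumDisc, fun τ => ?_, ?_⟩
  · rw [Nat.cast_one, jNumDisc_qParam, pow_one, mul_comm]
  · rw [taylorPS_jNumDisc]
    rfl

theorem differentiableOn_etaPow : DifferentiableOn ℂ (fun q : ℂ => etaDisc q ^ 24) (ball 0 1) :=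
  differentiableOn_etaDisc.pow 24

theorem taylorPS_etaPow :
    taylorPS (fun q : ℂ => etaDisc q ^ 24) = dedekindEtaUnit.map (Int.castRingHom ℂ) := by
  have h := taylorPS_pow (analyticAt_zero_of_differentiableOn_ball differentiableOn_etaDisc) 24
  rw [taylorPS_etaDisc, ← map_pow] at h
  exact h

theorem hasUExp_delta : HasUExp 1 (fun τ : ℍ => Δ τ) (deltaQ ℂ) := by
  refine ⟨0, fun q => q ^ 1 * etaDisc q ^ 24,
    (by fun_prop : DifferentiableOn ℂ (fun q : ℂ => q ^ 1) (ball 0 1)).mul differentiableOn_etaPow,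
    fun τ => ?_, ?_⟩
  · beta_reduce
    rw [Nat.cast_one, pow_zero, mul_one, pow_one, discriminant_eq_qParam_mul_etaDisc]
  · rw [taylorPS_X_pow_mul 1 (analyticAt_zero_of_differentiableOn_ball differentiableOn_etaPow),
      taylorPS_etaPow, ofPowerSeries_X_pow_mul, deltaQ]
    simp

theorem differentiableOn_etaPowInv :
    DifferentiableOn ℂ (fun q : ℂ => (etaDisc q ^ 24)⁻¹) (ball 0 1) := by
  refine differentiableOn_etaPow.inv ?_
  intro q hq
  exact pow_ne_zero _ (etaDisc_ne_zero (by simpa using hq))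

theorem taylorPS_etaPowInv :
    taylorPS (fun q : ℂ => (etaDisc q ^ 24)⁻¹) = dedekindEtaUnitInv.map (Int.castRingHom ℂ) := by
  have hA := analyticAt_zero_of_differentiableOn_ball differentiableOn_etaPowInv
  have hB := analyticAt_zero_of_differentiableOn_ball differentiableOn_etaPow
  have h1 := taylorPS_mul hA hB
  have hev : ((fun q : ℂ => (etaDisc q ^ 24)⁻¹) * fun q : ℂ => etaDisc q ^ 24) =ᶠ[𝓝 0]
      (1 : ℂ → ℂ) := by
    filter_upwards [ball_mem_nhds (0 : ℂ) one_pos] with q hq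
    have hne : etaDisc q ^ 24 ≠ 0 := pow_ne_zero _ (etaDisc_ne_zero (by simpa using hq))
    simp only [Pi.mul_apply, Pi.one_apply]
    exact inv_mul_cancel₀ hne
  rw [taylorPS_congr hev, taylorPS_one, taylorPS_etaPow] at h1
  have h2 : dedekindEtaUnit.map (Int.castRingHom ℂ) * dedekindEtaUnitInv.map (Int.castRingHom ℂ)
      = 1 := by
    rw [← map_mul, dedekindEtaUnit_mul_inv, map_one]
  calc taylorPS (fun q : ℂ => (etaDisc q ^ 24)⁻¹)
      = taylorPS (fun q : ℂ => (etaDisc q ^ 24)⁻¹) *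
          (dedekindEtaUnit.map (Int.castRingHom ℂ) * dedekindEtaUnitInv.map (Int.castRingHom ℂ)) := by
        rw [h2, mul_one]
    _ = dedekindEtaUnitInv.map (Int.castRingHom ℂ) := by
        rw [← mul_assoc, ← h1, one_mul]

theorem hasUExp_deltaInv : HasUExp 1 (fun τ : ℍ => (Δ τ)⁻¹) (deltaInvQ ℂ) := by
  refine ⟨1, fun q => (etaDisc q ^ 24)⁻¹, differentiableOn_etaPowInv, fun τ => ?_, ?_⟩
  · beta_reduce
    rw [Nat.cast_one, pow_one, discriminant_eq_qParam_mul_etaDisc, mul_inv, mul_comm, ← mul_assoc,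
      mul_inv_cancel₀ (Function.Periodic.qParam_ne_zero _), one_mul]
  · rw [taylorPS_etaPowInv]
    rfl

/-! ### the `q`-parameters -/

open Fermat.Agent.S28.AnConj (aInf aFin coe_aInf_smul coe_aFin_smul)
open Fermat.Agent.S28.FORMAL (zetaC tpC JC UC)

variable (p : ℕ) [NeZero p] [hp : Fact p.Prime]

omit hp in
theorem qParam_one_eq_pow (z : ℂ) : 𝕢 ((1 : ℕ) : ℝ) z = (𝕢 (p : ℝ) z) ^ p := by
  have hp0 : (p : ℂ) ≠ 0 := Nat.cast_ne_zero.mpr (NeZero.ne p)
  unfold Function.Periodic.qParam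
  rw [← Complex.exp_nat_mul]
  congr 1
  push_cast
  field_simp

omit hp in
theorem qParam_id (τ : ℍ) :
    𝕢 ((1 : ℕ) : ℝ) (((fun τ : ℍ => τ) τ : ℍ) : ℂ) = ((1 : ℂˣ) : ℂ) * (𝕢 (p : ℝ) (τ : ℂ)) ^ p := by
  rw [Units.val_one, one_mul]
  exact qParam_one_eq_pow p _

theorem qParam_aInf (τ : ℍ) :
    𝕢 ((1 : ℕ) : ℝ) ((aInf p • τ : ℍ) : ℂ) = ((1 : ℂˣ) : ℂ) * (𝕢 (p : ℝ) (τ : ℂ)) ^ (p * p) := by
  have hp0 : (p : ℂ) ≠ 0 := Nat.cast_ne_zero.mpr (NeZero.ne p)
  rw [Units.val_one, one_mul, coe_aInf_smul]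
  unfold Function.Periodic.qParam
  rw [← Complex.exp_nat_mul]
  congr 1
  push_cast
  field_simp

theorem qParam_aFin (n : ℕ) (τ : ℍ) :
    𝕢 ((1 : ℕ) : ℝ) ((aFin p (n : ℤ) • τ : ℍ) : ℂ) =
      ((zetaC p ^ n : ℂˣ) : ℂ) * (𝕢 (p : ℝ) (τ : ℂ)) ^ 1 := by
  have hp0 : (p : ℂ) ≠ 0 := Nat.cast_ne_zero.mpr (NeZero.ne p)
  rw [pow_one, coe_aFin_smul, Units.val_pow_eq_pow_val, FORMAL.zetaC_val]
  unfold Function.Periodic.qParam
  rw [← Complex.exp_nat_mul, ← Complex.exp_add]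
  congr 1
  push_cast
  field_simp
  ring

omit [NeZero p] hp in
theorem norm_zetaC_pow (n : ℕ) : ‖((zetaC p ^ n : ℂˣ) : ℂ)‖ = 1 := by
  rw [Units.val_pow_eq_pow_val, norm_pow, FORMAL.zetaC_val, Complex.norm_exp]
  have : (2 * (Real.pi : ℂ) * Complex.I / (p : ℂ)).re = 0 := by
    have h : (2 * (Real.pi : ℂ) * Complex.I / (p : ℂ)) = ((2 * Real.pi / p : ℝ) : ℂ) * Complex.I := by
      push_cast; ring
    rw [h, Complex.re_ofReal_mul, Complex.I_re, mul_zero]
  rw [this, Real.exp_zero, one_pow]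

/-! ### the five families -/

local notation "jF" => Fermat.Agent.S24.JBridge.jFun

omit hp in
/-- `j(τ)` has the `u`-expansion `t(u^p)`. -/
theorem hasUExp_tpC : HasUExp p jF (tpC p) := by
  have h := hasUExp_jFun.comp_subst (h' := p) (fun τ => τ) 1 (by simp) p (qParam_id p)
  rw [Subst.subst_one_left] at h
  exact h

/-- `j(pτ)` has the `u`-expansion `t(u^{p²})`. -/
theorem hasUExp_J_none : HasUExp p (AnConj.J p none) (JC p none) := by
  have h := hasUExp_jFun.comp_subst (h' := p) (fun τ => aInf p • τ) 1 (by simp) (p * p)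
    (qParam_aInf p)
  rw [Subst.subst_one_left] at h
  exact h

/-- `j((τ+n)/p)` has the `u`-expansion `t(ζ^n u)`. -/
theorem hasUExp_Jf_aFin (n : ℕ) :
    HasUExp p (AnConj.Jf (aFin p (n : ℤ))) (twist (zetaC p ^ n) (jqModC ℂ)) := by
  have h := hasUExp_jFun.comp_subst (h' := p) (fun τ => aFin p (n : ℤ) • τ) (zetaC p ^ n)
    (norm_zetaC_pow p n) 1 (qParam_aFin p n)
  rw [Subst.subst_one_right] at h
  exact h

/-- `p^12 Δ(pτ)/Δ(τ)` has the `u`-expansion `p^12 Δ(u^{p²})/Δ(u^p)`. -/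
theorem hasUExp_U_none : HasUExp p (AnConj.U p none) (UC p none) := by
  have h1 := hasUExp_delta.comp_subst (h' := p) (fun τ => aInf p • τ) 1 (by simp) (p * p)
    (qParam_aInf p)
  have h2 := hasUExp_deltaInv.comp_subst (h' := p) (fun τ => τ) 1 (by simp) p (qParam_id p)
  rw [Subst.subst_one_left] at h1 h2
  have h3 := ((HasUExp.const (h := p) ((p : ℂ) ^ 12)).mul h1).mul h2
  rw [FORMAL.UC_none, ← mul_assoc]
  refine h3.congr (fun τ => ?_)
  rw [AnConj.U_none_apply, div_eq_mul_inv]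

/-- `Δ((τ+n)/p)/Δ(τ)` has the `u`-expansion `Δ(ζ^n u)/Δ(u^p)`. -/
theorem hasUExp_Uf_aFin (n : ℕ) :
    HasUExp p (fun τ => Δ (aFin p (n : ℤ) • τ) / Δ τ)
      (twist (zetaC p ^ n) (deltaQ ℂ) * qExpand ℂ p (deltaInvQ ℂ)) := by
  have h1 := hasUExp_delta.comp_subst (h' := p) (fun τ => aFin p (n : ℤ) • τ) (zetaC p ^ n)
    (norm_zetaC_pow p n) 1 (qParam_aFin p n)
  have h2 := hasUExp_deltaInv.comp_subst (h' := p) (fun τ => τ) 1 (by simp) p (qParam_id p)
  rw [Subst.subst_one_right] at h1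
  rw [Subst.subst_one_left] at h2
  refine (h1.mul h2).congr (fun τ => ?_)
  rw [div_eq_mul_inv]

end Fermat.Agent.S28.AnQBase38
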