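/-
S28 package ANQ (helper38): the analytic input `FORMAL.HANQ p` of package FORMAL, for `p` prime,
from AN-CONJ (`AnConj.exists_polynomial_of_isIndexSymmetric`) and the `u`-expansions of
`AnQBase38.lean`, by uniqueness of expansions.
-/
import Mathlib
import Fermat.Agent.S28.AnConj
import Fermat.Agent.S28.FormalInput
import Fermat.Agent.S28.AnQCore38
import Fermat.Agent.S28.AnQBase38

set_option autoImplicit false

noncomputable section

namespace Fermat.Agent.S28.AnQFinal38

open HahnSeries ModularCurve UpperHalfPlane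
open Fermat.Agent.S28.AnQCore38 Fermat.Agent.S28.AnQBase38
open Fermat.Agent.S28.FORMAL (zetaC tpC JC UC HANQ)

local notation "Δ" => ModularForm.discriminant

variable (p : ℕ) [NeZero p]

/-- `Fin p ≃ ZMod p`, compatible with `val`. -/
def finZMod : Fin p ≃ ZMod p where
  toFun b := ((b : ℕ) : ZMod p)
  invFun c := ⟨c.val, ZMod.val_lt c⟩
  left_inv b := by
    apply Fin.ext
    simp only
    rw [ZMod.val_natCast, Nat.mod_eq_of_lt b.isLt]
  right_inv c := by
    simp only
    exact ZMod.natCast_zmod_val c

theorem val_finZMod (b : Fin p) : (finZMod p b).val = (b : ℕ) := by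
  change ((b : ℕ) : ZMod p).val = b
  rw [ZMod.val_natCast, Nat.mod_eq_of_lt b.isLt]

/-- the index translation `Option (Fin p) ≃ Option (ZMod p)`. -/
def idxEquiv : Option (Fin p) ≃ Option (ZMod p) := Equiv.optionCongr (finZMod p)

variable [hp : Fact p.Prime]

theorem hasUExp_J (i : Option (Fin p)) : HasUExp p (AnConj.J p (idxEquiv p i)) (JC p i) := by
  cases i with
  | none => exact hasUExp_J_none p
  | some b =>
    have h := hasUExp_Jf_aFin p (b : ℕ)
    have e : AnConj.J p (idxEquiv p (some b)) = AnConj.Jf (AnConj.aFin p ((b : ℕ) : ℤ)) := by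
      change AnConj.Jf (AnConj.aFin p (((finZMod p b).val : ℕ) : ℤ)) = _
      rw [val_finZMod]
    rw [e]
    exact h

theorem hasUExp_U (i : Option (Fin p)) : HasUExp p (AnConj.U p (idxEquiv p i)) (UC p i) := by
  cases i with
  | none => exact hasUExp_U_none p
  | some b =>
    refine (hasUExp_Uf_aFin p (b : ℕ)).congr (fun τ => ?_)
    change AnConj.U p (some (finZMod p b)) τ = _
    rw [AnConj.U_some_apply, val_finZMod]

/-- **ANQ**: the analytic input of package FORMAL. -/
theorem hanq_of_fact : HANQ p := by
  intro P hP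
  -- transport `P` to the index set of AN-CONJ
  set e := idxEquiv p with he
  set P' : MvPolynomial (Option (ZMod p) ⊕ Option (ZMod p)) ℂ :=
    MvPolynomial.rename (Sum.map e e) P with hP'
  have hsym : AnConj.IsIndexSymmetric p P' := by
    intro σ
    rw [hP', MvPolynomial.rename_rename]
    have h1 : (Sum.map σ σ ∘ Sum.map e e : Option (Fin p) ⊕ Option (Fin p) → _) =
        Sum.map e e ∘ Sum.map (e.trans (σ.trans e.symm)) (e.trans (σ.trans e.symm)) := by
      funext s
      cases s <;> simp
    rw [h1, ← MvPolynomial.rename_rename, hP]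
  obtain ⟨Q, hQ⟩ := AnConj.exists_polynomial_of_isIndexSymmetric p P' hsym
  refine ⟨Q, ?_⟩
  have H1 := HasUExp.mvPolynomial (h := p)
    (Sum.elim (fun i => AnConj.J p (e i)) (fun i => AnConj.U p (e i)))
    (Sum.elim (JC p) (UC p))
    (fun s => by
      cases s with
      | inl i => exact hasUExp_J p i
      | inr i => exact hasUExp_U p i) P
  have H2 := (hasUExp_tpC p).polynomial Q
  refine HasUExp.unique (NeZero.pos p) H1 (H2.congr (fun τ => ?_))
  have h3 := hQ τ
  rw [AnConj.symFun, hP', MvPolynomial.eval_rename] at h3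
  refine Eq.trans ?_ h3
  have h4 : (fun i => Sum.elim (fun i => AnConj.J p (e i)) (fun i => AnConj.U p (e i)) i τ) =
      AnConj.JU p τ ∘ Sum.map e e := by
    funext s
    cases s <;> rfl
  rw [h4]

omit hp in
theorem hanq (hp' : p.Prime) : HANQ p := by
  have : Fact p.Prime := ⟨hp'⟩
  exact hanq_of_fact p

end Fermat.Agent.S28.AnQFinal38
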