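/-
S28, package FORMAL, step UNIT-rat (helper72, assisting helper43).

From the analytic input `HANQ3 p` (third family `∑ᵢ Uᵢ Jᵢ^s ∈ ℂ[t_p]`) and a modular polynomial
`Φ ∈ ℤ[Y][X]` with `Φ(X, t_p) = ∏ᵢ (X - Jᵢ)` over `ℂ((u))`, we construct `Γ ∈ ℤ[Y][X]` with
`Γ(t_p, t) = ũ_∞ · Φ'(t_p, t)` in `B((q))` for EVERY commutative ring `B`, and show that
`Φ'(t_p, t) = q^{-p²} + …`; hence `ũ_∞ ∈ K'(t, t_p)` for every field `K'`.
-/
import Mathlib
import Fermat.Agent.S28.FormalDescent
import Fermat.Agent.S28.FormalInput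

set_option autoImplicit false
open ModularCurve HahnSeries Polynomial

noncomputable section

namespace Fermat.Agent.S28.FormalUnitRat72

open Fermat.Agent.S28.FORMAL

/-! ### Bivariate evaluation -/

section Ev2

variable {S S' : Type*} [CommRing S] [CommRing S']

/-- `F(x, y)` for `F ∈ ℤ[Y][X]` -/
def ev2 (F : Polynomial (Polynomial ℤ)) (x y : S) : S :=
  F.eval₂ (Polynomial.eval₂RingHom (Int.castRingHom S) y) x

theorem map_ev2 (f : S →+* S') (F : Polynomial (Polynomial ℤ)) (x y : S) :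
    f (ev2 F x y) = ev2 F (f x) (f y) := by
  unfold ev2
  rw [Polynomial.hom_eval₂]
  congr 1
  apply Polynomial.ringHom_ext
  · intro a
    simp
  · simp

theorem eval_map_evalY {B : Type*} [CommRing B] (F : Polynomial (Polynomial ℤ))
    (x y : LaurentSeries B) : (F.map (evalY y)).eval x = ev2 F x y := by
  rw [Polynomial.eval_map]
  rfl

theorem ev2_mem {K : Type*} [Field K] {L : Type*} [Field L] [Algebra K L]
    (E : IntermediateField K L) (F : Polynomial (Polynomial ℤ)) {x y : L} (hx : x ∈ E)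
    (hy : y ∈ E) : ev2 F x y ∈ E := by
  have h := map_ev2 E.val.toRingHom F ⟨x, hx⟩ ⟨y, hy⟩
  have h2 : ev2 F x y = E.val.toRingHom (ev2 F (⟨x, hx⟩ : E) ⟨y, hy⟩) := by
    rw [h]
    rfl
  rw [h2]
  exact (ev2 F (⟨x, hx⟩ : E) ⟨y, hy⟩).2

end Ev2

/-! ### Lagrange / Horner -/

section Lagrange

variable {S : Type*} [CommRing S] {ι : Type*} [Fintype ι] [DecidableEq ι] (J U : ι → S)

/-- `Γc = ∑ᵢ Uᵢ ∏_{j ≠ i} (X - Jⱼ)` -/
def gammaC : Polynomial S :=
  ∑ i, Polynomial.C (U i) * Lagrange.nodal (Finset.univ.erase i) J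

theorem nodal_divByMonic (i : ι) :
    Lagrange.nodal Finset.univ J /ₘ (X - Polynomial.C (J i)) =
      Lagrange.nodal (Finset.univ.erase i) J := by
  rw [Lagrange.nodal_eq_mul_nodal_erase (Finset.mem_univ i),
    Polynomial.mul_divByMonic_cancel_left _ (Polynomial.monic_X_sub_C (J i))]

theorem gammaC_coeff (k : ℕ) :
    (gammaC J U).coeff k =
      ∑ m ∈ Finset.Icc (k + 1) (Lagrange.nodal Finset.univ J).natDegree,
        (Lagrange.nodal Finset.univ J).coeff m * ∑ i, U i * J i ^ (m - (k + 1)) := by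
  unfold gammaC
  rw [Polynomial.finsetSum_coeff]
  simp_rw [Polynomial.coeff_C_mul, ← nodal_divByMonic, Polynomial.coeff_divByMonic_X_sub_C,
    Finset.mul_sum]
  rw [Finset.sum_comm]
  refine Finset.sum_congr rfl fun m _ => Finset.sum_congr rfl fun i _ => ?_
  ring

theorem gammaC_eval (i₀ : ι) :
    (gammaC J U).eval (J i₀) =
      U i₀ * (Polynomial.derivative (Lagrange.nodal Finset.univ J)).eval (J i₀) := by
  unfold gammaC
  rw [Polynomial.eval_finsetSum, Finset.sum_eq_single i₀]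
  · rw [Polynomial.eval_mul, Polynomial.eval_C,
      Lagrange.eval_nodal_derivative_eval_node_eq (Finset.mem_univ i₀)]
  · intro i _ hi
    rw [Polynomial.eval_mul, Lagrange.eval_nodal_at_node
      (Finset.mem_erase.mpr ⟨hi.symm, Finset.mem_univ i₀⟩), mul_zero]
  · intro h
    exact absurd (Finset.mem_univ i₀) h

end Lagrange

/-! ### Generalities on `coeffMap`, `qExpand` -/

section Gen

variable {B B' : Type*} [CommRing B] [CommRing B']

theorem coeffMap_inj (φ : B →+* B') (hφ : Function.Injective φ) :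
    Function.Injective (coeffMap φ) := by
  intro x y h
  ext k
  apply hφ
  have := congrArg (fun z => z.coeff k) h
  simpa using this

theorem qExpand_aeval (p : ℕ) [NeZero p] (x : LaurentSeries B) (Q : Polynomial B) :
    qExpand B p (Polynomial.aeval x Q) = Polynomial.aeval (qExpand B p x) Q := by
  rw [Polynomial.aeval_def, Polynomial.aeval_def, Polynomial.hom_eval₂]
  congr 1
  ext c
  rw [RingHom.comp_apply, algebraMap_eq_C, qExpand_C]

theorem aeval_map_intCast (x : LaurentSeries B) (Q : Polynomial ℤ) :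
    Polynomial.aeval x (Q.map (Int.castRingHom B)) = evalY x Q := by
  rw [Polynomial.aeval_def, Polynomial.eval₂_map, evalY, Polynomial.coe_eval₂RingHom]
  congr 1
  exact RingHom.ext_int _ _

/-- converse of `MonicOrd.qExpand` -/
theorem monicOrd_of_qExpand {f : LaurentSeries B} {m : ℤ} (p : ℕ) [NeZero p]
    (h : MonicOrd (qExpand B p f) (p * m)) : MonicOrd f m := by
  refine ⟨?_, fun k hk => ?_⟩
  · rw [← qExpand_coeff_mul (N := p)]
    exact h.1
  · rw [← qExpand_coeff_mul (N := p)]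
    refine h.2 _ ?_
    have hp : (0 : ℤ) < p := by exact_mod_cast Nat.pos_of_ne_zero (NeZero.ne p)
    exact mul_lt_mul_of_pos_left hk hp

theorem monicOrd_coeffMap (φ : B →+* B') {f : LaurentSeries B} {m : ℤ} (h : MonicOrd f m) :
    MonicOrd (coeffMap φ f) m := by
  refine ⟨?_, fun k hk => ?_⟩
  · rw [coeffMap_coeff, h.1, map_one]
  · rw [coeffMap_coeff, h.2 k hk, map_zero]

theorem monicOrd_of_coeffMap (φ : B →+* B') (hφ : Function.Injective φ) {f : LaurentSeries B}
    {m : ℤ} (h : MonicOrd (coeffMap φ f) m) : MonicOrd f m := by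
  refine ⟨?_, fun k hk => ?_⟩
  · apply hφ
    rw [map_one, ← coeffMap_coeff, h.1]
  · apply hφ
    rw [map_zero, ← coeffMap_coeff, h.2 k hk]

theorem monicOrd_prod {ι : Type*} (s : Finset ι) (f : ι → LaurentSeries B) (m : ℤ)
    (h : ∀ i ∈ s, MonicOrd (f i) m) : MonicOrd (∏ i ∈ s, f i) (s.card * m) := by
  classical
  induction s using Finset.induction_on with
  | empty => simpa using MonicOrd.one
  | insert a s ha ih =>
    rw [Finset.prod_insert ha, Finset.card_insert_of_notMem ha]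
    have : ((s.card + 1 : ℕ) : ℤ) * m = m + s.card * m := by push_cast; ring
    rw [this]
    exact (h a (Finset.mem_insert_self a s)).mul
      (ih fun i hi => h i (Finset.mem_insert_of_mem hi))

end Gen

/-! ### The mixed power sums `M_s = ∑ᵢ Uᵢ Jᵢ^s` -/

section MixedSums

variable (p : ℕ) [NeZero p]

/-- `M_s = qExpand p (mS s)` -/
def mS (B : Type*) [CommRing B] (s : ℕ) : LaurentSeries B :=
  unitInf B p * (qExpand B p (jqModC B)) ^ s +
    HahnSeries.C (p : B) * dec p (deltaQ B * jqModC B ^ s) * deltaInvQ B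

theorem coeffMap_mS {B B' : Type*} [CommRing B] [CommRing B'] (φ : B →+* B') (s : ℕ) :
    coeffMap φ (mS p B s) = mS p B' s := by
  unfold mS
  rw [map_add, map_mul, map_mul, map_mul, map_pow, coeffMap_unitInf, coeffMap_qExpand,
    coeffMap_jqModC, coeffMap_C, coeffMap_dec, map_mul, map_pow, coeffMap_deltaQ,
    coeffMap_jqModC, coeffMap_deltaInvQ, map_natCast]

theorem sum_UC_mul_JC_pow (hp : p.Prime) (s : ℕ) :
    ∑ i, UC p i * JC p i ^ s = qExpand ℂ p (mS p ℂ s) := by
  rw [Fintype.sum_option]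
  have h1 : UC p none * JC p none ^ s =
      qExpand ℂ p (unitInf ℂ p * (qExpand ℂ p (jqModC ℂ)) ^ s) := by
    rw [JC_none, UC, tpC, map_mul, map_pow]
  have h2 : ∑ b : Fin p, UC p (some b) * JC p (some b) ^ s =
      qExpand ℂ p (HahnSeries.C (p : ℂ) * dec p (deltaQ ℂ * jqModC ℂ ^ s) * deltaInvQ ℂ) := by
    have h3 : ∀ b : Fin p, UC p (some b) * JC p (some b) ^ s =
        twist (zetaC p ^ (b : ℕ)) (deltaQ ℂ * jqModC ℂ ^ s) * qExpand ℂ p (deltaInvQ ℂ) := by
      intro b
      simp only [UC, JC]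
      rw [map_mul, map_pow]
      ring
    simp_rw [h3]
    rw [← Finset.sum_mul,
      Fin.sum_univ_eq_sum_range (fun b => twist (zetaC p ^ b) (deltaQ ℂ * jqModC ℂ ^ s)) p,
      sum_twist hp (zetaC_isPrimitiveRoot p), map_mul, map_mul, qExpand_C]
  rw [h1, h2, ← map_add]
  rfl

/-- the third family of `HANQ3` has integral polynomials -/
theorem exists_int_poly (hp : p.Prime) (h3 : HANQ3 p) (s : ℕ) :
    ∃ R : Polynomial ℤ, ∑ i, UC p i * JC p i ^ s = evalY (tpC p) R := by
  obtain ⟨Q, hQ⟩ := h3.2.2 s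
  rw [sum_UC_mul_JC_pow p hp s, tpC, ← qExpand_aeval] at hQ
  have hQ' := qExpand_injective p hQ
  rw [← coeffMap_mS p (Int.castRingHom ℂ) s] at hQ'
  obtain ⟨R, hR⟩ := descent (Int.castRingHom ℂ) Q (mS p ℤ s) hQ'.symm
  refine ⟨R, ?_⟩
  rw [sum_UC_mul_JC_pow p hp s, ← aeval_map_intCast, hR, tpC, ← qExpand_aeval, ← hQ',
    coeffMap_mS]

end MixedSums

/-! ### The polynomial `Γ` -/

section Main

variable (p : ℕ) [NeZero p]

/-- `Γ ∈ ℤ[Y][X]` built from `Φ` and the integral polynomials `R s` (Horner / Lagrange) -/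
def gammaZ (Phi : Polynomial (Polynomial ℤ)) (R : ℕ → Polynomial ℤ) :
    Polynomial (Polynomial ℤ) :=
  ∑ k ∈ Finset.range (p + 1), Polynomial.monomial k
    (∑ m ∈ Finset.Icc (k + 1) (p + 1), Phi.coeff m * R (m - (k + 1)))

omit [NeZero p] in
theorem gammaZ_coeff (Phi : Polynomial (Polynomial ℤ)) (R : ℕ → Polynomial ℤ) (k : ℕ) :
    (gammaZ p Phi R).coeff k =
      ∑ m ∈ Finset.Icc (k + 1) (p + 1), Phi.coeff m * R (m - (k + 1)) := by
  unfold gammaZ
  rw [Polynomial.finsetSum_coeff]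
  simp_rw [Polynomial.coeff_monomial]
  rw [Finset.sum_ite_eq']
  split_ifs with h
  · rfl
  · rw [Finset.mem_range, not_lt] at h
    rw [Finset.Icc_eq_empty (by omega), Finset.sum_empty]

variable {p}

theorem gammaZ_map (Phi : Polynomial (Polynomial ℤ))
    (hPhi : Phi.map (evalY (tpC p)) = Lagrange.nodal Finset.univ (JC p))
    (R : ℕ → Polynomial ℤ) (hR : ∀ s, ∑ i, UC p i * JC p i ^ s = evalY (tpC p) (R s)) :
    (gammaZ p Phi R).map (evalY (tpC p)) = gammaC (JC p) (UC p) := by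
  apply Polynomial.ext
  intro k
  rw [Polynomial.coeff_map, gammaZ_coeff, gammaC_coeff, map_sum]
  have hdeg : (Lagrange.nodal Finset.univ (JC p)).natDegree = p + 1 := by
    rw [Lagrange.natDegree_nodal, Finset.card_univ, Fintype.card_option, Fintype.card_fin]
  rw [hdeg]
  refine Finset.sum_congr rfl fun m _ => ?_
  rw [map_mul, ← hR, ← hPhi, Polynomial.coeff_map]

theorem key_C (Phi : Polynomial (Polynomial ℤ))
    (hPhi : Phi.map (evalY (tpC p)) = Lagrange.nodal Finset.univ (JC p))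
    (R : ℕ → Polynomial ℤ) (hR : ∀ s, ∑ i, UC p i * JC p i ^ s = evalY (tpC p) (R s)) :
    ev2 (gammaZ p Phi R) (qExpand ℂ p (jqModC ℂ)) (jqModC ℂ) =
      unitInf ℂ p * ev2 (Polynomial.derivative Phi) (qExpand ℂ p (jqModC ℂ)) (jqModC ℂ) := by
  have h1 := gammaC_eval (JC p) (UC p) none
  rw [← gammaZ_map Phi hPhi R hR, ← hPhi, Polynomial.derivative_map, eval_map_evalY,
    eval_map_evalY, JC_none] at h1
  apply qExpand_injective p
  rw [map_mul, map_ev2, map_ev2]
  exact h1

theorem key_int (Phi : Polynomial (Polynomial ℤ))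
    (hPhi : Phi.map (evalY (tpC p)) = Lagrange.nodal Finset.univ (JC p))
    (R : ℕ → Polynomial ℤ) (hR : ∀ s, ∑ i, UC p i * JC p i ^ s = evalY (tpC p) (R s)) :
    ev2 (gammaZ p Phi R) (qExpand ℤ p (jqModC ℤ)) (jqModC ℤ) =
      unitInf ℤ p * ev2 (Polynomial.derivative Phi) (qExpand ℤ p (jqModC ℤ)) (jqModC ℤ) := by
  apply coeffMap_inj (Int.castRingHom ℂ) Int.cast_injective
  rw [map_mul, map_ev2, map_ev2, coeffMap_qExpand, coeffMap_jqModC, coeffMap_unitInf]
  exact key_C Phi hPhi R hR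

theorem key_all (Phi : Polynomial (Polynomial ℤ))
    (hPhi : Phi.map (evalY (tpC p)) = Lagrange.nodal Finset.univ (JC p))
    (R : ℕ → Polynomial ℤ) (hR : ∀ s, ∑ i, UC p i * JC p i ^ s = evalY (tpC p) (R s))
    (B : Type*) [CommRing B] :
    ev2 (gammaZ p Phi R) (qExpand B p (jqModC B)) (jqModC B) =
      unitInf B p * ev2 (Polynomial.derivative Phi) (qExpand B p (jqModC B)) (jqModC B) := by
  have h := congrArg (coeffMap (Int.castRingHom B)) (key_int Phi hPhi R hR)
  rwa [map_mul, map_ev2, map_ev2, coeffMap_qExpand, coeffMap_jqModC, coeffMap_unitInf] at h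

/-! ### The leading term of `Φ'(t_p, t)` -/

theorem monicOrd_deriv_C (hp : p.Prime) (Phi : Polynomial (Polynomial ℤ))
    (hPhi : Phi.map (evalY (tpC p)) = Lagrange.nodal Finset.univ (JC p)) :
    MonicOrd (ev2 (Polynomial.derivative Phi) (qExpand ℂ p (jqModC ℂ)) (jqModC ℂ))
      (((p * p : ℕ) : ℤ) * (-1)) := by
  apply monicOrd_of_qExpand p
  rw [map_ev2]
  have h1 : ev2 (Polynomial.derivative Phi) (qExpand ℂ p (qExpand ℂ p (jqModC ℂ)))
      (qExpand ℂ p (jqModC ℂ)) =
      ∏ j ∈ Finset.univ.erase (none : Option (Fin p)), (JC p none - JC p j) := by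
    rw [← Lagrange.eval_nodal, ← Lagrange.eval_nodal_derivative_eval_node_eq (Finset.mem_univ _),
      ← hPhi, Polynomial.derivative_map, eval_map_evalY, JC_none]
    rfl
  rw [h1]
  have hcard : (Finset.univ.erase (none : Option (Fin p))).card = p := by
    rw [Finset.card_erase_of_mem (Finset.mem_univ _), Finset.card_univ, Fintype.card_option,
      Fintype.card_fin, Nat.add_sub_cancel]
  have h2 := monicOrd_prod (Finset.univ.erase (none : Option (Fin p)))
    (fun j => JC p none - JC p j) (((p * p : ℕ) : ℤ) * (-1)) ?_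
  · rwa [hcard] at h2
  · intro j hj
    rcases j with _ | b
    · exact absurd rfl (Finset.mem_erase.mp hj).1
    · refine MonicOrd.sub_lowerBd (MonicOrd.jqModC.qExpand (p * p))
        (MonicOrd.jqModC.2.twist _) ?_
      have h2 : 2 ≤ p := hp.two_le
      have : (2 : ℤ) * 2 ≤ ((p * p : ℕ) : ℤ) := by
        exact_mod_cast Nat.mul_le_mul h2 h2
      linarith

theorem monicOrd_deriv (hp : p.Prime) (Phi : Polynomial (Polynomial ℤ))
    (hPhi : Phi.map (evalY (tpC p)) = Lagrange.nodal Finset.univ (JC p))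
    (B : Type*) [CommRing B] :
    MonicOrd (ev2 (Polynomial.derivative Phi) (qExpand B p (jqModC B)) (jqModC B))
      (((p * p : ℕ) : ℤ) * (-1)) := by
  have hZ : MonicOrd (ev2 (Polynomial.derivative Phi) (qExpand ℤ p (jqModC ℤ)) (jqModC ℤ))
      (((p * p : ℕ) : ℤ) * (-1)) := by
    apply monicOrd_of_coeffMap (Int.castRingHom ℂ) Int.cast_injective
    rw [map_ev2, coeffMap_qExpand, coeffMap_jqModC]
    exact monicOrd_deriv_C hp Phi hPhi
  have h := monicOrd_coeffMap (Int.castRingHom B) hZ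
  rwa [map_ev2, coeffMap_qExpand, coeffMap_jqModC] at h

/-! ### UNIT-rat -/

/-- **UNIT-rat** (the `unit_mem` field of `ModEqData`), from `HANQ3 p` and the factorisation of
`Φ(X, t_p)` over `ℂ((u))`. -/
theorem unit_mem_of_nodal (hp : p.Prime) (h3 : HANQ3 p) (Phi : Polynomial (Polynomial ℤ))
    (hPhi : Phi.map (evalY (tpC p)) = Lagrange.nodal Finset.univ (JC p))
    (K' : Type*) [Field K'] :
    unitInf K' p ∈ IntermediateField.adjoin K' {jqModC K', qExpand K' p (jqModC K')} := by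
  choose R hR using exists_int_poly p hp h3
  have hkey := key_all Phi hPhi R hR K'
  have hD := (monicOrd_deriv hp Phi hPhi K').ne_zero
  have hx : qExpand K' p (jqModC K') ∈
      IntermediateField.adjoin K' {jqModC K', qExpand K' p (jqModC K')} :=
    IntermediateField.subset_adjoin _ _ (by simp)
  have hy : jqModC K' ∈
      IntermediateField.adjoin K' {jqModC K', qExpand K' p (jqModC K')} :=
    IntermediateField.subset_adjoin _ _ (by simp)
  rw [eq_div_of_mul_eq hD hkey.symm]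
  exact div_mem (ev2_mem _ _ hx hy) (ev2_mem _ _ hx hy)

variable (p) in
theorem nodal_JC_eq : Lagrange.nodal Finset.univ (JC p) =
    (X - Polynomial.C (qExpand ℂ (p * p) (jqModC ℂ))) *
      ∏ b ∈ Finset.range p, (X - Polynomial.C (twist (zetaC p ^ b) (jqModC ℂ))) := by
  rw [Lagrange.nodal_eq, Fintype.prod_option,
    ← Fin.prod_univ_eq_prod_range (fun b => X - Polynomial.C (twist (zetaC p ^ b) (jqModC ℂ))) p]
  rfl

/-- **UNIT-rat**, hypothesis in the shape of the `roots` field of `ModEqData` (for `B = ℂ`,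
`ζ = zetaC p`), conclusion verbatim the `unit_mem` field. -/
theorem unit_mem_of_roots (hp : p.Prime) (h3 : HANQ3 p) (Phi : Polynomial (Polynomial ℤ))
    (hroots : Phi.map (evalY (qExpand ℂ p (jqModC ℂ))) =
      (X - Polynomial.C (qExpand ℂ (p * p) (jqModC ℂ))) *
        ∏ b ∈ Finset.range p, (X - Polynomial.C (twist (zetaC p ^ b) (jqModC ℂ))))
    (K' : Type) [Field K'] (ζ : K') (_ : (Polynomial.cyclotomic p K').IsRoot ζ)
    (_ : (p : K') ≠ 0) :
    unitInf K' p ∈ IntermediateField.adjoin K' {jqModC K', qExpand K' p (jqModC K')} :=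
  unit_mem_of_nodal hp h3 Phi (by rw [nodal_JC_eq]; exact hroots) K'

/-- The polynomial `Γ` with `Γ(t_p, t) = ũ_∞ Φ'(t_p, t)` over every `B`, and the leading term of
`Φ'(t_p, t)`. -/
theorem exists_gamma (hp : p.Prime) (h3 : HANQ3 p) (Phi : Polynomial (Polynomial ℤ))
    (hroots : Phi.map (evalY (qExpand ℂ p (jqModC ℂ))) =
      (X - Polynomial.C (qExpand ℂ (p * p) (jqModC ℂ))) *
        ∏ b ∈ Finset.range p, (X - Polynomial.C (twist (zetaC p ^ b) (jqModC ℂ)))) :
    ∃ Gamma : Polynomial (Polynomial ℤ), ∀ (B : Type) [CommRing B],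
      ev2 Gamma (qExpand B p (jqModC B)) (jqModC B) =
        unitInf B p * ev2 (Polynomial.derivative Phi) (qExpand B p (jqModC B)) (jqModC B) ∧
      MonicOrd (ev2 (Polynomial.derivative Phi) (qExpand B p (jqModC B)) (jqModC B))
        (((p * p : ℕ) : ℤ) * (-1)) := by
  have hPhi : Phi.map (evalY (tpC p)) = Lagrange.nodal Finset.univ (JC p) := by
    rw [nodal_JC_eq]; exact hroots
  choose R hR using exists_int_poly p hp h3
  exact ⟨gammaZ p Phi R, fun B _ => ⟨key_all Phi hPhi R hR B, monicOrd_deriv hp Phi hPhi B⟩⟩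

end Main

end Fermat.Agent.S28.FormalUnitRat72
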