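import Mathlib
import Fermat.Agent.S28.GaussRingRat
import Fermat.Agent.S28.MainKernelCore
import Fermat.Agent.S28.ORingF
import Fermat.Agent.S28.ORingIface

/-!
# S28 / ALG : concrete instantiation of the Gauss valuation ring and of `MainKernel.Setting`

`F = modularFunctionFieldFull N`, `𝒪' = ORing.OF ℓ N`, `ρ = ORing.rhoF ℓ N`,
`F₀ = ℚ(j)`, `V = 𝒪' ∩ ℚ(j)`, `κ₀ = 𝔽_ℓ(t)`.
-/

set_option autoImplicit false

noncomputable section

namespace Fermat.Agent.S28.GaussInst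

open ModularCurve HahnSeries ModularCurve.IgusaScheme IntermediateField Polynomial
open Fermat.Agent.S28 Fermat.Agent.S28.ORing

variable (ℓ : ℕ) [Fact ℓ.Prime] (N : ℕ) [NeZero N]

/-! ### Part A: the hypotheses of `GaussRing` -/

theorem resR_natCast : resR ℓ ((ℓ : ℕ) : Rl ℓ) = 0 := by
  rw [map_natCast]
  exact ZMod.natCast_self ℓ

theorem hRO (r : Rl ℓ) :
    algebraMap ℚ (modularFunctionFieldFull N) (algebraMap (Rl ℓ) ℚ r) ∈ OF ℓ N :=
  algebraMap_mem_OF ℓ N r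

theorem algebraMap_zmod_laurent (x : ZMod ℓ) :
    algebraMap (ZMod ℓ) (LaurentSeries (ZMod ℓ)) x = HahnSeries.C x := by
  rw [HahnSeries.algebraMap_apply']
  simp

theorem hρR (r : Rl ℓ) :
    rhoF ℓ N ⟨algebraMap ℚ (modularFunctionFieldFull N) (algebraMap (Rl ℓ) ℚ r), hRO ℓ N r⟩ =
      algebraMap (ZMod ℓ) (LaurentSeries (ZMod ℓ)) (resR ℓ r) := by
  rw [algebraMap_zmod_laurent]
  exact rhoF_algebraMap ℓ N r

theorem hunit (x : OF ℓ N) (hx : rhoF ℓ N x ≠ 0) : IsUnit x := by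
  have hinv := inv_mem_OF_of_rhoF_ne_zero ℓ N x hx
  have hx0 : (x : modularFunctionFieldFull N) ≠ 0 := by
    intro h
    apply hx
    have : x = 0 := Subtype.ext h
    rw [this, map_zero]
  refine IsUnit.of_mul_eq_one ⟨(x : modularFunctionFieldFull N)⁻¹, hinv⟩ (Subtype.ext ?_)
  change (x : modularFunctionFieldFull N) * (x : modularFunctionFieldFull N)⁻¹ = 1
  exact mul_inv_cancel₀ hx0

theorem ht : Transcendental (ZMod ℓ) (rhoF ℓ N ⟨jFull N, jFull_mem_OF ℓ N⟩) := by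
  rw [rhoF_jFull]
  exact GaussRingRat.transcendental_jqModC (ZMod ℓ)

theorem rhoF_jFull_inv :
    rhoF ℓ N ⟨(jFull N)⁻¹, jFull_inv_mem_OF ℓ N⟩ = (jqModC (ZMod ℓ))⁻¹ := by
  have h1 : (⟨jFull N, jFull_mem_OF ℓ N⟩ : OF ℓ N) * ⟨(jFull N)⁻¹, jFull_inv_mem_OF ℓ N⟩ = 1 :=
    Subtype.ext (mul_inv_cancel₀ (jFull_ne_zero N))
  have h2 := congrArg (rhoF ℓ N) h1
  rw [map_mul, map_one, rhoF_jFull] at h2
  exact eq_inv_of_mul_eq_one_right h2

theorem ht' : Transcendental (ZMod ℓ) (rhoF ℓ N ⟨(jFull N)⁻¹, jFull_inv_mem_OF ℓ N⟩) := by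
  rw [rhoF_jFull_inv]
  exact GaussRingRat.transcendental_jqModC_inv (ZMod ℓ)

/-! ### Part B: the concrete `MainKernel.Setting` -/

/-- `V = 𝒪' ∩ ℚ(j)`. -/
def V : Subring (modularFunctionFieldFull N) :=
  GaussRing.gaussSubring (Q := ℚ) (OF ℓ N) (jFull N)

theorem mem_V_iff {x : modularFunctionFieldFull N} :
    x ∈ V ℓ N ↔ x ∈ OF ℓ N ∧ x ∈ ℚ⟮jFull N⟯ := Iff.rfl

theorem algebraMap_ell :
    algebraMap ℚ (modularFunctionFieldFull N) (algebraMap (Rl ℓ) ℚ ((ℓ : ℕ) : Rl ℓ)) =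
      ((ℓ : ℕ) : modularFunctionFieldFull N) := by
  rw [map_natCast, map_natCast]

theorem ell_ne_zero : ((ℓ : ℕ) : modularFunctionFieldFull N) ≠ 0 := by
  have h : (ℓ : ℕ) ≠ 0 := (Fact.out : ℓ.Prime).ne_zero
  exact_mod_cast h

theorem ell_mem_V : ((ℓ : ℕ) : modularFunctionFieldFull N) ∈ V ℓ N := natCast_mem _ _

theorem rhoF_ell (h : ((ℓ : ℕ) : modularFunctionFieldFull N) ∈ OF ℓ N) :
    rhoF ℓ N ⟨((ℓ : ℕ) : modularFunctionFieldFull N), h⟩ = 0 := by
  have h1 : (⟨((ℓ : ℕ) : modularFunctionFieldFull N), h⟩ : OF ℓ N) = ((ℓ : ℕ) : OF ℓ N) :=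
    Subtype.ext rfl
  rw [h1, map_natCast]
  have : ((ℓ : ℕ) : ZMod ℓ) = 0 := ZMod.natCast_self ℓ
  have h2 : ((ℓ : ℕ) : LaurentSeries (ZMod ℓ)) = HahnSeries.C ((ℓ : ℕ) : ZMod ℓ) := by
    rw [map_natCast]
  rw [h2, this, map_zero]

/-- The concrete setting. -/
def setting : MainKernel.Setting (modularFunctionFieldFull N) (LaurentSeries (ZMod ℓ)) where
  F₀ := (ℚ⟮jFull N⟯).toSubfield
  V := V ℓ N
  O' := OF ℓ N
  κ₀ := ((ZMod ℓ)⟮jqModC (ZMod ℓ)⟯).toSubfield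
  ρ := rhoF ℓ N
  ℓ := ((ℓ : ℕ) : modularFunctionFieldFull N)
  hℓ0 := ell_ne_zero ℓ N
  hVF₀ := fun _ hx => hx.2
  hVO := fun _ hx => hx.1
  hℓV := ell_mem_V ℓ N
  hρℓ := rhoF_ell ℓ N _
  hρV := by
    intro v hv
    have h := GaussRing.gaussSubring_rho_mem (resR ℓ) ((ℓ : ℕ) : Rl ℓ) (OF ℓ N) (rhoF ℓ N) (jFull N)
      (GaussRingRat.algebraMap_injective ℓ) (GaussRingRat.natCast_ne_zero ℓ) (resR_natCast ℓ)
      (GaussRingRat.exists_zpow_mul_unit ℓ) (hRO ℓ N) (hρR ℓ N) (hunit ℓ N) (jFull_mem_OF ℓ N)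
      (ht ℓ N) v hv
    rw [rhoF_jFull] at h
    exact h
  hV1 := by
    intro c hc hc0
    have h := GaussRing.gaussSubring_hV1 (resR ℓ) ((ℓ : ℕ) : Rl ℓ) (OF ℓ N) (rhoF ℓ N) (jFull N)
      (GaussRingRat.algebraMap_injective ℓ) (GaussRingRat.natCast_ne_zero ℓ)
      (GaussRingRat.exists_zpow_mul_unit ℓ) (hRO ℓ N) (hρR ℓ N) (hunit ℓ N) (jFull_mem_OF ℓ N)
      (ht ℓ N) c hc hc0
    rw [algebraMap_ell] at h
    exact h

/-! ### Part C: general lemmas -/

section General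

theorem isIntegral_toSubring_iff {A B : Type*} [CommRing A] [CommRing B] [Algebra A B]
    (S : Subalgebra A B) (x : B) : IsIntegral S.toSubring x ↔ IsIntegral S x := by
  let φ : ↥S.toSubring →+* ↥S :=
    { toFun := fun y => ⟨y.1, y.2⟩, map_one' := rfl, map_mul' := fun _ _ => rfl,
      map_zero' := rfl, map_add' := fun _ _ => rfl }
  let ψ : ↥S →+* ↥S.toSubring :=
    { toFun := fun y => ⟨y.1, y.2⟩, map_one' := rfl, map_mul' := fun _ _ => rfl,
      map_zero' := rfl, map_add' := fun _ _ => rfl }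
  constructor
  · rintro ⟨p, hm, hr⟩
    refine ⟨p.map φ, hm.map _, ?_⟩
    rw [eval₂_map]
    exact hr
  · rintro ⟨p, hm, hr⟩
    refine ⟨p.map ψ, hm.map _, ?_⟩
    rw [eval₂_map]
    exact hr

open scoped IntermediateField.algebraAdjoinAdjoin in
/-- `K[s]` is integrally closed in `K(s)` for transcendental `s`. -/
theorem mem_adjoin_of_isIntegral {K L : Type*} [Field K] [Field L] [Algebra K L] (s : L)
    (hs : Transcendental K s) (c : L) (hc : c ∈ K⟮s⟯)
    (hint : IsIntegral (Algebra.adjoin K {s}) c) : c ∈ Algebra.adjoin K {s} := by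
  have : IsIntegrallyClosed (Algebra.adjoin K {s}) :=
    IsIntegrallyClosed.of_equiv (Polynomial.algEquivOfTranscendental K s hs).toRingEquiv
  have h1 : IsIntegral (Algebra.adjoin K {s}) (⟨c, hc⟩ : K⟮s⟯) := by
    have := (isIntegral_algHom_iff (IsScalarTower.toAlgHom (Algebra.adjoin K {s}) K⟮s⟯ L)
      (Subtype.val_injective) (x := (⟨c, hc⟩ : K⟮s⟯))).1
    exact this hint
  obtain ⟨y, hy⟩ := IsIntegrallyClosed.isIntegral_iff.1 h1
  have h2 : (y : L) = c := congrArg Subtype.val hy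
  rw [← h2]
  exact y.2

theorem adjoin_simple_inv {K L : Type*} [Field K] [Field L] [Algebra K L] (s : L) :
    K⟮s⁻¹⟯ = K⟮s⟯ := by
  apply le_antisymm
  · rw [adjoin_simple_le_iff]
    exact inv_mem (mem_adjoin_simple_self K s)
  · rw [adjoin_simple_le_iff]
    have := inv_mem (mem_adjoin_simple_self K s⁻¹)
    rwa [inv_inv] at this

theorem rank_toSubfield {Q L : Type*} [Field Q] [Field L] [Algebra Q L]
    (K : IntermediateField Q L) : Module.rank ↥K.toSubfield L = Module.rank ↥K L := by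
  refine rank_eq_of_equiv_equiv (fun x : ↥K.toSubfield => (⟨x.1, x.2⟩ : ↥K)) (AddEquiv.refl L)
    ⟨fun x y h => Subtype.ext (congrArg Subtype.val h), fun y => ⟨⟨y.1, y.2⟩, rfl⟩⟩ ?_
  intro r m
  rfl

end General

/-! ### Part D: degree and transcendence of `j` -/

/-- The `ℚ`-algebra structure is unique: `adjoin` does not depend on it. -/
theorem adjoin_toSubfield_eq {L : Type*} [Field L] (a₁ a₂ : Algebra ℚ L) (S : Set L) :
    @IntermediateField.toSubfield ℚ L _ _ a₁ (@IntermediateField.adjoin ℚ _ L _ a₁ S) =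
      @IntermediateField.toSubfield ℚ L _ _ a₂ (@IntermediateField.adjoin ℚ _ L _ a₂ S) := by
  obtain rfl : a₁ = a₂ := Subsingleton.elim _ _
  rfl

theorem transcendental_of_algebra_rat {L : Type*} [Field L] (a₁ a₂ : Algebra ℚ L) (x : L)
    (h : @Transcendental ℚ L _ _ a₁ x) : @Transcendental ℚ L _ _ a₂ x := by
  obtain rfl : a₁ = a₂ := Subsingleton.elim _ _
  exact h

theorem transcendental_jq : Transcendental ℚ jq := GaussRingRat.transcendental_jqModC ℚ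

section NoRat

attribute [-instance] DivisionRing.toRatAlgebra

theorem transcendental_jFull_aux : Transcendental ℚ (jFull N) := by
  intro h
  apply transcendental_jq
  have := (isAlgebraic_algHom_iff (modularFunctionFieldFull N).val Subtype.val_injective
    (a := jFull N)).2 h
  exact this

theorem adjoin_jFull_eq_comap :
    ℚ⟮jFull N⟯ = (ℚ⟮jq⟯).comap (modularFunctionFieldFull N).val := by
  apply le_antisymm
  · rw [adjoin_simple_le_iff]
    change (modularFunctionFieldFull N).val (jFull N) ∈ ℚ⟮jq⟯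
    exact mem_adjoin_simple_self ℚ jq
  · intro x hx
    have hx' : ((x : modularFunctionFieldFull N) : LaurentSeries ℚ) ∈ ℚ⟮jq⟯ := hx
    have h1 : IntermediateField.lift (ℚ⟮jFull N⟯) = ℚ⟮jq⟯ :=
      IntermediateField.lift_adjoin_simple ℚ (modularFunctionFieldFull N) (jFull N)
    rw [← h1] at hx'
    exact (IntermediateField.mem_lift x).1 hx'

theorem rank_adjoin_jFull_le {n : ℕ}
    (h : IntermediateField.relrank (ℚ⟮jq⟯) (modularFunctionFieldFull N) ≤ (n : Cardinal)) :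
    Module.rank ↥(ℚ⟮jFull N⟯) ↥(modularFunctionFieldFull N) ≤ (n : Cardinal) := by
  rw [adjoin_jFull_eq_comap, IntermediateField.rank_comap, IntermediateField.fieldRange_val]
  exact h

theorem rank_F₀_le {n : ℕ}
    (h : IntermediateField.relrank (ℚ⟮jq⟯) (modularFunctionFieldFull N) ≤ (n : Cardinal)) :
    Module.rank ↥(setting ℓ N).F₀ ↥(modularFunctionFieldFull N) ≤ (n : Cardinal) := by
  have h1 : (setting ℓ N).F₀ = (ℚ⟮jFull N⟯).toSubfield :=
    adjoin_toSubfield_eq (L := ↥(modularFunctionFieldFull N)) DivisionRing.toRatAlgebra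
      inferInstance {jFull N}
  rw [h1, rank_toSubfield]
  exact rank_adjoin_jFull_le N h

end NoRat

theorem transcendental_jFull : Transcendental ℚ (jFull N) :=
  transcendental_of_algebra_rat _ _ _ (transcendental_jFull_aux N)

theorem transcendental_jFull_inv : Transcendental ℚ (jFull N)⁻¹ := by
  intro h
  exact transcendental_jFull N (by simpa using h.inv)

theorem finiteDimensional_F₀ {n : ℕ}
    (h : IntermediateField.relrank (ℚ⟮jq⟯) (modularFunctionFieldFull N) ≤ (n : Cardinal)) :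
    FiniteDimensional ↥(setting ℓ N).F₀ ↥(modularFunctionFieldFull N) :=
  Module.rank_lt_aleph0_iff.1 ((rank_F₀_le ℓ N h).trans_lt (Cardinal.nat_lt_aleph0 n))

theorem finrank_F₀_le {n : ℕ}
    (h : IntermediateField.relrank (ℚ⟮jq⟯) (modularFunctionFieldFull N) ≤ (n : Cardinal)) :
    Module.finrank ↥(setting ℓ N).F₀ ↥(modularFunctionFieldFull N) ≤ n :=
  Module.finrank_le_of_rank_le (rank_F₀_le ℓ N h)

/-! ### Part E: the kernel statement for a chart `A_{s}`, `s ∈ {j, j⁻¹}` -/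

theorem linearIndependent_κ₀ {n : ℕ} (v : Fin n → LaurentSeries (ZMod ℓ))
    (h : LinearIndependent ↥(fieldT (ZMod ℓ)) v) :
    LinearIndependent ↥(setting ℓ N).κ₀ v := by
  rw [Fintype.linearIndependent_iff] at h ⊢
  intro g hg i
  have h1 := h (fun i => (⟨(g i).1, (g i).2⟩ : ↥(fieldT (ZMod ℓ)))) hg i
  exact Subtype.ext (congrArg Subtype.val h1)

theorem kernel_chart (hKey : KeyStatement N ℓ) (s : modularFunctionFieldFull N)
    (hsO : s ∈ OF ℓ N) (hsF : ℚ⟮s⟯ = ℚ⟮jFull N⟯) (hts : Transcendental ℚ s)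
    (htρ : Transcendental (ZMod ℓ) (rhoF ℓ N ⟨s, hsO⟩))
    (hS : ∀ t ∈ ({s} : Set (modularFunctionFieldFull N)), (t : LaurentSeries ℚ) ∈ O ℓ)
    (a : chartAlg N ℓ {s}) (ha : redChart ℓ N {s} hS a = 0) :
    ∃ b : chartAlg N ℓ {s}, a = ((ℓ : ℕ) : Rl ℓ) • b := by
  obtain ⟨n, x, hxF, hxlin, hrank⟩ := hKey
  have hfd := finiteDimensional_F₀ ℓ N hrank
  have hfr := finrank_F₀_le ℓ N hrank
  -- the `xᵢ`
  let x' : Fin n → (setting ℓ N).O' := fun i =>
    ⟨⟨coeffMap (Int.castRingHom ℚ) (x i), hxF i⟩, mem_OF_of_int ℓ N _ (x i) rfl⟩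
  have hx' : LinearIndependent ↥(setting ℓ N).κ₀ (fun i => (setting ℓ N).ρ (x' i)) := by
    have h1 : (fun i => (setting ℓ N).ρ (x' i)) =
        fun i => coeffMap (Int.castRingHom (ZMod ℓ)) (x i) := by
      funext i
      exact rhoF_of_int ℓ N _ (x i) rfl
    rw [h1]
    exact linearIndependent_κ₀ ℓ N _ hxlin
  -- the rings `P = ℚ[s]`, `R' = R[s]`
  let P : Subring (modularFunctionFieldFull N) := (Algebra.adjoin ℚ {s}).toSubring
  let R' : Subring (modularFunctionFieldFull N) := (Algebra.adjoin (Rl ℓ) {s}).toSubring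
  have hPF₀ : P ≤ (setting ℓ N).F₀.toSubring := by
    intro y hy
    have h1 : y ∈ ℚ⟮s⟯ := IntermediateField.algebra_adjoin_le_adjoin ℚ {s} hy
    rw [hsF] at h1
    exact h1
  have hR'P : R' ≤ P := by
    intro y hy
    have hy' : y ∈ Algebra.adjoin (Rl ℓ) {s} := hy
    clear hy
    change y ∈ Algebra.adjoin ℚ {s}
    induction hy' using Algebra.adjoin_induction with
    | mem z hz => exact Algebra.subset_adjoin hz
    | algebraMap r => exact Subalgebra.algebraMap_mem _ (algebraMap (Rl ℓ) ℚ r)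
    | add y₁ y₂ _ _ h₁ h₂ => exact add_mem h₁ h₂
    | mul y₁ y₂ _ _ h₁ h₂ => exact mul_mem h₁ h₂
  have hR'O : R' ≤ (setting ℓ N).O' := by
    intro y hy
    have hy' : y ∈ Algebra.adjoin (Rl ℓ) {s} := hy
    exact coe_mem_O_of_mem_adjoin ℓ N {s} hS hy'
  have hℓinv : (setting ℓ N).ℓ⁻¹ ∈ P := by
    change ((ℓ : ℕ) : modularFunctionFieldFull N)⁻¹ ∈ Algebra.adjoin ℚ {s}
    have h1 : ((ℓ : ℕ) : modularFunctionFieldFull N)⁻¹ =
        algebraMap ℚ (modularFunctionFieldFull N) ((ℓ : ℚ)⁻¹) := by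
      rw [map_inv₀, map_natCast]
    rw [h1]
    exact Subalgebra.algebraMap_mem _ _
  have hPcl : ∀ c ∈ (setting ℓ N).F₀, IsIntegral P c → c ∈ P := by
    intro c hc hint
    have hc' : c ∈ ℚ⟮s⟯ := by
      rw [hsF]
      exact hc
    exact mem_adjoin_of_isIntegral s hts c hc' ((isIntegral_toSubring_iff _ c).1 hint)
  have hVcl : ∀ c ∈ (setting ℓ N).F₀, IsIntegral (setting ℓ N).V c → c ∈ (setting ℓ N).V := by
    intro c hc hint
    exact GaussRing.gaussSubring_integrallyClosed (resR ℓ) ((ℓ : ℕ) : Rl ℓ) (OF ℓ N) (rhoF ℓ N)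
      (jFull N) (GaussRingRat.algebraMap_injective ℓ) (GaussRingRat.natCast_ne_zero ℓ)
      (GaussRingRat.exists_zpow_mul_unit ℓ) (hRO ℓ N) (hρR ℓ N) (hunit ℓ N) (jFull_mem_OF ℓ N)
      (ht ℓ N) c hc hint
  have hPV : P ⊓ (setting ℓ N).V ≤ R' := by
    rintro y ⟨hyP, hyV⟩
    have hyO : y ∈ OF ℓ N := hyV.1
    obtain ⟨a₀, ha₀⟩ := GaussRing.exists_lift_of_mem_adjoin (resR ℓ) ((ℓ : ℕ) : Rl ℓ) (OF ℓ N)
      (rhoF ℓ N) s (GaussRingRat.algebraMap_injective ℓ) (GaussRingRat.natCast_ne_zero ℓ)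
      (resR_natCast ℓ) (GaussRingRat.exists_zpow_mul_unit ℓ) (hRO ℓ N) (hρR ℓ N) hsO htρ y hyO hyP
    change y ∈ Algebra.adjoin (Rl ℓ) {s}
    rw [ha₀, Polynomial.aeval_map_algebraMap]
    exact Polynomial.aeval_mem_adjoin_singleton _ _
  have hOcl : ∀ c : modularFunctionFieldFull N, IsIntegral (setting ℓ N).O' c →
      c ∈ (setting ℓ N).O' := mem_OF_of_isIntegral ℓ N
  have hker : ∀ y : (setting ℓ N).O', (setting ℓ N).ρ y = 0 →
      ∃ z : (setting ℓ N).O', (y : modularFunctionFieldFull N) = (setting ℓ N).ℓ * z :=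
    fun y hy => (rhoF_eq_zero_iff ℓ N y).1 hy
  have haR' : IsIntegral R' (a : modularFunctionFieldFull N) :=
    (isIntegral_toSubring_iff _ _).2 ((mem_chartAlg_iff N ℓ).1 a.2)
  obtain ⟨haO, hab⟩ := MainKernel.exists_eq_mul_of_rho_eq_zero (setting ℓ N) x' hx' hfr P R'
    hPF₀ hR'P hR'O hℓinv hPcl hVcl hPV hOcl hker (a : modularFunctionFieldFull N) haR'
  obtain ⟨b, hbint, hb⟩ := hab ha
  refine ⟨⟨b, (mem_chartAlg_iff N ℓ).2 ((isIntegral_toSubring_iff _ _).1 hbint)⟩, Subtype.ext ?_⟩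
  rw [hb]
  change (setting ℓ N).ℓ * b = algebraMap (Rl ℓ) (modularFunctionFieldFull N) ((ℓ : ℕ) : Rl ℓ) * b
  rw [map_natCast]
  rfl

/-! ### Part F: output of ALG -/

/-- **ALG**: `KEY(N, ℓ) ⇒ RED(N, ℓ)`. -/
theorem redStatement_of_keyStatement (hKey : KeyStatement N ℓ) : RedStatement N ℓ :=
  redStatement_of_kernels ℓ N
    (fun a ha => kernel_chart ℓ N hKey (jFull N) (jFull_mem_OF ℓ N) rfl (transcendental_jFull N)
      (ht ℓ N) (hS_fin ℓ N) a ha)
    (fun a ha => kernel_chart ℓ N hKey (jFull N)⁻¹ (jFull_inv_mem_OF ℓ N)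
      (adjoin_simple_inv (jFull N)) (transcendental_jFull_inv N) (ht' ℓ N) (hS_inf ℓ N) a ha)

end Fermat.Agent.S28.GaussInst
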