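/-
S28 packages ANQ + AN-CONJ glue (helper55): the analytic input `FORMAL.HANQ p` of FORMAL.

From the function-level theorem `AnConj.exists_polynomial_of_isIndexSymmetric` (every polynomial
expression in `J_i = j ∘ α_i`, `ũ_i`, invariant under simultaneous permutations of the indices, is
a polynomial in `j`) and the `q_p`-expansions (`u = exp(2πiτ/p)`) of `j`, `J_i`, `ũ_i`
(S24 `HasQExp` calculus of helper47 + the S24 bridge `hasSum_coeffMap_jq` + Taylor series of the
eta product), uniqueness of expansions gives the identities in `ℂ((u))`.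
Main result: `Fermat.Agent.S28.Hanq55.hanq (p) [Fact p.Prime] : FORMAL.HANQ p`.
No proof obligations left.
-/
import Mathlib
import Fermat.Agent.S28.AnConj
import Fermat.Agent.S28.FormalInput
import Fermat.Agent.S24.HasQExp
import Fermat.Agent.S24.JBridgeZ

set_option autoImplicit false

noncomputable section

namespace Fermat.Agent.S28.Hanq55

open UpperHalfPlane ModularCurve HahnSeries Metric Topology
open scoped Real
open Fermat.Agent.S24 (HasQExp)
open Fermat.Agent.S24.HasQExp (qN qN_eq qN_ne_zero norm_qN_lt_one repr of_pSum PSum twistBy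
  coeff_twistBy)
open Fermat.Agent.S24.JAnalytic (jFun)
open Fermat.Agent.S24.JBridge (taylorPS taylorPS_pow taylorPS_mul taylorPS_congr taylorPS_one
  hasSum_taylorPS etaDisc differentiableOn_etaDisc taylorPS_etaDisc etaDisc_ne_zero
  discriminant_eq_qParam_mul_etaDisc analyticAt_zero_of_differentiableOn_ball)
open Fermat.Agent.S28.AnConj (J U JU symFun IsIndexSymmetric aInf aFin coe_aInf_smul coe_aFin_smul
  J_none_apply J_some_apply U_none_apply U_some_apply exists_polynomial_of_isIndexSymmetric)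
open Fermat.Agent.S28.FORMAL (zetaC zetaC_val tpC JC UC UC_none HANQ)

local notation "Δ" => ModularForm.discriminant

/-! ### part 1 -/

/-! ### closure of `HasQExp` under polynomial evaluation -/

theorem hasQExp_mvPolynomial {N : ℕ} {ι : Type} (f : ι → ℍ → ℂ) (E : ι → LaurentSeries ℂ)
    (h : ∀ s, HasQExp N (f s) (E s)) (P : MvPolynomial ι ℂ) :
    HasQExp N (fun τ => MvPolynomial.eval (fun s => f s τ) P) (MvPolynomial.aeval E P) := by
  induction P using MvPolynomial.induction_on with
  | C a =>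
    have h1 : (MvPolynomial.aeval E (MvPolynomial.C a) : LaurentSeries ℂ) = HahnSeries.C a := by
      rw [MvPolynomial.aeval_C, algebraMap_laurentSeries_eq_single]; rfl
    rw [h1]
    simpa using HasQExp.const N a
  | add P Q hP hQ =>
    rw [map_add]
    simpa using hP.add hQ
  | mul_X P s hP =>
    rw [map_mul, MvPolynomial.aeval_X]
    simpa using hP.mul (h s)

theorem hasQExp_polynomial {N : ℕ} {f : ℍ → ℂ} {E : LaurentSeries ℂ} (h : HasQExp N f E)
    (Q : Polynomial ℂ) :
    HasQExp N (fun τ => Q.eval (f τ)) (Polynomial.aeval E Q) := by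
  induction Q using Polynomial.induction_on' with
  | add P Q hP hQ =>
    rw [map_add]
    simpa using hP.add hQ
  | monomial n a =>
    have h1 : (Polynomial.aeval E (Polynomial.monomial n a) : LaurentSeries ℂ) =
        HahnSeries.C a * E ^ n := by
      rw [Polynomial.aeval_monomial, algebraMap_laurentSeries_eq_single]; rfl
    rw [h1]
    simpa using (h.pow n).smul a

/-! ### the expansion of `j` -/

theorem hasQExp_jFun : HasQExp 1 jFun (jqModC ℂ) := by
  intro τ
  have h := Fermat.Agent.S24.JBridge.hasSum_coeffMap_jq τ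
  rw [← jqModC_rat, coeffMap_jqModC] at h
  refine h.congr_fun fun m => ?_
  rw [qN_eq]
  simp

/-! ### part 2 -/

/-- `q ↦ ∏ (1 - q^n)^24` -/
def eta24 (q : ℂ) : ℂ := etaDisc q ^ 24

theorem differentiableOn_eta24 : DifferentiableOn ℂ eta24 (ball 0 1) :=
  differentiableOn_etaDisc.pow 24

theorem eta24_ne_zero {q : ℂ} (hq : ‖q‖ < 1) : eta24 q ≠ 0 :=
  pow_ne_zero _ (etaDisc_ne_zero hq)

theorem taylorPS_eta24 : taylorPS eta24 = dedekindEtaUnit.map (Int.castRingHom ℂ) := by
  have hD := analyticAt_zero_of_differentiableOn_ball differentiableOn_etaDisc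
  have : eta24 = etaDisc ^ 24 := rfl
  rw [this, taylorPS_pow hD, taylorPS_etaDisc, dedekindEtaUnit, map_pow]

/-- `q ↦ ∏ (1 - q^n)^(-24)` -/
def eta24Inv (q : ℂ) : ℂ := (eta24 q)⁻¹

theorem differentiableOn_eta24Inv : DifferentiableOn ℂ eta24Inv (ball 0 1) :=
  differentiableOn_eta24.inv fun q hq => eta24_ne_zero (by simpa using hq)

theorem taylorPS_eta24Inv : taylorPS eta24Inv = dedekindEtaUnitInv.map (Int.castRingHom ℂ) := by
  have h1 := analyticAt_zero_of_differentiableOn_ball differentiableOn_eta24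
  have h2 := analyticAt_zero_of_differentiableOn_ball differentiableOn_eta24Inv
  have hev : eta24Inv * eta24 =ᶠ[𝓝 0] (1 : ℂ → ℂ) := by
    filter_upwards [ball_mem_nhds (0 : ℂ) one_pos] with q hq
    simp only [Pi.mul_apply, Pi.one_apply, eta24Inv]
    exact inv_mul_cancel₀ (eta24_ne_zero (by simpa using hq))
  have h3 : taylorPS eta24Inv * dedekindEtaUnit.map (Int.castRingHom ℂ) = 1 := by
    rw [← taylorPS_eta24, ← taylorPS_mul h2 h1, taylorPS_congr hev, taylorPS_one]
  have h4 : dedekindEtaUnit.map (Int.castRingHom ℂ) * dedekindEtaUnitInv.map (Int.castRingHom ℂ)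
      = 1 := by
    rw [← map_mul, dedekindEtaUnit_mul_inv, map_one]
  calc taylorPS eta24Inv = taylorPS eta24Inv * (dedekindEtaUnit.map (Int.castRingHom ℂ) *
        dedekindEtaUnitInv.map (Int.castRingHom ℂ)) := by rw [h4, mul_one]
    _ = dedekindEtaUnitInv.map (Int.castRingHom ℂ) := by rw [← mul_assoc, h3, one_mul]

theorem qN_one_eq (τ : ℍ) : qN 1 τ = Function.Periodic.qParam 1 (τ : ℂ) := by
  simp [qN]

theorem hasQExp_discriminant : HasQExp 1 (Δ : ℍ → ℂ) (deltaQ ℂ) := by
  have h : deltaQ ℂ = repr 1 (dedekindEtaUnit.map (Int.castRingHom ℂ)) := rfl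
  rw [h]
  refine of_pSum fun τ => ?_
  have hq : ‖qN 1 τ‖ < 1 := norm_qN_lt_one one_pos τ
  have hq0 := qN_ne_zero 1 τ
  have h1 := hasSum_taylorPS differentiableOn_eta24 hq
  rw [taylorPS_eta24] at h1
  have h2 : qN 1 τ ^ (-1 : ℤ) * Δ τ = eta24 (qN 1 τ) := by
    rw [discriminant_eq_qParam_mul_etaDisc, ← qN_one_eq, eta24, ← mul_assoc, zpow_neg_one,
      inv_mul_cancel₀ hq0, one_mul]
  rw [h2]
  exact h1

theorem hasQExp_discriminant_inv : HasQExp 1 (fun τ => (Δ τ)⁻¹) (deltaInvQ ℂ) := by
  have h : deltaInvQ ℂ = repr (-1) (dedekindEtaUnitInv.map (Int.castRingHom ℂ)) := rfl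
  rw [h]
  refine of_pSum fun τ => ?_
  have hq : ‖qN 1 τ‖ < 1 := norm_qN_lt_one one_pos τ
  have hq0 := qN_ne_zero 1 τ
  have h1 := hasSum_taylorPS differentiableOn_eta24Inv hq
  rw [taylorPS_eta24Inv] at h1
  have h2 : qN 1 τ ^ (-(-1 : ℤ)) * (Δ τ)⁻¹ = eta24Inv (qN 1 τ) := by
    rw [discriminant_eq_qParam_mul_etaDisc, ← qN_one_eq, eta24Inv, eta24, neg_neg, zpow_one,
      mul_inv, ← mul_assoc, mul_inv_cancel₀ hq0, one_mul]
  rw [h2]
  exact h1

/-! ### part 3 -/

variable (p : ℕ) [hp : Fact p.Prime]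

instance instNeZeroP : NeZero p := ⟨hp.out.ne_zero⟩

/-- the expansion of `j` in `u = exp(2πiτ/p)` -/
theorem hasQExp_jFun_level : HasQExp p jFun (tpC p) := by
  have := hasQExp_jFun.levelChange p
  rwa [one_mul] at this

omit hp in
/-- the twist by `exp(2πi n/p)` in the `S24` normalisation is the `S28` twist by `ζ^n`. -/
theorem twistBy_eq_twist (n : ℕ) (E : LaurentSeries ℂ) :
    twistBy (Complex.exp (2 * π * Complex.I * ((n : ℤ) : ℂ) / ((1 * p : ℕ) : ℂ))) E =
      twist (zetaC p ^ n) E := by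
  ext m
  rw [coeff_twistBy, twist_coeff]
  congr 1
  rw [Units.val_zpow_eq_zpow_val, Units.val_pow_eq_pow_val, zetaC_val, ← Complex.exp_nat_mul]
  congr 2
  push_cast
  ring

theorem hasQExp_comp_aFin {f : ℍ → ℂ} {E : LaurentSeries ℂ} (h : HasQExp 1 f E) (n : ℕ) :
    HasQExp p (fun τ => f (aFin p (n : ℤ) • τ)) (twist (zetaC p ^ n) E) := by
  have := h.comp_affine (a := 1) (δ := p) (n : ℤ) (fun τ => aFin p (n : ℤ) • τ) (fun τ => by
    rw [coe_aFin_smul]; push_cast; ring)
  rw [qExpand_one_apply, twistBy_eq_twist] at this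
  rwa [one_mul] at this

theorem hasQExp_comp_aInf {f : ℍ → ℂ} {E : LaurentSeries ℂ} (h : HasQExp 1 f E) :
    HasQExp p (fun τ => f (aInf p • τ)) (qExpand ℂ (p * p) E) := by
  have h1 := h.dilate p (fun τ => aInf p • τ) (fun τ => coe_aInf_smul p τ)
  have h2 := h1.levelChange p
  rwa [one_mul, qExpand_qExpand] at h2

/-- the index translation `Option (Fin p) → Option (ZMod p)` -/
def toZ : Option (Fin p) → Option (ZMod p) := Option.map fun b => ((b : ℕ) : ZMod p)

theorem val_cast_fin (b : Fin p) : (((b : ℕ) : ZMod p)).val = (b : ℕ) :=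
  ZMod.val_natCast_of_lt b.2

theorem hasQExp_J (i : Option (Fin p)) : HasQExp p (J p (toZ p i)) (JC p i) := by
  cases i with
  | none => exact hasQExp_comp_aInf p hasQExp_jFun
  | some b =>
    have := hasQExp_comp_aFin p hasQExp_jFun (b : ℕ)
    refine this.congr fun τ => ?_
    change _ = J p (some ((b : ℕ) : ZMod p)) τ
    rw [J_some_apply, val_cast_fin]

theorem hasQExp_discriminant_inv_level :
    HasQExp p (fun τ => (Δ τ)⁻¹) (qExpand ℂ p (deltaInvQ ℂ)) := by
  have := hasQExp_discriminant_inv.levelChange p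
  rwa [one_mul] at this

theorem hasQExp_U (i : Option (Fin p)) : HasQExp p (U p (toZ p i)) (UC p i) := by
  cases i with
  | none =>
    rw [UC_none]
    have h1 := ((hasQExp_comp_aInf p hasQExp_discriminant).mul
      (hasQExp_discriminant_inv_level p)).smul ((p : ℂ) ^ 12)
    refine h1.congr fun τ => ?_
    change _ = U p none τ
    rw [U_none_apply, div_eq_mul_inv, mul_assoc]
  | some b =>
    have h1 := (hasQExp_comp_aFin p hasQExp_discriminant (b : ℕ)).mul
      (hasQExp_discriminant_inv_level p)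
    refine h1.congr fun τ => ?_
    change _ = U p (some ((b : ℕ) : ZMod p)) τ
    rw [U_some_apply, val_cast_fin, div_eq_mul_inv]

/-! ### part 4 -/

/-- `Fin p ≃ ZMod p` -/
def finZ : Fin p ≃ ZMod p where
  toFun b := ((b : ℕ) : ZMod p)
  invFun z := ⟨z.val, ZMod.val_lt z⟩
  left_inv b := by
    apply Fin.ext
    exact val_cast_fin p b
  right_inv z := by
    simp

/-- the index translation as an equivalence -/
def eIdx : Option (Fin p) ≃ Option (ZMod p) := Equiv.optionCongr (finZ p)

theorem eIdx_apply (i : Option (Fin p)) : eIdx p i = toZ p i := rfl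

/-- **ANQ + AN-CONJ**: the analytic input of FORMAL. -/
theorem hanq : HANQ p := by
  intro P hP
  set e := eIdx p with he
  set P' : MvPolynomial (Option (ZMod p) ⊕ Option (ZMod p)) ℂ :=
    MvPolynomial.rename (Sum.map e e) P with hP'
  have hsym : IsIndexSymmetric p P' := by
    intro σ
    set σ' : Equiv.Perm (Option (Fin p)) := (e.trans σ).trans e.symm with hσ'
    have hcomp : (Sum.map σ σ ∘ Sum.map e e : Option (Fin p) ⊕ Option (Fin p) → _) =
        Sum.map e e ∘ Sum.map σ' σ' := by
      funext s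
      cases s with
      | inl i => simp [hσ']
      | inr i => simp [hσ']
    rw [hP', MvPolynomial.rename_rename, hcomp, ← MvPolynomial.rename_rename, hP σ']
  obtain ⟨Q, hQ⟩ := exists_polynomial_of_isIndexSymmetric p P' hsym
  refine ⟨Q, ?_⟩
  have h1 := hasQExp_mvPolynomial (N := p)
    (fun s : Option (Fin p) ⊕ Option (Fin p) =>
      Sum.elim (fun i => J p (toZ p i)) (fun i => U p (toZ p i)) s)
    (Sum.elim (JC p) (UC p))
    (fun s => by
      cases s with
      | inl i => exact hasQExp_J p i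
      | inr i => exact hasQExp_U p i) P
  have h2 := hasQExp_polynomial (hasQExp_jFun_level p) Q
  have h3 : ∀ τ : ℍ, MvPolynomial.eval (fun s : Option (Fin p) ⊕ Option (Fin p) =>
      Sum.elim (fun i => J p (toZ p i)) (fun i => U p (toZ p i)) s τ) P = Q.eval (jFun τ) := by
    intro τ
    rw [← hQ τ, symFun, hP', MvPolynomial.eval_rename]
    congr 2
    funext s
    cases s with
    | inl i => rfl
    | inr i => rfl
  exact (h1.congr h3).unique hp.out.pos h2

end Fermat.Agent.S28.Hanq55
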