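/-
S28, package ANQ, base cases (helper47; split with helper55 `Hanq55`).

Base `q`-expansions in the sense of `Fermat.Agent.S24.HasQExp` (level `1`):
* (B1) `hasQExp_jFun      : HasQExp 1 jFun (jqModC ℂ)`
* (B2) `hasQExp_delta     : HasQExp 1 Δ (deltaQ ℂ)`
* (B3) `hasQExp_delta_inv : HasQExp 1 Δ⁻¹ (deltaInvQ ℂ)`
* (B4) closure of `HasQExp N` under `MvPolynomial` / `Polynomial` evaluation.
-/
import Mathlib
import Fermat.Agent.S24.HasQExp
import Fermat.Agent.S24.JBridgeZ
import Fermat.Agent.S28.Interface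
import Fermat.Agent.S28.FormalInput

set_option autoImplicit false

noncomputable section

namespace Fermat.Agent.S28.HanqBase47

open HahnSeries ModularCurve UpperHalfPlane Metric Filter Topology
open Fermat.Agent.S24 Fermat.Agent.S24.HasQExp Fermat.Agent.S24.JBridge

local notation "𝕢" => Function.Periodic.qParam

/-! ### (B4) closure under polynomial evaluation -/

section Closure

variable {N : ℕ}

/-- the (default) `ℂ`-algebra structure on `ℂ((q))` has `algebraMap = C`. -/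
theorem algebraMap_eq_C (c : ℂ) : algebraMap ℂ (LaurentSeries ℂ) c = HahnSeries.C c := by
  rw [HahnSeries.algebraMap_apply', HahnSeries.C_apply]
  have : algebraMap ℂ (PowerSeries ℂ) c = PowerSeries.C c := rfl
  rw [this, HahnSeries.ofPowerSeries_C]
  rfl

/-- `HasQExp N` is closed under evaluation of multivariate polynomials. -/
theorem mvPolynomial_eval {σ : Type*} {f : σ → ℍ → ℂ} {E : σ → LaurentSeries ℂ}
    (h : ∀ i, HasQExp N (f i) (E i)) (P : MvPolynomial σ ℂ) :
    HasQExp N (fun τ => MvPolynomial.eval (fun i => f i τ) P) (MvPolynomial.aeval E P) := by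
  induction P using MvPolynomial.induction_on with
  | C c =>
    simp only [MvPolynomial.eval_C, MvPolynomial.aeval_C]
    rw [algebraMap_eq_C]
    exact HasQExp.const N c
  | add P Q hP hQ =>
    simp only [map_add]
    exact hP.add hQ
  | mul_X P i hP =>
    simp only [map_mul, MvPolynomial.eval_X, MvPolynomial.aeval_X]
    exact hP.mul (h i)

/-- same with `aeval` on the function side (`ℍ → ℂ` as a `ℂ`-algebra). -/
theorem mvPolynomial_aeval {σ : Type*} {f : σ → ℍ → ℂ} {E : σ → LaurentSeries ℂ}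
    (h : ∀ i, HasQExp N (f i) (E i)) (P : MvPolynomial σ ℂ) :
    HasQExp N (MvPolynomial.aeval f P) (MvPolynomial.aeval E P) := by
  refine (mvPolynomial_eval h P).congr fun τ => ?_
  have h1 : (Pi.evalAlgHom ℂ (fun _ : ℍ => ℂ) τ) (MvPolynomial.aeval f P) =
      MvPolynomial.aeval (fun i => f i τ) P := by
    rw [← AlgHom.comp_apply, MvPolynomial.comp_aeval]
    rfl
  rw [MvPolynomial.aeval_eq_eval] at h1
  exact h1.symm

/-- `HasQExp N` is closed under evaluation of univariate polynomials. -/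
theorem polynomial_eval {f : ℍ → ℂ} {E : LaurentSeries ℂ}
    (h : HasQExp N f E) (Q : Polynomial ℂ) :
    HasQExp N (fun τ => Q.eval (f τ)) (Polynomial.aeval E Q) := by
  induction Q using Polynomial.induction_on' with
  | add P Q hP hQ =>
    simp only [Polynomial.eval_add, map_add]
    exact hP.add hQ
  | monomial n c =>
    simp only [Polynomial.eval_monomial, Polynomial.aeval_monomial]
    rw [algebraMap_eq_C]
    exact (HasQExp.const N c).mul (h.pow n)

end Closure

/-! ### (B1) the `j`-function -/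

theorem coeffMap_jq : coeffMap (algebraMap ℚ ℂ) jq = jqModC ℂ := by
  rw [← jqModC_rat]
  exact coeffMap_jqModC (algebraMap ℚ ℂ)

/-- (B1) `j` has the `q`-expansion `jqModC ℂ`. -/
theorem hasQExp_jFun : HasQExp 1 JAnalytic.jFun (jqModC ℂ) := by
  intro τ
  have h := JBridge.hasSum_coeffMap_jq τ
  rw [coeffMap_jq] at h
  refine h.congr_fun fun m => ?_
  rw [qN_eq]
  simp

/-! ### (B2), (B3) the discriminant -/

lemma qN_one (τ : ℍ) : qN 1 τ = 𝕢 1 τ := by
  simp [qN]

/-- `q ↦ ∏ (1 - q^n)^24` -/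
def etaDisc24 : ℂ → ℂ := etaDisc ^ 24

lemma differentiableOn_etaDisc24 : DifferentiableOn ℂ etaDisc24 (ball 0 1) :=
  differentiableOn_etaDisc.pow 24

lemma taylorPS_etaDisc24 :
    taylorPS etaDisc24 = dedekindEtaUnit.map (Int.castRingHom ℂ) := by
  rw [etaDisc24, taylorPS_pow (analyticAt_zero_of_differentiableOn_ball differentiableOn_etaDisc),
    taylorPS_etaDisc, dedekindEtaUnit, map_pow]

/-- `q ↦ ∏ (1 - q^n)^(-24)` -/
def etaDisc24Inv : ℂ → ℂ := fun q => (etaDisc q ^ 24)⁻¹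

lemma etaDisc24_ne_zero {q : ℂ} (hq : ‖q‖ < 1) : etaDisc q ^ 24 ≠ 0 :=
  pow_ne_zero _ (etaDisc_ne_zero hq)

lemma differentiableOn_etaDisc24Inv : DifferentiableOn ℂ etaDisc24Inv (ball 0 1) := by
  unfold etaDisc24Inv
  refine (differentiableOn_etaDisc.pow 24).inv ?_
  intro q hq
  exact etaDisc24_ne_zero (by simpa using hq)

lemma taylorPS_etaDisc24Inv :
    taylorPS etaDisc24Inv = dedekindEtaUnitInv.map (Int.castRingHom ℂ) := by
  have hD := analyticAt_zero_of_differentiableOn_ball differentiableOn_etaDisc24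
  have hI := analyticAt_zero_of_differentiableOn_ball differentiableOn_etaDisc24Inv
  have hev : etaDisc24Inv * etaDisc24 =ᶠ[𝓝 0] (1 : ℂ → ℂ) := by
    filter_upwards [ball_mem_nhds (0 : ℂ) one_pos] with q hq
    have hne : etaDisc q ^ 24 ≠ 0 := etaDisc24_ne_zero (by simpa using hq)
    simp only [Pi.mul_apply, Pi.pow_apply, etaDisc24Inv, etaDisc24, Pi.one_apply]
    rw [inv_mul_cancel₀ hne]
  have h1 : taylorPS etaDisc24Inv * dedekindEtaUnit.map (Int.castRingHom ℂ) = 1 := by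
    rw [← taylorPS_etaDisc24, ← taylorPS_mul hI hD, taylorPS_congr hev, taylorPS_one]
  have h2 : dedekindEtaUnit.map (Int.castRingHom ℂ) * dedekindEtaUnitInv.map (Int.castRingHom ℂ)
      = 1 := by
    rw [← map_mul, dedekindEtaUnit_mul_inv, map_one]
  calc taylorPS etaDisc24Inv
      = taylorPS etaDisc24Inv * (dedekindEtaUnit.map (Int.castRingHom ℂ) *
          dedekindEtaUnitInv.map (Int.castRingHom ℂ)) := by rw [h2, mul_one]
    _ = dedekindEtaUnitInv.map (Int.castRingHom ℂ) := by rw [← mul_assoc, h1, one_mul]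

lemma deltaQ_eq_repr : deltaQ ℂ = repr 1 (dedekindEtaUnit.map (Int.castRingHom ℂ)) := rfl

lemma deltaInvQ_eq_repr :
    deltaInvQ ℂ = repr (-1) (dedekindEtaUnitInv.map (Int.castRingHom ℂ)) := rfl

/-- (B2) `Δ` has the `q`-expansion `deltaQ ℂ`. -/
theorem hasQExp_delta :
    HasQExp 1 (fun τ : ℍ => ModularForm.discriminant τ) (deltaQ ℂ) := by
  rw [deltaQ_eq_repr]
  refine of_pSum fun τ => ?_
  have hq0 : 𝕢 1 (τ : ℂ) ≠ 0 := Function.Periodic.qParam_ne_zero _
  have hq : ‖𝕢 1 (τ : ℂ)‖ < 1 := Function.Periodic.norm_qParam_lt_one one_pos τ.im_pos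
  have h := hasSum_taylorPS differentiableOn_etaDisc24 hq
  rw [taylorPS_etaDisc24] at h
  rw [qN_one, discriminant_eq_qParam_mul_etaDisc]
  have : (𝕢 1 (τ : ℂ)) ^ (-(1 : ℤ)) * (𝕢 1 τ * etaDisc (𝕢 1 τ) ^ 24) = etaDisc24 (𝕢 1 τ) := by
    rw [zpow_neg, zpow_one, ← mul_assoc, inv_mul_cancel₀ hq0, one_mul]
    rfl
  rw [this]
  exact h

/-- (B3) `Δ⁻¹` has the `q`-expansion `deltaInvQ ℂ`. -/
theorem hasQExp_delta_inv :
    HasQExp 1 (fun τ : ℍ => (ModularForm.discriminant τ)⁻¹) (deltaInvQ ℂ) := by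
  rw [deltaInvQ_eq_repr]
  refine of_pSum fun τ => ?_
  have hq0 : 𝕢 1 (τ : ℂ) ≠ 0 := Function.Periodic.qParam_ne_zero _
  have hq : ‖𝕢 1 (τ : ℂ)‖ < 1 := Function.Periodic.norm_qParam_lt_one one_pos τ.im_pos
  have h := hasSum_taylorPS differentiableOn_etaDisc24Inv hq
  rw [taylorPS_etaDisc24Inv] at h
  rw [qN_one, discriminant_eq_qParam_mul_etaDisc]
  have : (𝕢 1 (τ : ℂ)) ^ (-(-1 : ℤ)) * (𝕢 1 τ * etaDisc (𝕢 1 τ) ^ 24)⁻¹ =
      etaDisc24Inv (𝕢 1 τ) := by
    rw [neg_neg, zpow_one, mul_inv, ← mul_assoc, mul_inv_cancel₀ hq0, one_mul]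
    rfl
  rw [this]
  exact h

/-- `deltaQ ℂ * deltaInvQ ℂ = 1`. -/
theorem deltaQ_mul_deltaInvQ : deltaQ ℂ * deltaInvQ ℂ = 1 := by
  have h := hasQExp_delta.mul hasQExp_delta_inv
  have h1 : HasQExp 1 (fun _ : ℍ => (1 : ℂ)) (deltaQ ℂ * deltaInvQ ℂ) := by
    refine h.congr fun τ => ?_
    exact mul_inv_cancel₀ (ModularForm.discriminant_ne_zero τ)
  exact HasQExp.unique one_pos h1 (HasQExp.one 1)

/-! ### Final glue: expansions + pointwise symmetric-function theorem ⇒ `FORMAL.HANQ p` -/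

/-- If the families `f (inl i)`, `f (inr i)` have the `q_p`-expansions `JC p i`, `UC p i`, `j` has
the `q_p`-expansion `tpC p`, and every index-symmetric polynomial in the `f`'s is (pointwise) a
polynomial in `j`, then `FORMAL.HANQ p` holds. -/
theorem hanq_of_hasQExp (p : ℕ) [NeZero p]
    (f : Option (Fin p) ⊕ Option (Fin p) → ℍ → ℂ)
    (h : ∀ i, HasQExp p (f i) (Sum.elim (FORMAL.JC p) (FORMAL.UC p) i))
    (hj : HasQExp p JAnalytic.jFun (FORMAL.tpC p))
    (hAN : ∀ P : MvPolynomial (Option (Fin p) ⊕ Option (Fin p)) ℂ,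
      (∀ σ : Equiv.Perm (Option (Fin p)), MvPolynomial.rename (Sum.map σ σ) P = P) →
        ∃ Q : Polynomial ℂ,
          ∀ τ, MvPolynomial.eval (fun i => f i τ) P = Q.eval (JAnalytic.jFun τ)) :
    FORMAL.HANQ p := by
  intro P hP
  obtain ⟨Q, hQ⟩ := hAN P hP
  refine ⟨Q, ?_⟩
  have h1 := mvPolynomial_eval h P
  have h2 := polynomial_eval hj Q
  exact HasQExp.unique (Nat.pos_of_ne_zero (NeZero.ne p)) h1 (h2.congr fun τ => (hQ τ).symm)

/-- `j` has the `q_p`-expansion `tpC p = t(u^p)`. -/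
theorem hasQExp_jFun_level (p : ℕ) [NeZero p] : HasQExp p JAnalytic.jFun (FORMAL.tpC p) := by
  have := hasQExp_jFun.levelChange p
  simpa [FORMAL.tpC] using this

end Fermat.Agent.S28.HanqBase47
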