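import Mathlib
import Fermat.Agent.S28.Interface

/-!
# S28 project: basic lemmas about the Interface constants `deltaQ`, `deltaInvQ`, `unitInf`
(shared by P1 and FORMAL), and two general lemmas on lowest coefficients of products.
-/

set_option autoImplicit false

noncomputable section

namespace Fermat.Agent.S28

open HahnSeries ModularCurve Polynomial

section General

variable {B : Type*} [CommRing B]

/-- If `x` vanishes below `a` and `y` below `b`, then `x * y` vanishes below `a + b`. -/
theorem coeff_mul_eq_zero_of_lt {x y : LaurentSeries B} {a b n : ℤ}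
    (hx : ∀ m < a, x.coeff m = 0) (hy : ∀ m < b, y.coeff m = 0) (hn : n < a + b) :
    (x * y).coeff n = 0 := by
  rw [HahnSeries.coeff_mul]
  refine Finset.sum_eq_zero fun ij hij => ?_
  have hsum : ij.1 + ij.2 = n := (Finset.mem_antidiagonal.mp hij).2.2
  rcases lt_or_ge ij.1 a with h | h
  · rw [hx _ h, zero_mul]
  · have : ij.2 < b := by omega
    rw [hy _ this, mul_zero]

/-- If `x` vanishes below `a` and `y` below `b`, the coefficient of `x * y` at `a + b` is the
product of the coefficients at `a` and `b`. -/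
theorem coeff_mul_add_of_lt {x y : LaurentSeries B} {a b : ℤ}
    (hx : ∀ m < a, x.coeff m = 0) (hy : ∀ m < b, y.coeff m = 0) :
    (x * y).coeff (a + b) = x.coeff a * y.coeff b := by
  rw [HahnSeries.coeff_mul]
  by_cases hmem : (a, b) ∈ Finset.antidiagonal x.isPWO_support y.isPWO_support (a + b)
  · rw [Finset.sum_eq_single_of_mem (a, b) hmem]
    intro ij hij hne
    have hsum : ij.1 + ij.2 = a + b := (Finset.mem_antidiagonal.mp hij).2.2
    rcases lt_or_ge ij.1 a with h | h
    · rw [hx _ h, zero_mul]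
    · rcases lt_or_ge ij.2 b with h' | h'
      · rw [hy _ h', mul_zero]
      · exfalso
        apply hne
        have h1 : ij.1 = a := by omega
        have h2 : ij.2 = b := by omega
        exact Prod.ext h1 h2
  · have h0 : x.coeff a = 0 ∨ y.coeff b = 0 := by
      by_contra hcon
      push Not at hcon
      exact hmem (Finset.mem_antidiagonal.mpr ⟨hcon.1, hcon.2, rfl⟩)
    have hz : x.coeff a * y.coeff b = 0 := by
      rcases h0 with h | h
      · rw [h, zero_mul]
      · rw [h, mul_zero]
    rw [hz]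
    refine Finset.sum_eq_zero fun ij hij => ?_
    have hsum : ij.1 + ij.2 = a + b := (Finset.mem_antidiagonal.mp hij).2.2
    rcases lt_or_ge ij.1 a with h | h
    · rw [hx _ h, zero_mul]
    · rcases lt_or_ge ij.2 b with h' | h'
      · rw [hy _ h', mul_zero]
      · have h1 : ij.1 = a := by omega
        have h2 : ij.2 = b := by omega
        rw [h1, h2, hz]

theorem coeffMap_C {B' : Type*} [CommRing B'] (φ : B →+* B') (r : B) :
    coeffMap φ (HahnSeries.C r) = HahnSeries.C (φ r) := by
  rw [HahnSeries.C_apply, HahnSeries.C_apply, coeffMap_single]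

end General

variable (B : Type*) [CommRing B]

theorem deltaQ_mul_deltaInvQ : deltaQ B * deltaInvQ B = 1 := by
  unfold deltaQ deltaInvQ
  have h1 : (HahnSeries.single (1 : ℤ) (1 : B)) * HahnSeries.single (-1 : ℤ) (1 : B) = 1 := by
    rw [HahnSeries.single_mul_single]; simp
  have h2 : HahnSeries.ofPowerSeries ℤ B (dedekindEtaUnit.map (Int.castRingHom B)) *
      HahnSeries.ofPowerSeries ℤ B (dedekindEtaUnitInv.map (Int.castRingHom B)) = 1 := by
    rw [← map_mul, ← map_mul, dedekindEtaUnit_mul_inv, map_one, map_one]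
  calc _ = (HahnSeries.single (1 : ℤ) (1 : B) * HahnSeries.single (-1 : ℤ) (1 : B)) *
        (HahnSeries.ofPowerSeries ℤ B (dedekindEtaUnit.map (Int.castRingHom B)) *
          HahnSeries.ofPowerSeries ℤ B (dedekindEtaUnitInv.map (Int.castRingHom B))) := by ring
    _ = 1 := by rw [h1, h2, mul_one]

theorem deltaInvQ_mul_deltaQ : deltaInvQ B * deltaQ B = 1 := by
  rw [mul_comm, deltaQ_mul_deltaInvQ]

/-- `Δ` vanishes below `q^1`. -/
theorem deltaQ_coeff_of_lt {n : ℤ} (hn : n < 1) : (deltaQ B).coeff n = 0 := by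
  unfold deltaQ
  rw [HahnSeries.coeff_single_mul, one_mul]
  exact ofPowerSeries_coeff_of_neg _ (by omega)

theorem deltaQ_coeff_one : (deltaQ B).coeff 1 = 1 := by
  unfold deltaQ
  rw [HahnSeries.coeff_single_mul, one_mul, sub_self,
    show (0 : ℤ) = ((0 : ℕ) : ℤ) from rfl, HahnSeries.ofPowerSeries_apply_coeff,
    PowerSeries.coeff_map, PowerSeries.coeff_zero_eq_constantCoeff, constantCoeff_dedekindEtaUnit]
  simp

theorem deltaInvQ_coeff_of_lt {n : ℤ} (hn : n < -1) : (deltaInvQ B).coeff n = 0 := by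
  unfold deltaInvQ
  rw [HahnSeries.coeff_single_mul, one_mul]
  exact ofPowerSeries_coeff_of_neg _ (by omega)

theorem deltaInvQ_coeff_neg_one : (deltaInvQ B).coeff (-1) = 1 := by
  unfold deltaInvQ
  rw [HahnSeries.coeff_single_mul, one_mul, sub_self,
    show (0 : ℤ) = ((0 : ℕ) : ℤ) from rfl, HahnSeries.ofPowerSeries_apply_coeff,
    PowerSeries.coeff_map, PowerSeries.coeff_zero_eq_constantCoeff,
    constantCoeff_dedekindEtaUnitInv]
  simp

variable {B}

theorem coeffMap_deltaQ {B' : Type*} [CommRing B'] (φ : B →+* B') :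
    coeffMap φ (deltaQ B) = deltaQ B' := by
  unfold deltaQ
  rw [map_mul, coeffMap_single, map_one, coeffMap_ofPowerSeries,
    ← RingHom.comp_apply (PowerSeries.map φ) (PowerSeries.map (Int.castRingHom B)),
    ← PowerSeries.map_comp, RingHom.ext_int (φ.comp (Int.castRingHom B)) (Int.castRingHom B')]

theorem coeffMap_deltaInvQ {B' : Type*} [CommRing B'] (φ : B →+* B') :
    coeffMap φ (deltaInvQ B) = deltaInvQ B' := by
  unfold deltaInvQ
  rw [map_mul, coeffMap_single, map_one, coeffMap_ofPowerSeries,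
    ← RingHom.comp_apply (PowerSeries.map φ) (PowerSeries.map (Int.castRingHom B)),
    ← PowerSeries.map_comp, RingHom.ext_int (φ.comp (Int.castRingHom B)) (Int.castRingHom B')]

theorem coeffMap_unitInf {B' : Type*} [CommRing B'] (φ : B →+* B') (p : ℕ) [NeZero p] :
    coeffMap φ (unitInf B p) = unitInf B' p := by
  unfold unitInf
  rw [map_mul, map_mul, coeffMap_C, coeffMap_qExpand, coeffMap_deltaQ, coeffMap_deltaInvQ,
    map_pow, map_natCast]

variable (B)

/-- `Δ(q^p)` vanishes below `q^p`. -/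
theorem qExpand_deltaQ_coeff_of_lt (p : ℕ) [NeZero p] {n : ℤ} (hn : n < p) :
    (qExpand B p (deltaQ B)).coeff n = 0 := by
  by_cases hd : (p : ℤ) ∣ n
  · obtain ⟨m, rfl⟩ := hd
    rw [qExpand_coeff_mul]
    apply deltaQ_coeff_of_lt
    have hp : (0 : ℤ) < p := by exact_mod_cast Nat.pos_of_ne_zero (NeZero.ne p)
    by_contra hcon
    push Not at hcon
    nlinarith
  · exact qExpand_coeff_of_not_dvd p _ hd

theorem qExpand_deltaQ_coeff_self (p : ℕ) [NeZero p] :
    (qExpand B p (deltaQ B)).coeff p = 1 := by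
  have := qExpand_coeff_mul (R := B) p (deltaQ B) 1
  rw [mul_one] at this
  rw [this, deltaQ_coeff_one]

/-- `ũ_∞ = p^12 Δ(q^p)/Δ(q)` vanishes below `q^(p-1)`. -/
theorem unitInf_coeff_of_lt (p : ℕ) [NeZero p] {n : ℤ} (hn : n < (p : ℤ) - 1) :
    (unitInf B p).coeff n = 0 := by
  unfold unitInf
  rw [HahnSeries.C_mul_eq_smul, HahnSeries.coeff_smul,
    coeff_mul_eq_zero_of_lt (a := (p : ℤ)) (b := -1)
      (fun m hm => qExpand_deltaQ_coeff_of_lt B p hm)
      (fun m hm => deltaInvQ_coeff_of_lt B hm) (by omega), smul_zero]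

/-- The coefficient of `ũ_∞` at `q^(p-1)` is `p^12`. -/
theorem unitInf_coeff_pred (p : ℕ) [NeZero p] :
    (unitInf B p).coeff ((p : ℤ) - 1) = (p : B) ^ 12 := by
  unfold unitInf
  rw [HahnSeries.C_mul_eq_smul, HahnSeries.coeff_smul, sub_eq_add_neg,
    coeff_mul_add_of_lt (a := (p : ℤ)) (b := -1)
      (fun m hm => qExpand_deltaQ_coeff_of_lt B p hm)
      (fun m hm => deltaInvQ_coeff_of_lt B hm),
    qExpand_deltaQ_coeff_self, deltaInvQ_coeff_neg_one, mul_one, smul_eq_mul, mul_one]

theorem unitInf_ne_zero (p : ℕ) [NeZero p] (hp : (p : B) ^ 12 ≠ 0) : unitInf B p ≠ 0 := by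
  intro h
  have := unitInf_coeff_pred B p
  rw [h, HahnSeries.coeff_zero] at this
  exact hp this.symm

end Fermat.Agent.S28
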