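/-
S28 / KEYL (helper11): interface-independent auxiliary lemmas for the lower bound
`ψ(N) ≤ [L_N : K(t)]`.
-/
import Mathlib
import Fermat.Prelude.Def_ModularCurve_X0ModL

set_option autoImplicit false

namespace Fermat.Agent.S28.KeyLowerAux

open HahnSeries ModularCurve

variable {K : Type*} [Field K]

/-- order of a power in a Laurent series field. -/
theorem order_pow_eq (t : LaurentSeries K) (n : ℕ) : (t ^ n).order = n • t.order := by
  by_cases ht : t = 0
  · subst ht
    rcases n with _ | n
    · simp
    · simp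
  · induction n with
    | zero => simp
    | succ n ih =>
      rw [pow_succ, order_mul_of_ne_zero, ih, succ_nsmul]
      rw [← leadingCoeff_mul]
      exact leadingCoeff_ne_zero.mpr (mul_ne_zero (pow_ne_zero _ ht) ht)

/-- **(S2)** If all elements of the subfield `E` are supported on multiples of `p` and `t` has
order `-1`, then `1, t, …, t^(p-1)` are linearly independent over `E`. -/
theorem linearIndependent_pow_of_support (p : ℕ) (hp : 0 < p)
    (E : IntermediateField K (LaurentSeries K))
    (hE : ∀ x ∈ E, ∀ n : ℤ, ¬ (p : ℤ) ∣ n → (x : LaurentSeries K).coeff n = 0)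
    (t : LaurentSeries K) (ht : t ≠ 0) (hord : t.order = -1) :
    LinearIndependent E (fun i : Fin p => t ^ (i : ℕ)) := by
  classical
  rw [Fintype.linearIndependent_iff]
  intro c hc
  by_contra hne
  push Not at hne
  obtain ⟨j, hj⟩ := hne
  -- the nonzero terms
  set S : Finset (Fin p) := Finset.univ.filter (fun i => c i ≠ 0) with hS
  have hSne : S.Nonempty := ⟨j, by simp [hS, hj]⟩
  let o : Fin p → ℤ := fun i => ((c i : LaurentSeries K) * t ^ (i : ℕ)).order
  have ho : ∀ i ∈ S, o i = (c i : LaurentSeries K).order - (i : ℕ) := by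
    intro i hi
    have hci : (c i : LaurentSeries K) ≠ 0 := by
      simpa [hS] using hi
    show ((c i : LaurentSeries K) * t ^ (i : ℕ)).order = _
    rw [order_mul_of_ne_zero, order_pow_eq, hord]
    · simp; ring
    · rw [← leadingCoeff_mul]
      exact leadingCoeff_ne_zero.mpr (mul_ne_zero hci (pow_ne_zero _ ht))
  have hdvd : ∀ i ∈ S, (p : ℤ) ∣ (c i : LaurentSeries K).order := by
    intro i hi
    have hci : (c i : LaurentSeries K) ≠ 0 := by
      simpa [hS] using hi
    by_contra hnd
    exact (coeff_order_eq_zero.not.mpr hci) (hE _ (c i).2 _ hnd)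
  obtain ⟨i₀, hi₀S, hmin⟩ := Finset.exists_min_image S o hSne
  have hci₀ : (c i₀ : LaurentSeries K) ≠ 0 := by
    simpa [hS] using hi₀S
  have hterm_ne : (c i₀ : LaurentSeries K) * t ^ (i₀ : ℕ) ≠ 0 :=
    mul_ne_zero hci₀ (pow_ne_zero _ ht)
  have hcoeff := congrArg (fun x : LaurentSeries K => x.coeff (o i₀)) hc
  simp only [coeff_zero] at hcoeff
  have hsum : (∑ i, c i • t ^ (i : ℕ) : LaurentSeries K).coeff (o i₀)
      = ((c i₀ : LaurentSeries K) * t ^ (i₀ : ℕ)).coeff (o i₀) := by
    rw [← HahnSeries.coeff.addMonoidHom_apply, map_sum]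
    rw [Finset.sum_eq_single i₀]
    · rfl
    · intro i _ hii₀
      show ((c i : LaurentSeries K) * t ^ (i : ℕ)).coeff (o i₀) = 0
      by_cases hci : (c i : LaurentSeries K) = 0
      · rw [hci, zero_mul, coeff_zero]
      · have hiS : i ∈ S := by
          simp only [hS, Finset.mem_filter, Finset.mem_univ, true_and]
          intro h; exact hci (by rw [h]; rfl)
        apply coeff_eq_zero_of_lt_order
        refine lt_of_le_of_ne (hmin i hiS) ?_
        intro heq
        change o i₀ = o i at heq
        rw [ho i hiS, ho i₀ hi₀S] at heq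
        obtain ⟨a, ha⟩ := hdvd i hiS
        obtain ⟨b, hb⟩ := hdvd i₀ hi₀S
        rw [ha, hb] at heq
        have h1 : ((i : ℕ) : ℤ) - ((i₀ : ℕ) : ℤ) = (p : ℤ) * (a - b) := by linarith
        have hi_lt : ((i : ℕ) : ℤ) < p := by exact_mod_cast i.2
        have hi₀_lt : ((i₀ : ℕ) : ℤ) < p := by exact_mod_cast i₀.2
        have hi_nn : (0 : ℤ) ≤ ((i : ℕ) : ℤ) := by positivity
        have hi₀_nn : (0 : ℤ) ≤ ((i₀ : ℕ) : ℤ) := by positivity
        have hab : a - b = 0 := by
          by_contra hab
          rcases lt_or_gt_of_ne hab with h | h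
          · have : (p : ℤ) * (a - b) ≤ (p : ℤ) * (-1) :=
              mul_le_mul_of_nonneg_left (by omega) (by positivity)
            linarith
          · have : (p : ℤ) * 1 ≤ (p : ℤ) * (a - b) :=
              mul_le_mul_of_nonneg_left (by omega) (by positivity)
            linarith
        rw [hab, mul_zero] at h1
        apply hii₀
        apply Fin.ext
        have : ((i : ℕ) : ℤ) = ((i₀ : ℕ) : ℤ) := by linarith
        exact_mod_cast this
    · intro h; exact absurd (Finset.mem_univ _) h
  rw [hsum] at hcoeff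
  exact (coeff_order_eq_zero.not.mpr hterm_ne) hcoeff

end Fermat.Agent.S28.KeyLowerAux
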