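/-
S28 / KEYL (helper11): the lower bound `ψ(N) ≤ [L_N : K(t)]` for `K` algebraically closed,
`(N : K) ≠ 0`, from an explicit hypothesis bundle `Input K` (modular equations of prime level,
monomial substitutions, and the prime-level irreducibility facts of package P1).
-/
import Mathlib
import Fermat.Prelude.Def_ModularCurve_X0ModL
import Fermat.Agent.S28.KeyLowerBasic
import Fermat.Agent.S28.KeyLowerAux
import Fermat.Agent.S28.Psi

set_option autoImplicit false
set_option linter.style.haveILetI false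

namespace Fermat.Agent.S28.KeyLower

open HahnSeries ModularCurve IntermediateField Polynomial
open Fermat.Agent.S28.KeyLowerBasic Fermat.Agent.S28.KeyLowerAux

noncomputable section

/-- Hypothesis bundle for KEYL over a field `K`. -/
structure Input (K : Type*) [Field K] where
  /-- modular polynomial of prime level `r`, a polynomial in `X` over `ℤ[Y]` -/
  Φ : ℕ → Polynomial (Polynomial ℤ)
  monic : ∀ r : ℕ, r.Prime → (Φ r).Monic
  natDegree : ∀ r : ℕ, r.Prime → (Φ r).natDegree = r + 1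
  /-- the series `t(c q^a)` -/
  mon : Kˣ → ℕ → LaurentSeries K
  mon_one : ∀ a : ℕ, mon 1 a = tq K a
  mon_coeff : ∀ (c : Kˣ) (a : ℕ) (n : ℤ), ¬ (a : ℤ) ∣ n → (mon c a).coeff n = 0
  /-- `Φ_r(X, t(x^r)) = (X - t(x^{r^2})) ∏_b (X - t(ζ^b x))` at the monomial `x = c q^a`. -/
  roots : ∀ r : ℕ, r.Prime → (r : K) ≠ 0 → ∀ (c : Kˣ) (a : ℕ), 0 < a →
    ∃ cs : Fin r → Kˣ, (∃ b, cs b = c) ∧
      polyAt (Φ r) (mon (c ^ r) (r * a)) =
        (X - Polynomial.C (mon (c ^ (r ^ 2)) (r ^ 2 * a))) *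
          ∏ b, (X - Polynomial.C (mon (cs b) a))
  /-- P1: `[K(t,t_p) : K(t)] = p + 1`. -/
  deg_tp : ∀ p : ℕ, p.Prime → (p : K) ≠ 0 →
    (minpoly K⟮tq K 1⟯ (tq K p)).natDegree = p + 1
  /-- P1 (dichotomy): over a field `K(t_p) ≤ E' ≤ K((q^p))` not containing `t_{p^2}`, the
  element `t` has degree `p + 1`. -/
  dich : ∀ (p : ℕ) [NeZero p], p.Prime → (p : K) ≠ 0 →
    ∀ E' : IntermediateField K (LaurentSeries K), K⟮tq K p⟯ ≤ E' → E' ≤ Ep K p →
      tq K (p ^ 2) ∉ E' → (minpoly E' (tq K 1)).natDegree = p + 1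

variable {K : Type*} [Field K]

/-! ### The modular relations between `t_d` and `t_{rd}` -/

theorem Input.rel' (I : Input K) {r : ℕ} (hr : r.Prime) (hrK : (r : K) ≠ 0) {d : ℕ} (hd : 0 < d) :
    ev (I.Φ r) (tq K d) (tq K (r * d)) = 0 := by
  obtain ⟨cs, ⟨b, hb⟩, h⟩ := I.roots r hr hrK 1 d hd
  rw [one_pow, one_pow, I.mon_one, I.mon_one] at h
  rw [ev, h, eval_mul, eval_prod]
  apply mul_eq_zero_of_right
  apply Finset.prod_eq_zero (Finset.mem_univ b)
  rw [hb, I.mon_one]
  simp

theorem Input.rel (I : Input K) {r : ℕ} (hr : r.Prime) (hrK : (r : K) ≠ 0) {d : ℕ} (hd : 0 < d) :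
    ev (I.Φ r) (tq K (r * d)) (tq K d) = 0 := by
  haveI : NeZero r := ⟨hr.ne_zero⟩
  haveI : NeZero d := ⟨hd.ne'⟩
  haveI : NeZero (r * d) := ⟨Nat.mul_ne_zero hr.ne_zero hd.ne'⟩
  obtain ⟨cs, -, h⟩ := I.roots r hr hrK 1 d hd
  rw [one_pow, one_pow, I.mon_one, I.mon_one] at h
  have h0 : ev (I.Φ r) (tq K (r ^ 2 * d)) (tq K (r * d)) = 0 := by
    rw [ev, h, eval_mul]
    apply mul_eq_zero_of_left
    simp
  have h1 : tq K (r ^ 2 * d) = qExpand K r (tq K (r * d)) := by
    rw [qExpand_tq]; congr 1; ring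
  have h2 : tq K (r * d) = qExpand K r (tq K d) := by
    rw [qExpand_tq]
  have h0' : ev (I.Φ r) (qExpand K r (tq K (r * d))) (qExpand K r (tq K d)) = 0 := by
    rw [← h1, ← h2]; exact h0
  rw [← map_ev (qExpand K r)] at h0'
  exact (map_eq_zero_iff _ (qExpand_injective r)).mp h0'

/-! ### Integrality of `t_d` over `K(t)` -/

theorem Input.isIntegral_step (I : Input K) {r : ℕ} (hr : r.Prime) (hrK : (r : K) ≠ 0) {d : ℕ} (hd : 0 < d)
    (A : IntermediateField K (LaurentSeries K)) (h : IsIntegral A (tq K d)) :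
    IsIntegral A (tq K (r * d)) := by
  -- work in the integral closure `B` of `A`
  set B := integralClosure A (LaurentSeries K) with hB
  have hmem : tq K d ∈ B := h
  let y : B := ⟨tq K d, hmem⟩
  have hint : IsIntegral B (tq K (r * d)) := by
    refine ⟨polyAt (I.Φ r) y, polyAt_monic (I.monic r hr) y, ?_⟩
    rw [← Polynomial.eval_map, polyAt_map]
    exact I.rel hr hrK hd
  exact isIntegral_trans _ hint

theorem Input.isIntegral_tq (I : Input K) (A : IntermediateField K (LaurentSeries K))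
    (hA : tq K 1 ∈ A) : ∀ d : ℕ, 0 < d → (d : K) ≠ 0 → IsIntegral A (tq K d) := by
  intro d
  induction d using Nat.strong_induction_on with
  | _ d ih =>
    intro hd hdK
    rcases Nat.lt_or_ge 1 d with h1 | h1
    · obtain ⟨r, hr, ⟨d', rfl⟩⟩ := Nat.exists_prime_and_dvd (by omega : d ≠ 1)
      have hd' : 0 < d' := Nat.pos_of_ne_zero (by rintro rfl; simp at hd)
      have hrK : (r : K) ≠ 0 := by
        intro h0; apply hdK; push_cast; rw [h0, zero_mul]
      have hd'K : (d' : K) ≠ 0 := by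
        intro h0; apply hdK; push_cast; rw [h0, mul_zero]
      have hlt : d' < r * d' := by
        have := hr.two_le
        nlinarith
      exact I.isIntegral_step hr hrK hd' A (ih d' hlt hd' hd'K)
    · have : d = 1 := by omega
      subst this
      exact isIntegral_algebraMap (R := A) (x := ⟨tq K 1, hA⟩)


/-! ### (S4): `t_p ∉ L_M` when `p ∤ M` -/

theorem mon_mem_Ep (I : Input K) (p : ℕ) [NeZero p] (c : Kˣ) {a : ℕ} (ha : p ∣ a) :
    I.mon c a ∈ Ep K p := by
  rw [mem_Ep_iff]
  intro n hn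
  apply I.mon_coeff
  intro h
  exact hn (dvd_trans (by exact_mod_cast ha) h)

theorem tq_not_mem_Ep {p M : ℕ} [NeZero p] [NeZero M] (hpM : ¬ p ∣ M) : tq K M ∉ Ep K p := by
  rw [mem_Ep_iff]
  intro h
  have h1 := h (-(M : ℤ)) (by
    rw [dvd_neg]
    intro hd
    exact hpM (by exact_mod_cast hd))
  rw [coeff_tq_neg] at h1
  exact one_ne_zero h1

section S4

variable [IsAlgClosed K]

theorem Input.tq_not_mem_fullC (I : Input K) {p M : ℕ} (hp : p.Prime) (hpK : (p : K) ≠ 0)
    [NeZero M] (hMK : (M : K) ≠ 0) (hpM : ¬ p ∣ M) :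
    tq K p ∉ modularFunctionFieldFullC K M := by
  intro hmem
  haveI : NeZero p := ⟨hp.ne_zero⟩
  haveI : NeZero (p * M) := ⟨Nat.mul_ne_zero hp.ne_zero (NeZero.ne M)⟩
  have hMpos : 0 < M := Nat.pos_of_ne_zero (NeZero.ne M)
  -- notation
  let E := LaurentSeries K
  let Ω := AlgebraicClosure E
  let A : IntermediateField K E := K⟮tq K 1⟯
  let S : Set E := (fun d => tq K d) '' {d | d ∣ M}
  have htA : tq K 1 ∈ A := mem_adjoin_simple_self K _
  let tA : A := ⟨tq K 1, htA⟩
  let σ : E →+* E := qExpand K (p * M)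
  let j : A →+* Ω := (algebraMap E Ω).comp (σ.comp (algebraMap A E))
  letI : Algebra A Ω := j.toAlgebra
  have hj : ∀ a : A, algebraMap A Ω a = algebraMap E Ω (σ (a : E)) := fun a => rfl
  have halg_inj : Function.Injective (algebraMap E Ω) := (algebraMap E Ω).injective
  -- integrality of the generators
  have hK : ∀ s ∈ S, IsIntegral A s ∧ ((minpoly A s).map (algebraMap A Ω)).Splits := by
    rintro s ⟨d, hd, rfl⟩
    have hd0 : 0 < d := Nat.pos_of_dvd_of_pos hd hMpos
    have hdK : (d : K) ≠ 0 := by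
      obtain ⟨m, rfl⟩ := hd
      intro h0; apply hMK; push_cast; rw [h0, zero_mul]
    exact ⟨I.isIntegral_tq A htA d hd0 hdK, IsAlgClosed.splits _⟩
  have hx : tq K p ∈ adjoin A S := by
    have hle : adjoin K S ≤ (adjoin A S).restrictScalars K :=
      adjoin_le_iff.mpr fun s hs => subset_adjoin A S hs
    rw [fullC_eq_adjoin] at hmem
    exact hle hmem
  -- the minimal polynomial of `t_p` over `K(t)`
  let P : Polynomial A := polyAt (I.Φ p) tA
  have hPmonic : P.Monic := polyAt_monic (I.monic p hp) tA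
  have hPdeg : P.natDegree = p + 1 := by
    rw [polyAt_natDegree (I.monic p hp), I.natDegree p hp]
  have hPmapE : P.map (algebraMap A E) = polyAt (I.Φ p) (tq K 1) := polyAt_map _ _ _
  have hPx : Polynomial.aeval (tq K p) P = 0 := by
    rw [Polynomial.aeval_def, ← Polynomial.eval_map, hPmapE]
    have := I.rel hp hpK (d := 1) one_pos
    rwa [mul_one] at this
  have hmin : minpoly A (tq K p) = P := by
    refine (Polynomial.eq_of_monic_of_dvd_of_natDegree_le ?_ hPmonic (minpoly.dvd A _ hPx) ?_).symm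
    · exact minpoly.monic ⟨P, hPmonic, by rwa [← Polynomial.aeval_def]⟩
    · rw [hPdeg, I.deg_tp p hp hpK]
  have hσt : σ (tq K 1) = tq K (p * M) := by
    show qExpand K (p * M) (tq K 1) = _
    rw [qExpand_tq, mul_one]
  have hy : Polynomial.aeval (algebraMap E Ω (tq K M)) (minpoly A (tq K p)) = 0 := by
    rw [hmin, Polynomial.aeval_def, ← Polynomial.eval_map]
    have h1 : P.map (algebraMap A Ω) = polyAt (I.Φ p) (algebraMap E Ω (tq K (p * M))) := by
      rw [polyAt_map, hj, hσt]
    rw [h1]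
    show ev (I.Φ p) (algebraMap E Ω (tq K M)) (algebraMap E Ω (tq K (p * M))) = 0
    rw [← map_ev, I.rel' hp hpK hMpos, map_zero]
  obtain ⟨φ, hφ⟩ := exists_algHom_adjoin_of_splits_of_aeval hK hx hy
  -- tracking the images of the generators
  have key : ∀ d : ℕ, d ∣ M → ∀ hd : tq K d ∈ adjoin A S,
      ∃ (c : Kˣ) (e : ℕ), 0 < e ∧
        φ ⟨tq K d, hd⟩ = algebraMap E Ω (I.mon c (p * e ^ 2 * (M / d))) := by
    intro d
    induction d using Nat.strong_induction_on with
    | _ d ih =>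
      intro hdM hd
      rcases Nat.lt_or_ge 1 d with h1 | h1
      · obtain ⟨r, hr, ⟨d', hdd'⟩⟩ := Nat.exists_prime_and_dvd (by omega : d ≠ 1)
        subst hdd'
        have hd'M : d' ∣ M := (Dvd.intro_left r rfl).trans hdM
        have hd'0 : 0 < d' := Nat.pos_of_dvd_of_pos hd'M hMpos
        have hlt : d' < r * d' := by
          have := hr.two_le
          nlinarith
        have hrK : (r : K) ≠ 0 := by
          obtain ⟨m, hm⟩ := hdM
          intro h0; apply hMK; rw [hm]; push_cast; rw [h0, zero_mul, zero_mul]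
        have hd' : tq K d' ∈ adjoin A S := subset_adjoin A S ⟨d', hd'M, rfl⟩
        obtain ⟨c', e, he, hIH⟩ := ih d' hlt hd'M hd'
        -- arithmetic
        obtain ⟨m, hm⟩ := hdM
        have hm0 : 0 < m := Nat.pos_of_ne_zero (by rintro rfl; simp at hm; omega)
        have hMd' : M / d' = r * m := by
          rw [hm, show r * d' * m = d' * (r * m) by ring, Nat.mul_div_cancel_left _ hd'0]
        have hMd : M / (r * d') = m := by
          rw [hm, Nat.mul_div_cancel_left _ (Nat.mul_pos hr.pos hd'0)]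
        set a'' : ℕ := p * e ^ 2 * m with ha''
        have ha''0 : 0 < a'' := Nat.mul_pos (Nat.mul_pos hp.pos (pow_pos he 2)) hm0
        have ha' : p * e ^ 2 * (M / d') = r * a'' := by rw [hMd', ha'']; ring
        -- an `r`-th root of `c'`
        obtain ⟨z, hz⟩ := IsAlgClosed.exists_pow_nat_eq (c' : K) hr.pos
        have hz0 : z ≠ 0 := by
          rintro rfl
          rw [zero_pow hr.ne_zero] at hz
          exact c'.ne_zero hz.symm
        let c'' : Kˣ := Units.mk0 z hz0
        have hc'' : c'' ^ r = c' := by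
          apply Units.ext; push_cast; exact hz
        obtain ⟨cs, -, hroots⟩ := I.roots r hr hrK c'' a'' ha''0
        -- the relation, transported by `φ`
        have hrelE : ev (I.Φ r) (tq K (r * d')) (tq K d') = 0 := I.rel hr hrK hd'0
        have hrel : ev (I.Φ r) (⟨tq K (r * d'), hd⟩ : adjoin A S) ⟨tq K d', hd'⟩ = 0 := by
          apply (algebraMap (adjoin A S) E).injective
          rw [map_ev, map_zero]
          exact hrelE
        have hrelΩ := congrArg φ hrel
        rw [map_zero, ← AlgHom.coe_toRingHom, map_ev, AlgHom.coe_toRingHom, hIH, ha', ← hc''] at hrelΩ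
        rw [ev, ← polyAt_map (algebraMap E Ω), hroots, Polynomial.map_mul, Polynomial.map_sub,
          Polynomial.map_X, Polynomial.map_C, Polynomial.map_prod, eval_mul, eval_prod] at hrelΩ
        rcases mul_eq_zero.mp hrelΩ with h | h
        · refine ⟨c'' ^ (r ^ 2), r * e, Nat.mul_pos hr.pos he, ?_⟩
          rw [eval_sub, eval_X, eval_C, sub_eq_zero] at h
          rw [h, hMd]
          congr 2
          rw [ha'']; ring
        · obtain ⟨b, -, hb⟩ := Finset.prod_eq_zero_iff.mp h
          refine ⟨cs b, e, he, ?_⟩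
          rw [Polynomial.map_sub, Polynomial.map_X, Polynomial.map_C, eval_sub, eval_X, eval_C,
            sub_eq_zero] at hb
          rw [hb, hMd]
      · have hd1 : d = 1 := by
          have := Nat.pos_of_dvd_of_pos hdM hMpos
          omega
        subst hd1
        refine ⟨1, 1, one_pos, ?_⟩
        have h1 : (⟨tq K 1, hd⟩ : adjoin A S) = algebraMap A (adjoin A S) tA := rfl
        rw [h1, φ.commutes, hj]
        show algebraMap E Ω (σ (tq K 1)) = _
        rw [hσt, I.mon_one]
        congr 2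
        simp
  -- everything lands in `K((q^p))`
  let Ωp : Subfield Ω := (Ep K p).toSubfield.map (algebraMap E Ω)
  have hall : ∀ z (hz : z ∈ adjoin A S), φ ⟨z, hz⟩ ∈ Ωp := by
    intro z hz
    induction hz using adjoin_induction with
    | mem s hs =>
      obtain ⟨d, hd, rfl⟩ := hs
      obtain ⟨c, e, -, h⟩ := key d hd (subset_adjoin A S ⟨d, hd, rfl⟩)
      rw [h]
      refine ⟨_, ?_, rfl⟩
      exact mon_mem_Ep I p c (Dvd.intro _ (by ring : p * (e ^ 2 * (M / d)) = p * e ^ 2 * (M / d)))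
    | algebraMap a =>
      have h1 : (⟨algebraMap A E a, IntermediateField.algebraMap_mem _ a⟩ : adjoin A S)
          = algebraMap A (adjoin A S) a := rfl
      rw [h1, φ.commutes, hj]
      refine ⟨_, ?_, rfl⟩
      show qExpand K (p * M) (a : E) ∈ Ep K p
      rw [← qExpand_qExpand]
      exact qExpand_mem_Ep K p _
    | add x y hx hy ihx ihy =>
      have h1 : (⟨x + y, add_mem hx hy⟩ : adjoin A S) = ⟨x, hx⟩ + ⟨y, hy⟩ := rfl
      rw [h1, map_add]
      exact add_mem ihx ihy
    | inv x hx ihx =>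
      have h1 : (⟨x⁻¹, inv_mem hx⟩ : adjoin A S) = (⟨x, hx⟩ : adjoin A S)⁻¹ := rfl
      rw [h1, map_inv₀]
      exact inv_mem ihx
    | mul x y hx hy ihx ihy =>
      have h1 : (⟨x * y, mul_mem hx hy⟩ : adjoin A S) = ⟨x, hx⟩ * ⟨y, hy⟩ := rfl
      rw [h1, map_mul]
      exact mul_mem ihx ihy
  have hfin := hall (tq K p) hx
  rw [hφ] at hfin
  obtain ⟨w, hw, hwy⟩ := hfin
  have : w = tq K M := halg_inj hwy
  rw [this] at hw
  exact tq_not_mem_Ep hpM hw

end S4


/-! ### Degree bookkeeping with `relrank` -/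

section Rank

variable {F E : Type*} [Field F] [Field E] [Algebra F E]

/-- A family in `B`, linearly independent over `A ≤ B`, bounds `relrank A B` from below. -/
theorem le_relrank_of_linearIndependent {A B : IntermediateField F E} (hAB : A ≤ B) {n : ℕ}
    (v : Fin n → E) (hv : ∀ i, v i ∈ B) (hli : LinearIndependent A v) :
    (n : Cardinal) ≤ relrank A B := by
  rw [relrank_eq_rank_of_le hAB]
  let v' : Fin n → extendScalars hAB := fun i => ⟨v i, hv i⟩
  have hli' : LinearIndependent A v' := by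
    apply LinearIndependent.of_comp ((extendScalars hAB).val.toLinearMap)
    exact hli
  have := hli'.cardinal_lift_le_rank
  simpa using this

/-- `[A(x) : A] = deg (minpoly A x)` in `relrank` form. -/
theorem relrank_sup_adjoin_simple (A : IntermediateField F E) {x : E} (hx : IsIntegral A x) :
    relrank A (A ⊔ F⟮x⟯) = ((minpoly A x).natDegree : Cardinal) := by
  have hle : A ≤ A ⊔ F⟮x⟯ := le_sup_left
  rw [relrank_eq_rank_of_le hle]
  have h1 : extendScalars hle = A⟮x⟯ := by
    apply restrictScalars_injective F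
    rw [extendScalars_restrictScalars, restrictScalars_adjoin_eq_sup]
  rw [h1]
  haveI := adjoin.finiteDimensional hx
  rw [← Module.finrank_eq_rank, adjoin.finrank hx]

theorem one_le_relrank (A B : IntermediateField F E) : (1 : Cardinal) ≤ relrank A B := by
  rw [relrank_eq_of_inf_eq (A := A) (B := A ⊓ B) (C := B) (by rw [inf_assoc, inf_idem]),
    relrank_eq_rank_of_le (inf_le_right : A ⊓ B ≤ B)]
  exact Cardinal.one_le_iff_pos.mpr rank_pos

end Rank

/-! ### The induction step -/

section Main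

variable [IsAlgClosed K]

/-- abbreviation for `L_N`. -/
local notation "𝕃" => modularFunctionFieldFullC K

omit [IsAlgClosed K] in
theorem map_adjoin_tq (p : ℕ) [NeZero p] :
    (K⟮tq K 1⟯).map (qExpandAlgHomC K p) = K⟮tq K p⟯ := by
  rw [adjoin_map, Set.image_singleton, qExpandAlgHomC_apply, qExpand_tq, mul_one]

omit [IsAlgClosed K] in
theorem Input.tq_prime_not_mem (I : Input K) {p : ℕ} (hp : p.Prime) (hpK : (p : K) ≠ 0) :
    tq K p ∉ K⟮tq K 1⟯ := by
  intro h
  have h1 : (minpoly K⟮tq K 1⟯ (tq K p)).natDegree = 1 := by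
    rw [minpoly.natDegree_eq_one_iff]
    exact ⟨⟨tq K p, h⟩, rfl⟩
  rw [I.deg_tp p hp hpK] at h1
  have := hp.pos
  omega

theorem Input.step (I : Input K) {p M : ℕ} (hp : p.Prime) (hpK : (p : K) ≠ 0) (hM : 0 < M)
    (hMK : (M : K) ≠ 0) :
    letI : NeZero p := ⟨hp.ne_zero⟩
    relrank K⟮tq K 1⟯ (𝕃 (M * p)) =
      relrank K⟮tq K 1⟯ (𝕃 M) * relrank ((𝕃 M).map (qExpandAlgHomC K p)) (𝕃 (M * p)) ∧
    (p : Cardinal) ≤ relrank ((𝕃 M).map (qExpandAlgHomC K p)) (𝕃 (M * p)) ∧
    (¬ p ∣ M → ((p + 1 : ℕ) : Cardinal) ≤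
      relrank ((𝕃 M).map (qExpandAlgHomC K p)) (𝕃 (M * p))) := by
  haveI : NeZero p := ⟨hp.ne_zero⟩
  haveI : NeZero M := ⟨hM.ne'⟩
  haveI : NeZero (M * p) := ⟨Nat.mul_ne_zero hM.ne' hp.ne_zero⟩
  haveI : NeZero (p ^ 2) := ⟨pow_ne_zero _ hp.ne_zero⟩
  set T : IntermediateField K (LaurentSeries K) := K⟮tq K 1⟯ with hT
  set Tp : IntermediateField K (LaurentSeries K) := K⟮tq K p⟯ with hTp
  set σ := qExpandAlgHomC K p with hσ
  set E' := (𝕃 M).map σ with hE'
  set LN := 𝕃 (M * p) with hLN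
  -- memberships
  have ht_LM : tq K 1 ∈ 𝕃 M := tq_mem_fullC K (one_dvd M)
  have ht_LN : tq K 1 ∈ LN := tq_mem_fullC K (one_dvd _)
  have htp_LN : tq K p ∈ LN := tq_mem_fullC K (Dvd.intro_left M rfl)
  have hT_LM : T ≤ 𝕃 M := adjoin_simple_le_iff.mpr ht_LM
  have hT_LN : T ≤ LN := adjoin_simple_le_iff.mpr ht_LN
  have hTp_LN : Tp ≤ LN := adjoin_simple_le_iff.mpr htp_LN
  have hE'_LN : E' ≤ LN := full_degeneracyC_map_le K M p
  have hTp_E' : Tp ≤ E' := by
    rw [hTp, ← map_adjoin_tq]
    exact IntermediateField.map_mono σ hT_LM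
  have hE'_Ep : E' ≤ Ep K p := map_le_Ep K p _
  -- the two degrees `p + 1`
  have hint_tp : IsIntegral T (tq K p) := by
    by_contra h
    have := I.deg_tp p hp hpK
    rw [minpoly.eq_zero h, natDegree_zero] at this
    omega
  have hd1 : relrank T (T ⊔ Tp) = ((p + 1 : ℕ) : Cardinal) := by
    rw [hTp, relrank_sup_adjoin_simple T hint_tp, I.deg_tp p hp hpK]
  have hp2_notin : tq K (p ^ 2) ∉ Tp := by
    intro h
    rw [hTp, ← map_adjoin_tq] at h
    obtain ⟨y, hy, hyx⟩ := h
    have h2 : tq K (p ^ 2) = qExpand K p (tq K p) := by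
      rw [qExpand_tq]; congr 1; ring
    rw [h2] at hyx
    have : y = tq K p := qExpand_injective p hyx
    exact I.tq_prime_not_mem hp hpK (this ▸ hy)
  have hdeg_t_Tp : (minpoly Tp (tq K 1)).natDegree = p + 1 :=
    I.dich p hp hpK Tp le_rfl (hTp_E'.trans hE'_Ep) hp2_notin
  have hint_t : IsIntegral Tp (tq K 1) := by
    by_contra h
    rw [minpoly.eq_zero h, natDegree_zero] at hdeg_t_Tp
    omega
  have hd2 : relrank Tp (T ⊔ Tp) = ((p + 1 : ℕ) : Cardinal) := by
    rw [sup_comm, hT, relrank_sup_adjoin_simple Tp hint_t, hdeg_t_Tp]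
  have hT2_LN : T ⊔ Tp ≤ LN := sup_le hT_LN hTp_LN
  have e1 := relrank_mul_relrank (le_sup_left : T ≤ T ⊔ Tp) hT2_LN
  have e2 := relrank_mul_relrank (le_sup_right : Tp ≤ T ⊔ Tp) hT2_LN
  have e3 := relrank_mul_relrank hTp_E' hE'_LN
  have e4 : relrank Tp E' = relrank T (𝕃 M) := by
    rw [hTp, ← map_adjoin_tq]
    exact relrank_map_map T (𝕃 M) σ
  refine ⟨?_, ?_, ?_⟩
  · rw [← e1, hd1, ← hd2, e2, ← e3, e4]
  · -- `1, t, …, t^(p-1)` are independent over `E'`
    refine le_relrank_of_linearIndependent hE'_LN (fun i : Fin p => tq K 1 ^ (i : ℕ))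
      (fun i => pow_mem ht_LN _) ?_
    refine linearIndependent_pow_of_support p hp.pos E' ?_ (tq K 1) ?_ ?_
    · intro x hx
      exact (mem_Ep_iff K p).mp (hE'_Ep hx)
    · rw [tq_one]; exact jqModC_ne_zero' K
    · rw [tq_one]; exact order_jqModC K
  · intro hpM
    have hnot : tq K (p ^ 2) ∉ E' := by
      rintro ⟨y, hy, hyx⟩
      have h2 : tq K (p ^ 2) = qExpand K p (tq K p) := by
        rw [qExpand_tq]; congr 1; ring
      rw [h2] at hyx
      have : y = tq K p := qExpand_injective p hyx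
      exact I.tq_not_mem_fullC hp hpK hMK hpM (this ▸ hy)
    have hdeg := I.dich p hp hpK E' hTp_E' hE'_Ep hnot
    have hli := linearIndependent_pow (K := E') (tq K 1)
    rw [hdeg] at hli
    exact le_relrank_of_linearIndependent hE'_LN _ (fun i => pow_mem ht_LN _) hli

/-- **KEYL**: `ψ(N) ≤ [L_N : K(t)]` (as cardinals), for `K` algebraically closed with
`(N : K) ≠ 0`. -/
theorem Input.keyL (I : Input K) : ∀ N : ℕ, 0 < N → (N : K) ≠ 0 →
    (dedekindPsi N : Cardinal) ≤ relrank K⟮tq K 1⟯ (𝕃 N) := by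
  intro N
  induction N using Nat.strong_induction_on with
  | _ N ih =>
    intro hN hNK
    rcases Nat.lt_or_ge 1 N with h1 | h1
    · obtain ⟨p, hp, ⟨M, hNM⟩⟩ := Nat.exists_prime_and_dvd (by omega : N ≠ 1)
      have hN' : N = M * p := by rw [hNM, mul_comm]
      subst hN'
      have hM : 0 < M := Nat.pos_of_ne_zero (by rintro rfl; simp at hN)
      have hpK : (p : K) ≠ 0 := by
        intro h0; apply hNK; push_cast; rw [h0, mul_zero]
      have hMK : (M : K) ≠ 0 := by
        intro h0; apply hNK; push_cast; rw [h0, zero_mul]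
      have hlt : M < M * p := by
        have := hp.two_le
        nlinarith
      have hIH := ih M hlt hM hMK
      obtain ⟨heq, hge, hge'⟩ := I.step hp hpK hM hMK
      rw [heq]
      by_cases hpM : p ∣ M
      · have hψ : dedekindPsi (M * p) = p * dedekindPsi M := by
          rw [mul_comm M p]; exact Psi.dedekindPsi_mul_of_dvd hp hM.ne' hpM
        rw [hψ, Nat.cast_mul, mul_comm]
        exact mul_le_mul' hIH hge
      · have hψ : dedekindPsi (M * p) = (p + 1) * dedekindPsi M := by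
          rw [mul_comm M p]; exact Psi.dedekindPsi_mul_of_not_dvd hp hM.ne' hpM
        rw [hψ, Nat.cast_mul, mul_comm]
        exact mul_le_mul' hIH (hge' hpM)
    · have : N = 1 := by omega
      subst this
      rw [dedekindPsi_one, Nat.cast_one]
      exact one_le_relrank _ _

/-- **KEYL**, stated with `t = jqModC K`. -/
theorem Input.keyL' (I : Input K) (N : ℕ) (hN : 0 < N) (hNK : (N : K) ≠ 0) :
    (dedekindPsi N : Cardinal) ≤ relrank K⟮jqModC K⟯ (𝕃 N) := by
  have := I.keyL N hN hNK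
  rwa [tq_one] at this

/-- **KEYL**, `finrank` form: if `L_N` is finite over `K(t)` then `ψ(N) ≤ [L_N : K(t)]`. -/
theorem Input.keyL_relfinrank (I : Input K) (N : ℕ) (hN : 0 < N) (hNK : (N : K) ≠ 0)
    (hfin : relrank K⟮jqModC K⟯ (𝕃 N) < Cardinal.aleph0) :
    dedekindPsi N ≤ relfinrank K⟮jqModC K⟯ (𝕃 N) := by
  have h := I.keyL' N hN hNK
  rw [relfinrank_eq_toNat_relrank]
  have h2 := Cardinal.toNat_le_toNat h hfin
  simpa using h2

end Main

end

end Fermat.Agent.S28.KeyLower
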