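import Fermat.Agent.S28.Interface
import Fermat.Agent.S28.ORingF
import Fermat.Agent.S28.ORingIface

/-!
# S28 / ALG: plug lemmas for the instantiation of the abstract kernel core

Setting-independent glue between `KeyStatement N ℓ` / the chart algebras and the abstract
`MainKernelCore` statements:

* `F0 N`, `kappa0 ℓ` : the subfields `ℚ(j) ≤ F_N` and `𝔽_ℓ(t) ≤ 𝔽_ℓ((q))` as `Subfield`s;
* `xOF`, `rhoF_xOF` : the elements of `𝒪 ∩ F_N` given by integer series, and their reductions;
* `linearIndependent_kappa0` : transport of linear independence to the `Subfield` module structure;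
* `finiteDimensional_F0`, `finrank_F0_le` : `[F_N : ℚ(j)] ≤ n` from the `relrank` bound;
* `exists_key_data` : everything at once from `KeyStatement N ℓ`;
* `isIntegral_toSubring_iff`, `kernel_of_core` : from the abstract kernel statement
  (`MainKernel.exists_eq_mul_of_rho_eq_zero` shape) to the `hfin`/`hinf` shape of
  `ORing.redStatement_of_kernels`.
-/

set_option autoImplicit false
set_option linter.unusedSectionVars false

namespace Fermat.Agent.S28.KeyPlug

open ModularCurve HahnSeries ModularCurve.IgusaScheme IntermediateField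
open Fermat.Agent.S28 Fermat.Agent.S28.ORing

variable (ℓ : ℕ) [Fact ℓ.Prime] (N : ℕ) [NeZero N]

/-- `ℚ(j)` as a subfield of `F_N`. -/
noncomputable def F0 : Subfield (modularFunctionFieldFull N) :=
  (IntermediateField.adjoin ℚ {jFull N}).toSubfield

/-- `𝔽_ℓ(t)` as a subfield of `𝔽_ℓ((q))`. -/
noncomputable def kappa0 : Subfield (LaurentSeries (ZMod ℓ)) := (fieldT (ZMod ℓ)).toSubfield

theorem mem_F0_iff (x : modularFunctionFieldFull N) :
    x ∈ F0 N ↔ x ∈ IntermediateField.adjoin ℚ {jFull N} := Iff.rfl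

theorem mem_kappa0_iff (x : LaurentSeries (ZMod ℓ)) : x ∈ kappa0 ℓ ↔ x ∈ fieldT (ZMod ℓ) := Iff.rfl

/-! ### `ℚ(j)` inside `F_N` versus inside `ℚ((q))` -/

/-- Over `ℚ`, `IntermediateField.adjoin` is `Subfield.closure`, whatever the `ℚ`-algebra
instance (they are all equal, but not definitionally). -/
theorem adjoin_rat_toSubfield {E : Type*} [Field E] (inst : Algebra ℚ E) (S : Set E) :
    (@IntermediateField.adjoin ℚ _ E _ inst S).toSubfield = Subfield.closure S := by
  rw [IntermediateField.adjoin_toSubfield]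
  apply le_antisymm
  · rw [Subfield.closure_le]
    rintro x (⟨r, rfl⟩ | hx)
    · have h0 : CharZero E := charZero_of_injective_algebraMap (algebraMap ℚ E).injective
      rw [eq_ratCast (algebraMap ℚ E) r]
      exact SubfieldClass.ratCast_mem _ r
    · exact Subfield.subset_closure hx
  · exact Subfield.closure_mono Set.subset_union_right

theorem F0_eq_comap :
    F0 N = (ℚ⟮jq⟯).toSubfield.comap (algebraMap (modularFunctionFieldFull N) (LaurentSeries ℚ)) := by
  have h1 : F0 N = Subfield.closure {jFull N} := adjoin_rat_toSubfield _ _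
  have h2 : (ℚ⟮jq⟯).toSubfield = Subfield.closure {jq} := adjoin_rat_toSubfield _ _
  have h3 : (Subfield.closure ({jFull N} : Set (modularFunctionFieldFull N))).map
      (algebraMap (modularFunctionFieldFull N) (LaurentSeries ℚ)) = Subfield.closure {jq} := by
    rw [RingHom.map_field_closure]
    congr 1
    simp
  rw [h1, h2, ← h3, Subfield.comap_map]

theorem mem_F0_iff_coe (x : modularFunctionFieldFull N) :
    x ∈ F0 N ↔ (x : LaurentSeries ℚ) ∈ ℚ⟮jq⟯ := by
  rw [F0_eq_comap]
  rfl

theorem fieldRange_algebraMap :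
    (algebraMap (modularFunctionFieldFull N) (LaurentSeries ℚ)).fieldRange =
      (modularFunctionFieldFull N).toSubfield := by
  ext x
  constructor
  · rintro ⟨y, rfl⟩
    exact y.2
  · intro hx
    exact ⟨⟨x, hx⟩, rfl⟩

theorem rank_eq_of_eq {L : Type*} [Field L] {S T : Subfield L} (h : S = T) :
    Module.rank S L = Module.rank T L := by
  subst h; rfl

/-- `[F_N : ℚ(j)]` computed inside `F_N` is the `relrank` computed inside `ℚ((q))`. -/
theorem rank_F0 :
    Module.rank (F0 N) (modularFunctionFieldFull N) =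
      IntermediateField.relrank (ℚ⟮jq⟯) (modularFunctionFieldFull N) := by
  rw [rank_eq_of_eq (F0_eq_comap N), Subfield.rank_comap, fieldRange_algebraMap]
  rfl

theorem finiteDimensional_F0 {n : ℕ}
    (h : IntermediateField.relrank (ℚ⟮jq⟯) (modularFunctionFieldFull N) ≤ (n : Cardinal)) :
    FiniteDimensional (F0 N) (modularFunctionFieldFull N) := by
  rw [FiniteDimensional, ← Module.rank_lt_aleph0_iff, rank_F0]
  exact lt_of_le_of_lt h (Cardinal.natCast_lt_aleph0)

theorem finrank_F0_le {n : ℕ}
    (h : IntermediateField.relrank (ℚ⟮jq⟯) (modularFunctionFieldFull N) ≤ (n : Cardinal)) :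
    Module.finrank (F0 N) (modularFunctionFieldFull N) ≤ n := by
  apply Module.finrank_le_of_rank_le
  rw [rank_F0]
  exact h

/-! ### The key elements in `𝒪 ∩ F_N` -/

/-- An integer series whose rational image lies in `F_N`, as an element of `𝒪 ∩ F_N`. -/
noncomputable def xOF (a : LaurentSeries ℤ)
    (ha : coeffMap (Int.castRingHom ℚ) a ∈ modularFunctionFieldFull N) : OF ℓ N :=
  ⟨⟨coeffMap (Int.castRingHom ℚ) a, ha⟩, mem_OF_of_int ℓ N _ a rfl⟩

theorem coe_xOF (a : LaurentSeries ℤ)
    (ha : coeffMap (Int.castRingHom ℚ) a ∈ modularFunctionFieldFull N) :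
    (((xOF ℓ N a ha : OF ℓ N) : modularFunctionFieldFull N) : LaurentSeries ℚ) =
      coeffMap (Int.castRingHom ℚ) a := rfl

theorem rhoF_xOF (a : LaurentSeries ℤ)
    (ha : coeffMap (Int.castRingHom ℚ) a ∈ modularFunctionFieldFull N) :
    rhoF ℓ N (xOF ℓ N a ha) = coeffMap (Int.castRingHom (ZMod ℓ)) a :=
  rhoF_of_int ℓ N _ a rfl

/-- Transport of linear independence over `𝔽_ℓ(t)` (as an intermediate field) to the subfield
`kappa0` with its `Subfield` module structure. -/
theorem linearIndependent_kappa0 {n : ℕ} (v : Fin n → LaurentSeries (ZMod ℓ))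
    (h : LinearIndependent ↥(fieldT (ZMod ℓ)) v) : LinearIndependent (kappa0 ℓ) v := by
  rw [Fintype.linearIndependent_iff] at h ⊢
  intro g hg
  have h1 := h (fun i => (⟨(g i : LaurentSeries (ZMod ℓ)), (g i).2⟩ : ↥(fieldT (ZMod ℓ)))) (by
    rw [← hg]
    rfl)
  intro i
  have h2 := h1 i
  apply Subtype.ext
  exact congrArg Subtype.val h2

/-- All the data extracted from `KeyStatement N ℓ`, in the shapes needed by
`MainKernel.Setting.exists_repr`/`isIntegral_of_mem`/`exists_eq_mul_of_rho_eq_zero` for the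
concrete setting `F₀ = F0 N`, `O' = OF ℓ N`, `ρ = rhoF ℓ N`, `κ₀ = kappa0 ℓ`. -/
theorem exists_key_data (hkey : KeyStatement N ℓ) :
    ∃ (n : ℕ) (x : Fin n → OF ℓ N),
      LinearIndependent (kappa0 ℓ) (fun i => rhoF ℓ N (x i)) ∧
      FiniteDimensional (F0 N) (modularFunctionFieldFull N) ∧
      Module.finrank (F0 N) (modularFunctionFieldFull N) ≤ n := by
  obtain ⟨n, x, hmem, hli, hrank⟩ := hkey
  refine ⟨n, fun i => xOF ℓ N (x i) (hmem i), ?_, finiteDimensional_F0 N hrank,
    finrank_F0_le N hrank⟩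
  apply linearIndependent_kappa0
  have : (fun i => rhoF ℓ N (xOF ℓ N (x i) (hmem i))) =
      fun i => coeffMap (Int.castRingHom (ZMod ℓ)) (x i) := by
    funext i
    exact rhoF_xOF ℓ N (x i) (hmem i)
  rw [this]
  exact hli

/-! ### From the abstract kernel statement to the chart algebras -/

/-- Integrality over the subring underlying `ℤ_(ℓ)[S]` is membership in the chart algebra. -/
theorem isIntegral_toSubring_iff (S : Set (modularFunctionFieldFull N))
    (a : modularFunctionFieldFull N) :
    IsIntegral (Algebra.adjoin (Rl ℓ) S).toSubring a ↔ a ∈ chartAlg N ℓ S := by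
  rw [mem_chartAlg_iff]
  constructor
  · intro h
    let φ : (Algebra.adjoin (Rl ℓ) S).toSubring →+* Algebra.adjoin (Rl ℓ) S :=
      { toFun := fun c => ⟨c.1, c.2⟩
        map_one' := rfl
        map_mul' := fun _ _ => rfl
        map_zero' := rfl
        map_add' := fun _ _ => rfl }
    exact h.map_of_comp_eq φ (RingHom.id _) (by ext; rfl)
  · intro h
    let φ : Algebra.adjoin (Rl ℓ) S →+* (Algebra.adjoin (Rl ℓ) S).toSubring :=
      { toFun := fun c => ⟨c.1, c.2⟩
        map_one' := rfl
        map_mul' := fun _ _ => rfl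
        map_zero' := rfl
        map_add' := fun _ _ => rfl }
    exact h.map_of_comp_eq φ (RingHom.id _) (by ext; rfl)

theorem algebraMap_natCast_l :
    algebraMap (Rl ℓ) (modularFunctionFieldFull N) ((ℓ : ℕ) : Rl ℓ) =
      (ℓ : modularFunctionFieldFull N) := map_natCast _ _

/-- From the abstract kernel statement (shape of `MainKernel.exists_eq_mul_of_rho_eq_zero` with
`R' = (Algebra.adjoin ℤ_(ℓ) S).toSubring`, `O' = OF ℓ N`, `ρ = rhoF ℓ N`) to the kernel
statement for `redChart` on the chart algebra `A_S`. -/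
theorem kernel_of_core (S : Set (modularFunctionFieldFull N))
    (hS : ∀ s ∈ S, (s : LaurentSeries ℚ) ∈ O ℓ)
    (core : ∀ a : modularFunctionFieldFull N,
      IsIntegral (Algebra.adjoin (Rl ℓ) S).toSubring a →
      ∃ haO : a ∈ OF ℓ N, (rhoF ℓ N ⟨a, haO⟩ = 0 →
        ∃ b : modularFunctionFieldFull N,
          IsIntegral (Algebra.adjoin (Rl ℓ) S).toSubring b ∧
            a = (ℓ : modularFunctionFieldFull N) * b)) :
    ∀ a : chartAlg N ℓ S, redChart ℓ N S hS a = 0 →
      ∃ b : chartAlg N ℓ S, a = ((ℓ : ℕ) : Rl ℓ) • b := by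
  intro a ha
  obtain ⟨haO, h⟩ := core a ((isIntegral_toSubring_iff ℓ N S a).2 a.2)
  obtain ⟨b, hb, hab⟩ := h ha
  refine ⟨⟨b, (isIntegral_toSubring_iff ℓ N S b).1 hb⟩, Subtype.ext ?_⟩
  rw [hab]
  show _ = ((ℓ : ℕ) : Rl ℓ) • b
  rw [Algebra.smul_def, algebraMap_natCast_l]

end Fermat.Agent.S28.KeyPlug
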